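import Fermat.Agent.S59.Asm.Leaves
import Fermat.Agent.L.H52_CHpow
import Fermat.Agent.R.H91_Rigidity
import Fermat.Agent.Lib.FrobDensity.Main

/-!
# S59, package ASM, leaf CHV (helper57): Cayley–Hamilton on a Hecke–Galois module

If the Frobenius elements outside a finite set of primes satisfy, on `V`, the characteristic
polynomial of `ρ`, then every element of the Galois group does.

* `exists_pow_le_map_pow` : for a local ring `T` finite over a local ring `𝒪` (local structure
  map), every `𝔪_𝒪 ^ n T` contains a power of `𝔪_T`.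
* `IsSmall` : the endomorphisms with values in `𝔪_𝒪 ^ n V` (a two-sided ideal).
* `quad_pow` : the Lucas relation for powers, pointwise.
* `stmt_CHV : Stmt_CHV`.
-/

set_option autoImplicit false

open Polynomial IsLocalRing

namespace Fermat.Agent.S59.Asm.H57

open Fermat.Agent.S59 Fermat.Agent.S59.TWGal

section Topology

variable {𝒪 : Type*} [CommRing 𝒪] [IsLocalRing 𝒪]
  {T : Type*} [CommRing T] [IsLocalRing T] [Algebra 𝒪 T] [Module.Finite 𝒪 T]
  [IsLocalHom (algebraMap 𝒪 T)]

omit [Module.Finite 𝒪 T] in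
theorem map_maximalIdeal_le : (maximalIdeal 𝒪).map (algebraMap 𝒪 T) ≤ maximalIdeal T := by
  rw [Ideal.map_le_iff_le_comap]
  intro a ha
  exact Ideal.mem_comap.mpr (map_nonunit (algebraMap 𝒪 T) a ha)

/-- The maximal ideal of `T` is nilpotent modulo `𝔪_𝒪 T`. -/
theorem exists_pow_le_map : ∃ r : ℕ,
    maximalIdeal T ^ r ≤ (maximalIdeal 𝒪).map (algebraMap 𝒪 T) := by
  set I : Ideal T := (maximalIdeal 𝒪).map (algebraMap 𝒪 T) with hI
  have hIle : I ≤ maximalIdeal T := map_maximalIdeal_le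
  have hItop : I ≠ ⊤ := fun h => (maximalIdeal.isMaximal T).ne_top (top_le_iff.mp (h ▸ hIle))
  have : Module.Finite (𝒪 ⧸ maximalIdeal 𝒪) (T ⧸ I) :=
    Module.Finite.of_restrictScalars_finite 𝒪 _ _
  let _ : Field (𝒪 ⧸ maximalIdeal 𝒪) := Ideal.Quotient.field _
  have : IsArtinianRing (T ⧸ I) := IsArtinianRing.of_finite (𝒪 ⧸ maximalIdeal 𝒪) (T ⧸ I)
  have : Nontrivial (T ⧸ I) := Ideal.Quotient.nontrivial_iff.mpr hItop
  have : IsLocalRing (T ⧸ I) :=
    IsLocalRing.of_surjective' (Ideal.Quotient.mk I) Ideal.Quotient.mk_surjective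
  have h := IsArtinianRing.isNilpotent_jacobson_bot (R := T ⧸ I)
  rw [IsLocalRing.jacobson_eq_maximalIdeal ⊥ bot_ne_top] at h
  obtain ⟨r, hr⟩ := h
  refine ⟨r, fun x hx => ?_⟩
  have hmap : (maximalIdeal T).map (Ideal.Quotient.mk I) ≤ maximalIdeal (T ⧸ I) := by
    rw [Ideal.map_le_iff_le_comap]
    intro a ha
    rw [Ideal.mem_comap, mem_maximalIdeal, mem_nonunits_iff]
    intro hu
    have hu' : IsUnit a := by
      obtain ⟨b, hb⟩ := isUnit_iff_exists_inv.mp hu
      obtain ⟨b, rfl⟩ := Ideal.Quotient.mk_surjective b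
      rw [← map_mul, ← map_one (Ideal.Quotient.mk I), Ideal.Quotient.eq] at hb
      have h1 : a * b - 1 ∈ maximalIdeal T := hIle hb
      by_contra hab
      have h2 : a * b ∈ maximalIdeal T :=
        Ideal.mul_mem_right _ _ ((mem_maximalIdeal a).mpr hab)
      have h3 : (1 : T) ∈ maximalIdeal T := by
        have := Ideal.sub_mem _ h2 h1
        rwa [sub_sub_cancel] at this
      exact (Ideal.ne_top_iff_one _).mp (maximalIdeal.isMaximal T).ne_top h3
    exact (mem_maximalIdeal a).mp ha hu'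
  have h1 : Ideal.Quotient.mk I x ∈ ((maximalIdeal T).map (Ideal.Quotient.mk I)) ^ r := by
    rw [← Ideal.map_pow]
    exact Ideal.mem_map_of_mem _ hx
  have h2 : Ideal.Quotient.mk I x ∈ maximalIdeal (T ⧸ I) ^ r := Ideal.pow_right_mono hmap r h1
  rw [hr] at h2
  exact Ideal.Quotient.eq_zero_iff_mem.mp h2

/-- Every `𝔪_𝒪 ^ n T` contains a power of `𝔪_T`. -/
theorem exists_pow_le_map_pow (n : ℕ) : ∃ m : ℕ,
    maximalIdeal T ^ m ≤ (maximalIdeal 𝒪 ^ n).map (algebraMap 𝒪 T) := by
  obtain ⟨r, hr⟩ := exists_pow_le_map (𝒪 := 𝒪) (T := T)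
  refine ⟨r * n, ?_⟩
  rw [pow_mul, Ideal.map_pow]
  exact Ideal.pow_right_mono hr n

end Topology

section Small

variable {𝒪 : Type*} [CommRing 𝒪] {V : Type*} [AddCommGroup V] [Module 𝒪 V]

/-- The endomorphisms of `V` with values in `I V`. -/
def IsSmall (I : Ideal 𝒪) (f : Module.End 𝒪 V) : Prop :=
  ∀ v : V, f v ∈ I • (⊤ : Submodule 𝒪 V)

theorem IsSmall.zero (I : Ideal 𝒪) : IsSmall I (0 : Module.End 𝒪 V) := fun _ =>
  Submodule.zero_mem _

theorem IsSmall.add {I : Ideal 𝒪} {f g : Module.End 𝒪 V} (hf : IsSmall I f) (hg : IsSmall I g) :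
    IsSmall I (f + g) := fun v => Submodule.add_mem _ (hf v) (hg v)

theorem IsSmall.sub {I : Ideal 𝒪} {f g : Module.End 𝒪 V} (hf : IsSmall I f) (hg : IsSmall I g) :
    IsSmall I (f - g) := fun v => Submodule.sub_mem _ (hf v) (hg v)

theorem IsSmall.neg {I : Ideal 𝒪} {f : Module.End 𝒪 V} (hf : IsSmall I f) :
    IsSmall I (-f) := fun v => Submodule.neg_mem _ (hf v)

theorem IsSmall.mul_right {I : Ideal 𝒪} {f : Module.End 𝒪 V} (hf : IsSmall I f)
    (h : Module.End 𝒪 V) : IsSmall I (f * h) := fun v => hf (h v)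

theorem IsSmall.mul_left {I : Ideal 𝒪} {f : Module.End 𝒪 V} (hf : IsSmall I f)
    (h : Module.End 𝒪 V) : IsSmall I (h * f) := by
  intro v
  have hmap : Submodule.map h (I • (⊤ : Submodule 𝒪 V)) ≤ I • (⊤ : Submodule 𝒪 V) := by
    rw [Submodule.map_smul'']
    exact Submodule.smul_mono le_rfl le_top
  exact hmap (Submodule.mem_map_of_mem (hf v))

/-- The image under `ηhat` of an element of `I T` has values in `I V`. -/
theorem isSmall_of_mem_map {T : Type*} [CommRing T] [Algebra 𝒪 T]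
    (ηhat : T →ₐ[𝒪] Module.End 𝒪 V) (I : Ideal 𝒪) {x : T}
    (hx : x ∈ I.map (algebraMap 𝒪 T)) : IsSmall I (ηhat x) := by
  unfold Ideal.map at hx
  induction hx using Submodule.span_induction with
  | mem x hx =>
    obtain ⟨a, ha, rfl⟩ := hx
    intro v
    rw [AlgHom.commutes, Module.algebraMap_end_apply]
    exact Submodule.smul_mem_smul ha Submodule.mem_top
  | zero => rw [map_zero]; exact IsSmall.zero I
  | add x y _ _ hx hy => rw [map_add]; exact hx.add hy
  | smul t x _ hx => rw [smul_eq_mul, map_mul]; exact hx.mul_left _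

end Small

section Lucas

open Fermat.Agent.R.H91

variable {T : Type*} [CommRing T] {E : Type*} [Ring E] (η : T →+* E)

/-- The Lucas relation for the powers of an element satisfying a quadratic relation with
coefficients in the image of a commutative ring. -/
theorem quad_pow (A : E) (hA : ∀ t : T, Commute A (η t)) (t d : T)
    (h : A * A - η t * A + η d = 0) (j : ℕ) :
    A ^ j * A ^ j - η (lucasV t d j) * A ^ j + η (d ^ j) = 0 := by
  set B : E := η t - A with hB
  have hc : Commute A B := (hA t).sub_right (Commute.refl A)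
  have hAA : A * A = η t * A - η d := by
    rw [eq_sub_iff_add_eq, ← sub_eq_zero, ← h]; abel
  have hAB : A * B = η d := by
    rw [hB, mul_sub, (hA t).eq, hAA]; abel
  have hsum : A + B = η t := by rw [hB]; abel
  have hl : ∀ i : ℕ, A ^ i + B ^ i = η (lucasV t d i) := by
    intro i
    induction i using Nat.strong_induction_on with
    | _ i ih =>
      match i with
      | 0 =>
        rw [pow_zero, pow_zero, lucasV_zero, map_ofNat, one_add_one_eq_two]
      | 1 =>
        rw [pow_one, pow_one, lucasV_one, hsum]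
      | (i + 2) =>
        have h1 := ih (i + 1) (by omega)
        have h0 := ih i (by omega)
        have key : A ^ (i + 2) + B ^ (i + 2)
            = (A + B) * (A ^ (i + 1) + B ^ (i + 1)) - (A * B) * (A ^ i + B ^ i) := by
          have e1 : B * A ^ (i + 1) = (A * B) * A ^ i := by
            rw [pow_succ', ← mul_assoc, hc.eq]
          have e2 : A * B ^ (i + 1) = (A * B) * B ^ i := by
            rw [pow_succ', ← mul_assoc]
          rw [add_mul, mul_add, mul_add, mul_add, e1, e2, ← pow_succ', ← pow_succ']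
          abel
        rw [key, hsum, hAB, h1, h0, lucasV_add_two, map_sub, map_mul, map_mul]
  have h1 : η (lucasV t d j) * A ^ j = A ^ j * A ^ j + B ^ j * A ^ j := by
    rw [← hl j, add_mul]
  have h2 : B ^ j * A ^ j = η (d ^ j) := by
    rw [← (hc.symm).mul_pow, hc.symm.eq, hAB, map_pow]
  rw [h1, h2]; abel

end Lucas

section Congruence

open Fermat.Agent.R.H91

variable {T : Type} [CommRing T]

/-- Congruent endomorphisms of a free module of rank two have congruent traces and
determinants. -/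
theorem trace_det_sub_mem {V : Type*} [AddCommGroup V] [Module T V] [Module.Free T V]
    [Module.Finite T V] (hV : Module.finrank T V = 2) (I : Ideal T) (f g : Module.End T V)
    (hfg : ∀ v, f v - g v ∈ I • (⊤ : Submodule T V)) :
    LinearMap.trace T V f - LinearMap.trace T V g ∈ I ∧ LinearMap.det f - LinearMap.det g ∈ I := by
  have h := charpoly_map_eq_of_forall_sub_mem I f g hfg
  rw [charpoly_eq_of_finrank_two hV f, charpoly_eq_of_finrank_two hV g] at h
  have h1 := congrArg (fun q : (T ⧸ I)[X] => q.coeff 1) h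
  have h0 := congrArg (fun q : (T ⧸ I)[X] => q.coeff 0) h
  simp only [Polynomial.map_add, Polynomial.map_sub, Polynomial.map_mul, Polynomial.map_pow,
    Polynomial.map_X, Polynomial.map_C, coeff_add, coeff_sub, coeff_X_pow, coeff_C_mul,
    coeff_X_one, coeff_X_zero, coeff_C_zero, mul_one, mul_zero] at h1 h0
  simp only [coeff_C] at h1 h0
  norm_num at h1 h0
  constructor
  · rw [← Ideal.Quotient.eq_zero_iff_mem, map_sub, h1, sub_self]
  · rw [← Ideal.Quotient.eq_zero_iff_mem, map_sub, h0, sub_self]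

end Congruence

/-- **CHV.** -/
theorem stmt_CHV : Stmt_CHV := by
  intro 𝒪 _ _ _ _ T _ _ _ _ _ ρ V _ _ _ _ ηhat gal hcont hcomm S hfrob g
  classical
  -- the quadratic expression
  set E : GalQ → Module.End 𝒪 V := fun g =>
    gal g * gal g - ηhat (ρ.trace g) * gal g + ηhat (LinearMap.det (ρ.ρ g)) with hE
  show E g = 0
  -- it is small at every level
  have hsmall : ∀ n : ℕ, IsSmall (maximalIdeal 𝒪 ^ n) (E g) := by
    intro n
    obtain ⟨m, hm⟩ := exists_pow_le_map_pow (𝒪 := 𝒪) (T := T) n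
    obtain ⟨L₁, hL₁, h₁⟩ := hcont n
    obtain ⟨L₂, hL₂, h₂⟩ := ρ.isAdicContinuous m
    have := hL₁; have := hL₂
    have hL : FiniteDimensional ℚ ↥(L₁ ⊔ L₂) := IntermediateField.finiteDimensional_sup L₁ L₂
    obtain ⟨ℓ, A, φ, j, hℓ, hℓS, hA, hφ, hj⟩ :=
      Fermat.Agent.Lib.FrobDensity.stmt_FD S (L₁ ⊔ L₂) hL g
    set τ : GalQ := g⁻¹ * φ ^ j with hτdef
    have hτ : ∀ x ∈ L₁ ⊔ L₂, τ x = x := by
      intro x hx
      rw [hτdef, AlgEquiv.mul_apply, hj x hx]
      exact (AlgEquiv.symm_apply_apply g x)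
    have hgτ : g * τ = φ ^ j := by rw [hτdef, mul_inv_cancel_left]
    have hτ₁ : ∀ x ∈ L₁, τ x = x := fun x hx => hτ x ((le_sup_left : L₁ ≤ L₁ ⊔ L₂) hx)
    have hτ₂ : ∀ x ∈ L₂, τ x = x := fun x hx => hτ x ((le_sup_right : L₂ ≤ L₁ ⊔ L₂) hx)
    -- the relation at `φ ^ j`
    have hE0 : E (g * τ) = 0 := by
      rw [hgτ]
      have hq := quad_pow (ηhat : T →+* Module.End 𝒪 V) (gal φ) (fun t => hcomm φ t)
        (ρ.trace φ) (LinearMap.det (ρ.ρ φ)) (hfrob ℓ hℓ hℓS A hA φ hφ) j
      have htr : ρ.trace (φ ^ j) =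
          Fermat.Agent.R.H91.lucasV (ρ.trace φ) (LinearMap.det (ρ.ρ φ)) j := by
        unfold GaloisRepAdic.trace
        rw [map_pow]
        exact Fermat.Agent.R.H91.trace_pow_of_charpoly ρ.finrank_eq (ρ.ρ φ)
          (Fermat.Agent.R.H91.charpoly_eq_of_finrank_two ρ.finrank_eq (ρ.ρ φ)) j
      have hdet : LinearMap.det (ρ.ρ (φ ^ j)) = LinearMap.det (ρ.ρ φ) ^ j := by
        rw [map_pow, map_pow]
      show gal (φ ^ j) * gal (φ ^ j) - ηhat (ρ.trace (φ ^ j)) * gal (φ ^ j)
        + ηhat (LinearMap.det (ρ.ρ (φ ^ j))) = 0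
      rw [map_pow, htr, hdet]
      exact hq
    -- congruences
    have hG : IsSmall (maximalIdeal 𝒪 ^ n) (gal (g * τ) - gal g) := by
      have h1 : gal (g * τ) - gal g = gal g * (gal τ - 1) := by
        rw [map_mul, mul_sub, mul_one]
      rw [h1]
      refine IsSmall.mul_left ?_ _
      intro v
      exact h₁ τ hτ₁ v
    obtain ⟨htr, hdet⟩ := trace_det_sub_mem ρ.finrank_eq (maximalIdeal T ^ m)
      (ρ.ρ (g * τ)) (ρ.ρ g)
      (Fermat.Agent.R.H91.GaloisRepAdic_sub_mem ρ m g τ (h₂ τ hτ₂))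
    have ht : IsSmall (maximalIdeal 𝒪 ^ n) (ηhat (ρ.trace (g * τ)) - ηhat (ρ.trace g)) := by
      rw [← map_sub]
      exact isSmall_of_mem_map ηhat _ (hm htr)
    have hd : IsSmall (maximalIdeal 𝒪 ^ n)
        (ηhat (LinearMap.det (ρ.ρ (g * τ))) - ηhat (LinearMap.det (ρ.ρ g))) := by
      rw [← map_sub]
      exact isSmall_of_mem_map ηhat _ (hm hdet)
    have hdiff : E g = -((gal (g * τ) - gal g) * gal (g * τ) + gal g * (gal (g * τ) - gal g)
        - ((ηhat (ρ.trace (g * τ)) - ηhat (ρ.trace g)) * gal (g * τ)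
            + ηhat (ρ.trace g) * (gal (g * τ) - gal g))
        + (ηhat (LinearMap.det (ρ.ρ (g * τ))) - ηhat (LinearMap.det (ρ.ρ g)))) := by
      have h0 : E g = -(E (g * τ) - E g) := by rw [hE0]; abel
      rw [h0]
      congr 1
      simp only [hE]
      noncomm_ring
    rw [hdiff]
    exact ((((hG.mul_right _).add (hG.mul_left _)).sub
      ((ht.mul_right _).add (hG.mul_left _))).add hd).neg
  -- separation
  have hsep : (⨅ i : ℕ, maximalIdeal 𝒪 ^ i • ⊤ : Submodule 𝒪 V) = ⊥ :=
    Ideal.iInf_pow_smul_eq_bot_of_isLocalRing (maximalIdeal 𝒪)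
      (maximalIdeal.isMaximal 𝒪).ne_top
  refine LinearMap.ext fun v => ?_
  have hv : E g v ∈ (⨅ i : ℕ, maximalIdeal 𝒪 ^ i • ⊤ : Submodule 𝒪 V) := by
    rw [Submodule.mem_iInf]
    intro n
    exact hsmall n v
  rw [hsep, Submodule.mem_bot] at hv
  rw [hv, LinearMap.zero_apply]

end Fermat.Agent.S59.Asm.H57
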