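import Fermat.Agent.S59.Asm.Leaves

/-!
# S59, package ASM, leaf TRANSPORT (helper77)

A basis of `ρ` induces a basis of every representation equivalent to a base change of `ρ`,
with the base-changed matrices: `b' i := e (1 ⊗ b i)`.
-/

set_option autoImplicit false

open Polynomial CuspForm IsLocalRing
open scoped TensorProduct

namespace Fermat.Agent.S59.Asm.H77

open Fermat.Agent.S59 Fermat.Agent.S59.TWGal Fermat.Agent.S59.Asm

/-- **TRANSPORT**. -/
theorem stmt_TRANSPORT : Stmt_TRANSPORT := by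
  intro A B _ _ _ _ f hf ρ ρ' hequiv b
  obtain ⟨e⟩ := hequiv
  let _ : Algebra A B := f.toAlgebra
  let bB : Module.Basis (Fin 2) B (B ⊗[A] ρ.V) := b.baseChange B
  let E : (B ⊗[A] ρ.V) ≃ₗ[B] ρ'.V := e.toLinearEquiv
  have hE : ∀ (g : GalQ) (x : B ⊗[A] ρ.V),
      E ((ρ.ρ g).baseChange B x) = ρ'.ρ g (E x) :=
    fun g x => e.map_apply g x
  refine ⟨bB.map E, fun g i j => ?_⟩
  have h1 : (bB.map E) i = E (bB i) := Module.Basis.map_apply _ _ _
  have h2 : ∀ x : ρ'.V, (bB.map E).repr x = bB.repr (E.symm x) := fun x => rfl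
  rw [h1, h2, ← hE, LinearEquiv.symm_apply_apply]
  have h3 : bB i = (1 : B) ⊗ₜ[A] b i := Module.Basis.baseChange_apply B b i
  rw [h3, LinearMap.baseChange_tmul]
  have h4 := Module.Basis.baseChange_repr_tmul B b (1 : B) (ρ.ρ g (b i)) j
  rw [h4, Algebra.smul_def, mul_one]
  rfl

end Fermat.Agent.S59.Asm.H77
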