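import Mathlib
import Fermat.Prelude.Def_CuspForm_HeckeLocal
import Fermat.Prelude.Def_GaloisRep_Adic
import Fermat.Agent.S59.TWH.H90_Tower

/-!
# S59, package ASM (helper53): the interface between the geometry of `X_H` (item 72, LG-NEB) and
the Taylor–Wiles assembly

Everything the assembly needs from the geometric side, as ABSTRACT data over the coefficient ring
`𝒪` (limit over the torsion levels already taken, localisation at the maximal ideal already done,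
Galois action already twisted to determinant `ε`):

* `HMod 𝒪 N S θ` : a finite free `𝒪`-module with an action of the Hecke algebra
  `heckeAlgebra N 2 S`, local at `θ`  (at the minimal level: `Ta_p J₀(N)_𝔪 ⊗ 𝒪`).
* `TWGeom …`     : the module at a Taylor–Wiles family `q_1, …, q_r` (level `n`):
  a `HMod` at the `Γ₀`-level `N · ∏ q_j²` (package EIG), the twisted Galois action with the
  Eichler–Shimura relation (RED-q §2), the diamond operators `d_j` of order `p^n`, freeness over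
  `𝒪[Δ]` (INV + TOWER + O-LIFT), the projection to the minimal level with kernel
  `∑ (d_j - 1) V` (INV, `π_*` onto), and local–global compatibility at `q_j` in GEOMETRIC form:
  `V = V^α ⊕ V^β` under a Frobenius, and an inertia element `σ_j` acting on `V^α` as `d_j`
  (fixed-point trick, `absLG`).

No `sorry`; definitions only.
-/

set_option autoImplicit false

open Polynomial CuspForm IsLocalRing

namespace Fermat.Agent.S59.Asm

/-- `Gal(ℚ̄/ℚ)`. -/
abbrev GalQ : Type := AlgebraicClosure ℚ ≃ₐ[ℚ] AlgebraicClosure ℚ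

/-- The `Γ₀`-level at a Taylor–Wiles family: `N · ∏ q_j²`. -/
def twLevel (N : ℕ) {r : ℕ} (qv : Fin r → ℕ) : ℕ := N * ∏ j, qv j ^ 2

/-- The set of bad primes at a Taylor–Wiles family. -/
def twSet (S : Finset ℕ) {r : ℕ} (qv : Fin r → ℕ) : Finset ℕ := S ∪ Finset.univ.image qv

/-- A finite free `𝒪`-module with an action of the Hecke algebra of level `N` (away from `S`)
which is local at the character `θ`: for every `t` and every lift `a` of `θ t` the operator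
`t - a` is nilpotent modulo the maximal ideal of `𝒪`. -/
structure HMod (𝒪 : Type) [CommRing 𝒪] [IsLocalRing 𝒪] (N : ℕ) [NeZero N] (S : Set ℕ)
    (θ : CuspForm.heckeAlgebra N 2 S →+* ResidueField 𝒪) : Type 1 where
  /-- the module -/
  V : Type
  [instAddCommGroup : AddCommGroup V]
  [instModule : Module 𝒪 V]
  [instFinite : Module.Finite 𝒪 V]
  [instFree : Module.Free 𝒪 V]
  /-- the Hecke action -/
  η : CuspForm.heckeAlgebra N 2 S →+* Module.End 𝒪 V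
  η_local : ∀ (t : CuspForm.heckeAlgebra N 2 S) (a : 𝒪), residue 𝒪 a = θ t →
    ∃ m : ℕ, ∀ v : V, ((η t - a • (1 : Module.End 𝒪 V)) ^ m) v ∈
      (maximalIdeal 𝒪 • ⊤ : Submodule 𝒪 V)

attribute [instance] HMod.instAddCommGroup HMod.instModule HMod.instFinite HMod.instFree

/-- The geometric data at a Taylor–Wiles family `qv` of level `n` over the minimal-level module
`M`.  The Galois action `gal` is the TWISTED one (determinant `ε`):
`gal g = (geometric action of g) ∘ ∏_j ⟨χ_{q_j}(g)⟩^(-1/2)`, and `W.η (T_ℓ) = T_ℓ^H ⟨ℓ⟩^(-1/2)`. -/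
structure TWGeom (𝒪 : Type) [CommRing 𝒪] [IsLocalRing 𝒪] (p : ℕ)
    (ρbar : ResidualGaloisRep (ResidueField 𝒪))
    (N : ℕ) [NeZero N] (S : Finset ℕ)
    (θ : CuspForm.heckeAlgebra N 2 (↑S : Set ℕ) →+* ResidueField 𝒪)
    (M : HMod 𝒪 N (↑S : Set ℕ) θ) {r : ℕ} (n : ℕ) (qv : Fin r → ℕ)
    [NeZero (twLevel N qv)] : Type 1 where
  /-- restriction of Hecke operators to the forms of level `N` (package REST) -/
  rest : CuspForm.heckeAlgebra (twLevel N qv) 2 (↑(twSet S qv) : Set ℕ) →+*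
    CuspForm.heckeAlgebra N 2 (↑S : Set ℕ)
  rest_T : ∀ (ℓ : ℕ) (hℓ : ℓ.Prime) (hℓN' : ¬ ℓ ∣ twLevel N qv)
    (hℓS' : ℓ ∉ (↑(twSet S qv) : Set ℕ)) (hℓN : ¬ ℓ ∣ N) (hℓS : ℓ ∉ (↑S : Set ℕ)),
    rest (CuspForm.heckeAlgebra.T hℓ hℓN' hℓS') = CuspForm.heckeAlgebra.T hℓ hℓN hℓS
  /-- the Hecke module at the level `N · ∏ q_j²` (package EIG) -/
  W : HMod 𝒪 (twLevel N qv) (↑(twSet S qv) : Set ℕ) (θ.comp rest)
  /-- the twisted Galois action -/
  gal : GalQ →* Module.End 𝒪 W.V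
  gal_cont : GaloisActionIsAdicContinuous 𝒪 gal
  gal_η : ∀ (g : GalQ) (t : CuspForm.heckeAlgebra (twLevel N qv) 2 (↑(twSet S qv) : Set ℕ)),
    Commute (gal g) (W.η t)
  /-- Eichler–Shimura -/
  es : ∀ (ℓ : ℕ) (hℓ : ℓ.Prime) (hℓN : ¬ ℓ ∣ twLevel N qv)
    (hℓS : ℓ ∉ (↑(twSet S qv) : Set ℕ)),
    ∀ A : ValuationSubring (AlgebraicClosure ℚ), A.LiesOverPrime ℓ →
      ∀ σ : GalQ, A.IsFrobeniusAt σ ℓ →
        gal σ * gal σ - W.η (CuspForm.heckeAlgebra.T hℓ hℓN hℓS) * gal σ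
          + (ℓ : 𝒪) • (1 : Module.End 𝒪 W.V) = 0
  /-- the diamond operators (generators of `Δ = (ℤ/p^n)^r`) -/
  d : Fin r → Module.End 𝒪 W.V
  d_pow : ∀ j, d j ^ (p ^ n) = 1
  d_comm : ∀ i j, Commute (d i) (d j)
  d_η : ∀ (j : Fin r) (t : CuspForm.heckeAlgebra (twLevel N qv) 2 (↑(twSet S qv) : Set ℕ)),
    Commute (d j) (W.η t)
  d_gal : ∀ (j : Fin r) (g : GalQ), Commute (d j) (gal g)
  /-- freeness over `𝒪[Δ]` -/
  rk : ℕ
  b : Fin rk → W.V
  b_basis : Function.Bijective (fun f : Fin rk × (Fin r → Fin (p ^ n)) → 𝒪 =>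
    ∑ x : Fin rk × (Fin r → Fin (p ^ n)),
      f x • Fermat.Agent.S59.TWH.H90.mon d (fun j => (x.2 j : ℕ)) (b x.1))
  /-- the projection to the minimal level -/
  π : W.V →ₗ[𝒪] M.V
  π_surjective : Function.Surjective π
  ker_π : LinearMap.ker π = ⨆ j, LinearMap.range (d j - 1)
  π_η : ∀ (t : CuspForm.heckeAlgebra (twLevel N qv) 2 (↑(twSet S qv) : Set ℕ)) (v : W.V),
    π (W.η t v) = M.η (rest t) (π v)
  /-- local–global compatibility at `q_j`, geometric form -/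
  P : Fin r → ValuationSubring (AlgebraicClosure ℚ)
  P_over : ∀ j, (P j).LiesOverPrime (qv j)
  frob : Fin r → GalQ
  frob_spec : ∀ j, (P j).IsFrobeniusAt (frob j) (qv j)
  σ : Fin r → GalQ
  σ_mem : ∀ j, σ j ∈ (P j).inertiaSubgroupIn ℚ
  a : Fin r → 𝒪
  a' : Fin r → 𝒪
  a_ne : ∀ j, residue 𝒪 (a j) ≠ residue 𝒪 (a' j)
  charpoly_frob : ∀ j, LinearMap.charpoly (ρbar.ρ (frob j)) =
    (X - C (residue 𝒪 (a j))) * (X - C (residue 𝒪 (a' j)))
  Vα : Fin r → Submodule 𝒪 W.V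
  Vβ : Fin r → Submodule 𝒪 W.V
  isCompl : ∀ j, IsCompl (Vα j) (Vβ j)
  Vα_η : ∀ (j : Fin r) (t : CuspForm.heckeAlgebra (twLevel N qv) 2 (↑(twSet S qv) : Set ℕ)),
    ∀ v ∈ Vα j, W.η t v ∈ Vα j
  Vα_d : ∀ (j i : Fin r), ∀ v ∈ Vα j, d i v ∈ Vα j
  Vα_frob : ∀ j, ∀ v ∈ Vα j, gal (frob j) v ∈ Vα j
  Vβ_frob : ∀ j, ∀ v ∈ Vβ j, gal (frob j) v ∈ Vβ j
  Vα_nil : ∀ j, ∃ m : ℕ, ∀ v ∈ Vα j,
    ((gal (frob j) - a j • (1 : Module.End 𝒪 W.V)) ^ m) v ∈
      (maximalIdeal 𝒪 • ⊤ : Submodule 𝒪 W.V)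
  Vβ_nil : ∀ j, ∃ m : ℕ, ∀ v ∈ Vβ j,
    ((gal (frob j) - a' j • (1 : Module.End 𝒪 W.V)) ^ m) v ∈
      (maximalIdeal 𝒪 • ⊤ : Submodule 𝒪 W.V)
  /-- the inertia element `σ_j` acts on `V^α` as the diamond operator `d_j` -/
  lg : ∀ j, ∀ v ∈ Vα j, gal (σ j) v = d j v

end Fermat.Agent.S59.Asm
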