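import Mathlib
import Fermat.Agent.S59.Asm.Defs
import Fermat.Agent.S59.Min
import Fermat.Agent.S59.TWGal.Defs2

/-!
# S59, package ASM (helper53): the leaves of the Taylor–Wiles assembly

Exact statements (`Prop`s).  Prove `theorem stmt_X : Stmt_X` in
`Fermat/Agent/S59/Asm/H<seat>_<Name>.lean`, namespace `Fermat.Agent.S59.Asm.H<seat>`.
Paper proofs: `NOTES/plan/S59_ASM.md`.

* `Stmt_TAU`       : `R_Q ↠ R` (forgetting the ramification at the Taylor–Wiles primes).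
* `Stmt_REST`      : restriction of Hecke operators from level `N'` to level `N ∣ N'`.
* `Stmt_LOCMOD`    : a `HMod` is a module over the local Hecke ring `heckeLocal`.
* `Stmt_RESLOC`    : `heckeLocal N' S' → heckeLocal N S` induced by `rest`.
* `Stmt_CHV`       : Cayley–Hamilton on a Hecke–Galois module, from the relation at Frobenius
                     elements (Frobenius density + continuity + Lucas sequences).
* `Stmt_TRANSPORT` : a basis of `ρ` induces a basis of an equivalent base change, same matrices.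
* `Stmt_BRIDGE`    : geometric local–global compatibility (`σ = d` on `V^α`) + Cayley–Hamilton
                     + TW-GAL + BLR ⟹ the character `χ₀(σ) ∈ T` acts on ALL of `V` as `d`.
-/

set_option autoImplicit false

open Polynomial CuspForm IsLocalRing

namespace Fermat.Agent.S59.Asm

open Fermat.Agent.S59 Fermat.Agent.S59.TWGal

/-- **TAU**: the universal deformation ring with the auxiliary set `Q` surjects onto the one
without, compatibly with the universal representations.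
[Existence: universal property of `DQ` applied to `D.ρ` (`cond … ∅ → cond … Q`).  Surjectivity:
injectivity on tangent spaces is formal from the uniqueness in the universal property of `D` at
`A = k[ε]` (`DualNumber`, cf. S56/Dict), then Nakayama for complete local rings
(`S56.H50.surjective_of_gens` pattern).] -/
def Stmt_TAU : Prop :=
  ∀ (𝒪 : Type) [CommRing 𝒪] [IsDomain 𝒪] [IsDiscreteValuationRing 𝒪]
    [IsAdicComplete (maximalIdeal 𝒪) 𝒪] [Finite (ResidueField 𝒪)]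
    (p : ℕ) [Fact p.Prime], p ≠ 2 → (p : 𝒪) ∈ maximalIdeal 𝒪 →
    ∀ (fl : Bool) (ρbar : ResidualGaloisRep (ResidueField 𝒪)) (Smin Q : Finset ℕ),
    p ∈ Smin → (∀ q ∈ Smin ∪ Q, q.Prime) →
    ∀ (D : GaloisRep.DeformationRingData 𝒪 ρbar (cond 𝒪 p fl Smin ∅))
      (DQ : GaloisRep.DeformationRingData 𝒪 ρbar (cond 𝒪 p fl Smin Q)),
    ∃ τ : DQ.R →ₐ[𝒪] D.R, Function.Surjective τ ∧
      ∃ h : IsLocalHom (τ : DQ.R →+* D.R),
        (DQ.ρ.baseChangeAlong (τ : DQ.R →+* D.R) h).IsEquiv D.ρ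

/-- **REST**: restriction of the Hecke algebra of level `N'` to the forms of level `N ∣ N'`. -/
def Stmt_REST : Prop :=
  ∀ (N N' : ℕ) [NeZero N] [NeZero N'] (S S' : Set ℕ), N ∣ N' → S ⊆ S' →
    ∃ rest : CuspForm.heckeAlgebra N' 2 S' →+* CuspForm.heckeAlgebra N 2 S,
      ∀ (ℓ : ℕ) (hℓ : ℓ.Prime) (hℓN' : ¬ ℓ ∣ N') (hℓS' : ℓ ∉ S') (hℓN : ¬ ℓ ∣ N) (hℓS : ℓ ∉ S),
        rest (CuspForm.heckeAlgebra.T hℓ hℓN' hℓS') = CuspForm.heckeAlgebra.T hℓ hℓN hℓS

/-- **LOCMOD**: a Hecke module which is local at `θ` is a module over `heckeLocal`.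
[`𝒪 ⊗ 𝕋 → End V`; an element outside the maximal ideal is `c + (nilpotent modulo 𝔪_𝒪)` with
`c` a unit, hence invertible on the finite free module `V`; `IsLocalization.lift`.] -/
def Stmt_LOCMOD : Prop :=
  ∀ (𝒪 : Type) [CommRing 𝒪] [IsDomain 𝒪] [IsDiscreteValuationRing 𝒪]
    [IsAdicComplete (maximalIdeal 𝒪) 𝒪]
    (N : ℕ) [NeZero N] [Fact (CuspForm.HasIntegralStructure N 2)] (S : Set ℕ)
    (θ : CuspForm.heckeAlgebra N 2 S →+* ResidueField 𝒪) (M : HMod 𝒪 N S θ),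
    ∃ ηhat : CuspForm.heckeLocal N S 𝒪 θ →ₐ[𝒪] Module.End 𝒪 M.V,
      ∀ t : CuspForm.heckeAlgebra N 2 S, ηhat (CuspForm.heckeLocal.π N S 𝒪 θ t) = M.η t

/-- **RESLOC**: the restriction map between the local Hecke rings. -/
def Stmt_RESLOC : Prop :=
  ∀ (𝒪 : Type) [CommRing 𝒪] [IsDomain 𝒪] [IsDiscreteValuationRing 𝒪]
    [IsAdicComplete (maximalIdeal 𝒪) 𝒪]
    (N N' : ℕ) [NeZero N] [NeZero N'] [Fact (CuspForm.HasIntegralStructure N 2)]
    [Fact (CuspForm.HasIntegralStructure N' 2)] (S S' : Set ℕ)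
    (θ : CuspForm.heckeAlgebra N 2 S →+* ResidueField 𝒪)
    (rest : CuspForm.heckeAlgebra N' 2 S' →+* CuspForm.heckeAlgebra N 2 S),
    ∃ res : CuspForm.heckeLocal N' S' 𝒪 (θ.comp rest) →ₐ[𝒪] CuspForm.heckeLocal N S 𝒪 θ,
      ∀ t : CuspForm.heckeAlgebra N' 2 S',
        res (CuspForm.heckeLocal.π N' S' 𝒪 (θ.comp rest) t) =
          CuspForm.heckeLocal.π N S 𝒪 θ (rest t)

/-- **CHV**: Cayley–Hamilton on a Hecke–Galois module.  If the Frobenius elements outside a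
finite set satisfy, on `V`, the characteristic polynomial of `ρ`, then every element of the
Galois group does.
[Modulo `ϖ^k`: both actions factor through a finite level; Frobenius density `R.Stmt_FD` gives
`g ≡ σ^j`; `A² - tA + d = 0 ⟹ (A^j)² - tr(M^j) A^j + det(M^j) = 0` (Lucas sequences, L-CHPOW over
a commutative ring); `V` is `ϖ`-adically separated.] -/
def Stmt_CHV : Prop :=
  ∀ (𝒪 : Type) [CommRing 𝒪] [IsDomain 𝒪] [IsDiscreteValuationRing 𝒪]
    [IsAdicComplete (maximalIdeal 𝒪) 𝒪]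
    (T : Type) [CommRing T] [IsLocalRing T] [Algebra 𝒪 T] [Module.Finite 𝒪 T]
    [IsLocalHom (algebraMap 𝒪 T)] (ρ : GaloisRepAdic T)
    (V : Type) [AddCommGroup V] [Module 𝒪 V] [Module.Finite 𝒪 V] [Module.Free 𝒪 V]
    (ηhat : T →ₐ[𝒪] Module.End 𝒪 V) (gal : GalQ →* Module.End 𝒪 V),
    GaloisActionIsAdicContinuous 𝒪 gal →
    (∀ (g : GalQ) (t : T), Commute (gal g) (ηhat t)) →
    ∀ S : Finset ℕ,
    (∀ ℓ : ℕ, ℓ.Prime → ℓ ∉ S → ∀ A : ValuationSubring (AlgebraicClosure ℚ),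
      A.LiesOverPrime ℓ → ∀ σ : GalQ, A.IsFrobeniusAt σ ℓ →
        gal σ * gal σ - ηhat (ρ.trace σ) * gal σ + ηhat (LinearMap.det (ρ.ρ σ)) = 0) →
    ∀ g : GalQ, gal g * gal g - ηhat (ρ.trace g) * gal g + ηhat (LinearMap.det (ρ.ρ g)) = 0

/-- **TRANSPORT**: a basis of `ρ` induces a basis of every representation equivalent to a base
change of `ρ`, with the base-changed matrices. -/
def Stmt_TRANSPORT : Prop :=
  ∀ (A B : Type) [CommRing A] [IsLocalRing A] [CommRing B] [IsLocalRing B]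
    (f : A →+* B) (hf : IsLocalHom f) (ρ : GaloisRepAdic A) (ρ' : GaloisRepAdic B),
    (ρ.baseChangeAlong f hf).IsEquiv ρ' →
    ∀ b : Module.Basis (Fin 2) A ρ.V, ∃ b' : Module.Basis (Fin 2) B ρ'.V,
      ∀ (g : GalQ) (i j : Fin 2), b'.repr (ρ'.ρ g (b' i)) j = f (b.repr (ρ.ρ g (b i)) j)

/-- **BRIDGE**: from the geometric local–global compatibility to the Galois one.
`T` a local ring finite over `𝒪`, `ρ` over `T` residually absolutely irreducible, diagonal on the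
decomposition group at `P` in the basis `b` with residually distinct Frobenius eigenvalues
`a ≠ a'`; `V` a `T`-module with a commuting Galois action satisfying Cayley–Hamilton for `ρ`;
`V = Vα ⊕ Vβ` with `gal φ ≡ a` on `Vα`, `gal φ ≡ a'` on `Vβ`; `gal σ = d` on `Vα` for an operator
`d` commuting with everything, unipotent modulo `𝔪_𝒪`.  Then `χ₀(σ)` acts on `V` as `d`.
[Step 1, on `Vα`: `(gal g - χ₀ g)(gal g - χ₁ g) = 0` for `g = φ σ` and `g = φ`, the second factor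
is `(a - a') +` commuting nilpotents, so `gal g = χ₀ g` on `Vα`; hence `χ₀ σ = d` on `Vα`.
Step 2: `E := χ₀ σ - d` commutes with Galois and kills `Vα`; if `E ≠ 0` then
`X := E V / 𝔪_T E V ≠ 0` satisfies Cayley–Hamilton for `ρ.residual`, so `ρ.residual ↪ X` (L-BLR),
and the `a`-eigenvector of `φ` gives a vector of `X` killed by `φ - a`; but `X` is a quotient of
`E Vβ`, on which `φ - a'` is nilpotent: contradiction.] -/
def Stmt_BRIDGE : Prop :=
  ∀ (𝒪 : Type) [CommRing 𝒪] [IsDomain 𝒪] [IsDiscreteValuationRing 𝒪]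
    [IsAdicComplete (maximalIdeal 𝒪) 𝒪]
    (T : Type) [CommRing T] [IsLocalRing T] [Algebra 𝒪 T] [Module.Finite 𝒪 T]
    [IsLocalHom (algebraMap 𝒪 T)],
    Function.Surjective (residue T ∘ algebraMap 𝒪 T) →
    (2 : 𝒪) ∉ maximalIdeal 𝒪 →
    ∀ (ρ : GaloisRepAdic T), ρ.residual.IsAbsolutelyIrreducible →
    ∀ (V : Type) [AddCommGroup V] [Module 𝒪 V] [Module.Finite 𝒪 V] [Module.Free 𝒪 V]
      (ηhat : T →ₐ[𝒪] Module.End 𝒪 V) (gal : GalQ →* Module.End 𝒪 V),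
    (∀ (g : GalQ) (t : T), Commute (gal g) (ηhat t)) →
    (∀ g : GalQ, gal g * gal g - ηhat (ρ.trace g) * gal g + ηhat (LinearMap.det (ρ.ρ g)) = 0) →
    ∀ (P : ValuationSubring Qb) (b : Module.Basis (Fin 2) T ρ.V), DiagOn ρ P b →
    ∀ (φ σ : GalQ), φ ∈ P.decompositionSubgroup ℚ → σ ∈ P.decompositionSubgroup ℚ →
    ∀ (a a' : 𝒪), residue 𝒪 a ≠ residue 𝒪 a' →
    chi ρ b 0 φ - algebraMap 𝒪 T a ∈ maximalIdeal T →
    chi ρ b 1 φ - algebraMap 𝒪 T a' ∈ maximalIdeal T →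
    (∀ i : Fin 2, chi ρ b i σ - 1 ∈ maximalIdeal T) →
    ∀ (d : Module.End 𝒪 V),
    (∃ m : ℕ, ∀ v : V, ((d - 1) ^ m) v ∈ (maximalIdeal 𝒪 • ⊤ : Submodule 𝒪 V)) →
    (∀ t : T, Commute d (ηhat t)) → (∀ g : GalQ, Commute d (gal g)) →
    ∀ (Vα Vβ : Submodule 𝒪 V), IsCompl Vα Vβ →
    (∀ (t : T), ∀ v ∈ Vα, ηhat t v ∈ Vα) → (∀ v ∈ Vα, d v ∈ Vα) →
    (∀ v ∈ Vα, gal φ v ∈ Vα) → (∀ v ∈ Vβ, gal φ v ∈ Vβ) →
    (∃ m : ℕ, ∀ v ∈ Vα, ((gal φ - a • (1 : Module.End 𝒪 V)) ^ m) v ∈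
      (maximalIdeal 𝒪 • ⊤ : Submodule 𝒪 V)) →
    (∃ m : ℕ, ∀ v ∈ Vβ, ((gal φ - a' • (1 : Module.End 𝒪 V)) ^ m) v ∈
      (maximalIdeal 𝒪 • ⊤ : Submodule 𝒪 V)) →
    (∀ v ∈ Vα, gal σ v = d v) →
    ∀ v : V, ηhat (chi ρ b 0 σ) v = d v

end Fermat.Agent.S59.Asm
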