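import Mathlib
import Fermat.Agent.S59.Asm.Leaves

/-!
# S59, package ASM (helper53): leaves, second round

* `Stmt_COMPAT` : two local `𝒪`-algebra homomorphisms out of a universal deformation ring with
                  the same Frobenius characteristic polynomials are equal (Frobenius density +
                  Carayol + uniqueness in the universal property).
-/

set_option autoImplicit false

open Polynomial CuspForm IsLocalRing

namespace Fermat.Agent.S59.Asm

/-- **COMPAT**: `f₁ f₂ : R → A` local `𝒪`-algebra homomorphisms out of a universal deformation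
ring; `f₂` classifies `ρA` (of type `𝒟`, lifting `ρbar`), and the base change along `f₁` has the
Frobenius characteristic polynomials of `ρA` outside a finite set `S`.  Then `f₁ = f₂`.
[`R.H91.charpoly_eq_of_frobenius` (Frobenius density + continuity) gives equal characteristic
polynomials, hence equal traces, everywhere; `ρA` is residually absolutely irreducible
(`D.absIrr` + the residual equivalence), so `R.H25.isEquiv_of_trace_eq` (Carayol) gives
`(D.ρ.baseChangeAlong f₁).IsEquiv ρA`; conclude by the uniqueness in `D.universal`.] -/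
def Stmt_COMPAT : Prop :=
  ∀ (𝒪 : Type) [CommRing 𝒪] [IsDomain 𝒪] [IsDiscreteValuationRing 𝒪]
    [IsAdicComplete (maximalIdeal 𝒪) 𝒪]
    (ρbar : ResidualGaloisRep (ResidueField 𝒪))
    (𝒟 : ∀ ⦃A : Type⦄ [CommRing A] [IsLocalRing A] [Algebra 𝒪 A], GaloisRepAdic A → Prop)
    (D : GaloisRep.DeformationRingData 𝒪 ρbar 𝒟)
    (A : Type) [CommRing A] [IsLocalRing A] [IsNoetherianRing A]
    [IsAdicComplete (maximalIdeal A) A] [Algebra 𝒪 A] [IsLocalHom (algebraMap 𝒪 A)],
    Function.Surjective (residue A ∘ algebraMap 𝒪 A) →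
    ∀ (ρA : GaloisRepAdic A), 𝒟 ρA →
    ρA.residual.IsEquiv (ρbar.baseChangeAlong (ResidueField.map (algebraMap 𝒪 A))) →
    ∀ (f₁ f₂ : D.R →ₐ[𝒪] A) (h₁ : IsLocalHom (f₁ : D.R →+* A))
      (h₂ : IsLocalHom (f₂ : D.R →+* A)) (S : Finset ℕ),
    (∀ ℓ : ℕ, ℓ.Prime → ℓ ∉ S → ∀ B : ValuationSubring (AlgebraicClosure ℚ),
      B.LiesOverPrime ℓ → ∀ σ : GalQ, B.IsFrobeniusAt σ ℓ →
        LinearMap.charpoly ((D.ρ.baseChangeAlong (f₁ : D.R →+* A) h₁).ρ σ) =
          LinearMap.charpoly (ρA.ρ σ)) →
    (D.ρ.baseChangeAlong (f₂ : D.R →+* A) h₂).IsEquiv ρA →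
    f₁ = f₂

end Fermat.Agent.S59.Asm
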