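import Mathlib
import Fermat.Agent.S59.Asm.Leaves2
import Fermat.Agent.S59.Asm.H57_CHV
import Fermat.Agent.S59.Asm.H77_Transport

/-!
# S59, package ASM (helper53): plumbing for the final assembly

Small general lemmas used by `Fermat.Agent.S59.Asm.twLevel_of_twGeom` (`Main.lean`).
-/

set_option autoImplicit false
set_option linter.unusedSectionVars false

open Polynomial CuspForm IsLocalRing

namespace Fermat.Agent.S59.Asm

open Fermat.Agent.S59 Fermat.Agent.S59.TWGal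

section LocalHom

variable {𝒪 : Type*} [CommRing 𝒪] [IsLocalRing 𝒪]
  {A : Type*} [CommRing A] [IsLocalRing A] [Algebra 𝒪 A] [Module.Finite 𝒪 A]
  [IsLocalHom (algebraMap 𝒪 A)]
  {B : Type*} [CommRing B] [IsLocalRing B] [Algebra 𝒪 B] [IsLocalHom (algebraMap 𝒪 B)]

/-- An `𝒪`-algebra homomorphism out of a local ring which is finite over `𝒪` is local. -/
theorem isLocalHom_of_finite (f : A →ₐ[𝒪] B) : IsLocalHom (f : A →+* B) := by
  constructor
  intro x hx
  by_contra hnu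
  have hxm : x ∈ maximalIdeal A := (mem_maximalIdeal x).mpr hnu
  obtain ⟨r, hr⟩ := H57.exists_pow_le_map (𝒪 := 𝒪) (T := A)
  have h1 : x ^ r ∈ (maximalIdeal 𝒪).map (algebraMap 𝒪 A) := hr (Ideal.pow_mem_pow hxm r)
  have h2 : (f : A →+* B) (x ^ r) ∈ ((maximalIdeal 𝒪).map (algebraMap 𝒪 A)).map (f : A →+* B) :=
    Ideal.mem_map_of_mem _ h1
  rw [Ideal.map_map] at h2
  have h3 : ((f : A →+* B).comp (algebraMap 𝒪 A)) = algebraMap 𝒪 B := f.comp_algebraMap
  rw [h3] at h2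
  have h4 : (f : A →+* B) (x ^ r) ∈ maximalIdeal B := H57.map_maximalIdeal_le h2
  rw [map_pow] at h4
  exact ((mem_maximalIdeal _).mp h4) (hx.pow r)

end LocalHom

section Adjoin

variable {𝒪 : Type*} [CommRing 𝒪] {T : Type*} [CommRing T] [Algebra 𝒪 T]

/-- Induction over an algebra generated by a set. -/
theorem adjoin_top_induction {s : Set T} (hs : Algebra.adjoin 𝒪 s = ⊤) {P : T → Prop}
    (hgen : ∀ x ∈ s, P x) (halg : ∀ a : 𝒪, P (algebraMap 𝒪 T a))
    (hadd : ∀ x y, P x → P y → P (x + y)) (hmul : ∀ x y, P x → P y → P (x * y)) (x : T) :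
    P x := by
  have hx : x ∈ Algebra.adjoin 𝒪 s := by rw [hs]; exact Algebra.mem_top
  induction hx using Algebra.adjoin_induction with
  | mem x hx => exact hgen x hx
  | algebraMap a => exact halg a
  | add x y _ _ hx hy => exact hadd x y hx hy
  | mul x y _ _ hx hy => exact hmul x y hx hy

end Adjoin

section Unip

variable {𝒪 : Type*} [CommRing 𝒪] [IsLocalRing 𝒪] {V : Type*} [AddCommGroup V] [Module 𝒪 V]

/-- An operator of `p`-power order is unipotent modulo the maximal ideal (`p` odd, `p ∈ 𝔪`). -/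
theorem unip_of_pow {p n : ℕ} (hp : p.Prime) (hp2 : p ≠ 2) (hp𝒪 : (p : 𝒪) ∈ maximalIdeal 𝒪)
    (d : Module.End 𝒪 V) (hd : d ^ (p ^ n) = 1) :
    ∃ m : ℕ, ∀ v : V, ((d - 1) ^ m) v ∈ (maximalIdeal 𝒪 • ⊤ : Submodule 𝒪 V) := by
  refine ⟨p ^ n, fun v => ?_⟩
  have hcomm : Commute d (-1 : Module.End 𝒪 V) := (Commute.one_right d).neg_right
  obtain ⟨r, hr⟩ := hcomm.exists_add_pow_prime_pow_eq hp n
  have hodd : Odd (p ^ n) := (hp.odd_of_ne_two hp2).pow
  rw [hd, hodd.neg_one_pow, add_neg_cancel, zero_add, ← sub_eq_add_neg, mul_assoc, mul_assoc] at hr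
  rw [hr, Module.End.mul_apply]
  have h1 : ∀ w : V, ((p : Module.End 𝒪 V)) w = (p : 𝒪) • w := by
    intro w
    have : ((p : ℕ) : Module.End 𝒪 V) = (p : 𝒪) • (1 : Module.End 𝒪 V) := by
      rw [Nat.cast_smul_eq_nsmul, nsmul_eq_mul, mul_one]
    rw [this, LinearMap.smul_apply, Module.End.one_apply]
  rw [h1]
  exact Submodule.smul_mem_smul hp𝒪 Submodule.mem_top

end Unip

section Two

variable {𝒪 : Type*} [CommRing 𝒪] [IsLocalRing 𝒪]

/-- `2` is a unit when the residue characteristic is odd. -/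
theorem two_notMem_maximalIdeal {p : ℕ} (hp : p.Prime) (hp2 : p ≠ 2)
    (hp𝒪 : (p : 𝒪) ∈ maximalIdeal 𝒪) : (2 : 𝒪) ∉ maximalIdeal 𝒪 := by
  intro h2
  have hcop : Nat.Coprime p 2 := (Nat.coprime_primes hp Nat.prime_two).mpr hp2
  have h1 : ((Nat.gcd p 2 : ℕ) : ℤ) = p * Nat.gcdA p 2 + 2 * Nat.gcdB p 2 := by
    have := Nat.gcd_eq_gcd_ab p 2
    push_cast at this ⊢
    exact this
  rw [hcop] at h1
  have h3 : (1 : 𝒪) = (p : 𝒪) * ((Nat.gcdA p 2 : ℤ) : 𝒪) + 2 * ((Nat.gcdB p 2 : ℤ) : 𝒪) := by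
    have := congrArg (fun z : ℤ => (z : 𝒪)) h1
    simpa using this
  have h4 : (1 : 𝒪) ∈ maximalIdeal 𝒪 := by
    rw [h3]
    exact Ideal.add_mem _ (Ideal.mul_mem_right _ _ hp𝒪) (Ideal.mul_mem_right _ _ h2)
  exact (Ideal.ne_top_iff_one _).mp (maximalIdeal.isMaximal 𝒪).ne_top h4

/-- `q ≡ 1` modulo the maximal ideal when `p ∣ q - 1`. -/
theorem natCast_sub_one_mem {A : Type*} [CommRing A] [IsLocalRing A] {p q k : ℕ}
    (hpA : (p : A) ∈ maximalIdeal A) (hq : 1 ≤ q) (hk : p ^ (k + 1) ∣ q - 1) :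
    (q : A) - 1 ∈ maximalIdeal A := by
  obtain ⟨c, hc⟩ := hk
  have h1 : q = p ^ (k + 1) * c + 1 := by omega
  rw [h1]
  push_cast
  rw [add_sub_cancel_right, pow_succ]
  exact Ideal.mul_mem_right _ _ (Ideal.mul_mem_left _ _ hpA)

/-- the image of `p` in a local `𝒪`-algebra lies in the maximal ideal -/
theorem natCast_mem_of_algebra {A : Type*} [CommRing A] [IsLocalRing A] [Algebra 𝒪 A]
    [IsLocalHom (algebraMap 𝒪 A)] {p : ℕ} (hp𝒪 : (p : 𝒪) ∈ maximalIdeal 𝒪) :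
    (p : A) ∈ maximalIdeal A := by
  have h := map_nonunit (algebraMap 𝒪 A) (p : 𝒪) hp𝒪
  rwa [map_natCast] at h

end Two

end Fermat.Agent.S59.Asm
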