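import Mathlib
import Fermat.Agent.S59.Asm.Plumb

/-!
# S59, package ASM (helper53): plumbing on Galois representations

Characteristic polynomials and triviality under equivalences, base change and reduction;
transport of `DiagOn` and of the characters `chi` along `Stmt_TRANSPORT`.
-/

set_option autoImplicit false
set_option linter.unusedSectionVars false

open Polynomial CuspForm IsLocalRing

namespace Fermat.Agent.S59.Asm

open Fermat.Agent.S59 Fermat.Agent.S59.TWGal

section Rep

variable {A : Type} [CommRing A] [IsLocalRing A]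

/-- equivalent representations have the same characteristic polynomials -/
theorem charpoly_of_isEquiv {ρ₁ ρ₂ : GaloisRepAdic A} (h : ρ₁.IsEquiv ρ₂) (σ : GalQ) :
    LinearMap.charpoly (ρ₁.ρ σ) = LinearMap.charpoly (ρ₂.ρ σ) := by
  obtain ⟨e⟩ := h
  have h1 : ρ₂.ρ σ = e.toLinearEquiv.conj (ρ₁.ρ σ) := by
    refine LinearMap.ext fun x => ?_
    rw [LinearEquiv.conj_apply_apply, e.map_apply, LinearEquiv.apply_symm_apply]
  rw [h1, LinearEquiv.charpoly_conj]

/-- triviality passes through equivalences -/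
theorem eq_one_of_isEquiv {ρ₁ ρ₂ : GaloisRepAdic A} (h : ρ₁.IsEquiv ρ₂) (σ : GalQ)
    (h2 : ρ₂.ρ σ = 1) : ρ₁.ρ σ = 1 := by
  obtain ⟨e⟩ := h
  refine LinearMap.ext fun x => e.toLinearEquiv.injective ?_
  rw [e.map_apply, h2]
  rfl

/-- the characteristic polynomial of a base change -/
theorem charpoly_bcAlong {B : Type} [CommRing B] [IsLocalRing B] (f : A →+* B)
    (hf : IsLocalHom f) (ρ : GaloisRepAdic A) (σ : GalQ) :
    LinearMap.charpoly ((ρ.baseChangeAlong f hf).ρ σ) = (LinearMap.charpoly (ρ.ρ σ)).map f := by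
  let _ : Algebra A B := f.toAlgebra
  exact LinearMap.charpoly_baseChange (ρ.ρ σ) B

/-- the characteristic polynomial of the reduction -/
theorem charpoly_resid (ρ : GaloisRepAdic A) (σ : GalQ) :
    LinearMap.charpoly (ρ.residual.ρ σ) = (LinearMap.charpoly (ρ.ρ σ)).map (residue A) :=
  LinearMap.charpoly_baseChange (ρ.ρ σ) (ResidueField A)

end Rep

section Resid

variable {k : Type} [Field k]

theorem charpoly_of_isEquiv_resid {ρ₁ ρ₂ : ResidualGaloisRep k} (h : ρ₁.IsEquiv ρ₂)
    (σ : GalQ) : LinearMap.charpoly (ρ₁.ρ σ) = LinearMap.charpoly (ρ₂.ρ σ) := by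
  obtain ⟨e⟩ := h
  have : Module.Finite k ρ₁.V := inferInstance
  have : Module.Free k ρ₁.V := inferInstance
  have h1 : ρ₂.ρ σ = e.toLinearEquiv.conj (ρ₁.ρ σ) := by
    refine LinearMap.ext fun x => ?_
    rw [LinearEquiv.conj_apply_apply, e.map_apply, LinearEquiv.apply_symm_apply]
  rw [h1, LinearEquiv.charpoly_conj]

theorem eq_one_of_isEquiv_resid {ρ₁ ρ₂ : ResidualGaloisRep k} (h : ρ₁.IsEquiv ρ₂) (σ : GalQ)
    (h2 : ρ₂.ρ σ = 1) : ρ₁.ρ σ = 1 := by
  obtain ⟨e⟩ := h
  refine LinearMap.ext fun x => e.toLinearEquiv.injective ?_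
  rw [e.map_apply, h2]
  rfl

theorem charpoly_bcAlong_resid {k' : Type} [Field k'] (j : k →+* k')
    (ρ : ResidualGaloisRep k) (σ : GalQ) :
    LinearMap.charpoly ((ρ.baseChangeAlong j).ρ σ) = (LinearMap.charpoly (ρ.ρ σ)).map j := by
  let _ : Algebra k k' := j.toAlgebra
  exact LinearMap.charpoly_baseChange (ρ.ρ σ) k'

theorem bcAlong_resid_eq_one {k' : Type} [Field k'] (j : k →+* k')
    (ρ : ResidualGaloisRep k) (σ : GalQ) (h : ρ.ρ σ = 1) : (ρ.baseChangeAlong j).ρ σ = 1 := by
  let _ : Algebra k k' := j.toAlgebra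
  have h1 : (ρ.baseChangeAlong j).ρ σ = (ρ.ρ σ).baseChange k' := rfl
  rw [h1, h, LinearMap.baseChange_one]
  rfl

end Resid

section Transport

variable {A B : Type} [CommRing A] [IsLocalRing A] [CommRing B] [IsLocalRing B]

/-- `chi` along a transported basis -/
theorem chi_transport (f : A →+* B) (ρ : GaloisRepAdic A) (ρ' : GaloisRepAdic B)
    (b : Module.Basis (Fin 2) A ρ.V) (b' : Module.Basis (Fin 2) B ρ'.V)
    (hb : ∀ (g : GalQ) (i j : Fin 2), b'.repr (ρ'.ρ g (b' i)) j = f (b.repr (ρ.ρ g (b i)) j))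
    (i : Fin 2) (g : GalQ) : chi ρ' b' i g = f (chi ρ b i g) :=
  hb g i i

/-- `DiagOn` along a transported basis -/
theorem diagOn_transport (f : A →+* B) (ρ : GaloisRepAdic A) (ρ' : GaloisRepAdic B)
    (b : Module.Basis (Fin 2) A ρ.V) (b' : Module.Basis (Fin 2) B ρ'.V)
    (hb : ∀ (g : GalQ) (i j : Fin 2), b'.repr (ρ'.ρ g (b' i)) j = f (b.repr (ρ.ρ g (b i)) j))
    (P : ValuationSubring Qb) (h : DiagOn ρ P b) : DiagOn ρ' P b' := by
  intro g hg
  obtain ⟨x, y, hx, hy⟩ := h g hg
  refine ⟨f x, f y, ?_, ?_⟩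
  · refine b'.ext_elem fun j => ?_
    rw [hb, hx, map_smul, map_smul, Module.Basis.repr_self, Module.Basis.repr_self,
      Finsupp.smul_apply, Finsupp.smul_apply, smul_eq_mul, smul_eq_mul, map_mul]
    congr 1
    simp only [Finsupp.single_apply]
    split_ifs
    · exact map_one f
    · exact map_zero f
  · refine b'.ext_elem fun j => ?_
    rw [hb, hy, map_smul, map_smul, Module.Basis.repr_self, Module.Basis.repr_self,
      Finsupp.smul_apply, Finsupp.smul_apply, smul_eq_mul, smul_eq_mul, map_mul]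
    congr 1
    simp only [Finsupp.single_apply]
    split_ifs
    · exact map_one f
    · exact map_zero f

end Transport

end Fermat.Agent.S59.Asm
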