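import Mathlib
import Fermat.Agent.S59.Min
import Fermat.Agent.S59.Datum.Defs
import Fermat.Agent.R.H86_Defs4
import Fermat.Prelude.Def_GaloisRep_StrictOrdinary

/-!
# S59 (helper53): package COND (= TYPE) — the Hecke–Galois datum satisfies the deformation condition

* `Stmt_COND` : the datum `H` over the full local Hecke ring at a level
  `N' = (minimal level) · (squares of auxiliary primes)` satisfies `cond 𝒪 p fl Smin Q`.
  - determinant: hypothesis (DATUM gives it);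
  - unramified outside `Smin ∪ Q`: frozen S31 (`Fermat.Agent.S31.result`);
  - unipotent at `q ∈ Smin`, `q ≠ p`: frozen S34 (`Fermat.Agent.S34.result`), `q ∥ N'`;
  - `fl = true`  (`p ∤ N'`): flat at `p`: `S32.of_flatPoint` from `R.Stmt_FlatPoint`;
  - `fl = false` (`p ∥ N'`, `ρbar` NOT flat): STRICTLY ordinary at `p`:
      (1) strict ⟺ ordinary + `z² = 1` (`z` the character of `D_p` on `V/L`; `x z = det = ε`);
          `z² = 1` is tested at the characteristic-0 points of `T` (`T` reduced, `R.H2` SepT);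
      (2) a `p`-old point (`R.OccursAtLevel χ (N'/p)`) is flat at `p` (`R.Stmt_FlatPoint` at level
          `N'/p`), so its reduction `ρbar` would be flat: all points are `p`-new;
      (3) `p`-new points: `Stmt_OrdNewStrict` (geometry of the toric part: GlueFrob at `p`).
* `Stmt_OrdNewStrict` : `R.Stmt_OrdNew` with the conclusion `IsStrictOrdinaryAt`.

Target of the package (owner helper7):
  `theorem stmt_COND_of : R.Stmt_FlatPoint → Stmt_OrdNewStrict → Stmt_COND`.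
-/

set_option autoImplicit false

open Polynomial CuspForm IsLocalRing

namespace Fermat.Agent.S59.Asm

open Fermat.Agent.S59

/-- **S33, strict form, over a complete discrete valuation ring, `p`-new case.** -/
def Stmt_OrdNewStrict : Prop :=
  ∀ (p : ℕ) (N M : ℕ) [NeZero N] [NeZero M] (S : Finset ℕ)
    (𝒪 : Type) [CommRing 𝒪] [IsDomain 𝒪] [IsDiscreteValuationRing 𝒪]
    [IsAdicComplete (maximalIdeal 𝒪) 𝒪] [Finite (ResidueField 𝒪)] [CharZero 𝒪],
    p.Prime → p ≠ 2 → (p : 𝒪) ∈ maximalIdeal 𝒪 → N = M * p → ¬ p ∣ M →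
    (∀ q : ℕ, q.Prime → q ∣ N → q ∈ S) →
    ∀ (χ : CuspForm.heckeAlgebra N 2 (↑S : Set ℕ) →+* 𝒪) (ρ : GaloisRepAdic 𝒪),
      Fermat.Agent.R.HasFrobCharpoly χ ρ → ρ.residual.IsAbsolutelyIrreducible →
      ¬ Fermat.Agent.R.OccursAtLevel χ M →
      ρ.IsStrictOrdinaryAt p

/-- **COND**. -/
def Stmt_COND : Prop :=
  ∀ (𝒪 : Type) [CommRing 𝒪] [IsDomain 𝒪] [IsDiscreteValuationRing 𝒪]
    [IsAdicComplete (maximalIdeal 𝒪) 𝒪] [Finite (ResidueField 𝒪)] [CharZero 𝒪]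
    (p : ℕ) [Fact p.Prime], p ≠ 2 → (p : 𝒪) ∈ maximalIdeal 𝒪 →
    ∀ (fl : Bool) (ρbar : ResidualGaloisRep (ResidueField 𝒪)) (Smin : Finset ℕ),
    ResHyp p ρbar Smin →
    cond 𝒪 p fl Smin ∅ (GaloisRepAdic.ofResidualGaloisRep ρbar) →
    (fl = false → ¬ (GaloisRepAdic.ofResidualGaloisRep ρbar).IsFlatAt p) →
    ∀ (Q : Finset ℕ) (N' : ℕ) [NeZero N'] [Fact (CuspForm.HasIntegralStructure N' 2)]
      (S' : Finset ℕ),
    S' = Smin ∪ Q →
    (∀ q : ℕ, q.Prime → q ∣ N' → q ∈ S') →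
    (∀ q ∈ Smin, q ≠ p → q ∣ N' ∧ ¬ q ^ 2 ∣ N') →
    (fl = true → ¬ p ∣ N') → (fl = false → p ∣ N' ∧ ¬ p ^ 2 ∣ N') →
    ∀ (θ : CuspForm.heckeAlgebra N' 2 (↑S' : Set ℕ) →+* ResidueField 𝒪),
    Fermat.Agent.S59.Datum.FrobHyp ρbar N' S' θ →
    ∀ (H : CuspForm.HeckeGaloisRepDatum N' (↑S' : Set ℕ) 𝒪 θ
        (CuspForm.heckeLocal N' (↑S' : Set ℕ) 𝒪 θ)),
    H.π = CuspForm.heckeLocal.π N' (↑S' : Set ℕ) 𝒪 θ →
    H.ρ.DetIsCyclotomic p →
    H.ρ.residual.IsEquiv (ρbar.baseChangeAlong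
      (ResidueField.map (algebraMap 𝒪 (CuspForm.heckeLocal N' (↑S' : Set ℕ) 𝒪 θ)))) →
    cond 𝒪 p fl Smin Q H.ρ

end Fermat.Agent.S59.Asm
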