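import Mathlib
import Fermat.Agent.S59.TWDatum
import Fermat.Agent.S59.TWH.H90_Tower

/-!
# S59, package ASM (helper53): the algebraic core of the Taylor–Wiles assembly

`twLevel_of_core`: rings `RQ ↠ R` (deformation rings), an `RQ`-module structure on `V` and an
`R`-module structure on `M` through ring homomorphisms into the endomorphism rings, operators
`d_j` on `V` (diamond operators) which are the images of elements `δ_j ∈ RQ`
(local–global compatibility), freeness of `V` over `𝒪[Δ]`, and a projection `π : V → M` with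
kernel `∑ (d_j - 1) V`, give a `TWLevel`.
-/

set_option autoImplicit false
set_option linter.unusedSectionVars false

open IsLocalRing

namespace Fermat.Agent.S59.Asm

open Fermat.Agent.S59 Fermat.Agent.S59.TWH

section mon

variable {𝒪 : Type} [CommRing 𝒪] {V : Type} [AddCommGroup V] [Module 𝒪 V]

/-- the image of a product of powers under a ring homomorphism into `End V` is the monomial
`mon`. -/
theorem map_prod_pow_eq_mon {R : Type} [CommRing R] (f : R →+* Module.End 𝒪 V) {r : ℕ}
    (δ : Fin r → R) (x : Fin r → ℕ) :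
    f (∏ j, δ j ^ x j) = H90.mon (fun j => f (δ j)) x := by
  rw [H90.mon, ← List.prod_ofFn, map_list_prod, List.map_ofFn]
  congr 1
  exact congrArg List.ofFn (funext fun j => by simp)

end mon

/-- **The algebraic core of the Taylor–Wiles assembly.** -/
theorem twLevel_of_core {𝒪 : Type} [CommRing 𝒪] [IsLocalRing 𝒪] {p r n : ℕ}
    {R : Type} [CommRing R] [Algebra 𝒪 R]
    {M : Type} [AddCommGroup M] [Module 𝒪 M]
    (fM : R →ₐ[𝒪] Module.End 𝒪 M)
    {RQ : Type} [CommRing RQ] [IsLocalRing RQ] [Algebra 𝒪 RQ]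
    (γ : MvPowerSeries (Fin r) 𝒪 →ₐ[𝒪] RQ) (hγ : Function.Surjective γ)
    (τ : RQ →ₐ[𝒪] R) (hτ : Function.Surjective τ)
    {V : Type} [AddCommGroup V] [Module 𝒪 V]
    (fV : RQ →ₐ[𝒪] Module.End 𝒪 V)
    (δ : Fin r → RQ) (hδm : ∀ j, δ j - 1 ∈ maximalIdeal RQ) (hτδ : ∀ j, τ (δ j) = 1)
    (d : Fin r → Module.End 𝒪 V) (hδd : ∀ j, fV (δ j) = d j)
    (hdpow : ∀ j, d j ^ (p ^ n) = 1)
    (rk : ℕ) (b : Fin rk → V)
    (hb : Function.Bijective (fun f : Fin rk × (Fin r → Fin (p ^ n)) → 𝒪 =>
      ∑ x : Fin rk × (Fin r → Fin (p ^ n)), f x • H90.mon d (fun j => (x.2 j : ℕ)) (b x.1)))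
    (π : V →ₗ[𝒪] M) (hπs : Function.Surjective π)
    (hker : LinearMap.ker π = ⨆ j, LinearMap.range (d j - 1))
    (hπ : ∀ (a : RQ) (v : V), π (fV a v) = fM (τ a) (π v)) :
    Nonempty (@TWLevel 𝒪 _ _ p r R _ _ M _ (Module.compHom M (fM : R →+* Module.End 𝒪 M)) n) := by
  let _ : Module R M := Module.compHom M (fM : R →+* Module.End 𝒪 M)
  let _ : Module RQ V := Module.compHom V (fV : RQ →+* Module.End 𝒪 V)
  have hsmV : ∀ (a : RQ) (v : V), a • v = fV a v := fun _ _ => rfl
  have hsmM : ∀ (a : R) (x : M), a • x = fM a x := fun _ _ => rfl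
  have hδsm : ∀ (j : Fin r) (v : V), δ j • v = d j v := fun j v => by rw [hsmV, hδd]
  refine ⟨{
    RQ := RQ
    γ := γ
    γ_surjective := hγ
    τ := τ
    τ_surjective := hτ
    δ := δ
    δ_sub_one := ?_
    τ_δ := hτδ
    N := V
    δ_pow := ?_
    π := π.toAddMonoidHom
    π_smul := ?_
    π_surjective := hπs
    ker_π := ?_
    d := rk
    b := b
    b_basis := ?_ }⟩
  · -- δ_sub_one
    intro j
    obtain ⟨y, hy⟩ := hγ (δ j - 1)
    refine ⟨y, ?_, hy⟩
    by_contra hym
    have hu : IsUnit y := by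
      by_contra hnu
      exact hym ((mem_maximalIdeal y).mpr hnu)
    have : IsUnit (γ y) := hu.map γ
    rw [hy] at this
    exact ((mem_maximalIdeal _).mp (hδm j)) this
  · -- δ_pow
    intro j x
    rw [hsmV, map_pow, hδd, hdpow]
    rfl
  · -- π_smul
    intro a x
    show π (a • x) = τ a • π x
    rw [hsmV, hπ, hsmM]
  · -- ker_π
    intro x
    show π x = 0 ↔ _
    rw [← LinearMap.mem_ker, hker]
    constructor
    · intro hx
      refine Submodule.iSup_induction (fun j => LinearMap.range (d j - 1)) (motive := fun x =>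
        x ∈ (Ideal.span (Set.range fun j : Fin r => δ j - 1)) • (⊤ : Submodule RQ V)) hx ?_ ?_ ?_
      · rintro j y ⟨z, rfl⟩
        have : (d j - 1) z = (δ j - 1) • z := by
          rw [sub_smul, one_smul, hδsm]
          rfl
        rw [this]
        exact Submodule.smul_mem_smul (Ideal.subset_span ⟨j, rfl⟩) Submodule.mem_top
      · exact Submodule.zero_mem _
      · intro y z hy hz
        exact Submodule.add_mem _ hy hz
    · intro hx
      refine Submodule.smul_induction_on hx ?_ ?_
      · intro a ha z _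
        refine Submodule.span_induction (p := fun a _ => ∀ z : V, a • z ∈
          ⨆ j, LinearMap.range (d j - 1)) ?_ ?_ ?_ ?_ ha z
        · rintro _ ⟨j, rfl⟩ z
          have : (δ j - 1) • z = (d j - 1) z := by
            rw [sub_smul, one_smul, hδsm]
            rfl
          rw [this]
          exact Submodule.mem_iSup_of_mem j ⟨z, rfl⟩
        · intro z
          rw [zero_smul]
          exact Submodule.zero_mem _
        · intro a b _ _ iha ihb z
          rw [add_smul]
          exact Submodule.add_mem _ (iha z) (ihb z)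
        · intro c a _ iha z
          rw [smul_eq_mul, mul_comm, mul_smul]
          exact iha (c • z)
      · intro y z hy hz
        exact Submodule.add_mem _ hy hz
  · -- b_basis
    have hfun : (fun f : Fin rk × (Fin r → Fin (p ^ n)) → 𝒪 =>
        ∑ x : Fin rk × (Fin r → Fin (p ^ n)),
          (algebraMap 𝒪 RQ (f x) * ∏ j, δ j ^ (x.2 j : ℕ)) • b x.1) =
        (fun f : Fin rk × (Fin r → Fin (p ^ n)) → 𝒪 =>
          ∑ x : Fin rk × (Fin r → Fin (p ^ n)),
            f x • H90.mon d (fun j => (x.2 j : ℕ)) (b x.1)) := by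
      funext f
      refine Finset.sum_congr rfl fun x _ => ?_
      rw [hsmV, map_mul, AlgHom.commutes, Module.End.mul_apply]
      have h1 : (fV : RQ →+* Module.End 𝒪 V) (∏ j, δ j ^ (x.2 j : ℕ)) =
          H90.mon (fun j => (fV : RQ →+* Module.End 𝒪 V) (δ j)) (fun j => (x.2 j : ℕ)) :=
        map_prod_pow_eq_mon (fV : RQ →+* Module.End 𝒪 V) δ _
      have h2 : (fun j => (fV : RQ →+* Module.End 𝒪 V) (δ j)) = d := funext hδd
      rw [h2] at h1
      have h3 : fV (∏ j, δ j ^ (x.2 j : ℕ)) = H90.mon d (fun j => (x.2 j : ℕ)) := h1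
      rw [h3]
      rfl
    rw [hfun]
    exact hb

end Fermat.Agent.S59.Asm
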