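import Mathlib
import Fermat.Agent.S59.Asm.Plumb2
import Fermat.Agent.S59.Asm.Core
import Fermat.Agent.S59.TWGal.Final

/-!
# S59, package ASM (helper53): the Taylor–Wiles assembly, statement

`Stmt_ASM`: the geometric data `TWGeom` at a Taylor–Wiles family (item 72, LG-NEB + LIM)
together with the Hecke–Galois data at the two levels (DATUM, TYPE, S54) give the Taylor–Wiles
level `TWLevel` consumed by the patching argument (`patchingDatum_of_twLevels`).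

Proof (all leaves are landed: `H85.stmt_LOCMOD`, `H85.stmt_RESLOC`, `H57.stmt_CHV`,
`H77.stmt_TRANSPORT`, `H77.stmt_BRIDGE`, `H99.stmt_TAU`, `H57.stmt_COMPAT`, `TWGal.twgal_main`,
`twLevel_of_core`, plumbing in `Plumb.lean`, `Plumb2.lean`):

1. `ηW : T_Q → End W.V` from LOCMOD (`T_Q := heckeLocal (twLevel N qv) (twSet S qv) 𝒪 (θ ∘ rest)`),
   `res : T_Q → T` from RESLOC with `rest := G.rest`, `τ : DQ.R ↠ D.R` from TAU.
2. Extend from the generators `HQ.π t = heckeLocal.π t` (`hHQπ`) and `algebraMap 𝒪 T_Q a` to all of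
   `T_Q` (`adjoin_top_induction` with `HQ.adjoin_range_π`): `ηW x` commutes with `G.gal g` and
   `G.d j`, preserves `G.Vα j`, and `G.π (ηW x v) = ηM (res x) (G.π v)`.
3. Cayley–Hamilton on `W.V` for `HQ.ρ`: CHV with the finite set `twSet S qv ∪ primeFactors`,
   `G.es`, `HQ.charpoly_frob` and `S58.H99.trace_det_of_charpoly_two`
   (`ηW (HQ.π T_ℓ) = W.η T_ℓ`, `ηW ℓ = ℓ • 1`).
4. For every `j`: `q := qv j ∉ Smin`, `q ≠ p`, so `ρbar` is unramified at `q` (`hyp.hmin`);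
   `residual_isEquiv` + `eq_one_of_isEquiv_resid`, `bcAlong_resid_eq_one` give `hur` and
   `charpoly_of_isEquiv_resid`, `charpoly_bcAlong_resid`, `G.charpoly_frob` give `hchar` for
   `twgal_main` applied to `DQ.ρ`, `P := G.P j`, `φ := G.frob j`,
   `α := residue (algebraMap 𝒪 DQ.R (G.a j))`, `β` likewise; `(q : DQ.R) - 1 ∈ 𝔪` by
   `natCast_sub_one_mem`.  Put `δ j := chi DQ.ρ b 0 (G.σ j)`.
   * `δ j - 1 ∈ 𝔪`: clause 7 of `twgal_main`.
   * `τ (δ j) = 1`: `D.ρ` is unramified at `q` (`cond_unram D.isOfType`), so is the base change of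
     `DQ.ρ` along `τ` (`eq_one_of_isEquiv`), so `τ (chi b i σ₀) = 1` (last clause), and
     `chi b 0 (G.σ j) = chi b 0 σ₀ ^ k` (clause 5).
   * TRANSPORT along `φQ` gives `b'` with `chi HQ.ρ b' i g = φQ (chi DQ.ρ b i g)` and
     `DiagOn HQ.ρ P b'` (`chi_transport`, `diagOn_transport`).
   * BRIDGE (`T := T_Q`, `ρ := HQ.ρ`, `d := G.d j`, unipotent by `unip_of_pow`, `2 ∉ 𝔪` by
     `two_notMem_maximalIdeal`, Frobenius and inertia elements lie in the decomposition group: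
     `hφ.1`/`TWGal.mem_decomp_of_mem_inertia`) gives `ηW (φQ (δ j)) = G.d j`.
5. `res ∘ φQ = φ ∘ τ`: COMPAT at `A := T`, `ρA := H.ρ` (of type `cond … Q` by `cond_mono`),
   `f₁ := res ∘ φQ`, `f₂ := φ ∘ τ`, local by `isLocalHom_of_finite`/composition; Frobenius
   charpolys of the base change along `f₁`: `charpoly_bcAlong`, `charpoly_of_isEquiv hφQe`,
   `HQ.charpoly_frob`, `hHQπ`, `res (π t) = π (rest t)`, `G.rest_T`, `hHπ`, `H.charpoly_frob`;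
   equivalence for `f₂`: `H57.isEquiv_of_frobenius` with `charpoly_bcAlong` twice, TAU, `hφe`.
6. `twLevel_of_core` with `fM := ηM ∘ φ`, `fV := ηW ∘ φQ`.
-/

set_option autoImplicit false
set_option linter.unusedSectionVars false

open Polynomial CuspForm IsLocalRing

namespace Fermat.Agent.S59.Asm

open Fermat.Agent.S59 Fermat.Agent.S59.TWGal

/-- `cond` is monotone in the auxiliary set. -/
theorem cond_mono {𝒪 : Type} [CommRing 𝒪] {p : ℕ} {fl : Bool} {Smin T T' : Finset ℕ}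
    (hT : T ⊆ T') {A : Type} [CommRing A] [IsLocalRing A] [Algebra 𝒪 A] {ρ : GaloisRepAdic A}
    (h : cond 𝒪 p fl Smin T ρ) : cond 𝒪 p fl Smin T' ρ := by
  cases fl
  · exact ⟨⟨h.1.1, h.1.2.1, fun q hq hqS => h.1.2.2 q hq fun hq' => hqS
      (Finset.union_subset_union_right hT hq')⟩, h.2⟩
  · exact ⟨⟨h.1.1, h.1.2.1, fun q hq hqS => h.1.2.2 q hq fun hq' => hqS
      (Finset.union_subset_union_right hT hq')⟩, h.2⟩

/-- `cond` implies unramified outside `Smin ∪ T`. -/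
theorem cond_unram {𝒪 : Type} [CommRing 𝒪] {p : ℕ} {fl : Bool} {Smin T : Finset ℕ}
    {A : Type} [CommRing A] [IsLocalRing A] [Algebra 𝒪 A] {ρ : GaloisRepAdic A}
    (h : cond 𝒪 p fl Smin T ρ) (q : ℕ) (hq : q.Prime) (hqS : q ∉ Smin ∪ T) :
    ρ.IsUnramifiedAt q := by
  cases fl
  · exact h.1.2.2 q hq hqS
  · exact h.1.2.2 q hq hqS

/-- **ASM**: the Taylor–Wiles assembly. -/
def Stmt_ASM : Prop :=
  ∀ (𝒪 : Type) [CommRing 𝒪] [IsDomain 𝒪] [IsDiscreteValuationRing 𝒪]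
    [IsAdicComplete (maximalIdeal 𝒪) 𝒪] [Finite (ResidueField 𝒪)]
    (p : ℕ) [Fact p.Prime], p ≠ 2 → (p : 𝒪) ∈ maximalIdeal 𝒪 →
    ∀ (fl : Bool) (ρbar : ResidualGaloisRep (ResidueField 𝒪)) (Smin : Finset ℕ),
    ResHyp p ρbar Smin →
    ∀ (N : ℕ) [NeZero N] [Fact (CuspForm.HasIntegralStructure N 2)] (S : Finset ℕ)
      (θ : CuspForm.heckeAlgebra N 2 (↑S : Set ℕ) →+* ResidueField 𝒪)
      (D : GaloisRep.DeformationRingData 𝒪 ρbar (cond 𝒪 p fl Smin ∅))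
      (H : CuspForm.HeckeGaloisRepDatum N (↑S : Set ℕ) 𝒪 θ
        (CuspForm.heckeLocal N (↑S : Set ℕ) 𝒪 θ)),
    H.π = CuspForm.heckeLocal.π N (↑S : Set ℕ) 𝒪 θ →
    cond 𝒪 p fl Smin ∅ H.ρ →
    H.ρ.residual.IsEquiv (ρbar.baseChangeAlong
      (ResidueField.map (algebraMap 𝒪 (CuspForm.heckeLocal N (↑S : Set ℕ) 𝒪 θ)))) →
    ∀ (φ : D.R →ₐ[𝒪] CuspForm.heckeLocal N (↑S : Set ℕ) 𝒪 θ)
      (hφ : IsLocalHom (φ : D.R →+* CuspForm.heckeLocal N (↑S : Set ℕ) 𝒪 θ)),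
    (D.ρ.baseChangeAlong (φ : D.R →+* CuspForm.heckeLocal N (↑S : Set ℕ) 𝒪 θ) hφ).IsEquiv H.ρ →
    ∀ (M : HMod 𝒪 N (↑S : Set ℕ) θ)
      (ηM : CuspForm.heckeLocal N (↑S : Set ℕ) 𝒪 θ →ₐ[𝒪] Module.End 𝒪 M.V),
    (∀ t : CuspForm.heckeAlgebra N 2 (↑S : Set ℕ),
      ηM (CuspForm.heckeLocal.π N (↑S : Set ℕ) 𝒪 θ t) = M.η t) →
    ∀ (r n : ℕ) (qv : Fin r → ℕ), Fermat.Agent.S56.IsTWFamily ρbar p n Smin qv →
    ∀ [NeZero (twLevel N qv)] [Fact (CuspForm.HasIntegralStructure (twLevel N qv) 2)]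
      (DQ : GaloisRep.DeformationRingData 𝒪 ρbar (cond 𝒪 p fl Smin (Finset.univ.image qv)))
      (γ : MvPowerSeries (Fin r) 𝒪 →ₐ[𝒪] DQ.R), Function.Surjective γ →
    ∀ (G : TWGeom 𝒪 p ρbar N S θ M n qv)
      (HQ : CuspForm.HeckeGaloisRepDatum (twLevel N qv) (↑(twSet S qv) : Set ℕ) 𝒪
        (θ.comp G.rest)
        (CuspForm.heckeLocal (twLevel N qv) (↑(twSet S qv) : Set ℕ) 𝒪 (θ.comp G.rest))),
    HQ.π = CuspForm.heckeLocal.π (twLevel N qv) (↑(twSet S qv) : Set ℕ) 𝒪 (θ.comp G.rest) →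
    ∀ (φQ : DQ.R →ₐ[𝒪] CuspForm.heckeLocal (twLevel N qv) (↑(twSet S qv) : Set ℕ) 𝒪
        (θ.comp G.rest))
      (hφQ : IsLocalHom (φQ : DQ.R →+* CuspForm.heckeLocal (twLevel N qv)
        (↑(twSet S qv) : Set ℕ) 𝒪 (θ.comp G.rest))),
    (DQ.ρ.baseChangeAlong (φQ : DQ.R →+* CuspForm.heckeLocal (twLevel N qv)
      (↑(twSet S qv) : Set ℕ) 𝒪 (θ.comp G.rest)) hφQ).IsEquiv HQ.ρ →
    Nonempty (@TWLevel 𝒪 _ _ p r D.R _ _ M.V _
      (Module.compHom M.V ((ηM.comp φ : D.R →ₐ[𝒪] Module.End 𝒪 M.V) :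
        D.R →+* Module.End 𝒪 M.V)) n)

end Fermat.Agent.S59.Asm
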