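import Fermat.Agent.S59.Asm.H41_Rest
import Fermat.Agent.S59.Asm.Defs

/-!
# S59, package ASM, leaf REST at a Taylor–Wiles family (helper41)

The restriction `heckeAlgebra (twLevel N qv) 2 (twSet S qv) →+* heckeAlgebra N 2 S` in exactly the
shape of the fields `rest`, `rest_T` of `TWGeom`, for a family `qv` of primes.

Complete proofs, standard axioms only.
-/

set_option autoImplicit false

open CuspForm

namespace Fermat.Agent.S59.Asm.H41

theorem dvd_twLevel (N : ℕ) {r : ℕ} (qv : Fin r → ℕ) : N ∣ twLevel N qv :=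
  Dvd.intro _ rfl

theorem subset_twSet (S : Finset ℕ) {r : ℕ} (qv : Fin r → ℕ) :
    (↑S : Set ℕ) ⊆ (↑(twSet S qv) : Set ℕ) := by
  intro x hx
  simp only [twSet, Finset.coe_union, Set.mem_union]
  exact Or.inl hx

theorem new_prime_mem_twSet (N : ℕ) (S : Finset ℕ) {r : ℕ} (qv : Fin r → ℕ)
    (hqv : ∀ j, (qv j).Prime) (q : ℕ) (hq : q.Prime) (hqN' : q ∣ twLevel N qv)
    (hqN : ¬ q ∣ N) : q ∈ (↑(twSet S qv) : Set ℕ) := by
  have h1 : q ∣ ∏ j, qv j ^ 2 := by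
    rcases (Nat.Prime.dvd_mul hq).1 hqN' with h | h
    · exact absurd h hqN
    · exact h
  obtain ⟨j, -, hj⟩ := (Prime.dvd_finsetProd_iff hq.prime _).1 h1
  have h2 : q ∣ qv j := hq.dvd_of_dvd_pow hj
  have h3 : q = qv j := (Nat.prime_dvd_prime_iff_eq hq (hqv j)).1 h2
  simp only [twSet, Finset.coe_union, Set.mem_union, Finset.coe_image, Finset.coe_univ,
    Set.image_univ, Set.mem_range]
  exact Or.inr ⟨j, h3.symm⟩

/-- The restriction of Hecke operators at a Taylor–Wiles family. -/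
noncomputable def restTW (N : ℕ) [NeZero N] (S : Finset ℕ) {r : ℕ} (qv : Fin r → ℕ)
    [NeZero (twLevel N qv)] (hqv : ∀ j, (qv j).Prime) :
    CuspForm.heckeAlgebra (twLevel N qv) 2 (↑(twSet S qv) : Set ℕ) →+*
      CuspForm.heckeAlgebra N 2 (↑S : Set ℕ) :=
  rest (dvd_twLevel N qv) 2 (subset_twSet S qv) (new_prime_mem_twSet N S qv hqv)

theorem restTW_T (N : ℕ) [NeZero N] (S : Finset ℕ) {r : ℕ} (qv : Fin r → ℕ)
    [NeZero (twLevel N qv)] (hqv : ∀ j, (qv j).Prime)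
    (ℓ : ℕ) (hℓ : ℓ.Prime) (hℓN' : ¬ ℓ ∣ twLevel N qv)
    (hℓS' : ℓ ∉ (↑(twSet S qv) : Set ℕ)) (hℓN : ¬ ℓ ∣ N) (hℓS : ℓ ∉ (↑S : Set ℕ)) :
    restTW N S qv hqv (CuspForm.heckeAlgebra.T hℓ hℓN' hℓS') = CuspForm.heckeAlgebra.T hℓ hℓN hℓS :=
  rest_T _ 2 _ _ hℓ hℓN' hℓS' hℓN hℓS

/-- The level inclusion intertwines `t` and `restTW t`. -/
theorem restTW_spec (N : ℕ) [NeZero N] (S : Finset ℕ) {r : ℕ} (qv : Fin r → ℕ)
    [NeZero (twLevel N qv)] (hqv : ∀ j, (qv j).Prime)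
    (t : CuspForm.heckeAlgebra (twLevel N qv) 2 (↑(twSet S qv) : Set ℕ))
    (f : CuspForm (CongruenceSubgroup.Gamma0 N) 2) :
    t.1 (levelIncl (dvd_twLevel N qv) 2 f) =
      levelIncl (dvd_twLevel N qv) 2 ((restTW N S qv hqv t).1 f) :=
  rest_spec _ 2 _ _ t f

end Fermat.Agent.S59.Asm.H41
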