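import Fermat.Agent.S59.Asm.Leaves3

/-!
# S59, package ASM, leaf UNRCOND (helper57)

For Taylor–Wiles primes `q_j ≡ 1 mod p^(n+1)` (`p` odd) and a subgroup `H` of `(ℤ/c)ˣ`,
`c = ∏ q_j`, containing all `p^n`-th powers, every elliptic and every parabolic element of
`Γ₀(M)` (`c ∣ M`) has its upper left entry in `± H`.

* `pow_eq_lin` : `γ ^ (k+1) = x γ - y` with `|y| < |x|` for `γ ∈ SL₂(ℤ)` of trace `|t| ≥ 2`.
* `trace_of_finOrder` : an element of finite order of `SL₂(ℤ)` has trace `t` with `t² = 4`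
  or `|t| ≤ 1`.
* `exists_root_field` : in `𝔽_q`, `p^(n+1) ∣ q - 1`, every `v` with `v^12 = 1` is a `p^n`-th power.
* `stmt_UNRCOND : Stmt_UNRCOND`.
-/

set_option autoImplicit false

open Matrix
open scoped MatrixGroups

namespace Fermat.Agent.S59.Asm.H57

section SL2

theorem fin_two_cases (i : Fin 2) : i = 0 ∨ i = 1 := by
  fin_cases i
  · exact Or.inl rfl
  · exact Or.inr rfl

/-- Powers of a matrix of determinant one and trace `|t| ≥ 2` are `x A - y` with `|y| < |x|`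
(entrywise form). -/
theorem pow_eq_lin (A : Matrix (Fin 2) (Fin 2) ℤ) (hdet : A.det = 1)
    (ht : 2 ≤ |A 0 0 + A 1 1|) (k : ℕ) :
    ∃ x y : ℤ, (∀ i j, (A ^ (k + 1)) i j = x * A i j - y * (1 : Matrix (Fin 2) (Fin 2) ℤ) i j) ∧
      |y| < |x| := by
  rw [Matrix.det_fin_two] at hdet
  induction k with
  | zero =>
    refine ⟨1, 0, fun i j => ?_, by norm_num⟩
    rw [zero_add, pow_one, one_mul, zero_mul, sub_zero]
  | succ k ih =>
    obtain ⟨x, y, hxy, hlt⟩ := ih
    set t : ℤ := A 0 0 + A 1 1 with htdef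
    refine ⟨t * x - y, x, fun i j => ?_, ?_⟩
    · rw [pow_succ, Matrix.mul_apply, Fin.sum_univ_two, hxy i 0, hxy i 1, htdef]
      have h01 : (1 : Matrix (Fin 2) (Fin 2) ℤ) 0 1 = 0 := Matrix.one_apply_ne (by decide)
      have h10 : (1 : Matrix (Fin 2) (Fin 2) ℤ) 1 0 = 0 := Matrix.one_apply_ne (by decide)
      have h00 : (1 : Matrix (Fin 2) (Fin 2) ℤ) 0 0 = 1 := Matrix.one_apply_eq 0
      have h11 : (1 : Matrix (Fin 2) (Fin 2) ℤ) 1 1 = 1 := Matrix.one_apply_eq 1
      rcases fin_two_cases i with rfl | rfl <;> rcases fin_two_cases j with rfl | rfl <;>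
        simp only [h00, h01, h10, h11] <;>
        first | ring1 | linear_combination (-x) * hdet
    · have h1 : |t * x| = |t| * |x| := abs_mul t x
      have h2 : |t * x| - |y| ≤ |t * x - y| := abs_sub_abs_le_abs_sub _ _
      have h3 : 0 ≤ |x| := abs_nonneg x
      nlinarith

/-- An element of finite order of `SL₂(ℤ)` has trace `t` with `t² = 4` or `|t| ≤ 1`. -/
theorem trace_of_finOrder (γ : SL(2, ℤ)) (h : IsOfFinOrder γ) :
    ((γ : Matrix (Fin 2) (Fin 2) ℤ) 0 0 + (γ : Matrix (Fin 2) (Fin 2) ℤ) 1 1) ^ 2 = 4 ∨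
      |(γ : Matrix (Fin 2) (Fin 2) ℤ) 0 0 + (γ : Matrix (Fin 2) (Fin 2) ℤ) 1 1| ≤ 1 := by
  set A : Matrix (Fin 2) (Fin 2) ℤ := (γ : Matrix (Fin 2) (Fin 2) ℤ) with hA
  have hdet : A.det = 1 := γ.2
  by_cases ht : 2 ≤ |A 0 0 + A 1 1|
  · left
    obtain ⟨k, hk, hγ⟩ := (isOfFinOrder_iff_pow_eq_one).mp h
    obtain ⟨k, rfl⟩ : ∃ k', k = k' + 1 := ⟨k - 1, by omega⟩
    have hAk : A ^ (k + 1) = 1 := by
      have := congrArg (fun g : SL(2, ℤ) => (g : Matrix (Fin 2) (Fin 2) ℤ)) hγ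
      simpa using this
    obtain ⟨x, y, hxy, hlt⟩ := pow_eq_lin A hdet ht k
    rw [hAk] at hxy
    have hx : x ≠ 0 := by
      rintro rfl
      rw [abs_zero] at hlt
      exact absurd hlt (not_lt.mpr (abs_nonneg y))
    have e01 := hxy 0 1
    have e00 := hxy 0 0
    have e11 := hxy 1 1
    rw [Matrix.one_apply_ne (by decide), mul_zero, sub_zero] at e01
    rw [Matrix.one_apply_eq, mul_one] at e00 e11
    have hb : A 0 1 = 0 := by
      rcases mul_eq_zero.mp e01.symm with h0 | h0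
      · exact absurd h0 hx
      · exact h0
    have had : A 0 0 = A 1 1 := by
      have : x * A 0 0 = x * A 1 1 := by linarith
      exact mul_left_cancel₀ hx this
    rw [Matrix.det_fin_two, hb, zero_mul, sub_zero, ← had] at hdet
    rw [← had]
    nlinarith
  · right
    omega

end SL2

section Field

/-- In `𝔽_q` with `p^(n+1) ∣ q - 1`, `p` odd: every `v` with `v^12 = 1` is a `p^n`-th power. -/
theorem exists_root_field {p n q : ℕ} (hp : p.Prime) (hp2 : p ≠ 2) (hq : q.Prime)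
    (hdvd : p ^ (n + 1) ∣ q - 1) (v : ZMod q) (hv : v ^ 12 = 1) :
    ∃ y : ZMod q, y ^ (p ^ n) = v := by
  have : Fact q.Prime := ⟨hq⟩
  have hv0 : v ≠ 0 := by
    rintro rfl
    rw [zero_pow (by norm_num)] at hv
    exact zero_ne_one hv
  set v' : (ZMod q)ˣ := Units.mk0 v hv0 with hv'
  have hv'12 : v' ^ 12 = 1 := by
    apply Units.ext
    rw [Units.val_pow_eq_pow_val, Units.val_one]
    exact hv
  obtain ⟨g, hg⟩ := IsCyclic.exists_generator (α := (ZMod q)ˣ)
  have hord : orderOf g = q - 1 := by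
    rw [orderOf_eq_card_of_forall_mem_zpowers hg, Nat.card_eq_fintype_card, ZMod.card_units]
  obtain ⟨i, hi⟩ : ∃ i : ℕ, g ^ i = v' := by
    have := hg v'
    rw [← mem_powers_iff_mem_zpowers] at this
    exact this
  have h12 : q - 1 ∣ 12 * i := by
    rw [← hord]
    apply orderOf_dvd_of_pow_eq_one
    rw [mul_comm, pow_mul, hi, hv'12]
  have h1 : p ^ (n + 1) ∣ 12 * i := hdvd.trans h12
  have hpn : p ^ n ∣ i := by
    have hcop4 : Nat.Coprime (p ^ (n + 1)) 4 := by
      apply Nat.Coprime.pow_left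
      have : Nat.Coprime p 2 := (Nat.coprime_primes hp Nat.prime_two).mpr hp2
      exact Nat.Coprime.pow_right 2 this
    have h2 : p ^ (n + 1) ∣ 3 * i := by
      have : p ^ (n + 1) ∣ 4 * (3 * i) := by
        have e : 4 * (3 * i) = 12 * i := by ring
        rw [e]; exact h1
      exact hcop4.dvd_of_dvd_mul_left this
    by_cases h3 : p = 3
    · subst h3
      rw [pow_succ, mul_comm] at h2
      exact Nat.dvd_of_mul_dvd_mul_left (by norm_num) h2
    · have hcop3 : Nat.Coprime (p ^ (n + 1)) 3 := by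
        apply Nat.Coprime.pow_left
        exact (Nat.coprime_primes hp Nat.prime_three).mpr h3
      exact (Dvd.intro _ (pow_succ p n).symm).trans (hcop3.dvd_of_dvd_mul_left h2)
  obtain ⟨i', rfl⟩ := hpn
  refine ⟨((g ^ i' : (ZMod q)ˣ) : ZMod q), ?_⟩
  rw [← Units.val_pow_eq_pow_val, ← pow_mul, mul_comm i', hi]
  rfl

/-- A root of `X² - tX + 1`, `|t| ≤ 1`, is a twelfth root of unity. -/
theorem pow_twelve_eq_one {R : Type*} [CommRing R] (v : R) (t : ℤ) (ht : |t| ≤ 1)
    (h : v ^ 2 - (t : R) * v + 1 = 0) : v ^ 12 = 1 := by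
  have ht' : t = -1 ∨ t = 0 ∨ t = 1 := by
    rw [abs_le] at ht
    omega
  rcases ht' with rfl | rfl | rfl
  · have h2 : v ^ 2 = -v - 1 := by
      have : v ^ 2 - ((-1 : ℤ) : R) * v + 1 = 0 := h
      push_cast at this
      linear_combination this
    have h3 : v ^ 3 = 1 := by
      have : v ^ 3 = v * v ^ 2 := by ring
      rw [this, h2]
      linear_combination (-1 : R) * h2
    calc v ^ 12 = (v ^ 3) ^ 4 := by ring
      _ = 1 := by rw [h3, one_pow]
  · have h2 : v ^ 2 = -1 := by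
      have : v ^ 2 - ((0 : ℤ) : R) * v + 1 = 0 := h
      push_cast at this
      linear_combination this
    calc v ^ 12 = (v ^ 2) ^ 6 := by ring
      _ = 1 := by rw [h2]; norm_num
  · have h2 : v ^ 2 = v - 1 := by
      have : v ^ 2 - ((1 : ℤ) : R) * v + 1 = 0 := h
      push_cast at this
      linear_combination this
    have h3 : v ^ 3 = -1 := by
      have : v ^ 3 = v * v ^ 2 := by ring
      rw [this, h2]
      linear_combination h2
    calc v ^ 12 = (v ^ 3) ^ 4 := by ring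
      _ = 1 := by rw [h3]; norm_num

end Field

/-- **UNRCOND.** -/
theorem stmt_UNRCOND : Stmt_UNRCOND := by
  intro p n hp hp2 r qv hinj hqv M hcM H hH γ hγ
  classical
  set A : Matrix (Fin 2) (Fin 2) ℤ := (((γ : SL(2, ℤ)) : Matrix (Fin 2) (Fin 2) ℤ)) with hA
  show ((A 0 0 : ℤ) : ZMod (∏ j, qv j)) ∈ Fermat.Agent.NEB.cosetSet (∏ j, qv j) H 1
  have hdet : A 0 0 * A 1 1 - A 0 1 * A 1 0 = 1 := by
    have h := (γ : SL(2, ℤ)).2
    rwa [Matrix.det_fin_two] at h
  have hM : (M : ℤ) ∣ A 1 0 := by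
    have h := γ.2
    rw [CongruenceSubgroup.Gamma0_mem] at h
    exact (ZMod.intCast_zmod_eq_zero_iff_dvd _ _).mp h
  have hcM' : ((∏ j, qv j : ℕ) : ℤ) ∣ A 1 0 := (Int.natCast_dvd_natCast.mpr hcM).trans hM
  have hqdvd : ∀ j, ((qv j : ℕ) : ℤ) ∣ A 1 0 := fun j =>
    (Int.natCast_dvd_natCast.mpr (Finset.dvd_prod_of_mem qv (Finset.mem_univ j))).trans hcM'
  have hcop : Pairwise (Function.onFun Nat.Coprime qv) := fun i j hij =>
    (Nat.coprime_primes (hqv i).1 (hqv j).1).mpr (fun h => hij (hinj h))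
  set e := ZMod.prodEquivPi qv hcop with he
  -- the relations in every residue field
  have hrel : ∀ j, ((A 0 0 : ℤ) : ZMod (qv j)) * ((A 1 1 : ℤ) : ZMod (qv j)) = 1 := by
    intro j
    have h0 : ((A 1 0 : ℤ) : ZMod (qv j)) = 0 :=
      (ZMod.intCast_zmod_eq_zero_iff_dvd _ _).mpr (hqdvd j)
    have h1 := congrArg (fun z : ℤ => (z : ZMod (qv j))) hdet
    simp only [Int.cast_sub, Int.cast_mul, Int.cast_one, h0, mul_zero, sub_zero] at h1
    exact h1
  have hrelc : ((A 0 0 : ℤ) : ZMod (∏ j, qv j)) * ((A 1 1 : ℤ) : ZMod (∏ j, qv j)) = 1 := by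
    have h0 : ((A 1 0 : ℤ) : ZMod (∏ j, qv j)) = 0 :=
      (ZMod.intCast_zmod_eq_zero_iff_dvd _ _).mpr hcM'
    have h1 := congrArg (fun z : ℤ => (z : ZMod (∏ j, qv j))) hdet
    simp only [Int.cast_sub, Int.cast_mul, Int.cast_one, h0, mul_zero, sub_zero] at h1
    exact h1
  have heA : ∀ (z : ℤ) (j : Fin r), e (z : ZMod (∏ j, qv j)) j = (z : ZMod (qv j)) := by
    intro z j
    rw [map_intCast]
    rfl
  -- the trace
  have htr : (A 0 0 + A 1 1) ^ 2 = 4 ∨ |A 0 0 + A 1 1| ≤ 1 := by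
    rcases hγ with h | h
    · refine trace_of_finOrder (γ : SL(2, ℤ)) ?_
      obtain ⟨k, hk, hγk⟩ := (isOfFinOrder_iff_pow_eq_one).mp h
      refine (isOfFinOrder_iff_pow_eq_one).mpr ⟨k, hk, ?_⟩
      have := congrArg Subtype.val hγk
      simpa using this
    · exact Or.inl h
  rcases htr with h4 | h1
  · -- parabolic or central: `a ≡ ±1`
    have hs : A 0 0 + A 1 1 = 2 ∨ A 0 0 + A 1 1 = -2 := by
      have : (A 0 0 + A 1 1 - 2) * (A 0 0 + A 1 1 + 2) = 0 := by linear_combination h4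
      rcases mul_eq_zero.mp this with h | h
      · left; linarith
      · right; linarith
    have key : ∀ s : ℤ, s ^ 2 = 1 → A 0 0 + A 1 1 = 2 * s →
        ((A 0 0 : ℤ) : ZMod (∏ j, qv j)) = ((s : ℤ) : ZMod (∏ j, qv j)) := by
      intro s hs2 hsum
      apply e.injective
      funext j
      rw [heA, heA]
      have : Fact (qv j).Prime := ⟨(hqv j).1⟩
      have hsum' : ((A 0 0 : ℤ) : ZMod (qv j)) + ((A 1 1 : ℤ) : ZMod (qv j))
          = 2 * ((s : ℤ) : ZMod (qv j)) := by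
        have := congrArg (fun z : ℤ => (z : ZMod (qv j))) hsum
        simpa using this
      have hs2' : ((s : ℤ) : ZMod (qv j)) ^ 2 = 1 := by
        have := congrArg (fun z : ℤ => (z : ZMod (qv j))) hs2
        simpa using this
      have hsq : (((A 0 0 : ℤ) : ZMod (qv j)) - ((s : ℤ) : ZMod (qv j))) ^ 2 = 0 := by
        linear_combination (-1 : ZMod (qv j)) * hrel j
          + ((A 0 0 : ℤ) : ZMod (qv j)) * hsum' + hs2'
      exact sub_eq_zero.mp (pow_eq_zero_iff (two_ne_zero)|>.mp hsq)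
    rcases hs with h | h
    · have h1 := key 1 (by norm_num) (by rw [h]; norm_num)
      refine ⟨1, H.one_mem, Or.inl ?_⟩
      rw [h1, mul_one, Units.val_one, Int.cast_one]
    · have h1 := key (-1) (by norm_num) (by rw [h]; norm_num)
      refine ⟨1, H.one_mem, Or.inr ?_⟩
      rw [h1, mul_one, Units.val_one, Int.cast_neg, Int.cast_one]
  · -- elliptic: `a ^ 12 ≡ 1`
    have hroot : ∀ j, ∃ y : ZMod (qv j), y ^ (p ^ n) = ((A 0 0 : ℤ) : ZMod (qv j)) := by
      intro j
      refine exists_root_field hp hp2 (hqv j).1 (hqv j).2 _ ?_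
      refine pow_twelve_eq_one _ (A 0 0 + A 1 1) h1 ?_
      push_cast
      linear_combination (-1 : ZMod (qv j)) * hrel j
    choose y hy using hroot
    set Y : ZMod (∏ j, qv j) := e.symm y with hY
    have hYpow : Y ^ (p ^ n) = ((A 0 0 : ℤ) : ZMod (∏ j, qv j)) := by
      apply e.injective
      rw [map_pow, hY, e.apply_symm_apply]
      funext j
      rw [Pi.pow_apply, hy j, heA]
    have hunitA : IsUnit ((A 0 0 : ℤ) : ZMod (∏ j, qv j)) :=
      IsUnit.of_mul_eq_one _ hrelc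
    have hunitY : IsUnit Y := by
      rw [← hYpow] at hunitA
      exact (isUnit_pow_iff (pow_ne_zero n hp.ne_zero)).mp hunitA
    obtain ⟨u, hu⟩ := hunitY
    refine ⟨u ^ (p ^ n), hH u, Or.inl ?_⟩
    rw [one_mul, Units.val_pow_eq_pow_val, hu, hYpow]

end Fermat.Agent.S59.Asm.H57
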