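import Mathlib
import Fermat.Agent.S59.Asm.Main
import Fermat.Agent.S59.Asm.Cond

/-!
# S59 (helper53): the minimal case of modularity lifting, final interface

* `Stmt_TWGEOM` : the output of item 72 (LG-NEB + LIM): the Hecke module at the minimal level
  and, for every Taylor–Wiles family, the geometric data `TWGeom`.
* `Stmt_MLTmin2` : modularity lifting, minimal case (= `Stmt_MLTmin` of `Min.lean` with the
  hypothesis `fl = false → ρbar is not flat at p`, without which the strictly ordinary Hecke ring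
  does not exist: case C of `NOTES/plan/S59.md`).

Target (wiring, all inputs are `Prop`s or landed theorems):
  `theorem mlt_min2 : Stmt_TWGEOM → Stmt_COND → Datum.Stmt_DATUM → Stmt_TWprimes → Stmt_ASM →
      Stmt_MLTmin2`
Proof = `mlt_min` of `Min.lean` with `Stmt_TWH` unfolded:
1. `D` : `H99.stmt_DEF` (auxiliary set `∅`);  `[Fact (HasIntegralStructure N 2)]` : `S23.result`.
2. `H` : `Datum.Stmt_DATUM` at `(N, Smin, θ)`; `cond … ∅ H.ρ` : `Stmt_COND` with `Q = ∅`;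
   `φ` : `S54.result` (surjective, local, compatible).
3. `M` : `Stmt_TWGEOM`; `ηM` : `H85.stmt_LOCMOD`; `Module D.R M.V := Module.compHom _ (ηM ∘ φ)`;
   `ker φ` kills `M.V` by construction.
4. `r` : `Stmt_TWprimes`.  For every `n`: `qv`, `hqv`, `DQ` (`H99.stmt_DEF`, set `image qv`), `γ`;
   `NeZero (twLevel N qv)`; `G : TWGeom` (`Stmt_TWGEOM`); `HQ` : `Datum.Stmt_DATUM` at
   `(twLevel N qv, twSet Smin qv, θ ∘ G.rest)` (`FrobHyp` from `G.rest_T`);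
   `cond … (image qv) HQ.ρ` : `Stmt_COND` with `Q = image qv`; `φQ` : `S54.result`;
   `Stmt_ASM` gives `TWLevel 𝒪 p r D.R M.V n`.
5. `patchingDatum_of_twLevels` (`TWH.H14.stmt_DIV`) and `eigenform_of_patchingDatum`.
-/

set_option autoImplicit false

open Polynomial CuspForm CongruenceSubgroup ModularFormClass IsLocalRing

namespace Fermat.Agent.S59.Asm

open Fermat.Agent.S59

/-- **TWGEOM**: the geometric input of the minimal case (item 72). -/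
def Stmt_TWGEOM : Prop :=
  ∀ (𝒪 : Type) [CommRing 𝒪] [IsDomain 𝒪] [IsDiscreteValuationRing 𝒪]
    [IsAdicComplete (maximalIdeal 𝒪) 𝒪] [Finite (ResidueField 𝒪)] [CharZero 𝒪]
    (p : ℕ) [Fact p.Prime], p ≠ 2 → (p : 𝒪) ∈ maximalIdeal 𝒪 →
    ∀ (ρbar : ResidualGaloisRep (ResidueField 𝒪)) (Smin : Finset ℕ), ResHyp p ρbar Smin →
    ∀ (N : ℕ) [NeZero N] [Fact (CuspForm.HasIntegralStructure N 2)],
    (∀ q : ℕ, q.Prime → q ∣ N → q ∈ Smin) → Squarefree N →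
    ∀ (θ : CuspForm.heckeAlgebra N 2 (↑Smin : Set ℕ) →+* ResidueField 𝒪),
    Fermat.Agent.S59.Datum.FrobHyp ρbar N Smin θ →
    ∃ M : HMod 𝒪 N (↑Smin : Set ℕ) θ, Nontrivial M.V ∧
      ∀ (r n : ℕ) (qv : Fin r → ℕ), Fermat.Agent.S56.IsTWFamily ρbar p n Smin qv →
        ∀ [NeZero (twLevel N qv)] [Fact (CuspForm.HasIntegralStructure (twLevel N qv) 2)],
          Nonempty (TWGeom 𝒪 p ρbar N Smin θ M n qv)

/-- **Modularity lifting, minimal case** (final form). -/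
def Stmt_MLTmin2 : Prop :=
  ∀ (𝒪 : Type) [CommRing 𝒪] [IsDomain 𝒪] [IsDiscreteValuationRing 𝒪]
    [IsAdicComplete (maximalIdeal 𝒪) 𝒪] [Finite (ResidueField 𝒪)] [CharZero 𝒪]
    (p : ℕ) [Fact p.Prime], p ≠ 2 → (p : 𝒪) ∈ maximalIdeal 𝒪 →
    ∀ (fl : Bool) (ρbar : ResidualGaloisRep (ResidueField 𝒪)) (Smin : Finset ℕ),
    ResHyp p ρbar Smin →
    cond 𝒪 p fl Smin ∅ (GaloisRepAdic.ofResidualGaloisRep ρbar) →
    (fl = false → ¬ (GaloisRepAdic.ofResidualGaloisRep ρbar).IsFlatAt p) →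
    ∀ (N : ℕ) [NeZero N], N = minLevel p fl Smin →
    ∀ (θ : CuspForm.heckeAlgebra N 2 (↑Smin : Set ℕ) →+* ResidueField 𝒪),
    Fermat.Agent.S59.Datum.FrobHyp ρbar N Smin θ →
    ∀ (ρ : GaloisRepAdic 𝒪), cond 𝒪 p fl Smin ∅ ρ →
    ρ.residual.IsEquiv (ρbar.baseChangeAlong (ResidueField.map (algebraMap 𝒪 𝒪))) →
    ∀ (a : ℕ → ℤ),
    (∀ ℓ : ℕ, ℓ.Prime → ¬ ℓ ∣ N → ℓ ∉ (↑Smin : Set ℕ) →
      ∀ A : ValuationSubring (AlgebraicClosure ℚ), A.LiesOverPrime ℓ →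
        ∀ σ : AlgebraicClosure ℚ ≃ₐ[ℚ] AlgebraicClosure ℚ, A.IsFrobeniusAt σ ℓ →
          LinearMap.charpoly (ρ.ρ σ) = X ^ 2 - C (((a ℓ : ℤ) : 𝒪)) * X + C ((ℓ : 𝒪))) →
    ∃ g : CuspForm (Gamma0 N) 2, g.IsNormalizedEigenform ∧
      ∀ ℓ : ℕ, ℓ.Prime → ¬ ℓ ∣ N → ℓ ∉ (↑Smin : Set ℕ) → qCoeff ⇑g ℓ = (a ℓ : ℂ)

/-- the wiring to be proved -/
def Stmt_MIN2WIRE : Prop :=
  Stmt_TWGEOM → Stmt_COND → Fermat.Agent.S59.Datum.Stmt_DATUM → Stmt_TWprimes → Stmt_ASM →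
    Stmt_MLTmin2

end Fermat.Agent.S59.Asm
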