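import Fermat.Agent.S59.Asm.H85_LocLift
import Fermat.Agent.S59.Asm.Leaves

set_option autoImplicit false
set_option linter.unusedSectionVars false
set_option linter.style.haveILetI false

/-!
# S59, package ASM (helper85): the leaf LOCMOD

`stmt_LOCMOD : Stmt_LOCMOD` : a Hecke module `M : HMod 𝒪 N S θ` (finite free over `𝒪`, local at
`θ`) is a module over the local Hecke ring `heckeLocal N S 𝒪 θ`.

Proof.  `g : 𝒪 ⊗ 𝕋 → End_𝒪 V`.  After base change to the residue field `k`, every `x` is of the
form `c + (nilpotent)` with `residue c = residualCharacter x`; so if `residualCharacter x ≠ 0`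
the base change of `g x` is invertible, hence `det (g x)` is a unit of `𝒪` and `g x` is
invertible.  Then `exists_lift`.
-/

noncomputable section

open scoped TensorProduct
open IsLocalRing CuspForm

namespace Fermat.Agent.S59.Asm.H85

open Fermat.Agent.S59.Datum.H85

section general

variable {R : Type*} [CommRing R] [IsLocalRing R] {V : Type*} [AddCommGroup V] [Module R V]

/-- An endomorphism of a finite free module over a local ring is invertible as soon as its base
change to the residue field is. -/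
theorem isUnit_of_isUnit_baseChange [Module.Finite R V] [Module.Free R V] (f : Module.End R V)
    (h : IsUnit (f.baseChange (ResidueField R))) : IsUnit f := by
  rw [LinearMap.isUnit_iff_isUnit_det]
  have h1 := LinearMap.isUnit_det _ h
  rw [LinearMap.det_baseChange] at h1
  exact (isUnit_map_iff (residue R) _).mp h1

/-- An endomorphism with values in `𝔪 V` dies after base change to the residue field. -/
theorem baseChange_eq_zero_of_forall_mem (f : Module.End R V)
    (h : ∀ v, f v ∈ (maximalIdeal R • ⊤ : Submodule R V)) :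
    f.baseChange (ResidueField R) = 0 := by
  have key : ∀ w ∈ (maximalIdeal R • ⊤ : Submodule R V),
      ((1 : ResidueField R) ⊗ₜ[R] w : ResidueField R ⊗[R] V) = 0 := by
    intro w hw
    induction hw using Submodule.smul_induction_on' with
    | smul r hr n _ =>
      rw [← TensorProduct.smul_tmul, Algebra.smul_def, mul_one]
      have : algebraMap R (ResidueField R) r = 0 := (residue_eq_zero_iff r).mpr hr
      rw [this, TensorProduct.zero_tmul]
    | add x _ y _ hx hy => rw [TensorProduct.tmul_add, hx, hy, add_zero]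
  apply TensorProduct.AlgebraTensorModule.curry_injective
  ext v
  show (f.baseChange (ResidueField R)) ((1 : ResidueField R) ⊗ₜ[R] v) = 0
  rw [LinearMap.baseChange_tmul]
  exact key _ (h v)

end general

set_option synthInstance.maxHeartbeats 400000
set_option maxHeartbeats 1000000

/-- **LOCMOD.** -/
theorem stmt_LOCMOD : Stmt_LOCMOD := by
  intro 𝒪 _ _ _ _ N _ _ S θ M
  -- the action of `𝒪 ⊗ 𝕋`
  let g : (𝒪 ⊗[ℤ] ↥(heckeAlgebra N 2 S)) →ₐ[𝒪] Module.End 𝒪 M.V :=
    Algebra.TensorProduct.lift (Algebra.ofId 𝒪 (Module.End 𝒪 M.V)) M.η.toIntAlgHom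
      (fun a t => by rw [Algebra.ofId_apply]; exact Algebra.commute_algebraMap_left a _)
  have hg : ∀ (a : 𝒪) (t : ↥(heckeAlgebra N 2 S)),
      g (a ⊗ₜ[ℤ] t) = algebraMap 𝒪 (Module.End 𝒪 M.V) a * M.η t := fun a t => by
    show Algebra.TensorProduct.lift _ _ _ (a ⊗ₜ[ℤ] t) = _
    rw [Algebra.TensorProduct.lift_tmul]
    rfl
  -- base change to the residue field
  let G : (𝒪 ⊗[ℤ] ↥(heckeAlgebra N 2 S)) →ₐ[𝒪]
      Module.End (ResidueField 𝒪) (ResidueField 𝒪 ⊗[𝒪] M.V) :=
    (Module.End.baseChangeHom 𝒪 (ResidueField 𝒪) M.V).comp g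
  have hG : ∀ x, G x = (g x).baseChange (ResidueField 𝒪) := fun x => rfl
  have hcomm : ∀ x y, Commute (G x) (G y) := fun x y => (Commute.all x y).map G
  -- the key induction
  have key : ∀ x : 𝒪 ⊗[ℤ] ↥(heckeAlgebra N 2 S), ∃ c : 𝒪,
      residualCharacter N S 𝒪 θ x = residue 𝒪 c ∧
        IsNilpotent (G (x - algebraMap 𝒪 _ c)) := by
    intro x
    induction x using TensorProduct.induction_on with
    | zero =>
      refine ⟨0, by rw [map_zero, map_zero], ?_⟩
      rw [map_zero, sub_zero, map_zero]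
      exact IsNilpotent.zero
    | tmul a t =>
      obtain ⟨b, hb⟩ := residue_surjective (θ t)
      refine ⟨a * b, by rw [residualCharacter_tmul, map_mul, hb], ?_⟩
      have h1 : (a ⊗ₜ[ℤ] t : 𝒪 ⊗[ℤ] ↥(heckeAlgebra N 2 S)) - algebraMap 𝒪 _ (a * b)
          = algebraMap 𝒪 _ a * ((1 : 𝒪) ⊗ₜ[ℤ] t - algebraMap 𝒪 _ b) := by
        have h0 : (a ⊗ₜ[ℤ] t : 𝒪 ⊗[ℤ] ↥(heckeAlgebra N 2 S))
            = algebraMap 𝒪 _ a * ((1 : 𝒪) ⊗ₜ[ℤ] t) := by
          rw [Algebra.TensorProduct.algebraMap_apply, Algebra.algebraMap_self, RingHom.id_apply,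
            Algebra.TensorProduct.tmul_mul_tmul, mul_one, one_mul]
        rw [mul_sub, ← map_mul, ← h0]
      rw [h1, map_mul]
      refine Commute.isNilpotent_mul_left (hcomm _ _) ?_
      obtain ⟨m, hm⟩ := M.η_local t b hb
      refine ⟨m, ?_⟩
      rw [hG, ← LinearMap.baseChange_pow]
      apply baseChange_eq_zero_of_forall_mem
      intro v
      have h2 : g ((1 : 𝒪) ⊗ₜ[ℤ] t - algebraMap 𝒪 _ b)
          = M.η t - b • (1 : Module.End 𝒪 M.V) := by
        rw [map_sub, hg, map_one, one_mul, AlgHom.commutes, Algebra.algebraMap_eq_smul_one]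
      rw [h2]
      exact hm v
    | add x y hx hy =>
      obtain ⟨c, hc, hcn⟩ := hx
      obtain ⟨d, hd, hdn⟩ := hy
      refine ⟨c + d, by rw [map_add, map_add, hc, hd], ?_⟩
      have h1 : x + y - algebraMap 𝒪 _ (c + d)
          = (x - algebraMap 𝒪 _ c) + (y - algebraMap 𝒪 _ d) := by
        rw [map_add]; abel
      rw [h1, map_add]
      exact Commute.isNilpotent_add (hcomm _ _) hcn hdn
  -- units
  have hunit : ∀ s, residualCharacter N S 𝒪 θ s ≠ 0 → IsUnit (g s) := by
    intro s hs
    apply isUnit_of_isUnit_baseChange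
    rw [← hG]
    obtain ⟨c, hc, hcn⟩ := key s
    have hcu : IsUnit c := by
      by_contra hnu
      exact hs (hc.trans ((residue_eq_zero_iff _).mpr ((mem_maximalIdeal _).mpr hnu)))
    have h1 : G s = G (algebraMap 𝒪 _ c) + G (s - algebraMap 𝒪 _ c) := by
      rw [← map_add]; congr 1; abel
    rw [h1]
    have hu : IsUnit (G (algebraMap 𝒪 _ c)) := by
      rw [AlgHom.commutes]
      exact hcu.map (algebraMap 𝒪 _)
    have h2 : Commute (G (s - algebraMap 𝒪 _ c)) (G (algebraMap 𝒪 _ c)) := hcomm _ _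
    exact @IsNilpotent.isUnit_add_left_of_commute
      (Module.End (ResidueField 𝒪) (ResidueField 𝒪 ⊗[𝒪] M.V)) _ _ _ hcn hu h2
  obtain ⟨ghat, hghat⟩ := exists_lift 𝒪 N S θ g.toRingHom hunit
  refine ⟨{ ghat with commutes' := fun a => ?_ }, fun t => ?_⟩
  · show ghat (algebraMap 𝒪 (heckeLocal N S 𝒪 θ) a) = algebraMap 𝒪 _ a
    rw [← toLocal_algebraMap, hghat]
    exact g.commutes a
  · show ghat (heckeLocal.π N S 𝒪 θ t) = M.η t
    rw [← toLocal_includeRight, hghat]
    show g ((1 : 𝒪) ⊗ₜ[ℤ] t) = M.η t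
    rw [hg, map_one, one_mul]

end Fermat.Agent.S59.Asm.H85

end
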