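import Mathlib
import Fermat.Agent.S59.Asm.Min2
import Fermat.Agent.S59.Asm.H85_LocMod
import Fermat.Agent.S59.H99_Def
import Fermat.Agent.S59.TWH.H14_Div
import Fermat.Agent.S59.TW
import Fermat.Agent.S59.TWDatum
import Fermat.Agent.S23
import Fermat.Agent.S54

/-!
# S59 (helper2): the wiring of the minimal case, `Asm.Stmt_MIN2WIRE`

`stmt_MIN2WIRE : Stmt_TWGEOM → Stmt_COND → Datum.Stmt_DATUM → Stmt_TWprimes → Stmt_ASM →
  Stmt_MLTmin2`.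

* arithmetic of the levels: `prime_dvd_minLevel`, `squarefree_minLevel`, `minLevel_exact`,
  `not_dvd_minLevel_of_fl`, `dvd_minLevel_of_not_fl`, and the same at the level `twLevel N qv`;
* `frobHyp_comp_rest`;
* the wiring.
-/

set_option autoImplicit false
set_option linter.style.haveILetI false
set_option linter.unusedSectionVars false
set_option linter.unusedVariables false
set_option maxHeartbeats 1000000

open Polynomial CuspForm CongruenceSubgroup ModularFormClass IsLocalRing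

namespace Fermat.Agent.S59.Asm.H2

open Fermat.Agent.S59 Fermat.Agent.S59.Asm

/-! ### Arithmetic of the minimal level -/

section Level

variable {p : ℕ} {Smin : Finset ℕ}

/-- a prime dividing a product of primes is one of them -/
theorem prime_mem_of_dvd_prod {s : Finset ℕ} (hs : ∀ q ∈ s, q.Prime) {q : ℕ} (hq : q.Prime)
    (h : q ∣ ∏ q' ∈ s, q') : q ∈ s := by
  obtain ⟨q', hq', hqq'⟩ := (Prime.dvd_finsetProd_iff hq.prime _).mp h
  have : q = q' := (Nat.prime_dvd_prime_iff_eq hq (hs q' hq')).mp hqq'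
  rw [this]
  exact hq'

theorem squarefree_prod_primes {s : Finset ℕ} (hs : ∀ q ∈ s, q.Prime) :
    Squarefree (∏ q' ∈ s, q') := by
  refine Finset.squarefree_prod_of_pairwise_isCoprime (f := fun q : ℕ => q)
    (fun a ha b hb hab => ?_) (fun a ha => (hs a ha).squarefree)
  show IsRelPrime a b
  rw [← Nat.coprime_iff_isRelPrime]
  exact (Nat.coprime_primes (hs a ha) (hs b hb)).mpr hab

/-- the primes dividing the minimal level are in `Smin` -/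
theorem prime_dvd_minLevel (hp : p.Prime) (fl : Bool) (hS : ∀ q ∈ Smin, q.Prime)
    (hpS : p ∈ Smin) {q : ℕ} (hq : q.Prime) (h : q ∣ minLevel p fl Smin) : q ∈ Smin := by
  unfold minLevel at h
  rcases (Nat.Prime.dvd_mul hq).mp h with h1 | h1
  · exact Finset.mem_of_mem_erase
      (prime_mem_of_dvd_prod (fun q' hq' => hS q' (Finset.mem_of_mem_erase hq')) hq h1)
  · split at h1
    · exact absurd (Nat.dvd_one.mp h1) hq.one_lt.ne'
    · rw [(Nat.prime_dvd_prime_iff_eq hq hp).mp h1]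
      exact hpS

/-- `p` does not divide the product of the other primes -/
theorem not_dvd_prod_erase (hp : p.Prime) (hS : ∀ q ∈ Smin, q.Prime) :
    ¬ p ∣ ∏ q' ∈ Smin.erase p, q' := by
  intro h
  have := prime_mem_of_dvd_prod (fun q' hq' => hS q' (Finset.mem_of_mem_erase hq')) hp h
  exact (Finset.notMem_erase p Smin) this

theorem squarefree_minLevel (hp : p.Prime) (fl : Bool) (hS : ∀ q ∈ Smin, q.Prime) :
    Squarefree (minLevel p fl Smin) := by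
  unfold minLevel
  have h1 : Squarefree (∏ q' ∈ Smin.erase p, q') :=
    squarefree_prod_primes (fun q' hq' => hS q' (Finset.mem_of_mem_erase hq'))
  split
  · rw [mul_one]
    exact h1
  · rw [Nat.squarefree_mul_iff]
    refine ⟨?_, h1, hp.squarefree⟩
    rw [Nat.coprime_comm]
    exact (Nat.Prime.coprime_iff_not_dvd hp).mpr (not_dvd_prod_erase hp hS)

theorem dvd_minLevel_of_mem (fl : Bool) {q : ℕ} (hq : q ∈ Smin) (hqp : q ≠ p) :
    q ∣ minLevel p fl Smin := by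
  unfold minLevel
  exact Dvd.dvd.mul_right (Finset.dvd_prod_of_mem _ (Finset.mem_erase.mpr ⟨hqp, hq⟩)) _

theorem not_sq_dvd_of_squarefree {N q : ℕ} (hN : Squarefree N) (hq : q.Prime) :
    ¬ q ^ 2 ∣ N := by
  intro h
  rw [pow_two] at h
  exact hq.one_lt.ne' (Nat.isUnit_iff.mp (hN q h))

theorem not_dvd_minLevel_of_fl (hp : p.Prime) (hS : ∀ q ∈ Smin, q.Prime) :
    ¬ p ∣ minLevel p true Smin := by
  unfold minLevel
  simp only [if_true, mul_one]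
  exact not_dvd_prod_erase hp hS

theorem dvd_minLevel_of_not_fl : p ∣ minLevel p false Smin := by
  unfold minLevel
  simp only [Bool.false_eq_true, if_false]
  exact Dvd.intro_left _ rfl

/-! ### The level at a Taylor–Wiles family -/

variable {r : ℕ} {qv : Fin r → ℕ}

theorem twLevel_ne_zero {N : ℕ} (hN : N ≠ 0) (hqv : ∀ i, (qv i).Prime) : twLevel N qv ≠ 0 := by
  unfold twLevel
  refine mul_ne_zero hN (Finset.prod_ne_zero_iff.mpr fun j _ => ?_)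
  exact pow_ne_zero 2 (hqv j).ne_zero

/-- a prime dividing `∏ q_j²` is one of the `q_j` -/
theorem prime_dvd_prod_sq (hqv : ∀ i, (qv i).Prime) {q : ℕ} (hq : q.Prime)
    (h : q ∣ ∏ j, qv j ^ 2) : ∃ j, q = qv j := by
  obtain ⟨j, -, hj⟩ := (Prime.dvd_finsetProd_iff hq.prime _).mp h
  have := hq.dvd_of_dvd_pow hj
  exact ⟨j, (Nat.prime_dvd_prime_iff_eq hq (hqv j)).mp this⟩

theorem prime_dvd_twLevel {N : ℕ} {S : Finset ℕ} (hNS : ∀ q : ℕ, q.Prime → q ∣ N → q ∈ S)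
    (hqv : ∀ i, (qv i).Prime) {q : ℕ} (hq : q.Prime) (h : q ∣ twLevel N qv) :
    q ∈ twSet S qv := by
  unfold twLevel at h
  unfold twSet
  rcases (Nat.Prime.dvd_mul hq).mp h with h1 | h1
  · exact Finset.mem_union_left _ (hNS q hq h1)
  · obtain ⟨j, rfl⟩ := prime_dvd_prod_sq hqv hq h1
    exact Finset.mem_union_right _ (Finset.mem_image_of_mem _ (Finset.mem_univ j))

/-- a prime of `S` divides `twLevel N qv` exactly as it divides `N` -/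
theorem coprime_prod_sq {S : Finset ℕ} (hqv : ∀ i, (qv i).Prime) (hqS : ∀ i, qv i ∉ S)
    {q : ℕ} (hq : q.Prime) (hqS' : q ∈ S) (k : ℕ) : Nat.Coprime (q ^ k) (∏ j, qv j ^ 2) := by
  refine Nat.Coprime.pow_left k ?_
  rw [Nat.Prime.coprime_iff_not_dvd hq]
  intro h
  obtain ⟨j, rfl⟩ := prime_dvd_prod_sq hqv hq h
  exact hqS j hqS'

theorem pow_dvd_twLevel_iff {N : ℕ} {S : Finset ℕ} (hqv : ∀ i, (qv i).Prime)
    (hqS : ∀ i, qv i ∉ S) {q : ℕ} (hq : q.Prime) (hqS' : q ∈ S) (k : ℕ) :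
    q ^ k ∣ twLevel N qv ↔ q ^ k ∣ N := by
  unfold twLevel
  constructor
  · intro h
    exact (coprime_prod_sq hqv hqS hq hqS' k).dvd_of_dvd_mul_right h
  · intro h
    exact Dvd.dvd.mul_right h _

end Level

/-! ### The Frobenius hypothesis at the Taylor–Wiles level -/

theorem frobHyp_comp_rest {k : Type} [Field k] {ρbar : ResidualGaloisRep k} {N : ℕ} [NeZero N]
    {Smin : Finset ℕ} {θ : CuspForm.heckeAlgebra N 2 (↑Smin : Set ℕ) →+* k}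
    (hθ : Fermat.Agent.S59.Datum.FrobHyp ρbar N Smin θ) {r : ℕ} {qv : Fin r → ℕ}
    [NeZero (twLevel N qv)]
    (rest : CuspForm.heckeAlgebra (twLevel N qv) 2 (↑(twSet Smin qv) : Set ℕ) →+*
      CuspForm.heckeAlgebra N 2 (↑Smin : Set ℕ))
    (rest_T : ∀ (ℓ : ℕ) (hℓ : ℓ.Prime) (hℓN' : ¬ ℓ ∣ twLevel N qv)
      (hℓS' : ℓ ∉ (↑(twSet Smin qv) : Set ℕ)) (hℓN : ¬ ℓ ∣ N) (hℓS : ℓ ∉ (↑Smin : Set ℕ)),
      rest (CuspForm.heckeAlgebra.T hℓ hℓN' hℓS') = CuspForm.heckeAlgebra.T hℓ hℓN hℓS) :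
    Fermat.Agent.S59.Datum.FrobHyp ρbar (twLevel N qv) (twSet Smin qv) (θ.comp rest) := by
  intro ℓ hℓ hℓN' hℓS' A hA σ hσ
  have hℓN : ¬ ℓ ∣ N := fun h => hℓN' (Dvd.dvd.mul_right h _)
  have hℓS : ℓ ∉ (↑Smin : Set ℕ) := fun h => hℓS' (by
    rw [Finset.mem_coe] at h ⊢
    exact Finset.mem_union_left _ h)
  rw [RingHom.comp_apply, rest_T ℓ hℓ hℓN' hℓS' hℓN hℓS]
  exact hθ ℓ hℓ hℓN hℓS A hA σ hσ

/-! ### The wiring -/

section Wire

variable (𝒪 : Type) [CommRing 𝒪] [IsDomain 𝒪] [IsDiscreteValuationRing 𝒪]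
  [IsAdicComplete (maximalIdeal 𝒪) 𝒪] [Finite (ResidueField 𝒪)] [CharZero 𝒪]
  (p : ℕ) [Fact p.Prime]

/-- **The Hecke–Galois data at the minimal level** (DATUM + COND + S54 + LOCMOD): for a given
deformation ring `D` and Hecke module `M`. -/
theorem exists_minimal_data (hCOND : Stmt_COND) (hDATUM : Fermat.Agent.S59.Datum.Stmt_DATUM)
    (hp2 : p ≠ 2) (hp𝒪 : (p : 𝒪) ∈ maximalIdeal 𝒪)
    (fl : Bool) (ρbar : ResidualGaloisRep (ResidueField 𝒪)) (Smin : Finset ℕ)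
    (hyp : ResHyp p ρbar Smin)
    (hbar : cond 𝒪 p fl Smin ∅ (GaloisRepAdic.ofResidualGaloisRep ρbar))
    (hnf : fl = false → ¬ (GaloisRepAdic.ofResidualGaloisRep ρbar).IsFlatAt p)
    (N : ℕ) [NeZero N] [Fact (CuspForm.HasIntegralStructure N 2)]
    (hN : N = minLevel p fl Smin)
    (θ : CuspForm.heckeAlgebra N 2 (↑Smin : Set ℕ) →+* ResidueField 𝒪)
    (hθ : Fermat.Agent.S59.Datum.FrobHyp ρbar N Smin θ)
    (D : GaloisRep.DeformationRingData 𝒪 ρbar (cond 𝒪 p fl Smin ∅))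
    (M : HMod 𝒪 N (↑Smin : Set ℕ) θ) :
    ∃ (H : CuspForm.HeckeGaloisRepDatum N (↑Smin : Set ℕ) 𝒪 θ
        (CuspForm.heckeLocal N (↑Smin : Set ℕ) 𝒪 θ))
      (φ : D.R →ₐ[𝒪] CuspForm.heckeLocal N (↑Smin : Set ℕ) 𝒪 θ)
      (hφ : IsLocalHom (φ : D.R →+* CuspForm.heckeLocal N (↑Smin : Set ℕ) 𝒪 θ))
      (ηM : CuspForm.heckeLocal N (↑Smin : Set ℕ) 𝒪 θ →ₐ[𝒪] Module.End 𝒪 M.V),
      H.π = CuspForm.heckeLocal.π N (↑Smin : Set ℕ) 𝒪 θ ∧
      cond 𝒪 p fl Smin ∅ H.ρ ∧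
      H.ρ.residual.IsEquiv (ρbar.baseChangeAlong
        (ResidueField.map (algebraMap 𝒪 (CuspForm.heckeLocal N (↑Smin : Set ℕ) 𝒪 θ)))) ∧
      Function.Surjective φ ∧
      (D.ρ.baseChangeAlong (φ : D.R →+* CuspForm.heckeLocal N (↑Smin : Set ℕ) 𝒪 θ) hφ).IsEquiv
        H.ρ ∧
      (∀ t : CuspForm.heckeAlgebra N 2 (↑Smin : Set ℕ),
        ηM (CuspForm.heckeLocal.π N (↑Smin : Set ℕ) 𝒪 θ t) = M.η t) := by
  have hpP : p.Prime := Fact.out
  have hNS : ∀ q : ℕ, q.Prime → q ∣ N → q ∈ Smin := by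
    intro q hq hqN
    rw [hN] at hqN
    exact prime_dvd_minLevel hpP fl hyp.hS hyp.hpSmin hq hqN
  have hsqf : Squarefree N := by
    rw [hN]
    exact squarefree_minLevel hpP fl hyp.hS
  obtain ⟨H, hHπ, hHdet, hHres⟩ :=
    hDATUM 𝒪 p hp2 hp𝒪 N Smin hyp.hpSmin hNS ρbar hyp.habs θ hθ
  have hHcond : cond 𝒪 p fl Smin ∅ H.ρ := by
    refine hCOND 𝒪 p hp2 hp𝒪 fl ρbar Smin hyp hbar hnf ∅ N Smin (Finset.union_empty _).symm hNS
      ?_ ?_ ?_ θ hθ H hHπ hHdet hHres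
    · intro q hq hqp
      refine ⟨?_, not_sq_dvd_of_squarefree hsqf (hyp.hS q hq)⟩
      rw [hN]
      exact dvd_minLevel_of_mem fl hq hqp
    · intro hfl
      rw [hN, hfl]
      exact not_dvd_minLevel_of_fl hpP hyp.hS
    · intro hfl
      refine ⟨?_, not_sq_dvd_of_squarefree hsqf hpP⟩
      rw [hN, hfl]
      exact dvd_minLevel_of_not_fl
  obtain ⟨φ, hφs, hφl, hφe⟩ := Fermat.Agent.S54.result D H
    (fun q hq hqN => Finset.mem_coe.mpr (hNS q hq hqN)) hHcond hHres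
  obtain ⟨ηM, hηM⟩ := Fermat.Agent.S59.Asm.H85.stmt_LOCMOD 𝒪 N (↑Smin : Set ℕ) θ M
  exact ⟨H, φ, hφl, ηM, hHπ, hHcond, hHres, hφs, hφe, hηM⟩

/-- **The Taylor–Wiles levels** (TWprimes + DEF + DATUM + COND + S54 + ASM at every level). -/
theorem exists_twLevels (hCOND : Stmt_COND) (hDATUM : Fermat.Agent.S59.Datum.Stmt_DATUM)
    (hTWP : Stmt_TWprimes) (hASM : Stmt_ASM)
    (hp2 : p ≠ 2) (hp𝒪 : (p : 𝒪) ∈ maximalIdeal 𝒪)
    (fl : Bool) (ρbar : ResidualGaloisRep (ResidueField 𝒪)) (Smin : Finset ℕ)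
    (hyp : ResHyp p ρbar Smin)
    (hbar : cond 𝒪 p fl Smin ∅ (GaloisRepAdic.ofResidualGaloisRep ρbar))
    (hnf : fl = false → ¬ (GaloisRepAdic.ofResidualGaloisRep ρbar).IsFlatAt p)
    (N : ℕ) [NeZero N] [Fact (CuspForm.HasIntegralStructure N 2)]
    (hN : N = minLevel p fl Smin)
    (θ : CuspForm.heckeAlgebra N 2 (↑Smin : Set ℕ) →+* ResidueField 𝒪)
    (hθ : Fermat.Agent.S59.Datum.FrobHyp ρbar N Smin θ)
    (D : GaloisRep.DeformationRingData 𝒪 ρbar (cond 𝒪 p fl Smin ∅))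
    (M : HMod 𝒪 N (↑Smin : Set ℕ) θ)
    (hG : ∀ (r n : ℕ) (qv : Fin r → ℕ), Fermat.Agent.S56.IsTWFamily ρbar p n Smin qv →
      ∀ [NeZero (twLevel N qv)] [Fact (CuspForm.HasIntegralStructure (twLevel N qv) 2)],
        Nonempty (TWGeom 𝒪 p ρbar N Smin θ M n qv))
    (H : CuspForm.HeckeGaloisRepDatum N (↑Smin : Set ℕ) 𝒪 θ
      (CuspForm.heckeLocal N (↑Smin : Set ℕ) 𝒪 θ))
    (hHπ : H.π = CuspForm.heckeLocal.π N (↑Smin : Set ℕ) 𝒪 θ)
    (hHcond : cond 𝒪 p fl Smin ∅ H.ρ)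
    (hHres : H.ρ.residual.IsEquiv (ρbar.baseChangeAlong
      (ResidueField.map (algebraMap 𝒪 (CuspForm.heckeLocal N (↑Smin : Set ℕ) 𝒪 θ)))))
    (φ : D.R →ₐ[𝒪] CuspForm.heckeLocal N (↑Smin : Set ℕ) 𝒪 θ)
    (hφ : IsLocalHom (φ : D.R →+* CuspForm.heckeLocal N (↑Smin : Set ℕ) 𝒪 θ))
    (hφe : (D.ρ.baseChangeAlong (φ : D.R →+* CuspForm.heckeLocal N (↑Smin : Set ℕ) 𝒪 θ)
      hφ).IsEquiv H.ρ)
    (ηM : CuspForm.heckeLocal N (↑Smin : Set ℕ) 𝒪 θ →ₐ[𝒪] Module.End 𝒪 M.V)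
    (hηM : ∀ t : CuspForm.heckeAlgebra N 2 (↑Smin : Set ℕ),
      ηM (CuspForm.heckeLocal.π N (↑Smin : Set ℕ) 𝒪 θ t) = M.η t) :
    ∃ r : ℕ, ∀ n : ℕ, Nonempty (@TWLevel 𝒪 _ _ p r D.R _ _ M.V _
      (Module.compHom M.V ((ηM.comp φ : D.R →ₐ[𝒪] Module.End 𝒪 M.V) :
        D.R →+* Module.End 𝒪 M.V)) n) := by
  have hpP : p.Prime := Fact.out
  have hNS : ∀ q : ℕ, q.Prime → q ∣ N → q ∈ Smin := by
    intro q hq hqN
    rw [hN] at hqN
    exact prime_dvd_minLevel hpP fl hyp.hS hyp.hpSmin hq hqN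
  have hsqf : Squarefree N := by
    rw [hN]
    exact squarefree_minLevel hpP fl hyp.hS
  obtain ⟨r, hr⟩ := hTWP 𝒪 p hp2 hp𝒪 fl ρbar Smin hyp
  refine ⟨r, fun n => ?_⟩
  obtain ⟨qv, hqv, hγ⟩ := hr n
  have hqvP : ∀ i, (qv i).Prime := fun i => (hqv.2.1 i).1
  have hqvS : ∀ i, qv i ∉ Smin := fun i => (hqv.2.1 i).2.1
  have hbarQ : cond 𝒪 p fl Smin (Finset.univ.image qv)
      (GaloisRepAdic.ofResidualGaloisRep ρbar) :=
    cond_mono (Finset.empty_subset _) hbar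
  obtain ⟨DQ⟩ := Fermat.Agent.S59.H99.stmt_DEF 𝒪 p hp2 hp𝒪 fl ρbar hyp.habs Smin
    (Finset.univ.image qv) hyp.hpSmin
    (fun q hq => by
      rcases Finset.mem_union.mp hq with h | h
      · exact hyp.hS q h
      · obtain ⟨i, -, rfl⟩ := Finset.mem_image.mp h
        exact hqvP i) hbarQ
  obtain ⟨γ, hγs⟩ := hγ DQ
  haveI : NeZero (twLevel N qv) := ⟨twLevel_ne_zero (NeZero.ne N) hqvP⟩
  haveI : Fact (CuspForm.HasIntegralStructure (twLevel N qv) 2) :=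
    ⟨Fermat.Agent.S23.result (twLevel N qv)⟩
  obtain ⟨G⟩ := hG r n qv hqv
  have hN'S : ∀ q : ℕ, q.Prime → q ∣ twLevel N qv → q ∈ twSet Smin qv :=
    fun q hq h => prime_dvd_twLevel hNS hqvP hq h
  have hθQ : Fermat.Agent.S59.Datum.FrobHyp ρbar (twLevel N qv) (twSet Smin qv)
      (θ.comp G.rest) := frobHyp_comp_rest hθ G.rest G.rest_T
  obtain ⟨HQ, hHQπ, hHQdet, hHQres⟩ :=
    hDATUM 𝒪 p hp2 hp𝒪 (twLevel N qv) (twSet Smin qv)
      (Finset.mem_union_left _ hyp.hpSmin) hN'S ρbar hyp.habs (θ.comp G.rest) hθQ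
  have hHQcond : cond 𝒪 p fl Smin (Finset.univ.image qv) HQ.ρ := by
    refine hCOND 𝒪 p hp2 hp𝒪 fl ρbar Smin hyp hbar hnf (Finset.univ.image qv) (twLevel N qv)
      (twSet Smin qv) rfl hN'S ?_ ?_ ?_ (θ.comp G.rest) hθQ HQ hHQπ hHQdet hHQres
    · intro q hq hqp
      have h1 := pow_dvd_twLevel_iff (N := N) hqvP hqvS (hyp.hS q hq) hq 1
      have h2 := pow_dvd_twLevel_iff (N := N) hqvP hqvS (hyp.hS q hq) hq 2
      rw [pow_one] at h1
      refine ⟨h1.mpr ?_, fun h => not_sq_dvd_of_squarefree hsqf (hyp.hS q hq) (h2.mp h)⟩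
      rw [hN]
      exact dvd_minLevel_of_mem fl hq hqp
    · intro hfl h
      have h1 := pow_dvd_twLevel_iff (N := N) hqvP hqvS hpP hyp.hpSmin 1
      rw [pow_one] at h1
      have h3 := h1.mp h
      rw [hN, hfl] at h3
      exact not_dvd_minLevel_of_fl hpP hyp.hS h3
    · intro hfl
      have h1 := pow_dvd_twLevel_iff (N := N) hqvP hqvS hpP hyp.hpSmin 1
      have h2 := pow_dvd_twLevel_iff (N := N) hqvP hqvS hpP hyp.hpSmin 2
      rw [pow_one] at h1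
      refine ⟨h1.mpr ?_, fun h => not_sq_dvd_of_squarefree hsqf hpP (h2.mp h)⟩
      rw [hN, hfl]
      exact dvd_minLevel_of_not_fl
  obtain ⟨φQ, -, hφQl, hφQe⟩ := Fermat.Agent.S54.result DQ HQ
    (fun q hq hqN => Finset.mem_coe.mpr (hN'S q hq hqN)) hHQcond hHQres
  exact hASM 𝒪 p hp2 hp𝒪 fl ρbar Smin hyp N Smin θ D H hHπ hHcond hHres φ hφ hφe M ηM hηM
    r n qv hqv DQ γ hγs G HQ hHQπ φQ hφQl hφQe

/-- **The patching datum at the minimal level**, for a given deformation ring `D` and a given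
Hecke module `M` with its Taylor–Wiles geometry. -/
theorem exists_patchingDatum (hCOND : Stmt_COND)
    (hDATUM : Fermat.Agent.S59.Datum.Stmt_DATUM) (hTWP : Stmt_TWprimes) (hASM : Stmt_ASM)
    (hp2 : p ≠ 2) (hp𝒪 : (p : 𝒪) ∈ maximalIdeal 𝒪)
    (fl : Bool) (ρbar : ResidualGaloisRep (ResidueField 𝒪)) (Smin : Finset ℕ)
    (hyp : ResHyp p ρbar Smin)
    (hbar : cond 𝒪 p fl Smin ∅ (GaloisRepAdic.ofResidualGaloisRep ρbar))
    (hnf : fl = false → ¬ (GaloisRepAdic.ofResidualGaloisRep ρbar).IsFlatAt p)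
    (N : ℕ) [NeZero N] [Fact (CuspForm.HasIntegralStructure N 2)]
    (hN : N = minLevel p fl Smin)
    (θ : CuspForm.heckeAlgebra N 2 (↑Smin : Set ℕ) →+* ResidueField 𝒪)
    (hθ : Fermat.Agent.S59.Datum.FrobHyp ρbar N Smin θ)
    (D : GaloisRep.DeformationRingData 𝒪 ρbar (cond 𝒪 p fl Smin ∅))
    (M : HMod 𝒪 N (↑Smin : Set ℕ) θ)
    (hG : ∀ (r n : ℕ) (qv : Fin r → ℕ), Fermat.Agent.S56.IsTWFamily ρbar p n Smin qv →
      ∀ [NeZero (twLevel N qv)] [Fact (CuspForm.HasIntegralStructure (twLevel N qv) 2)],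
        Nonempty (TWGeom 𝒪 p ρbar N Smin θ M n qv)) :
    ∃ (H : CuspForm.HeckeGaloisRepDatum N (↑Smin : Set ℕ) 𝒪 θ
        (CuspForm.heckeLocal N (↑Smin : Set ℕ) 𝒪 θ))
      (φ : D.R →ₐ[𝒪] CuspForm.heckeLocal N (↑Smin : Set ℕ) 𝒪 θ)
      (hφ : IsLocalHom (φ : D.R →+* CuspForm.heckeLocal N (↑Smin : Set ℕ) 𝒪 θ))
      (ηM : CuspForm.heckeLocal N (↑Smin : Set ℕ) 𝒪 θ →ₐ[𝒪] Module.End 𝒪 M.V) (r : ℕ),
      H.π = CuspForm.heckeLocal.π N (↑Smin : Set ℕ) 𝒪 θ ∧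
      cond 𝒪 p fl Smin ∅ H.ρ ∧
      H.ρ.residual.IsEquiv (ρbar.baseChangeAlong
        (ResidueField.map (algebraMap 𝒪 (CuspForm.heckeLocal N (↑Smin : Set ℕ) 𝒪 θ)))) ∧
      Function.Surjective φ ∧
      (D.ρ.baseChangeAlong (φ : D.R →+* CuspForm.heckeLocal N (↑Smin : Set ℕ) 𝒪 θ) hφ).IsEquiv
        H.ρ ∧
      (∀ t : CuspForm.heckeAlgebra N 2 (↑Smin : Set ℕ),
        ηM (CuspForm.heckeLocal.π N (↑Smin : Set ℕ) 𝒪 θ t) = M.η t) ∧
      Nonempty (@Algebra.PatchingDatum 𝒪 _ p r D.R _ _ M.V _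
        (Module.compHom M.V ((ηM.comp φ : D.R →ₐ[𝒪] Module.End 𝒪 M.V) :
          D.R →+* Module.End 𝒪 M.V))) := by
  have hpP : p.Prime := Fact.out
  obtain ⟨H, φ, hφ, ηM, hHπ, hHcond, hHres, hφs, hφe, hηM⟩ :=
    exists_minimal_data 𝒪 p hCOND hDATUM hp2 hp𝒪 fl ρbar Smin hyp hbar hnf N hN θ hθ D M
  obtain ⟨r, hL⟩ := exists_twLevels 𝒪 p hCOND hDATUM hTWP hASM hp2 hp𝒪 fl ρbar Smin hyp hbar hnf
    N hN θ hθ D M hG H hHπ hHcond hHres φ hφ hφe ηM hηM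
  refine ⟨H, φ, hφ, ηM, r, hHπ, hHcond, hHres, hφs, hφe, hηM, ?_⟩
  letI : Module D.R M.V := Module.compHom M.V ((ηM.comp φ : D.R →ₐ[𝒪] Module.End 𝒪 M.V) :
    D.R →+* Module.End 𝒪 M.V)
  exact patchingDatum_of_twLevels
    (fun n => Fermat.Agent.S59.TWH.H14.stmt_DIV 𝒪 r n hpP hp𝒪) hL

end Wire

/-- **MIN2WIRE**: the minimal case of modularity lifting from TWGEOM, COND, DATUM, TWprimes and
ASM. -/
theorem stmt_MIN2WIRE : Stmt_MIN2WIRE := by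
  intro hTWGEOM hCOND hDATUM hTWP hASM
  intro 𝒪 _ _ _ _ _ _ p _ hp2 hp𝒪 fl ρbar Smin hyp hbar hnf N _ hN θ hθ ρ hρ hres a hfrob
  have hpP : p.Prime := Fact.out
  haveI : Fact (CuspForm.HasIntegralStructure N 2) := ⟨Fermat.Agent.S23.result N⟩
  have hNS : ∀ q : ℕ, q.Prime → q ∣ N → q ∈ Smin := by
    intro q hq hqN
    rw [hN] at hqN
    exact prime_dvd_minLevel hpP fl hyp.hS hyp.hpSmin hq hqN
  have hsqf : Squarefree N := by
    rw [hN]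
    exact squarefree_minLevel hpP fl hyp.hS
  obtain ⟨D⟩ := Fermat.Agent.S59.H99.stmt_DEF 𝒪 p hp2 hp𝒪 fl ρbar hyp.habs Smin ∅ hyp.hpSmin
    (fun q hq => hyp.hS q (by simpa using hq)) hbar
  obtain ⟨M, hMnt, hG⟩ := hTWGEOM 𝒪 p hp2 hp𝒪 ρbar Smin hyp N hNS hsqf θ hθ
  obtain ⟨H, φ, hφ, ηM, r, hHπ, hHcond, hHres, hφs, hφe, hηM, ⟨P⟩⟩ :=
    exists_patchingDatum 𝒪 p hCOND hDATUM hTWP hASM hp2 hp𝒪 fl ρbar Smin hyp hbar hnf
      N hN θ hθ D M hG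
  letI : Module D.R M.V := Module.compHom M.V ((ηM.comp φ : D.R →ₐ[𝒪] Module.End 𝒪 M.V) :
    D.R →+* Module.End 𝒪 M.V)
  have hker : ∀ a ∈ RingHom.ker (φ : D.R →+* CuspForm.heckeLocal N (↑Smin : Set ℕ) 𝒪 θ),
      ∀ x : M.V, a • x = 0 := by
    intro a ha x
    show (ηM.comp φ) a x = 0
    have h0 : φ a = 0 := ha
    rw [AlgHom.comp_apply, h0, map_zero]
    rfl
  exact eigenform_of_patchingDatum hp𝒪 D H φ hφs hφ hφe hker P ρ hρ hres a hfrob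

end Fermat.Agent.S59.Asm.H2
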