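import Mathlib

/-!
# S59, package ASM, leaf BRIDGE (helper77), part A: unit + nilpotent is injective

`𝒪` a Noetherian local ring, `V` a finite `𝒪`-module.

* `krull_inj`: if `M ^ m` maps `V` into `𝔪 V` and `v + M v = 0` then `v = 0` (Krull).
* `inj_on`: `V = Vα ⊕ Vβ`, `B`, `S` commuting endomorphisms preserving `Vα`, `B ^ m` maps `Vα`
  into `𝔪 V`; then `w + S (B w) = 0`, `w ∈ Vα`, implies `w = 0`.
-/

set_option autoImplicit false

open IsLocalRing

namespace Fermat.Agent.S59.Asm.H77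

variable {𝒪 : Type*} [CommRing 𝒪]
variable {V : Type*} [AddCommGroup V] [Module 𝒪 V]

/-- Linear maps preserve `I V`. -/
theorem map_mem_smul_top (I : Ideal 𝒪) (f : Module.End 𝒪 V) {x : V}
    (hx : x ∈ (I • ⊤ : Submodule 𝒪 V)) : f x ∈ (I • ⊤ : Submodule 𝒪 V) := by
  refine Submodule.smul_induction_on hx ?_ ?_
  · intro c hc y _
    rw [map_smul]
    exact Submodule.smul_mem_smul hc Submodule.mem_top
  · intro y z hy hz
    rw [map_add]
    exact Submodule.add_mem _ hy hz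

/-- A linear map sends `I (J V)` into `I (f (J V))`. -/
theorem map_mem_smul_smul (I J : Ideal 𝒪) (f : Module.End 𝒪 V)
    (hf : ∀ v, f v ∈ (I • ⊤ : Submodule 𝒪 V)) {x : V}
    (hx : x ∈ (J • ⊤ : Submodule 𝒪 V)) : f x ∈ ((J * I) • ⊤ : Submodule 𝒪 V) := by
  refine Submodule.smul_induction_on hx ?_ ?_
  · intro c hc y _
    rw [map_smul, mul_smul]
    exact Submodule.smul_mem_smul hc (hf y)
  · intro y z hy hz
    rw [map_add]
    exact Submodule.add_mem _ hy hz

theorem pow_mem_pow_smul_top (I : Ideal 𝒪) (f : Module.End 𝒪 V)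
    (hf : ∀ v, f v ∈ (I • ⊤ : Submodule 𝒪 V)) (k : ℕ) (v : V) :
    (f ^ k) v ∈ (I ^ k • ⊤ : Submodule 𝒪 V) := by
  induction k generalizing v with
  | zero =>
    rw [pow_zero, Ideal.one_eq_top, Submodule.top_smul]
    exact Submodule.mem_top
  | succ k ih =>
    have h1 : (f ^ (k + 1)) v = f ((f ^ k) v) := by rw [pow_succ', Module.End.mul_apply]
    rw [h1, pow_succ]
    exact map_mem_smul_smul I (I ^ k) f hf (ih v)

/-- **Krull**: `1 + M` is injective if a power of `M` maps `V` into `𝔪 V`. -/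
theorem krull_inj [IsLocalRing 𝒪] [IsNoetherianRing 𝒪] [Module.Finite 𝒪 V] (M : Module.End 𝒪 V) (m : ℕ)
    (hM : ∀ v, (M ^ m) v ∈ (maximalIdeal 𝒪 • ⊤ : Submodule 𝒪 V)) {v : V}
    (hv : v + M v = 0) : v = 0 := by
  have hMv : M v = -v := eq_neg_of_add_eq_zero_right hv
  have hpow : ∀ j : ℕ, (M ^ j) v = (-1 : 𝒪) ^ j • v := by
    intro j
    induction j with
    | zero => simp
    | succ j ih =>
      rw [pow_succ, Module.End.mul_apply, hMv, map_neg, ih, pow_succ, mul_smul, neg_smul,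
        one_smul, smul_neg]
  have hmem : ∀ k : ℕ, v ∈ (maximalIdeal 𝒪 ^ k • ⊤ : Submodule 𝒪 V) := by
    intro k
    have h1 := pow_mem_pow_smul_top (maximalIdeal 𝒪) (M ^ m) hM k v
    rw [← pow_mul, hpow] at h1
    have h2 := Submodule.smul_mem _ ((-1 : 𝒪) ^ (m * k)) h1
    rw [smul_smul, ← mul_pow] at h2
    simpa using h2
  have hbot := Ideal.iInf_pow_smul_eq_bot_of_isLocalRing (R := 𝒪) (M := V) (maximalIdeal 𝒪)
    (Ideal.IsMaximal.ne_top inferInstance)
  have : v ∈ (⨅ i : ℕ, maximalIdeal 𝒪 ^ i • ⊤ : Submodule 𝒪 V) := by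
    rw [Submodule.mem_iInf]
    exact hmem
  rw [hbot] at this
  exact (Submodule.mem_bot 𝒪).1 this

/-- `V = Vα ⊕ Vβ`, `B`, `S` commuting endomorphisms preserving `Vα`, `B ^ m` maps `Vα` into
`𝔪 V`: then `1 + S B` is injective on `Vα`. -/
theorem inj_on [IsLocalRing 𝒪] [IsNoetherianRing 𝒪] [Module.Finite 𝒪 V] {Vα Vβ : Submodule 𝒪 V}
    (hc : IsCompl Vα Vβ) (B S : Module.End 𝒪 V) (hBS : Commute S B)
    (hB : ∀ v ∈ Vα, B v ∈ Vα) (hS : ∀ v ∈ Vα, S v ∈ Vα) (m : ℕ)
    (hnil : ∀ v ∈ Vα, (B ^ m) v ∈ (maximalIdeal 𝒪 • ⊤ : Submodule 𝒪 V))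
    {w : V} (hw : w ∈ Vα) (h : w + S (B w) = 0) : w = 0 := by
  set P : Module.End 𝒪 V := Vα.subtype ∘ₗ Submodule.projectionOnto Vα Vβ hc with hP
  have hPmem : ∀ v, P v ∈ Vα := fun v => (Submodule.projectionOnto Vα Vβ hc v).2
  have hPid : ∀ v ∈ Vα, P v = v := by
    intro v hv
    have := Submodule.projectionOnto_apply_left hc ⟨v, hv⟩
    rw [hP, LinearMap.comp_apply, Submodule.subtype_apply]
    exact congrArg Subtype.val this
  set M : Module.End 𝒪 V := S * B * P with hMdef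
  have hSBmem : ∀ v ∈ Vα, (S * B) v ∈ Vα := fun v hv => hS _ (hB v hv)
  have hMα : ∀ v ∈ Vα, M v = (S * B) v := by
    intro v hv
    rw [hMdef, Module.End.mul_apply, hPid v hv]
  have hpowα : ∀ j : ℕ, ∀ v ∈ Vα, (M ^ j) v = ((S * B) ^ j) v ∧ ((S * B) ^ j) v ∈ Vα := by
    intro j
    induction j with
    | zero =>
      intro v hv
      simp only [pow_zero, Module.End.one_apply]
      exact ⟨trivial, hv⟩
    | succ j ih =>
      intro v hv
      rw [pow_succ, Module.End.mul_apply, hMα v hv, pow_succ, Module.End.mul_apply]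
      exact ih _ (hSBmem v hv)
  have hMnil : ∀ v, (M ^ (m + 1)) v ∈ (maximalIdeal 𝒪 • ⊤ : Submodule 𝒪 V) := by
    intro v
    have hMv : M v ∈ Vα := by
      rw [hMdef, Module.End.mul_apply]
      exact hSBmem _ (hPmem v)
    rw [pow_succ, Module.End.mul_apply, (hpowα m _ hMv).1, hBS.mul_pow, Module.End.mul_apply]
    exact map_mem_smul_top _ _ (hnil _ hMv)
  refine krull_inj M (m + 1) hMnil ?_
  rw [hMα w hw, Module.End.mul_apply]
  exact h

end Fermat.Agent.S59.Asm.H77
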