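import Fermat.Agent.S59.Asm.H77_BridgeB

/-!
# S59, package ASM, leaf BRIDGE (helper77), part C: an endomorphism killing `Vα` vanishes

`V` a module over `𝒪` and `T` (`𝒪 → T` local), finite over `𝒪`, with a `T`-linear action of the
Galois group satisfying the Cayley–Hamilton relations of a residually absolutely irreducible `ρ`;
`V = Vα ⊕ Vβ` over `𝒪`; `E` a `T`-linear endomorphism commuting with the Galois action and
killing `Vα`; `gal φ - c` nilpotent on `Vβ` modulo `𝔪_𝒪` where `ρ φ` has the eigenvalue `x` on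
`b 0` and `x - c` is a unit.  Then `E = 0`.
-/

set_option autoImplicit false

open IsLocalRing
open scoped TensorProduct

namespace Fermat.Agent.S59.Asm.H77

/-- The absolute Galois group of `ℚ`. -/
local notation "GQ" => AlgebraicClosure ℚ ≃ₐ[ℚ] AlgebraicClosure ℚ

variable {𝒪 T : Type} [CommRing 𝒪] [IsLocalRing 𝒪] [IsNoetherianRing 𝒪]
  [CommRing T] [IsLocalRing T] [Algebra 𝒪 T] [IsLocalHom (algebraMap 𝒪 T)]

theorem step2 (h2 : (2 : ResidueField T) ≠ 0)
    (ρ : GaloisRepAdic T) (hirr : ρ.residual.IsAbsolutelyIrreducible)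
    (V : Type) [AddCommGroup V] [Module 𝒪 V] [Module T V] [IsScalarTower 𝒪 T V]
    [Module.Finite 𝒪 V]
    (gal : GQ →* Module.End T V)
    (hCH : ∀ g, gal g * gal g - ρ.trace g • gal g
      + LinearMap.det (ρ.ρ g) • (1 : Module.End T V) = 0)
    (b : Module.Basis (Fin 2) T ρ.V) (φ : GQ) (x c : T) (hx : ρ.ρ φ (b 0) = x • b 0)
    (hxc : IsUnit (x - c))
    (E : Module.End T V) (hE : ∀ g, Commute E (gal g))
    (Vα Vβ : Submodule 𝒪 V) (hc : Vα ⊔ Vβ = ⊤) (hEα : ∀ v ∈ Vα, E v = 0) (m : ℕ)
    (hnil : ∀ v ∈ Vβ, ((gal φ - c • (1 : Module.End T V)) ^ m) v ∈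
      (maximalIdeal 𝒪 • ⊤ : Submodule 𝒪 V)) :
    E = 0 := by
  have hnoe : IsNoetherian T V := isNoetherian_of_tower 𝒪 inferInstance
  -- the module `W = E V`
  let W : Submodule T V := LinearMap.range E
  let E' : V →ₗ[T] W := E.rangeRestrict
  have hE' : ∀ v, (E' v : V) = E v := fun v => rfl
  have hWstab : ∀ (g : GQ), ∀ w ∈ W, gal g w ∈ W := by
    rintro g _ ⟨v, rfl⟩
    refine ⟨gal g v, ?_⟩
    have := congrArg (fun F : Module.End T V => F v) (hE g).eq
    exact this
  let πW : GQ →* Module.End T W :=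
    { toFun := fun g => (gal g).restrict (hWstab g)
      map_one' := by
        ext w
        simp
      map_mul' := fun g h => by
        ext w
        simp [map_mul] }
  have hπW : ∀ g (w : W), ((πW g w : W) : V) = gal g (w : V) := fun g w => rfl
  have hCHW : ∀ g, πW g * πW g - ρ.trace g • πW g
      + LinearMap.det (ρ.ρ g) • (1 : Module.End T W) = 0 := by
    intro g
    ext w
    have := congrArg (fun F : Module.End T V => F (w : V)) (hCH g)
    simp only [LinearMap.add_apply, LinearMap.sub_apply, Module.End.mul_apply,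
      LinearMap.smul_apply, Module.End.one_apply, LinearMap.zero_apply] at this
    simp only [LinearMap.add_apply, LinearMap.sub_apply, Module.End.mul_apply,
      LinearMap.smul_apply, Module.End.one_apply, LinearMap.zero_apply, Submodule.coe_add,
      Submodule.coe_sub, Submodule.coe_smul, Submodule.coe_zero, hπW]
    exact this
  have hpowW : ∀ (j : ℕ) (w : W), ((((πW φ - c • (1 : Module.End T W)) ^ j) w : W) : V)
      = ((gal φ - c • (1 : Module.End T V)) ^ j) (w : V) := by
    intro j
    induction j with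
    | zero => intro w; simp
    | succ j ih =>
      intro w
      rw [pow_succ, Module.End.mul_apply, ih, pow_succ, Module.End.mul_apply]
      congr 1
  have hcomm : ∀ (j : ℕ) (v : V), ((gal φ - c • (1 : Module.End T V)) ^ j) (E v)
      = E (((gal φ - c • (1 : Module.End T V)) ^ j) v) := by
    intro j v
    have h1 : Commute E (gal φ - c • (1 : Module.End T V)) :=
      (hE φ).sub_right ((Commute.one_right E).smul_right c)
    have h2 := congrArg (fun F : Module.End T V => F v) (h1.pow_right j).eq
    exact h2.symm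
  have hmapm : ∀ y ∈ (maximalIdeal 𝒪 • ⊤ : Submodule 𝒪 V),
      E' y ∈ (maximalIdeal T • ⊤ : Submodule T W) := by
    intro y hy
    refine Submodule.smul_induction_on hy ?_ ?_
    · intro a ha z _
      have h1 : a • z = (algebraMap 𝒪 T a) • z := (algebraMap_smul T a z).symm
      rw [h1, map_smul]
      refine Submodule.smul_mem_smul ?_ Submodule.mem_top
      exact map_nonunit (algebraMap 𝒪 T) a ha
    · intro y z hy hz
      rw [map_add]
      exact Submodule.add_mem _ hy hz
  have hnilW : ∀ w : W, ((πW φ - c • (1 : Module.End T W)) ^ m) w ∈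
      (maximalIdeal T • ⊤ : Submodule T W) := by
    rintro ⟨_, v, rfl⟩
    have hv : v ∈ Vα ⊔ Vβ := by rw [hc]; exact Submodule.mem_top
    obtain ⟨vα, hvα, vβ, hvβ, rfl⟩ := Submodule.mem_sup.1 hv
    have h1 : E (vα + vβ) = E vβ := by rw [map_add, hEα vα hvα, zero_add]
    have h2 : ((πW φ - c • (1 : Module.End T W)) ^ m) ⟨E (vα + vβ), ⟨vα + vβ, rfl⟩⟩
        = E' (((gal φ - c • (1 : Module.End T V)) ^ m) vβ) := by
      apply Subtype.ext
      rw [hpowW, hE', ← hcomm]
      show ((gal φ - c • (1 : Module.End T V)) ^ m) (E (vα + vβ)) = _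
      rw [h1]
    rw [h2]
    exact hmapm _ (hnil vβ hvβ)
  have hsub := subsingleton_of_CH h2 ρ hirr W πW hCHW b φ x c hx hxc m hnilW
  ext v
  have h3 : E' v = 0 := Subsingleton.elim _ _
  have h4 := congrArg (Subtype.val) h3
  rw [hE'] at h4
  exact h4

end Fermat.Agent.S59.Asm.H77
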