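import Fermat.Agent.S59.Asm.Leaves
import Fermat.Agent.S59.Asm.H77_BridgeA
import Fermat.Agent.S59.Asm.H77_BridgeC

/-!
# S59, package ASM, leaf BRIDGE (helper77)

`stmt_BRIDGE : Stmt_BRIDGE`: from the geometric local–global compatibility (`gal σ = d` on `Vα`)
to the Galois one (`χ₀(σ)` acts on all of `V` as `d`).

Step 1 (on `Vα`): Cayley–Hamilton for `g = φ` and `g = φ σ` factors as
`(gal g - χ₁ g)(gal g - χ₀ g) = 0`, and the first factor is (unit) · (1 + nilpotent mod `𝔪`) on
`Vα` (`inj_on`, Krull), so `gal g = χ₀ g` on `Vα`; hence `χ₀ σ = d` on `Vα`.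
Step 2: `E = χ₀ σ - d` commutes with everything and kills `Vα`; `W = E V` satisfies
Cayley–Hamilton and `gal φ - a'` is nilpotent on `W / 𝔪 W`, so `W = 0` by Boston–Lenstra–Ribet
(`step2`).
-/

set_option autoImplicit false

open Polynomial CuspForm IsLocalRing

namespace Fermat.Agent.S59.Asm.H77

open Fermat.Agent.S59 Fermat.Agent.S59.TWGal Fermat.Agent.S59.Asm

section chi

variable {A : Type} [CommRing A] [IsLocalRing A] {ρ : GaloisRepAdic A}
  {P : ValuationSubring Qb} {b : Module.Basis (Fin 2) A ρ.V}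

theorem apply_eq_chi (hd : DiagOn ρ P b) {g : GQ} (hg : g ∈ P.decompositionSubgroup ℚ)
    (i : Fin 2) : ρ.ρ g (b i) = chi ρ b i g • b i := by
  obtain ⟨x, y, hx, hy⟩ := hd g hg
  unfold chi
  fin_cases i
  · show ρ.ρ g (b 0) = b.repr (ρ.ρ g (b 0)) 0 • b 0
    rw [hx, map_smul, Finsupp.smul_apply, Module.Basis.repr_self, Finsupp.single_eq_same,
      smul_eq_mul, mul_one]
  · show ρ.ρ g (b 1) = b.repr (ρ.ρ g (b 1)) 1 • b 1
    rw [hy, map_smul, Finsupp.smul_apply, Module.Basis.repr_self, Finsupp.single_eq_same,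
      smul_eq_mul, mul_one]

theorem chi_mul' (hd : DiagOn ρ P b) {g h : GQ} (hg : g ∈ P.decompositionSubgroup ℚ)
    (hh : h ∈ P.decompositionSubgroup ℚ) (i : Fin 2) :
    chi ρ b i (g * h) = chi ρ b i g * chi ρ b i h := by
  have h1 : ρ.ρ (g * h) (b i) = (chi ρ b i g * chi ρ b i h) • b i := by
    rw [map_mul, Module.End.mul_apply, apply_eq_chi hd hh, map_smul, apply_eq_chi hd hg,
      smul_smul, mul_comm]
  unfold chi at h1 ⊢
  rw [h1, map_smul, Finsupp.smul_apply, Module.Basis.repr_self, Finsupp.single_eq_same,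
    smul_eq_mul, mul_one]

theorem chi_one' (i : Fin 2) : chi ρ b i 1 = 1 := by
  unfold chi
  rw [map_one, Module.End.one_apply, Module.Basis.repr_self, Finsupp.single_eq_same]

theorem chi_off (hd : DiagOn ρ P b) {g : GQ} (hg : g ∈ P.decompositionSubgroup ℚ)
    {i j : Fin 2} (hij : j ≠ i) : b.repr (ρ.ρ g (b i)) j = 0 := by
  rw [apply_eq_chi hd hg, map_smul, Finsupp.smul_apply, Module.Basis.repr_self,
    Finsupp.single_eq_of_ne hij, smul_zero]

theorem trace_eq_chi (ρ : GaloisRepAdic A) (b : Module.Basis (Fin 2) A ρ.V) (g : GQ) :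
    ρ.trace g = chi ρ b 0 g + chi ρ b 1 g := by
  unfold GaloisRepAdic.trace
  rw [LinearMap.trace_eq_matrix_trace A b, Matrix.trace_fin_two, LinearMap.toMatrix_apply,
    LinearMap.toMatrix_apply]
  rfl

theorem det_eq_chi (hd : DiagOn ρ P b) {g : GQ} (hg : g ∈ P.decompositionSubgroup ℚ) :
    LinearMap.det (ρ.ρ g) = chi ρ b 0 g * chi ρ b 1 g := by
  rw [← LinearMap.det_toMatrix b, Matrix.det_fin_two, LinearMap.toMatrix_apply,
    LinearMap.toMatrix_apply, LinearMap.toMatrix_apply, LinearMap.toMatrix_apply,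
    chi_off hd hg (i := 1) (j := 0) (by decide), zero_mul, sub_zero]
  rfl

end chi

/-- In a local ring, unit plus non-unit is a unit. -/
theorem isUnit_add_of_mem {A : Type} [CommRing A] [IsLocalRing A] {u n : A} (hu : IsUnit u)
    (hn : n ∈ maximalIdeal A) : IsUnit (u + n) := by
  by_contra h
  have h1 : u + n ∈ maximalIdeal A := (mem_maximalIdeal _).2 h
  have h2 : u ∈ maximalIdeal A := by
    have := (maximalIdeal A).sub_mem h1 hn
    rwa [add_sub_cancel_right] at this
  exact (mem_maximalIdeal _).1 h2 hu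

/-- **BRIDGE**. -/
theorem stmt_BRIDGE : Stmt_BRIDGE := by
  intro 𝒪 _ _ _ _ T _ _ _ _ _ _hsurj h2 ρ hirr V _ _ _ _ ηhat gal hgη hCH P b hdiag φ σ hφ hσ
    a a' haa' hχ0 hχ1 hχσ d hdnil hdη hdgal Vα Vβ hcompl hVαη hVαd hVαφ hVβφ hαnil hβnil hlg
  -- basic facts
  have hηa : ∀ (r : 𝒪) (v : V), ηhat (algebraMap 𝒪 T r) v = r • v := by
    intro r v
    rw [AlgHom.commutes, Module.algebraMap_end_apply]
  have hηmul : ∀ (s t : T) (v : V), ηhat (s * t) v = ηhat s (ηhat t v) := by
    intro s t v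
    rw [map_mul, Module.End.mul_apply]
  have hηsub : ∀ (s t : T) (v : V), ηhat (s - t) v = ηhat s v - ηhat t v := by
    intro s t v
    rw [map_sub, LinearMap.sub_apply]
  have hηadd : ∀ (s t : T) (v : V), ηhat (s + t) v = ηhat s v + ηhat t v := by
    intro s t v
    rw [map_add, LinearMap.add_apply]
  have hηone : ∀ v : V, ηhat 1 v = v := by
    intro v
    rw [map_one, Module.End.one_apply]
  have hgηv : ∀ (g : GalQ) (t : T) (v : V), gal g (ηhat t v) = ηhat t (gal g v) := by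
    intro g t v
    exact congrArg (fun F : Module.End 𝒪 V => F v) (hgη g t).eq
  have hdηv : ∀ (t : T) (v : V), d (ηhat t v) = ηhat t (d v) := by
    intro t v
    exact congrArg (fun F : Module.End 𝒪 V => F v) (hdη t).eq
  have hdgalv : ∀ (g : GalQ) (v : V), d (gal g v) = gal g (d v) := by
    intro g v
    exact congrArg (fun F : Module.End 𝒪 V => F v) (hdgal g).eq
  have hsubunit : IsUnit (a - a') := by
    by_contra h
    have h1 : a - a' ∈ maximalIdeal 𝒪 := (mem_maximalIdeal _).2 h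
    have h2 := (residue_eq_zero_iff _).2 h1
    rw [map_sub, sub_eq_zero] at h2
    exact haa' h2
  have hu : IsUnit (algebraMap 𝒪 T (a - a')) := hsubunit.map _
  -- Cayley–Hamilton, factored
  have hfac : ∀ g ∈ P.decompositionSubgroup ℚ, ∀ v : V,
      gal g (gal g v - ηhat (chi ρ b 0 g) v)
        = ηhat (chi ρ b 1 g) (gal g v - ηhat (chi ρ b 0 g) v) := by
    intro g hg v
    have h := congrArg (fun F : Module.End 𝒪 V => F v) (hCH g)
    simp only [LinearMap.add_apply, LinearMap.sub_apply, Module.End.mul_apply,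
      LinearMap.zero_apply] at h
    rw [trace_eq_chi ρ b g, det_eq_chi hdiag hg, hηadd, hηmul] at h
    rw [map_sub, map_sub, hgηv, ← sub_eq_zero]
    have h3 : ηhat (chi ρ b 0 g) (ηhat (chi ρ b 1 g) v)
        = ηhat (chi ρ b 1 g) (ηhat (chi ρ b 0 g) v) := by
      rw [← hηmul, ← hηmul, mul_comm]
    rw [h3] at h
    rw [← h]
    abel
  -- Step 1 (i)
  have hφα : ∀ v ∈ Vα, gal φ v = ηhat (chi ρ b 0 φ) v := by
    intro v hv
    set w := gal φ v - ηhat (chi ρ b 0 φ) v with hwdef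
    have hw : w ∈ Vα := Vα.sub_mem (hVαφ v hv) (hVαη _ v hv)
    have hfw : gal φ w = ηhat (chi ρ b 1 φ) w := hfac φ hφ v
    have ht : IsUnit (algebraMap 𝒪 T a - chi ρ b 1 φ) := by
      have h1 : algebraMap 𝒪 T a - chi ρ b 1 φ
          = algebraMap 𝒪 T (a - a') + -(chi ρ b 1 φ - algebraMap 𝒪 T a') := by
        rw [map_sub]
        ring
      rw [h1]
      exact isUnit_add_of_mem hu ((maximalIdeal T).neg_mem hχ1)
    obtain ⟨u, hu'⟩ := ht
    have hs : (↑u⁻¹ : T) * (algebraMap 𝒪 T a - chi ρ b 1 φ) = 1 := by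
      rw [← hu', Units.inv_mul]
    obtain ⟨m, hm⟩ := hαnil
    have hBS : Commute (ηhat (↑u⁻¹ : T)) (gal φ - a • (1 : Module.End 𝒪 V)) :=
      ((hgη φ _).symm).sub_right ((Commute.one_right _).smul_right a)
    have hB : ∀ v ∈ Vα, (gal φ - a • (1 : Module.End 𝒪 V)) v ∈ Vα := by
      intro v hv
      rw [LinearMap.sub_apply, LinearMap.smul_apply, Module.End.one_apply]
      exact Vα.sub_mem (hVαφ v hv) (Vα.smul_mem a hv)
    have h : w + ηhat (↑u⁻¹ : T) ((gal φ - a • (1 : Module.End 𝒪 V)) w) = 0 := by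
      rw [LinearMap.sub_apply, LinearMap.smul_apply, Module.End.one_apply, hfw, ← hηa a w,
        ← hηsub, ← hηmul]
      have h1 : (↑u⁻¹ : T) * (chi ρ b 1 φ - algebraMap 𝒪 T a) = -1 := by
        rw [← neg_sub, mul_neg, hs]
      rw [h1, map_neg, LinearMap.neg_apply, hηone, add_neg_cancel]
    have hw0 := inj_on hcompl _ _ hBS hB (hVαη _) m hm hw h
    rw [hwdef] at hw0
    exact sub_eq_zero.1 hw0
  -- Step 1 (ii)
  have hφσ : φ * σ ∈ P.decompositionSubgroup ℚ := mul_mem hφ hσ
  have hgalα : ∀ u ∈ Vα, gal (φ * σ) u = ηhat (chi ρ b 0 φ) (d u) := by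
    intro u hu
    rw [map_mul, Module.End.mul_apply, hlg u hu, hφα _ (hVαd u hu)]
  have hσα : ∀ v ∈ Vα, ηhat (chi ρ b 0 σ) v = d v := by
    intro v hv
    set w := gal (φ * σ) v - ηhat (chi ρ b 0 (φ * σ)) v with hwdef
    have hweq : w = ηhat (chi ρ b 0 φ) (d v - ηhat (chi ρ b 0 σ) v) := by
      rw [hwdef, hgalα v hv, chi_mul' hdiag hφ hσ, hηmul, map_sub]
    have hw : w ∈ Vα := by
      rw [hweq]
      exact hVαη _ _ (Vα.sub_mem (hVαd v hv) (hVαη _ v hv))
    have hfw : gal (φ * σ) w = ηhat (chi ρ b 1 (φ * σ)) w := hfac (φ * σ) hφσ v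
    rw [hgalα w hw, chi_mul' hdiag hφ hσ] at hfw
    have ht : IsUnit (chi ρ b 0 φ - chi ρ b 1 φ * chi ρ b 1 σ) := by
      have h1 : chi ρ b 0 φ - chi ρ b 1 φ * chi ρ b 1 σ
          = algebraMap 𝒪 T (a - a') + ((chi ρ b 0 φ - algebraMap 𝒪 T a)
            - (chi ρ b 1 φ - algebraMap 𝒪 T a') * chi ρ b 1 σ
            - algebraMap 𝒪 T a' * (chi ρ b 1 σ - 1)) := by
        rw [map_sub]
        ring
      rw [h1]
      refine isUnit_add_of_mem hu ?_
      exact (maximalIdeal T).sub_mem ((maximalIdeal T).sub_mem hχ0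
        ((maximalIdeal T).mul_mem_right _ hχ1)) ((maximalIdeal T).mul_mem_left _ (hχσ 1))
    obtain ⟨u, hu'⟩ := ht
    have hs : (↑u⁻¹ : T) * (chi ρ b 0 φ - chi ρ b 1 φ * chi ρ b 1 σ) = 1 := by
      rw [← hu', Units.inv_mul]
    obtain ⟨m, hm⟩ := hdnil
    have hBS : Commute (ηhat ((↑u⁻¹ : T) * chi ρ b 0 φ)) (d - 1) :=
      ((hdη _).symm).sub_right (Commute.one_right _)
    have hB : ∀ v ∈ Vα, (d - 1) v ∈ Vα := by
      intro v hv
      rw [LinearMap.sub_apply, Module.End.one_apply]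
      exact Vα.sub_mem (hVαd v hv) hv
    have h : w + ηhat ((↑u⁻¹ : T) * chi ρ b 0 φ) ((d - 1) w) = 0 := by
      rw [LinearMap.sub_apply, Module.End.one_apply, hηmul, map_sub, hfw, ← hηsub, ← hηmul]
      have h1 : (↑u⁻¹ : T) * (chi ρ b 1 φ * chi ρ b 1 σ - chi ρ b 0 φ) = -1 := by
        rw [← neg_sub, mul_neg, hs]
      rw [h1, map_neg, LinearMap.neg_apply, hηone, add_neg_cancel]
    have hw0 := inj_on hcompl _ _ hBS hB (hVαη _) m (fun v _ => hm v) hw h
    rw [hweq] at hw0
    have hinv : chi ρ b 0 φ⁻¹ * chi ρ b 0 φ = 1 := by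
      rw [← chi_mul' hdiag (inv_mem hφ) hφ, inv_mul_cancel, chi_one']
    have h5 := congrArg (ηhat (chi ρ b 0 φ⁻¹)) hw0
    rw [← hηmul, hinv, hηone, map_zero] at h5
    exact (sub_eq_zero.1 h5).symm
  -- Step 2
  let modT : Module T V := Module.compHom V (ηhat : T →+* Module.End 𝒪 V)
  have hsmul : ∀ (t : T) (v : V), t • v = ηhat t v := fun _ _ => rfl
  have : IsScalarTower 𝒪 T V := ⟨fun r t v => by
    rw [hsmul, hsmul, map_smul, LinearMap.smul_apply]⟩
  let galT : GalQ →* Module.End T V :=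
    { toFun := fun g =>
        { toFun := gal g
          map_add' := map_add _
          map_smul' := fun t v => hgηv g t v }
      map_one' := by
        ext v
        show gal 1 v = v
        rw [map_one, Module.End.one_apply]
      map_mul' := fun g h => by
        ext v
        show gal (g * h) v = gal g (gal h v)
        rw [map_mul, Module.End.mul_apply] }
  have hgalT : ∀ g v, galT g v = gal g v := fun _ _ => rfl
  let ET : Module.End T V :=
    { toFun := fun v => ηhat (chi ρ b 0 σ) v - d v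
      map_add' := fun v w => by
        rw [map_add, map_add]
        abel
      map_smul' := fun t v => by
        show ηhat (chi ρ b 0 σ) (ηhat t v) - d (ηhat t v)
          = ηhat t (ηhat (chi ρ b 0 σ) v - d v)
        rw [map_sub, hdηv, ← hηmul, ← hηmul, mul_comm] }
  have hET : ∀ v, ET v = ηhat (chi ρ b 0 σ) v - d v := fun _ => rfl
  have h2T : (2 : ResidueField T) ≠ 0 := by
    have h3 : IsUnit (2 : 𝒪) := by
      by_contra h
      exact h2 ((mem_maximalIdeal _).2 h)
    have h4 : IsUnit ((2 : T)) := by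
      have := h3.map (algebraMap 𝒪 T)
      rwa [map_ofNat] at this
    have h5 := h4.map (residue T)
    rw [map_ofNat] at h5
    exact h5.ne_zero
  have hCHT : ∀ g, galT g * galT g - ρ.trace g • galT g
      + LinearMap.det (ρ.ρ g) • (1 : Module.End T V) = 0 := by
    intro g
    ext v
    have h := congrArg (fun F : Module.End 𝒪 V => F v) (hCH g)
    simp only [LinearMap.add_apply, LinearMap.sub_apply, Module.End.mul_apply,
      LinearMap.zero_apply] at h
    simp only [LinearMap.add_apply, LinearMap.sub_apply, Module.End.mul_apply,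
      LinearMap.smul_apply, Module.End.one_apply, LinearMap.zero_apply, hgalT, hsmul]
    exact h
  have hxc : IsUnit (chi ρ b 0 φ - algebraMap 𝒪 T a') := by
    have h1 : chi ρ b 0 φ - algebraMap 𝒪 T a'
        = algebraMap 𝒪 T (a - a') + (chi ρ b 0 φ - algebraMap 𝒪 T a) := by
      rw [map_sub]
      ring
    rw [h1]
    exact isUnit_add_of_mem hu hχ0
  have hEcomm : ∀ g, Commute ET (galT g) := by
    intro g
    ext v
    show ET (galT g v) = galT g (ET v)
    rw [hET, hET, hgalT, hgalT, map_sub, hgηv, hdgalv]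
  have hEα : ∀ v ∈ Vα, ET v = 0 := by
    intro v hv
    rw [hET, hσα v hv, sub_self]
  obtain ⟨m, hm⟩ := hβnil
  have hpowT : ∀ (j : ℕ) (v : V),
      ((galT φ - algebraMap 𝒪 T a' • (1 : Module.End T V)) ^ j) v
        = ((gal φ - a' • (1 : Module.End 𝒪 V)) ^ j) v := by
    intro j
    induction j with
    | zero => intro v; simp
    | succ j ih =>
      intro v
      rw [pow_succ, Module.End.mul_apply, ih, pow_succ, Module.End.mul_apply]
      congr 1
      rw [LinearMap.sub_apply, LinearMap.sub_apply, LinearMap.smul_apply, LinearMap.smul_apply,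
        Module.End.one_apply, Module.End.one_apply, hgalT, hsmul, hηa]
  have hnilT : ∀ v ∈ Vβ, ((galT φ - algebraMap 𝒪 T a' • (1 : Module.End T V)) ^ m) v ∈
      (maximalIdeal 𝒪 • ⊤ : Submodule 𝒪 V) := by
    intro v hv
    rw [hpowT]
    exact hm v hv
  have hE0 := step2 (𝒪 := 𝒪) h2T ρ hirr V galT hCHT b φ (chi ρ b 0 φ) (algebraMap 𝒪 T a')
    (apply_eq_chi hdiag hφ 0) hxc ET hEcomm Vα Vβ hcompl.sup_eq_top hEα m hnilT
  intro v
  have h6 := congrArg (fun F : Module.End T V => F v) hE0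
  simp only [LinearMap.zero_apply] at h6
  rw [hET] at h6
  exact sub_eq_zero.1 h6

end Fermat.Agent.S59.Asm.H77
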