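import Fermat.Agent.S59.Asm.Main
import Fermat.Agent.S59.Asm.H77_Transport
import Fermat.Agent.S59.Asm.H77_Bridge

/-!
# S59, package ASM (helper77): the Taylor–Wiles assembly, step 4 in abstract form

`exists_delta`: the element `δ := χ₀(σ)` of the deformation ring `RQ` at a Taylor–Wiles prime
`q`: `δ ≡ 1`, `τ δ = 1` for every local homomorphism `τ` such that the base change along `τ` is
unramified at `q`, and `ηW (φQ δ) = d` (local–global compatibility, `stmt_BRIDGE`).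
-/

set_option autoImplicit false
set_option linter.unusedSectionVars false
set_option linter.unusedVariables false

open Polynomial CuspForm IsLocalRing

namespace Fermat.Agent.S59.Asm.H77

open Fermat.Agent.S59 Fermat.Agent.S59.TWGal Fermat.Agent.S59.Asm

/-- the residue of the image of `a ∈ 𝒪` in a local `𝒪`-algebra -/
theorem residue_algebraMap_ne {𝒪 : Type} [CommRing 𝒪] [IsLocalRing 𝒪]
    {A : Type} [CommRing A] [IsLocalRing A] [Algebra 𝒪 A] [IsLocalHom (algebraMap 𝒪 A)]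
    {a a' : 𝒪} (h : residue 𝒪 a ≠ residue 𝒪 a') :
    residue A (algebraMap 𝒪 A a) ≠ residue A (algebraMap 𝒪 A a') := by
  intro h1
  have h2 : ResidueField.map (algebraMap 𝒪 A) (residue 𝒪 a) =
      ResidueField.map (algebraMap 𝒪 A) (residue 𝒪 a') := by
    rw [ResidueField.map_residue, ResidueField.map_residue]
    exact h1
  exact h ((ResidueField.map (algebraMap 𝒪 A)).injective h2)

/-- a local homomorphism maps the maximal ideal into the maximal ideal -/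
theorem map_mem_maximalIdeal {A B : Type} [CommRing A] [IsLocalRing A] [CommRing B]
    [IsLocalRing B] (f : A →+* B) (hf : IsLocalHom f) {x : A} (hx : x ∈ maximalIdeal A) :
    f x ∈ maximalIdeal B :=
  map_nonunit f x hx

/-- **Step 4 of ASM**, abstract form. -/
theorem exists_delta {𝒪 : Type} [CommRing 𝒪] [IsDomain 𝒪] [IsDiscreteValuationRing 𝒪]
    [IsAdicComplete (maximalIdeal 𝒪) 𝒪]
    {p : ℕ} (hp : p.Prime) (hp2 : p ≠ 2) (hp𝒪 : (p : 𝒪) ∈ maximalIdeal 𝒪)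
    {RQ : Type} [CommRing RQ] [IsLocalRing RQ] [IsNoetherianRing RQ]
    [IsAdicComplete (maximalIdeal RQ) RQ] [Algebra 𝒪 RQ] [IsLocalHom (algebraMap 𝒪 RQ)]
    {R : Type} [CommRing R] [IsLocalRing R] [Algebra 𝒪 R]
    {TQ : Type} [CommRing TQ] [IsLocalRing TQ] [Algebra 𝒪 TQ] [Module.Finite 𝒪 TQ]
    [IsLocalHom (algebraMap 𝒪 TQ)]
    (hsurj : Function.Surjective (residue TQ ∘ algebraMap 𝒪 TQ))
    (ρQ : GaloisRepAdic RQ) (ρR : GaloisRepAdic R) (ρT : GaloisRepAdic TQ)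
    (hirr : ρT.residual.IsAbsolutelyIrreducible)
    (τ : RQ →ₐ[𝒪] R) (hτl : IsLocalHom (τ : RQ →+* R))
    (hτe : (ρQ.baseChangeAlong (τ : RQ →+* R) hτl).IsEquiv ρR)
    (φQ : RQ →ₐ[𝒪] TQ) (hφQ : IsLocalHom (φQ : RQ →+* TQ))
    (hφQe : (ρQ.baseChangeAlong (φQ : RQ →+* TQ) hφQ).IsEquiv ρT)
    (q n : ℕ) (hq : q.Prime) (hqp : p ^ (n + 1) ∣ q - 1)
    (P : ValuationSubring Qb) (hP : P.LiesOverPrime q)
    (hurR : ∀ σ ∈ P.inertiaSubgroupIn ℚ, ρR.ρ σ = 1)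
    (hur : ∀ σ ∈ P.inertiaSubgroupIn ℚ, ρQ.residual.ρ σ = 1)
    (frob : GQ) (hfrob : P.IsFrobeniusAt frob q)
    (a a' : 𝒪) (haa' : residue 𝒪 a ≠ residue 𝒪 a')
    (hchar : LinearMap.charpoly (ρQ.residual.ρ frob) =
      (X - C (residue RQ (algebraMap 𝒪 RQ a))) * (X - C (residue RQ (algebraMap 𝒪 RQ a'))))
    (σ : GQ) (hσ : σ ∈ P.inertiaSubgroupIn ℚ)
    {V : Type} [AddCommGroup V] [Module 𝒪 V] [Module.Finite 𝒪 V] [Module.Free 𝒪 V]
    (ηW : TQ →ₐ[𝒪] Module.End 𝒪 V) (gal : GalQ →* Module.End 𝒪 V)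
    (hgη : ∀ (g : GalQ) (t : TQ), Commute (gal g) (ηW t))
    (hCH : ∀ g : GalQ,
      gal g * gal g - ηW (ρT.trace g) * gal g + ηW (LinearMap.det (ρT.ρ g)) = 0)
    (d : Module.End 𝒪 V) (hdpow : d ^ (p ^ n) = 1)
    (hdη : ∀ t : TQ, Commute d (ηW t)) (hdgal : ∀ g : GalQ, Commute d (gal g))
    (Vα Vβ : Submodule 𝒪 V) (hcompl : IsCompl Vα Vβ)
    (hVαη : ∀ (t : TQ), ∀ v ∈ Vα, ηW t v ∈ Vα) (hVαd : ∀ v ∈ Vα, d v ∈ Vα)
    (hVαφ : ∀ v ∈ Vα, gal frob v ∈ Vα) (hVβφ : ∀ v ∈ Vβ, gal frob v ∈ Vβ)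
    (hαnil : ∃ m : ℕ, ∀ v ∈ Vα, ((gal frob - a • (1 : Module.End 𝒪 V)) ^ m) v ∈
      (maximalIdeal 𝒪 • ⊤ : Submodule 𝒪 V))
    (hβnil : ∃ m : ℕ, ∀ v ∈ Vβ, ((gal frob - a' • (1 : Module.End 𝒪 V)) ^ m) v ∈
      (maximalIdeal 𝒪 • ⊤ : Submodule 𝒪 V))
    (hlg : ∀ v ∈ Vα, gal σ v = d v) :
    ∃ δ : RQ, δ - 1 ∈ maximalIdeal RQ ∧ τ δ = 1 ∧ ηW (φQ δ) = d := by
  have hpA : (p : RQ) ∈ maximalIdeal RQ := natCast_mem_of_algebra (𝒪 := 𝒪) hp𝒪
  have hqA : (q : RQ) - 1 ∈ maximalIdeal RQ := natCast_sub_one_mem hpA hq.one_le hqp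
  obtain ⟨b, σ₀, hσ₀, hD, hb0, hb1, hgen, -, hm, -, hG3⟩ :=
    twgal_main RQ p hp hpA ρQ q hq hqA P hP hur frob hfrob _ _ (residue_algebraMap_ne haa') hchar
  refine ⟨chi ρQ b 0 σ, hm σ hσ 0, ?_, ?_⟩
  · -- `τ δ = 1`
    obtain ⟨k, hk⟩ := hgen σ hσ
    have h1 := (hG3 R (τ : RQ →+* R) hτl).1
      (fun σ' hσ' => eq_one_of_isEquiv hτe σ' (hurR σ' hσ'))
    have h2 : τ (chi ρQ b 0 σ₀) = 1 := h1.1
    rw [hk 0, map_pow, h2, one_pow]
  · -- `ηW (φQ δ) = d`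
    obtain ⟨b', hb'⟩ := stmt_TRANSPORT RQ TQ (φQ : RQ →+* TQ) hφQ ρQ ρT hφQe b
    have hchi : ∀ (i : Fin 2) (g : GalQ), chi ρT b' i g = φQ (chi ρQ b i g) :=
      fun i g => chi_transport (φQ : RQ →+* TQ) ρQ ρT b b' hb' i g
    have hD' : DiagOn ρT P b' := diagOn_transport (φQ : RQ →+* TQ) ρQ ρT b b' hb' P hD
    have hmem : ∀ (x : RQ) (c : 𝒪), residue RQ x = residue RQ (algebraMap 𝒪 RQ c) →
        φQ x - algebraMap 𝒪 TQ c ∈ maximalIdeal TQ := by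
      intro x c hx
      have h1 : x - algebraMap 𝒪 RQ c ∈ maximalIdeal RQ := by
        rw [← residue_eq_zero_iff, map_sub, hx, sub_self]
      have h2 := map_mem_maximalIdeal (φQ : RQ →+* TQ) hφQ h1
      have h3 : (φQ : RQ →+* TQ) (x - algebraMap 𝒪 RQ c) = φQ x - algebraMap 𝒪 TQ c := by
        rw [map_sub]
        congr 1
        exact φQ.commutes c
      rwa [h3] at h2
    have hχ0 : chi ρT b' 0 frob - algebraMap 𝒪 TQ a ∈ maximalIdeal TQ := by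
      rw [hchi]
      exact hmem _ _ hb0
    have hχ1 : chi ρT b' 1 frob - algebraMap 𝒪 TQ a' ∈ maximalIdeal TQ := by
      rw [hchi]
      exact hmem _ _ hb1
    have hχσ : ∀ i : Fin 2, chi ρT b' i σ - 1 ∈ maximalIdeal TQ := by
      intro i
      rw [hchi]
      have h2 := map_mem_maximalIdeal (φQ : RQ →+* TQ) hφQ (hm σ hσ i)
      have h3 : (φQ : RQ →+* TQ) (chi ρQ b i σ - 1) = φQ (chi ρQ b i σ) - 1 := by
        rw [map_sub, map_one]
        rfl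
      rwa [h3] at h2
    have key := stmt_BRIDGE 𝒪 TQ hsurj (two_notMem_maximalIdeal hp hp2 hp𝒪) ρT hirr V ηW gal hgη
      hCH P b' hD' frob σ hfrob.mem_decompositionSubgroup (H4.mem_decomp_of_mem_inertia hσ)
      a a' haa' hχ0 hχ1 hχσ d (unip_of_pow hp hp2 hp𝒪 d hdpow) hdη hdgal Vα Vβ hcompl hVαη hVαd
      hVαφ hVβφ hαnil hβnil hlg
    refine LinearMap.ext fun v => ?_
    rw [← hchi]
    exact key v

/-- the residual representation of a deformation is unramified where `ρbar` is -/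
theorem resid_eq_one_of_isEquiv {𝒪 : Type} [CommRing 𝒪] [IsLocalRing 𝒪]
    {A : Type} [CommRing A] [IsLocalRing A] [Algebra 𝒪 A] [IsLocalHom (algebraMap 𝒪 A)]
    (ρbar : ResidualGaloisRep (ResidueField 𝒪)) (ρ : GaloisRepAdic A)
    (h : ρ.residual.IsEquiv (ρbar.baseChangeAlong (ResidueField.map (algebraMap 𝒪 A))))
    (σ : GalQ) (hσ : ρbar.ρ σ = 1) : ρ.residual.ρ σ = 1 :=
  eq_one_of_isEquiv_resid h σ (bcAlong_resid_eq_one _ ρbar σ hσ)

/-- the residual characteristic polynomial of a deformation -/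
theorem resid_charpoly_of_isEquiv {𝒪 : Type} [CommRing 𝒪] [IsLocalRing 𝒪]
    {A : Type} [CommRing A] [IsLocalRing A] [Algebra 𝒪 A] [IsLocalHom (algebraMap 𝒪 A)]
    (ρbar : ResidualGaloisRep (ResidueField 𝒪)) (ρ : GaloisRepAdic A)
    (h : ρ.residual.IsEquiv (ρbar.baseChangeAlong (ResidueField.map (algebraMap 𝒪 A))))
    (σ : GalQ) (a a' : 𝒪)
    (hσ : LinearMap.charpoly (ρbar.ρ σ) = (X - C (residue 𝒪 a)) * (X - C (residue 𝒪 a'))) :
    LinearMap.charpoly (ρ.residual.ρ σ) =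
      (X - C (residue A (algebraMap 𝒪 A a))) * (X - C (residue A (algebraMap 𝒪 A a'))) := by
  rw [charpoly_of_isEquiv_resid h σ, charpoly_bcAlong_resid, hσ, Polynomial.map_mul,
    Polynomial.map_sub, Polynomial.map_sub, Polynomial.map_X, Polynomial.map_C,
    Polynomial.map_C, ResidueField.map_residue, ResidueField.map_residue]

/-- image of a Frobenius characteristic polynomial -/
theorem map_charpoly_frob {A B : Type} [CommRing A] [CommRing B] (f : A →+* B) (t : A) (t' : B)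
    (ℓ : ℕ) (h : f t = t') (P : A[X]) (hP : P = X ^ 2 - C t * X + C ((ℓ : A))) :
    P.map f = X ^ 2 - C t' * X + C ((ℓ : B)) := by
  rw [hP, Polynomial.map_add, Polynomial.map_sub, Polynomial.map_mul, Polynomial.map_pow,
    Polynomial.map_X, Polynomial.map_C, Polynomial.map_C, h, map_natCast]

end Fermat.Agent.S59.Asm.H77
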