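/-
S59 package COND (helper7): the Hecke–Galois datum over the full local Hecke ring satisfies the
deformation condition `cond 𝒪 p fl Smin Q`.

* `strictOrd_of`   : strict ordinarity at `p` of the datum (`p ∥ N`, `ρbar` not flat), tested at
                     the points of `T` (`S59.H99.JFam.isStrictOrdinaryAt`): a `p`-old point would
                     be flat, hence `ρbar` would be flat (`Stmt_FlatDesc`); the `p`-new points are
                     strictly ordinary by `Stmt_OrdNewStrict`.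
* `stmt_COND_core` : `Stmt_COND` from the types of the frozen S31, S32, S34 (for `heckeLocal`),
                     `Stmt_OrdNewStrict`, S30 and the leaves.
-/
import Fermat.Agent.S59.Asm.Cond
import Fermat.Agent.S59.Datum.Defs3
import Fermat.Agent.S59.Datum.H7_Asm
import Fermat.Agent.S59.H99_DefSO
import Fermat.Agent.R.H86_Point

set_option autoImplicit false
set_option linter.style.haveILetI false
set_option linter.unusedSectionVars false

open Polynomial IsLocalRing CuspForm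

namespace Fermat.Agent.S59.Asm.H7

open Fermat.Agent.R Fermat.Agent.R.H86 Fermat.Agent.S59 Fermat.Agent.S59.Datum
  Fermat.Agent.S59.Datum.H7 Fermat.Agent.S59.H99

section Fam

variable (𝒪 : Type) [CommRing 𝒪] [IsDomain 𝒪] [IsDiscreteValuationRing 𝒪]
  [IsAdicComplete (maximalIdeal 𝒪) 𝒪] [Finite (ResidueField 𝒪)] [CharZero 𝒪]
  (p : ℕ) [Fact p.Prime]
  (N : ℕ) [NeZero N] (S : Finset ℕ)
  (T : Type) [CommRing T] [IsLocalRing T] [Algebra 𝒪 T] [IsLocalHom (algebraMap 𝒪 T)]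
  [Module.Finite 𝒪 T] [Module.Free 𝒪 T] [IsAdicComplete (maximalIdeal T) T]

/-- The cyclotomic relation descends along a `p`-adically separating family of points. -/
theorem cycRel_of_points {r : ℕ} (P : Fin r → PtRep 𝒪 T) (c : ℕ)
    (hsep : ∀ (n : ℕ) (t : T), (∀ i, (P i).x t ∈ Ideal.span {((p : (P i).O)) ^ (n + c)}) →
      t ∈ Ideal.span {((p : T)) ^ n})
    (σ : AlgebraicClosure ℚ ≃ₐ[ℚ] AlgebraicClosure ℚ) (x z : T)
    (h : ∀ i, CycRel p σ ((P i).x x) ((P i).x z)) : CycRel p σ x z := by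
  intro n a ha
  obtain ⟨b, hb⟩ := exists_actsPow p σ (n + c)
  have h1 : x - (b : T) * z ∈ Ideal.span {((p : T)) ^ n} := by
    refine hsep n _ fun i => ?_
    have h2 := h i (n + c) b hb
    rw [Nat.cast_pow] at h2
    rwa [map_sub, map_mul, map_natCast]
  have hab := (hb.mono (Nat.le_add_right n c)).sub_mem_span (A := T) ha
  have e : x - (a : T) * z = ((b : T) - (a : T)) * z + (x - (b : T) * z) := by ring
  rw [Nat.cast_pow] at hab ⊢
  rw [e]
  exact Ideal.add_mem _ (Ideal.mul_mem_right _ _ hab) h1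

/-- The family of points as a jointly injective family. -/
def ptFam {r : ℕ} (hr : 0 < r) (P : Fin r → PtRep 𝒪 T) (c : ℕ)
    (hinj : ∀ t : T, (∀ i, (P i).x t = 0) → t = 0)
    (hsep : ∀ (n : ℕ) (t : T), (∀ i, (P i).x t ∈ Ideal.span {((p : (P i).O)) ^ (n + c)}) →
      t ∈ Ideal.span {((p : T)) ^ n}) : JFam T p where
  ι := Fin r
  ne := ⟨⟨0, hr⟩⟩
  B := fun i => (P i).O
  cr := fun _ => inferInstance
  lr := fun _ => inferInstance
  φ := fun i => (P i).x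
  hφ := fun i => (P i).isLocalHom
  inj := hinj
  cyc := fun σ x z h => cycRel_of_points 𝒪 p T P c hsep σ x z h

variable [IsNoetherianRing T]

/-- **Strict ordinarity of the datum** at `p ∥ N` when `ρbar` is not flat at `p`. -/
theorem strictOrd_of (hS30 : Stmt_S30) (hFP : Stmt_FlatPoint) (hONS : Stmt_OrdNewStrict)
    (hResIrr : Stmt_ResIrr) (hFD : Stmt_FlatDesc)
    [IsReduced T] (hp2 : p ≠ 2) (hp𝒪 : (p : 𝒪) ∈ maximalIdeal 𝒪) (hpS : p ∈ S)
    (hNS : ∀ q : ℕ, q.Prime → q ∣ N → q ∈ S) (hN : p ∣ N ∧ ¬ p ^ 2 ∣ N)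
    (θ : CuspForm.heckeAlgebra N 2 (↑S : Set ℕ) →+* ResidueField 𝒪)
    (H : CuspForm.HeckeGaloisRepDatum N (↑S : Set ℕ) 𝒪 θ T)
    (ρbar : ResidualGaloisRep (ResidueField 𝒪)) (habs : ρbar.IsAbsolutelyIrreducible)
    (hθ : FrobHyp ρbar N S θ)
    (hnf : ¬ (GaloisRepAdic.ofResidualGaloisRep ρbar).IsFlatAt p) :
    H.ρ.IsStrictOrdinaryAt p := by
  classical
  have hp : p.Prime := Fact.out
  have hpT := natCast_mem_maximalIdeal_of_algebra 𝒪 p T hp𝒪
  obtain ⟨r, P, c, hinj, hsep, -⟩ := exists_points_aux 𝒪 p N S T hS30 hp𝒪 hpS hNS H.π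
  have hr : 0 < r := by
    rcases Nat.eq_zero_or_pos r with h0 | h0
    · subst h0
      exact absurd (hinj 1 fun i => i.elim0) one_ne_zero
    · exact h0
  have hpO : ∀ i, (p : (P i).O) ∈ maximalIdeal (P i).O :=
    fun i => PtRep.natCast_mem 𝒪 p T hpT (P i)
  haveI hloc : ∀ i, IsLocalHom (P i).x := fun i => (P i).isLocalHom
  have hlocO : ∀ i, IsLocalHom (algebraMap 𝒪 (P i).O) := by
    intro i
    have h1 : algebraMap 𝒪 (P i).O = ((P i).x).comp (algebraMap 𝒪 T) :=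
      RingHom.ext fun a => ((P i).hxO a).symm
    rw [h1]
    exact RingHom.isLocalHom_comp _ _
  have hfrobH : HasFrobCharpoly H.π H.ρ :=
    fun ℓ hℓ hℓN hℓS B hB σ hσ => H.charpoly_frob ℓ hℓ hℓN hℓS B hB σ hσ
  -- the level `M = N / p`
  obtain ⟨M, hM⟩ := hN.1
  have hNM : N = M * p := by rw [hM, mul_comm]
  have hM0 : M ≠ 0 := by
    rintro rfl
    exact NeZero.ne N (by rw [hNM, zero_mul])
  haveI : NeZero M := ⟨hM0⟩
  have hpM : ¬ p ∣ M := by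
    rintro ⟨d, hd⟩
    exact hN.2 ⟨d, by rw [hNM, hd]; ring⟩
  have hMS : ∀ q : ℕ, q.Prime → q ∣ M → q ∈ S :=
    fun q hq hqM => hNS q hq (hNM ▸ Dvd.dvd.mul_right hqM p)
  refine (ptFam 𝒪 p T hr P c hinj hsep).isStrictOrdinaryAt H.ρ hp2 fun (i : Fin r) => ?_
  change (H.ρ.baseChangeAlong (P i).x (P i).isLocalHom).IsStrictOrdinaryAt p
  have hfrobi : HasFrobCharpoly ((P i).x.comp H.π)
      (H.ρ.baseChangeAlong (P i).x (P i).isLocalHom) :=
    hasFrobCharpoly_baseChangeAlong (P i).x (P i).isLocalHom H.π H.ρ hfrobH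
  have habsi : (H.ρ.baseChangeAlong (P i).x (P i).isLocalHom).residual.IsAbsolutelyIrreducible :=
    residual_absIrr_baseChangeAlong (P i).x (P i).isLocalHom H.ρ H.residual_absIrr
  refine hONS p N M S (P i).O hp hp2 (hpO i) hNM hpM hNS ((P i).x.comp H.π) _ hfrobi habsi ?_
  rintro ⟨χ', hχ'⟩
  apply hnf
  -- the point is flat
  have hfrob' : HasFrobCharpoly χ' (H.ρ.baseChangeAlong (P i).x (P i).isLocalHom) := by
    intro ℓ hℓ hℓM hℓS B hB σ hσ
    have hℓp : ℓ ≠ p := fun h => hℓS (by rw [h]; exact_mod_cast hpS)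
    have hℓN : ¬ ℓ ∣ N := by
      rw [hNM]
      intro hdvd
      rcases (Nat.Prime.dvd_mul hℓ).1 hdvd with h1 | h1
      · exact hℓM h1
      · exact hℓp ((Nat.prime_dvd_prime_iff_eq hℓ hp).1 h1)
    rw [hχ' ℓ hℓ hℓN hℓM hℓS]
    exact hfrobi ℓ hℓ hℓN hℓS B hB σ hσ
  have hflat : (H.ρ.baseChangeAlong (P i).x (P i).isLocalHom).IsFlatAt p :=
    hFP p M S (P i).O hp hp2 (hpO i) hpM hpS hMS χ' _ hfrob' habsi
  -- the residual representation at the point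
  haveI := hlocO i
  have hψ : ∀ t : CuspForm.heckeAlgebra N 2 (↑S : Set ℕ),
      residue (P i).O (((P i).x.comp H.π) t) =
        ResidueField.map (algebraMap 𝒪 (P i).O) (θ t) := by
    intro t
    obtain ⟨a, ha⟩ := IsLocalRing.residue_surjective (θ t)
    have h1 : residue (P i).O ((P i).x (H.π t)) =
        ResidueField.map (P i).x (residue T (H.π t)) := (ResidueField.map_residue _ _).symm
    rw [RingHom.comp_apply, h1, H.residue_π, ← ha, ResidueField.map_residue,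
      ResidueField.map_residue, ResidueField.map_residue, (P i).hxO]
  have hequiv := (hResIrr _ _ (ResidueField.map (algebraMap 𝒪 (P i).O)) ρbar
    (H.ρ.baseChangeAlong (P i).x (P i).isLocalHom).residual S habs
    (fun ℓ hℓ hℓS B hB σ hσ => residual_charpoly 𝒪 N S ((P i).x.comp H.π) θ hψ _ hfrobi
      ρbar hθ hNS ℓ hℓ hℓS B hB σ hσ)).2
  exact hFD p hp (ResidueField 𝒪) ρbar (P i).O (ResidueField.map (algebraMap 𝒪 (P i).O)) _
    hequiv hflat

end Fam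

/-- The type of the frozen S31 for the full local Hecke ring. -/
def Stmt_UnrDatum : Prop :=
  ∀ (𝒪 : Type) [CommRing 𝒪] [IsDomain 𝒪] [IsDiscreteValuationRing 𝒪]
    [IsAdicComplete (maximalIdeal 𝒪) 𝒪] [Finite (ResidueField 𝒪)] [CharZero 𝒪]
    (p : ℕ), p.Prime → (p : 𝒪) ∈ maximalIdeal 𝒪 →
    ∀ (N : ℕ) [NeZero N] [Fact (CuspForm.HasIntegralStructure N 2)] (S : Finset ℕ), p ∈ S →
    (∀ q : ℕ, q.Prime → q ∣ N → q ∈ S) →
    ∀ (θ : CuspForm.heckeAlgebra N 2 (↑S : Set ℕ) →+* ResidueField 𝒪)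
      (H : CuspForm.HeckeGaloisRepDatum N (↑S : Set ℕ) 𝒪 θ
        (CuspForm.heckeLocal N (↑S : Set ℕ) 𝒪 θ)),
    ∀ q : ℕ, q.Prime → q ∉ S → H.ρ.IsUnramifiedAt q

/-- The type of the frozen S34 for the full local Hecke ring. -/
def Stmt_UnipDatum : Prop :=
  ∀ (𝒪 : Type) [CommRing 𝒪] [IsDomain 𝒪] [IsDiscreteValuationRing 𝒪]
    [IsAdicComplete (maximalIdeal 𝒪) 𝒪] [Finite (ResidueField 𝒪)] [CharZero 𝒪]
    (p : ℕ), p.Prime → (p : 𝒪) ∈ maximalIdeal 𝒪 →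
    ∀ (N : ℕ) [NeZero N] [Fact (CuspForm.HasIntegralStructure N 2)] (S : Finset ℕ), p ∈ S →
    (∀ q : ℕ, q.Prime → q ∣ N → q ∈ S) →
    ∀ (θ : CuspForm.heckeAlgebra N 2 (↑S : Set ℕ) →+* ResidueField 𝒪)
      (H : CuspForm.HeckeGaloisRepDatum N (↑S : Set ℕ) 𝒪 θ
        (CuspForm.heckeLocal N (↑S : Set ℕ) 𝒪 θ)),
    ∀ q : ℕ, q.Prime → q ≠ p → q ∣ N → ¬ q ^ 2 ∣ N → H.ρ.IsUnipotentOnInertiaAt q

/-- The type of the frozen S32 for the full local Hecke ring. -/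
def Stmt_FlatDatum : Prop :=
  ∀ (𝒪 : Type) [CommRing 𝒪] [IsDomain 𝒪] [IsDiscreteValuationRing 𝒪]
    [IsAdicComplete (maximalIdeal 𝒪) 𝒪] [Finite (ResidueField 𝒪)] [CharZero 𝒪]
    (p : ℕ), p.Prime → p ≠ 2 → (p : 𝒪) ∈ maximalIdeal 𝒪 →
    ∀ (N : ℕ) [NeZero N] [Fact (CuspForm.HasIntegralStructure N 2)] (S : Finset ℕ), ¬ p ∣ N →
    p ∈ S → (∀ q : ℕ, q.Prime → q ∣ N → q ∈ S) →
    ∀ (θ : CuspForm.heckeAlgebra N 2 (↑S : Set ℕ) →+* ResidueField 𝒪)
      (H : CuspForm.HeckeGaloisRepDatum N (↑S : Set ℕ) 𝒪 θ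
        (CuspForm.heckeLocal N (↑S : Set ℕ) 𝒪 θ)),
    H.ρ.IsFlatAt p

/-- **COND**, core. -/
theorem stmt_COND_core (hUnr : Stmt_UnrDatum) (hUnip : Stmt_UnipDatum) (hFlat : Stmt_FlatDatum)
    (hS30 : Stmt_S30) (hFP : Stmt_FlatPoint) (hONS : Stmt_OrdNewStrict)
    (hResIrr : Stmt_ResIrr) (hFD : Stmt_FlatDesc) : Stmt_COND := by
  intro 𝒪 _ _ _ _ _ _ p _ hp2 hp𝒪 fl ρbar Smin hyp _ hnf Q N' _ _ S' hS' hNS hSmin hfl hso θ hθ
    H _ hcyc _
  have hp : p.Prime := Fact.out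
  have hpS : p ∈ S' := by rw [hS']; exact Finset.mem_union_left _ hyp.hpSmin
  have hunr : ∀ q : ℕ, q.Prime → q ∉ Smin ∪ Q → H.ρ.IsUnramifiedAt q := fun q hq hqS =>
    hUnr 𝒪 p hp hp𝒪 N' S' hpS hNS θ H q hq (by rw [hS']; exact hqS)
  have hunip : ∀ q ∈ Smin, q.Prime → q ≠ p → H.ρ.IsUnipotentOnInertiaAt q := fun q hqS hq hqp =>
    hUnip 𝒪 p hp hp𝒪 N' S' hpS hNS θ H q hq hqp (hSmin q hqS hqp).1 (hSmin q hqS hqp).2
  cases fl
  · -- strictly ordinary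
    haveI : Module.Finite ℤ (CuspForm.heckeAlgebra N' 2 (↑S' : Set ℕ)) :=
      Fermat.Agent.S22.result N' 2 (↑S' : Set ℕ)
    haveI : IsReduced (CuspForm.heckeAlgebra N' 2 (↑S' : Set ℕ)) :=
      H58.stmt_HeckeReduced N' (↑S' : Set ℕ) hNS
    haveI : IsReduced (CuspForm.heckeLocal N' (↑S' : Set ℕ) 𝒪 θ) :=
      H2.isReduced_of_flat_of_adjoin_eq_top (CuspForm.heckeAlgebra N' 2 (↑S' : Set ℕ)) 𝒪
        (CuspForm.heckeLocal N' (↑S' : Set ℕ) 𝒪 θ) H.π H.adjoin_range_π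
    have hso' := strictOrd_of 𝒪 p N' S' (CuspForm.heckeLocal N' (↑S' : Set ℕ) 𝒪 θ) hS30 hFP hONS
      hResIrr hFD hp2 hp𝒪 hpS hNS (hso rfl) θ H ρbar hyp.habs hθ (hnf rfl)
    exact ⟨⟨hcyc, hso', hunr⟩, hunip⟩
  · -- flat
    have hfl' := hFlat 𝒪 p hp hp2 hp𝒪 N' S' (hfl rfl) hpS hNS θ H
    exact ⟨⟨hcyc, hfl', hunr⟩, hunip⟩

end Fermat.Agent.S59.Asm.H7
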