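import Fermat.Agent.S59.Asm.Leaves2
import Fermat.Agent.S59.Datum.H57_ResIrr
import Fermat.Agent.R.H25_Carayol
import Fermat.Agent.R.H91_Rigidity
import Fermat.Agent.Lib.FrobDensity.Main

/-!
# S59, package ASM, leaf COMPAT (helper57)

Two local `𝒪`-algebra homomorphisms `f₁ f₂ : D.R → A` out of a universal deformation ring, the
second one classifying `ρA`, the first one giving the Frobenius characteristic polynomials of
`ρA` outside a finite set of primes, are equal.

Frobenius density + continuity (`R.H91.charpoly_eq_of_frobenius`) give equal characteristic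
polynomials everywhere; Carayol's theorem (`R.H25.isEquiv_of_trace_eq`) gives
`ρA ≅ D.ρ ⊗_{f₁} A`; conclude by the uniqueness in the universal property.
-/

set_option autoImplicit false

open Polynomial IsLocalRing

namespace Fermat.Agent.S59.Asm.H57

open Fermat.Agent.S59 Fermat.Agent.S59.TWGal

/-- Two representations over a noetherian local ring with the same Frobenius characteristic
polynomials outside a finite set of primes, the first one residually absolutely irreducible,
are equivalent. -/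
theorem isEquiv_of_frobenius {A : Type} [CommRing A] [IsLocalRing A] [IsNoetherianRing A]
    (ρ₁ ρ₂ : GaloisRepAdic A) (hirr : ρ₁.residual.IsAbsolutelyIrreducible) (S : Finset ℕ)
    (h : ∀ ℓ : ℕ, ℓ.Prime → ℓ ∉ S → ∀ B : ValuationSubring (AlgebraicClosure ℚ),
      B.LiesOverPrime ℓ → ∀ σ : GalQ, B.IsFrobeniusAt σ ℓ →
        LinearMap.charpoly (ρ₁.ρ σ) = LinearMap.charpoly (ρ₂.ρ σ)) :
    ρ₁.IsEquiv ρ₂ := by
  have hT : ∀ x : A, (∀ n : ℕ, x ∈ maximalIdeal A ^ n) → x = 0 := by
    intro x hx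
    have h0 : x ∈ (⨅ i : ℕ, maximalIdeal A ^ i : Ideal A) := by
      rw [Ideal.mem_iInf]
      exact hx
    rw [Ideal.iInf_pow_eq_bot_of_isLocalRing (maximalIdeal A)
      (maximalIdeal.isMaximal A).ne_top, Ideal.mem_bot] at h0
    exact h0
  have hcp := Fermat.Agent.R.H91.charpoly_eq_of_frobenius
    Fermat.Agent.Lib.FrobDensity.stmt_FD hT ρ₁ ρ₂ S h
  refine Fermat.Agent.R.H25.isEquiv_of_trace_eq ρ₁ ρ₂ hirr fun σ => ?_
  have h1 := hcp σ
  rw [Fermat.Agent.R.H91.charpoly_eq_of_finrank_two ρ₁.finrank_eq,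
    Fermat.Agent.R.H91.charpoly_eq_of_finrank_two ρ₂.finrank_eq] at h1
  have h2 := congrArg (fun q : A[X] => q.coeff 1) h1
  simp only [coeff_add, coeff_sub, coeff_X_pow, coeff_C_mul, coeff_X_one, coeff_C, mul_one] at h2
  norm_num at h2
  exact h2

/-- **COMPAT.** -/
theorem stmt_COMPAT : Stmt_COMPAT := by
  intro 𝒪 _ _ _ _ ρbar 𝒟 D A _ _ _ _ _ _ hsurj ρA hρA hres f₁ f₂ h₁ h₂ S hfrob he₂
  -- the universal representation is residually absolutely irreducible
  have hD : D.ρ.residual.IsAbsolutelyIrreducible :=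
    Fermat.Agent.S59.Datum.H57.absIrr_of_isEquiv D.residual_isEquiv
      (Fermat.Agent.S59.Datum.H57.absIrr_baseChangeAlong _ ρbar D.absIrr)
  have hirr₁ : (D.ρ.baseChangeAlong (f₁ : D.R →+* A) h₁).residual.IsAbsolutelyIrreducible :=
    Fermat.Agent.R.H86.residual_absIrr_baseChangeAlong _ h₁ D.ρ hD
  have he₁ : (D.ρ.baseChangeAlong (f₁ : D.R →+* A) h₁).IsEquiv ρA :=
    isEquiv_of_frobenius _ ρA hirr₁ S hfrob
  obtain ⟨φ, -, huniq⟩ := D.universal A hsurj ρA hρA hres
  rw [huniq f₁ ⟨h₁, he₁⟩, huniq f₂ ⟨h₂, he₂⟩]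

end Fermat.Agent.S59.Asm.H57
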