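import Fermat.Agent.S59.Asm.Main
import Fermat.Agent.S59.Asm.H57_CHV
import Fermat.Agent.S59.Asm.H57_Compat
import Fermat.Agent.S59.Asm.H77_Transport
import Fermat.Agent.S59.Asm.H77_Bridge
import Fermat.Agent.S58.H99_Plumb

/-!
# S59, package ASM (helper77): the Taylor–Wiles assembly, abstract steps

The steps of the assembly `Stmt_ASM` in abstract form (the Hecke rings are arbitrary local
`𝒪`-algebras):

* `commute_of_gen`, `mem_of_gen`, `intertwine_of_gen` : extension from generators (step 2);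
* `ch_of_es` : Cayley–Hamilton from the Eichler–Shimura relation (step 3);
* `exists_delta` : the element `δ_j` (step 4);
* `compat_of_frob` : `res ∘ φQ = φ ∘ τ` (step 5).
-/

set_option autoImplicit false
set_option linter.unusedSectionVars false
set_option linter.unusedVariables false

open Polynomial CuspForm IsLocalRing

namespace Fermat.Agent.S59.Asm.H77

open Fermat.Agent.S59 Fermat.Agent.S59.TWGal Fermat.Agent.S59.Asm

/-! ## Step 2: extension from generators -/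

section Ext

variable {𝒪 TQ : Type} [CommRing 𝒪] [CommRing TQ] [Algebra 𝒪 TQ]
  {V : Type} [AddCommGroup V] [Module 𝒪 V]
  {ι : Type} {πQ : ι → TQ} (hadj : Algebra.adjoin 𝒪 (Set.range πQ) = ⊤)
  (ηW : TQ →ₐ[𝒪] Module.End 𝒪 V)

include hadj

theorem commute_of_gen (A : Module.End 𝒪 V) (h : ∀ t, Commute A (ηW (πQ t))) (x : TQ) :
    Commute A (ηW x) := by
  refine adjoin_top_induction (𝒪 := 𝒪) (P := fun x => Commute A (ηW x)) hadj ?_ ?_ ?_ ?_ x
  · rintro _ ⟨t, rfl⟩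
    exact h t
  · intro a
    rw [AlgHom.commutes, Algebra.algebraMap_eq_smul_one]
    exact (Commute.one_right _).smul_right a
  · intro x y hx hy
    rw [map_add]
    exact hx.add_right hy
  · intro x y hx hy
    rw [map_mul]
    exact hx.mul_right hy

theorem mem_of_gen (U : Submodule 𝒪 V) (h : ∀ t, ∀ v ∈ U, ηW (πQ t) v ∈ U) (x : TQ) :
    ∀ v ∈ U, ηW x v ∈ U := by
  refine adjoin_top_induction (𝒪 := 𝒪) (P := fun x => ∀ v ∈ U, ηW x v ∈ U) hadj ?_ ?_ ?_ ?_ x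
  · rintro _ ⟨t, rfl⟩
    exact h t
  · intro a v hv
    rw [AlgHom.commutes, Module.algebraMap_end_apply]
    exact U.smul_mem a hv
  · intro x y hx hy v hv
    rw [map_add, LinearMap.add_apply]
    exact U.add_mem (hx v hv) (hy v hv)
  · intro x y hx hy v hv
    rw [map_mul, Module.End.mul_apply]
    exact hx _ (hy v hv)

theorem intertwine_of_gen {T M : Type} [CommRing T] [Algebra 𝒪 T] [AddCommGroup M]
    [Module 𝒪 M] (ηM : T →ₐ[𝒪] Module.End 𝒪 M) (res : TQ →ₐ[𝒪] T) (π : V →ₗ[𝒪] M)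
    (h : ∀ t v, π (ηW (πQ t) v) = ηM (res (πQ t)) (π v)) (x : TQ) :
    ∀ v, π (ηW x v) = ηM (res x) (π v) := by
  refine adjoin_top_induction (𝒪 := 𝒪) (P := fun x => ∀ v, π (ηW x v) = ηM (res x) (π v))
    hadj ?_ ?_ ?_ ?_ x
  · rintro _ ⟨t, rfl⟩
    exact h t
  · intro a v
    rw [AlgHom.commutes, AlgHom.commutes, AlgHom.commutes, Module.algebraMap_end_apply,
      Module.algebraMap_end_apply, map_smul]
  · intro x y hx hy v
    rw [map_add, LinearMap.add_apply, map_add, hx, hy, map_add, map_add, LinearMap.add_apply]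
  · intro x y hx hy v
    rw [map_mul, Module.End.mul_apply, hx, hy, map_mul, map_mul, Module.End.mul_apply]

end Ext

/-! ## Step 3: Cayley–Hamilton from Eichler–Shimura -/

theorem ch_of_es {𝒪 : Type} [CommRing 𝒪] [IsDomain 𝒪] [IsDiscreteValuationRing 𝒪]
    [IsAdicComplete (maximalIdeal 𝒪) 𝒪]
    {TQ : Type} [CommRing TQ] [IsLocalRing TQ] [Algebra 𝒪 TQ] [Module.Finite 𝒪 TQ]
    [IsLocalHom (algebraMap 𝒪 TQ)] (ρ : GaloisRepAdic TQ)
    {V : Type} [AddCommGroup V] [Module 𝒪 V] [Module.Finite 𝒪 V] [Module.Free 𝒪 V]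
    (ηW : TQ →ₐ[𝒪] Module.End 𝒪 V) (gal : GalQ →* Module.End 𝒪 V)
    (hcont : GaloisActionIsAdicContinuous 𝒪 gal)
    (hcomm : ∀ (g : GalQ) (t : TQ), Commute (gal g) (ηW t)) (S' : Finset ℕ)
    (h : ∀ ℓ : ℕ, ℓ.Prime → ℓ ∉ S' → ∀ A : ValuationSubring (AlgebraicClosure ℚ),
      A.LiesOverPrime ℓ → ∀ σ : GalQ, A.IsFrobeniusAt σ ℓ → ∃ t : TQ,
        LinearMap.charpoly (ρ.ρ σ) = X ^ 2 - C t * X + C ((ℓ : TQ)) ∧
        gal σ * gal σ - ηW t * gal σ + (ℓ : 𝒪) • (1 : Module.End 𝒪 V) = 0) :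
    ∀ g : GalQ, gal g * gal g - ηW (ρ.trace g) * gal g + ηW (LinearMap.det (ρ.ρ g)) = 0 := by
  refine H57.stmt_CHV 𝒪 TQ ρ V ηW gal hcont hcomm S' ?_
  intro ℓ hℓ hℓS A hA σ hσ
  obtain ⟨t, h1, h2⟩ := h ℓ hℓ hℓS A hA σ hσ
  obtain ⟨htr, hdet⟩ := Fermat.Agent.S58.H99.trace_det_of_charpoly_two ρ.finrank_eq _ h1
  have htr' : ρ.trace σ = t := htr
  have hcast : ηW ((ℓ : TQ)) = (ℓ : 𝒪) • (1 : Module.End 𝒪 V) := by
    rw [map_natCast, Nat.cast_smul_eq_nsmul, nsmul_eq_mul, mul_one]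
  rw [htr', hdet, hcast]
  exact h2

end Fermat.Agent.S59.Asm.H77
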