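import Fermat.Agent.S59.Asm.Main
import Fermat.Agent.S59.Asm.H57_Compat

/-!
# S59, package ASM (helper77): the Taylor–Wiles assembly, step 5 in abstract form

`compat_of_frob`: `res ∘ φQ = φ ∘ τ`, from `H57.stmt_COMPAT`.
-/

set_option autoImplicit false
set_option linter.unusedSectionVars false
set_option linter.unusedVariables false

open Polynomial CuspForm IsLocalRing

namespace Fermat.Agent.S59.Asm.H77

open Fermat.Agent.S59 Fermat.Agent.S59.TWGal Fermat.Agent.S59.Asm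

/-- a composition of local algebra homomorphisms is local -/
theorem isLocalHom_comp_algHom {𝒪 A B C : Type} [CommRing 𝒪] [CommRing A] [CommRing B]
    [CommRing C] [Algebra 𝒪 A] [Algebra 𝒪 B] [Algebra 𝒪 C] (g : B →ₐ[𝒪] C) (f : A →ₐ[𝒪] B)
    (hg : IsLocalHom (g : B →+* C)) (hf : IsLocalHom (f : A →+* B)) :
    IsLocalHom ((g.comp f : A →ₐ[𝒪] C) : A →+* C) :=
  ⟨fun x hx => hf.map_nonunit x (hg.map_nonunit ((f : A →+* B) x) hx)⟩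

/-- **Step 5 of ASM**, abstract form. -/
theorem compat_of_frob {𝒪 : Type} [CommRing 𝒪] [IsDomain 𝒪] [IsDiscreteValuationRing 𝒪]
    [IsAdicComplete (maximalIdeal 𝒪) 𝒪]
    (ρbar : ResidualGaloisRep (ResidueField 𝒪))
    (𝒟 𝒟Q : ∀ ⦃A : Type⦄ [CommRing A] [IsLocalRing A] [Algebra 𝒪 A], GaloisRepAdic A → Prop)
    (D : GaloisRep.DeformationRingData 𝒪 ρbar 𝒟)
    (DQ : GaloisRep.DeformationRingData 𝒪 ρbar 𝒟Q)
    {T : Type} [CommRing T] [IsLocalRing T] [IsNoetherianRing T]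
    [IsAdicComplete (maximalIdeal T) T] [Algebra 𝒪 T] [IsLocalHom (algebraMap 𝒪 T)]
    {TQ : Type} [CommRing TQ] [IsLocalRing TQ] [Algebra 𝒪 TQ] [Module.Finite 𝒪 TQ]
    [IsLocalHom (algebraMap 𝒪 TQ)]
    (hsurj : Function.Surjective (residue T ∘ algebraMap 𝒪 T))
    (ρT : GaloisRepAdic T) (hρT : 𝒟Q ρT)
    (hres : ρT.residual.IsEquiv (ρbar.baseChangeAlong (ResidueField.map (algebraMap 𝒪 T))))
    (ρTQ : GaloisRepAdic TQ)
    (τ : DQ.R →ₐ[𝒪] D.R) (hτl : IsLocalHom (τ : DQ.R →+* D.R))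
    (hτe : (DQ.ρ.baseChangeAlong (τ : DQ.R →+* D.R) hτl).IsEquiv D.ρ)
    (φ : D.R →ₐ[𝒪] T) (hφ : IsLocalHom (φ : D.R →+* T))
    (hφe : (D.ρ.baseChangeAlong (φ : D.R →+* T) hφ).IsEquiv ρT)
    (φQ : DQ.R →ₐ[𝒪] TQ) (hφQ : IsLocalHom (φQ : DQ.R →+* TQ))
    (hφQe : (DQ.ρ.baseChangeAlong (φQ : DQ.R →+* TQ) hφQ).IsEquiv ρTQ)
    (res : TQ →ₐ[𝒪] T) (S' : Finset ℕ)
    (hfrob : ∀ ℓ : ℕ, ℓ.Prime → ℓ ∉ S' → ∀ B : ValuationSubring (AlgebraicClosure ℚ),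
      B.LiesOverPrime ℓ → ∀ σ : GalQ, B.IsFrobeniusAt σ ℓ →
        (LinearMap.charpoly (ρTQ.ρ σ)).map (res : TQ →+* T) = LinearMap.charpoly (ρT.ρ σ)) :
    res.comp φQ = φ.comp τ := by
  have hresl : IsLocalHom (res : TQ →+* T) := isLocalHom_of_finite (𝒪 := 𝒪) res
  have h₁ : IsLocalHom ((res.comp φQ : DQ.R →ₐ[𝒪] T) : DQ.R →+* T) :=
    isLocalHom_comp_algHom res φQ hresl hφQ
  have h₂ : IsLocalHom ((φ.comp τ : DQ.R →ₐ[𝒪] T) : DQ.R →+* T) :=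
    isLocalHom_comp_algHom φ τ hφ hτl
  have hD : DQ.ρ.residual.IsAbsolutelyIrreducible :=
    Fermat.Agent.S59.Datum.H57.absIrr_of_isEquiv DQ.residual_isEquiv
      (Fermat.Agent.S59.Datum.H57.absIrr_baseChangeAlong _ ρbar DQ.absIrr)
  have hirr₂ : (DQ.ρ.baseChangeAlong ((φ.comp τ : DQ.R →ₐ[𝒪] T) : DQ.R →+* T)
      h₂).residual.IsAbsolutelyIrreducible :=
    Fermat.Agent.R.H86.residual_absIrr_baseChangeAlong _ h₂ DQ.ρ hD
  have he₂ : (DQ.ρ.baseChangeAlong ((φ.comp τ : DQ.R →ₐ[𝒪] T) : DQ.R →+* T) h₂).IsEquiv ρT := by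
    refine H57.isEquiv_of_frobenius _ ρT hirr₂ ∅ fun ℓ _ _ B _ σ _ => ?_
    rw [charpoly_bcAlong, ← charpoly_of_isEquiv hφe σ, charpoly_bcAlong,
      ← charpoly_of_isEquiv hτe σ, charpoly_bcAlong, Polynomial.map_map]
    rfl
  refine H57.stmt_COMPAT 𝒪 ρbar 𝒟Q DQ T hsurj ρT hρT hres (res.comp φQ) (φ.comp τ) h₁ h₂ S' ?_ he₂
  intro ℓ hℓ hℓS B hB σ hσ
  rw [charpoly_bcAlong, ← hfrob ℓ hℓ hℓS B hB σ hσ, ← charpoly_of_isEquiv hφQe σ,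
    charpoly_bcAlong, Polynomial.map_map]
  rfl

end Fermat.Agent.S59.Asm.H77
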