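import Fermat.Agent.S59.Asm.H85_LocLift
import Fermat.Agent.S59.Asm.Leaves

set_option autoImplicit false
set_option linter.unusedSectionVars false
set_option linter.style.haveILetI false

/-!
# S59, package ASM (helper85): the leaf RESLOC

`stmt_RESLOC : Stmt_RESLOC` : a ring homomorphism `rest : 𝕋' → 𝕋` between Hecke algebras induces
an `𝒪`-algebra homomorphism `heckeLocal N' S' 𝒪 (θ ∘ rest) → heckeLocal N S 𝒪 θ` compatible with
the structure maps `π`.
-/

noncomputable section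

open scoped TensorProduct
open IsLocalRing CuspForm

namespace Fermat.Agent.S59.Asm.H85

open Fermat.Agent.S59.Datum.H85

set_option synthInstance.maxHeartbeats 400000
set_option maxHeartbeats 1000000

/-- **RESLOC.** -/
theorem stmt_RESLOC : Stmt_RESLOC := by
  intro 𝒪 _ _ _ _ N N' _ _ _ _ S S' θ rest
  -- the map `𝒪 ⊗ 𝕋' → 𝒪 ⊗ 𝕋`
  let m : (𝒪 ⊗[ℤ] ↥(heckeAlgebra N' 2 S')) →ₐ[ℤ] (𝒪 ⊗[ℤ] ↥(heckeAlgebra N 2 S)) :=
    Algebra.TensorProduct.map (AlgHom.id ℤ 𝒪) rest.toIntAlgHom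
  have hm : ∀ (a : 𝒪) (t : ↥(heckeAlgebra N' 2 S')), m (a ⊗ₜ[ℤ] t) = a ⊗ₜ[ℤ] rest t :=
    fun a t => rfl
  have hres : ∀ x : 𝒪 ⊗[ℤ] ↥(heckeAlgebra N' 2 S'),
      residualCharacter N S 𝒪 θ (m x) = residualCharacter N' S' 𝒪 (θ.comp rest) x := by
    intro x
    induction x using TensorProduct.induction_on with
    | zero => rw [map_zero, map_zero, map_zero]
    | tmul a t => rw [hm, residualCharacter_tmul, residualCharacter_tmul, RingHom.comp_apply]
    | add x y hx hy => rw [map_add, map_add, map_add, hx, hy]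
  let g : (𝒪 ⊗[ℤ] ↥(heckeAlgebra N' 2 S')) →+* heckeLocal N S 𝒪 θ :=
    (toLocal 𝒪 N S θ).comp m.toRingHom
  have hg : ∀ x, g x = toLocal 𝒪 N S θ (m x) := fun x => rfl
  obtain ⟨ghat, hghat⟩ := exists_lift 𝒪 N' S' (θ.comp rest) g (fun s hs => by
    rw [hg]
    apply isUnit_toLocal
    rw [hres]
    exact hs)
  refine ⟨{ ghat with commutes' := fun a => ?_ }, fun t => ?_⟩
  · show ghat (algebraMap 𝒪 (heckeLocal N' S' 𝒪 (θ.comp rest)) a) = algebraMap 𝒪 _ a
    rw [← toLocal_algebraMap, hghat, hg, Algebra.TensorProduct.algebraMap_apply,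
      Algebra.algebraMap_self, RingHom.id_apply, hm, map_one, ← toLocal_algebraMap,
      Algebra.TensorProduct.algebraMap_apply, Algebra.algebraMap_self, RingHom.id_apply]
  · show ghat (heckeLocal.π N' S' 𝒪 (θ.comp rest) t) = heckeLocal.π N S 𝒪 θ (rest t)
    rw [← toLocal_includeRight, hghat, hg, hm, toLocal_includeRight]

end Fermat.Agent.S59.Asm.H85

end
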