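import Mathlib
import Fermat.Agent.S59.Wiring
import Fermat.Agent.S59.Asm.Min2
import Fermat.Agent.S59.LL.Defs

/-!
# S59 (helper53): from the minimal case to the frozen statement — final interfaces

Chain (every arrow is a `Prop`-level wiring; `Stmt_Tate`, `Stmt_Stab` are landed theorems):

```
Stmt_MLTmin2 (TW, minimal case) ──► Stmt_MLTgen (RT-NONMIN, helper85)
Stmt_MLTgen + Stmt_THETAMIN + Stmt_EXACTb ──► Stmt_MLTredS            (`Stmt_REDWIRE`)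
Stmt_MLTredS ──► Stmt_MLTred                                          (`Stmt_REDSPLIT`)
Stmt_MLTred + LL.Stmt_LLec + Stmt_BRIDGERES + Stmt_TRES + Stmt_CARDKER ──► Stmt_Lift
                                                                      (`Stmt_LIFTWIRE`)
Stmt_Lift + Stmt_S58 ──► frozen S59                                   (`S59_of_lift`, landed)
```

* `Stmt_MLTgen`  : modularity lifting in Galois form over the MINIMAL level: `θ` lives at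
  `N = minLevel p fl Smin`, `ρ` may ramify (unipotently) at a finite set `Sig` of further primes
  and may be strictly ordinary at `p` although `ρbar` is flat (case C).
* `Stmt_MLTred`  : `Stmt_MLT` of `Wiring.lean` with the three extra hypotheses that LL provides:
  `M₀` squarefree, `ρbar` ramified at every prime `q ≠ p` of `M₀`, `p ∣ M₀ → ρbar` not flat.
* `Stmt_MLTredS` : `Stmt_MLTred` with split residual characteristic polynomials.
* `Stmt_THETAMIN`: the residual eigencharacter away from ANY `S ⊇ primes(M₀) ∪ {p}` with values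
  in the field of `ρbar`, and `ρbar` is unramified outside `M₀ p`  (S29 + Brauer–Nesbitt).
* `Stmt_EXACTb`  : `p ∤ N`, `θ` of level `N` with `FrobHyp` ⟹ `ρbar` is flat at `p`
  (DATUM + S32 + FLATDESC).
* `Stmt_BRIDGERES`, `Stmt_TRES`, `Stmt_CARDKER` : the bridge between the elliptic-curve form of LL
  (`residualGaloisRepOf`, `IsPeuRamifieeAt`) and the residual representation of the `p`-adic
  representation given by `Stmt_Tate`.
-/

set_option autoImplicit false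

open Polynomial CuspForm CongruenceSubgroup ModularFormClass IsLocalRing WeierstrassCurve
  WeierstrassCurve.Affine WeierstrassCurve.Affine.Point

namespace Fermat.Agent.S59.Asm

open Fermat.Agent.S59

/-- **Modularity lifting over the minimal level** (target of RT-NONMIN). -/
def Stmt_MLTgen : Prop :=
  ∀ (𝒪 : Type) [CommRing 𝒪] [IsDomain 𝒪] [IsDiscreteValuationRing 𝒪]
    [IsAdicComplete (maximalIdeal 𝒪) 𝒪] [Finite (ResidueField 𝒪)] [CharZero 𝒪]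
    (p : ℕ) [Fact p.Prime], p ≠ 2 → (p : 𝒪) ∈ maximalIdeal 𝒪 →
    ∀ (fl : Bool) (ρbar : ResidualGaloisRep (ResidueField 𝒪)) (Smin : Finset ℕ),
    ResHyp p ρbar Smin →
    cond 𝒪 p fl Smin ∅ (GaloisRepAdic.ofResidualGaloisRep ρbar) →
    (fl = false → ¬ (GaloisRepAdic.ofResidualGaloisRep ρbar).IsFlatAt p) →
    ∀ (N : ℕ) [NeZero N], N = minLevel p fl Smin →
    ∀ (θ : CuspForm.heckeAlgebra N 2 (↑Smin : Set ℕ) →+* ResidueField 𝒪),
    Fermat.Agent.S59.Datum.FrobHyp ρbar N Smin θ →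
    ∀ (Sig : Finset ℕ), (∀ q ∈ Sig, q.Prime ∧ q ∉ Smin) →
    ∀ (ρ : GaloisRepAdic 𝒪), ρ.DetIsCyclotomic p →
    (∀ q : ℕ, q.Prime → q ∉ Smin → q ∉ Sig → ρ.IsUnramifiedAt q) →
    (∀ q ∈ Smin, q ≠ p → ρ.IsUnipotentOnInertiaAt q) →
    (∀ q ∈ Sig, ρ.IsUnipotentOnInertiaAt q) →
    (ρ.IsFlatAt p ∨ ρ.IsStrictOrdinaryAt p) →
    ρ.residual.IsEquiv (ρbar.baseChangeAlong (ResidueField.map (algebraMap 𝒪 𝒪))) →
    ∀ (a : ℕ → ℤ),
    (∀ ℓ : ℕ, ℓ.Prime → ℓ ∉ Smin → ℓ ∉ Sig →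
      ∀ A : ValuationSubring (AlgebraicClosure ℚ), A.LiesOverPrime ℓ →
        ∀ σ : AlgebraicClosure ℚ ≃ₐ[ℚ] AlgebraicClosure ℚ, A.IsFrobeniusAt σ ℓ →
          LinearMap.charpoly (ρ.ρ σ) = X ^ 2 - C (((a ℓ : ℤ) : 𝒪)) * X + C ((ℓ : 𝒪))) →
    ∃ N' : ℕ, ¬ p ^ 2 ∣ N' ∧ (∀ q : ℕ, q.Prime → ¬ q ^ 3 ∣ N') ∧
      ∃ g : CuspForm (Gamma0 N') 2, g.IsNormalizedEigenform ∧
        ∀ ℓ : ℕ, ℓ.Prime → ℓ ∉ Smin → ℓ ∉ Sig → ¬ ℓ ∣ N' → qCoeff ⇑g ℓ = (a ℓ : ℂ)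

/-- The hypotheses and the conclusion of `Stmt_MLT`, with the three extra hypotheses provided by
LL and (if `split`) split residual characteristic polynomials. -/
def MLTredShape (split : Prop) : Prop :=
  ∀ (p : ℕ) [Fact p.Prime], p ≠ 2 →
  ∀ (𝒪 : Type) [CommRing 𝒪] [IsDomain 𝒪] [IsDiscreteValuationRing 𝒪]
    [IsAdicComplete (IsLocalRing.maximalIdeal 𝒪) 𝒪] [Finite (IsLocalRing.ResidueField 𝒪)]
    [CharZero 𝒪] (ρ : GaloisRepAdic 𝒪) (a : ℕ → ℤ) (Sig : Finset ℕ),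
    (∀ q ∈ Sig, q.Prime ∧ q ≠ p) →
    ρ.DetIsCyclotomic p →
    (∀ q : ℕ, q.Prime → q ≠ p → q ∉ Sig → ρ.IsUnramifiedAt q) →
    (∀ q ∈ Sig, ρ.IsUnipotentOnInertiaAt q) →
    (ρ.IsFlatAt p ∨ ρ.IsStrictOrdinaryAt p) →
    (∀ ℓ : ℕ, ℓ.Prime → ℓ ≠ p → ℓ ∉ Sig →
      ∀ A : ValuationSubring (AlgebraicClosure ℚ), A.LiesOverPrime ℓ →
        ∀ σ : AlgebraicClosure ℚ ≃ₐ[ℚ] AlgebraicClosure ℚ, A.IsFrobeniusAt σ ℓ →
          LinearMap.charpoly (ρ.ρ σ) = X ^ 2 - C (((a ℓ : ℤ) : 𝒪)) * X + C ((ℓ : 𝒪))) →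
    ρ.residual.IsAbsolutelyIrreducible → TWCond ρ.residual →
    (split → ∀ σ : AlgebraicClosure ℚ ≃ₐ[ℚ] AlgebraicClosure ℚ,
      ∃ α β : IsLocalRing.ResidueField 𝒪,
        LinearMap.charpoly (ρ.residual.ρ σ) = (X - C α) * (X - C β)) →
    ∀ (M₀ : ℕ), M₀ ≠ 0 → Squarefree M₀ →
    (∀ q : ℕ, q.Prime → q ≠ p → q ∣ M₀ → ¬ ρ.residual.IsUnramifiedAt q) →
    (p ∣ M₀ → ¬ (GaloisRepAdic.ofResidualGaloisRep ρ.residual).IsFlatAt p) →
    ∀ (f₀ : CuspForm (CongruenceSubgroup.Gamma0 M₀) 2) (𝔪 : Ideal (integralClosure ℤ ℂ)),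
      f₀.IsNormalizedEigenform → 𝔪.IsMaximal → (p : integralClosure ℤ ℂ) ∈ 𝔪 →
      (∀ ℓ : ℕ, ℓ.Prime → ℓ ∉ Sig → ¬ ℓ ∣ M₀ → ℓ ≠ p →
        ∃ b : integralClosure ℤ ℂ, (b : ℂ) = ModularFormClass.qCoeff f₀ ℓ ∧
          b - ((a ℓ : ℤ) : integralClosure ℤ ℂ) ∈ 𝔪) →
    ∃ N : ℕ, ¬ p ^ 2 ∣ N ∧ (∀ q : ℕ, q.Prime → ¬ q ^ 3 ∣ N) ∧
      ∃ f : CuspForm (CongruenceSubgroup.Gamma0 N) 2, f.IsNormalizedEigenform ∧
        ∀ ℓ : ℕ, ℓ.Prime → ℓ ≠ p → ℓ ∉ Sig → ¬ ℓ ∣ N →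
          ModularFormClass.qCoeff f ℓ = (a ℓ : ℂ)

/-- **Modularity lifting, reduced form** (no hypothesis on the residual characteristic
polynomials: the hypothesis `False → …` is void). -/
def Stmt_MLTred : Prop := MLTredShape False

/-- **Modularity lifting, reduced form, split residual characteristic polynomials.** -/
def Stmt_MLTredS : Prop := MLTredShape True

/-- **THETA-MIN**: the residual eigencharacter of `f₀` away from any finite `S ⊇ primes(M₀) ∪ {p}`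
takes values in the field of `ρbar` and satisfies `FrobHyp`; and `ρbar` is unramified outside
`M₀ p`.
[`Ω := AlgebraicClosure k`, `r : ℤ̄ → Ω` with kernel `𝔪`; `S29.result hf₀ hp r` gives `ρ_f` over
`Ω`, attached to `f₀`, unramified outside `M₀ p`; `ρbar ⊗ Ω` and `ρ_f` have the same Frobenius
characteristic polynomials outside `Sig ∪ primes(M₀ p)`, so they are equivalent
(`H57.isEquiv_of_frobenius` over the field `Ω`); unramifiedness descends from `Ω ⊗ V` to `V`;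
`θ_Ω := r ∘ eigenChar` maps the generators `T_ℓ` to `tr ρbar(Frob_ℓ) ∈ k`, so it factors through
`k` (`Asm.adjoin_top_induction`).] -/
def Stmt_THETAMIN : Prop :=
  ∀ (p : ℕ) [Fact p.Prime], p ≠ 2 →
  ∀ (k : Type) [Field k] [Finite k] [CharP k p] (ρbar : ResidualGaloisRep k),
    ρbar.IsAbsolutelyIrreducible →
  ∀ (M₀ : ℕ) [NeZero M₀] (f₀ : CuspForm (Gamma0 M₀) 2) (𝔪 : Ideal (integralClosure ℤ ℂ)),
    f₀.IsNormalizedEigenform → 𝔪.IsMaximal → (p : integralClosure ℤ ℂ) ∈ 𝔪 →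
  ∀ (a : ℕ → ℤ) (Sig : Finset ℕ),
    (∀ ℓ : ℕ, ℓ.Prime → ℓ ∉ Sig → ¬ ℓ ∣ M₀ → ℓ ≠ p →
      ∃ b : integralClosure ℤ ℂ, (b : ℂ) = qCoeff f₀ ℓ ∧
        b - ((a ℓ : ℤ) : integralClosure ℤ ℂ) ∈ 𝔪) →
    (∀ ℓ : ℕ, ℓ.Prime → ℓ ∉ Sig → ℓ ≠ p →
      ∀ A : ValuationSubring (AlgebraicClosure ℚ), A.LiesOverPrime ℓ →
        ∀ σ : AlgebraicClosure ℚ ≃ₐ[ℚ] AlgebraicClosure ℚ, A.IsFrobeniusAt σ ℓ →
          LinearMap.charpoly (ρbar.ρ σ) = X ^ 2 - C (((a ℓ : ℤ) : k)) * X + C ((ℓ : k))) →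
    (∀ q : ℕ, q.Prime → ¬ q ∣ M₀ → q ≠ p → ρbar.IsUnramifiedAt q) ∧
    ∀ (S : Finset ℕ), p ∈ S → (∀ q : ℕ, q.Prime → q ∣ M₀ → q ∈ S) →
      ∃ θ : CuspForm.heckeAlgebra M₀ 2 (↑S : Set ℕ) →+* k,
        Fermat.Agent.S59.Datum.FrobHyp ρbar M₀ S θ

/-- **EXACT-b**: a residual representation which is modular of a level prime to `p` is flat at
`p`.  [`S23.result` (integral structure), `Datum.stmt_DATUM` (the datum `H` over `heckeLocal`,
residual representation `ρbar ⊗ k_T`), `S32.result` (`H.ρ` is flat at `p`),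
`Datum.H78.stmt_FlatDesc`.] -/
def Stmt_EXACTb : Prop :=
  ∀ (𝒪 : Type) [CommRing 𝒪] [IsDomain 𝒪] [IsDiscreteValuationRing 𝒪]
    [IsAdicComplete (maximalIdeal 𝒪) 𝒪] [Finite (ResidueField 𝒪)] [CharZero 𝒪]
    (p : ℕ) [Fact p.Prime], p ≠ 2 → (p : 𝒪) ∈ maximalIdeal 𝒪 →
    ∀ (ρbar : ResidualGaloisRep (ResidueField 𝒪)), ρbar.IsAbsolutelyIrreducible →
    ∀ (N : ℕ) [NeZero N] (S : Finset ℕ), p ∈ S → (∀ q : ℕ, q.Prime → q ∣ N → q ∈ S) →
    ¬ p ∣ N →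
    ∀ (θ : CuspForm.heckeAlgebra N 2 (↑S : Set ℕ) →+* ResidueField 𝒪),
    Fermat.Agent.S59.Datum.FrobHyp ρbar N S θ →
    (GaloisRepAdic.ofResidualGaloisRep ρbar).IsFlatAt p

/-- Wiring (W-b): the reduced form with split characteristic polynomials from RT-NONMIN.
[`ρbar := ρ.residual`, `Smin := {p} ∪ {q ∈ Sig : ρbar ramified at q}`,
`fl := (ρbar is flat at p)`, `N := minLevel p fl Smin = M₀` (by the three extra hypotheses,
`Stmt_THETAMIN` (first part) and `Stmt_EXACTb`), `θ` from `Stmt_THETAMIN` with `S := Smin`,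
`Stmt_MLTgen` with `Sig ∖ Smin`.] -/
def Stmt_REDWIRE : Prop :=
  Stmt_THETAMIN → Stmt_EXACTb → Stmt_MLTgen → Stmt_MLTredS

/-- Wiring (W-a): enlarge the coefficient ring (`H99.exists_split_ext`); the two negative
hypotheses descend (`unramified` and `flat` descend along a residue field extension:
`Datum.H78.stmt_FlatDesc`). -/
def Stmt_REDSPLIT : Prop :=
  Stmt_MLTredS → Stmt_MLTred

/-! ## The bridge to the elliptic-curve form of LL -/

/-- **CARD-KER**: the two standing hypotheses of `residualGaloisRepOf` hold for every integral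
Weierstrass curve with `Δ ≠ 0` and every prime `p`. -/
def Stmt_CARDKER : Prop :=
  ∀ (p : ℕ) [Fact p.Prime] (W : WeierstrassCurve ℤ), W.Δ ≠ 0 →
    Nat.card (Submodule.torsionBy ℤ
      ((W.map (Int.castRingHom ℚ))⁄(AlgebraicClosure ℚ)).Point p) = p ^ 2 ∧
    GaloisFactorsThroughFiniteLevel
      (WeierstrassCurve.Affine.Point.galoisRepModuleEnd (K := AlgebraicClosure ℚ) ℚ
        (W.map (Int.castRingHom ℚ)) p)

/-- **BRIDGE-RES**: a `p`-adic representation with the Frobenius characteristic polynomials of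
`W` and absolutely irreducible residual representation is residually `E[p]`: if `E[p]` is
ramified at `q`, so is `ρ.residual`.
[item 62 (`Lib/EllFinite`): Frobenius characteristic polynomials of `E[p]`;
`H57.isEquiv_of_frobenius`; unramifiedness passes through equivalences and descends along field
extensions.] -/
def Stmt_BRIDGERES : Prop :=
  ∀ (p : ℕ) [Fact p.Prime], p ≠ 2 → ∀ (W : WeierstrassCurve ℤ), W.Δ ≠ 0 →
    ∀ (hcard₁ : Nat.card (Submodule.torsionBy ℤ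
      ((W.map (Int.castRingHom ℚ))⁄(AlgebraicClosure ℚ)).Point p) = p ^ 2)
    (hker : GaloisFactorsThroughFiniteLevel
      (WeierstrassCurve.Affine.Point.galoisRepModuleEnd (K := AlgebraicClosure ℚ) ℚ
        (W.map (Int.castRingHom ℚ)) p)),
    ∀ (𝒪 : Type) [CommRing 𝒪] [IsDomain 𝒪] [IsDiscreteValuationRing 𝒪]
      [IsAdicComplete (maximalIdeal 𝒪) 𝒪] [Finite (ResidueField 𝒪)] [CharZero 𝒪]
      (ρ : GaloisRepAdic 𝒪), ρ.DetIsCyclotomic p → ρ.residual.IsAbsolutelyIrreducible →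
      (∀ ℓ : ℕ, ℓ.Prime → ℓ ≠ p → W.IsGoodPrimeFor ℓ →
        ∀ A : ValuationSubring (AlgebraicClosure ℚ), A.LiesOverPrime ℓ →
          ∀ σ : AlgebraicClosure ℚ ≃ₐ[ℚ] AlgebraicClosure ℚ, A.IsFrobeniusAt σ ℓ →
            LinearMap.charpoly (ρ.ρ σ) =
              X ^ 2 - C (((W.apOfModel ℓ : ℤ) : 𝒪)) * X + C ((ℓ : 𝒪))) →
      ∀ q : ℕ, q.Prime →
        ¬ ((W.map (Int.castRingHom ℚ)).residualGaloisRepOf p hcard₁ hker).IsUnramifiedAt q →
        ¬ ρ.residual.IsUnramifiedAt q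

/-- **TRES**: for a semistable curve with `p ∤ v_p(Δ)` (so `p ∣ Δ`), the residual representation
of a `p`-adic representation with the Frobenius characteristic polynomials of `W` is NOT flat at
`p`. -/
def Stmt_TRES : Prop :=
  ∀ (p : ℕ) [Fact p.Prime], p ≠ 2 → ∀ (W : WeierstrassCurve ℤ), W.Δ ≠ 0 →
    W.IsSemistableModel → W.ModRepIsIrreducible p →
    ¬ (W.map (Int.castRingHom ℚ)).IsPeuRamifieeAt p p →
    ∀ (𝒪 : Type) [CommRing 𝒪] [IsDomain 𝒪] [IsDiscreteValuationRing 𝒪]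
      [IsAdicComplete (maximalIdeal 𝒪) 𝒪] [Finite (ResidueField 𝒪)] [CharZero 𝒪]
      (ρ : GaloisRepAdic 𝒪), ρ.DetIsCyclotomic p → ρ.residual.IsAbsolutelyIrreducible →
      (∀ ℓ : ℕ, ℓ.Prime → ℓ ≠ p → W.IsGoodPrimeFor ℓ →
        ∀ A : ValuationSubring (AlgebraicClosure ℚ), A.LiesOverPrime ℓ →
          ∀ σ : AlgebraicClosure ℚ ≃ₐ[ℚ] AlgebraicClosure ℚ, A.IsFrobeniusAt σ ℓ →
            LinearMap.charpoly (ρ.ρ σ) =
              X ^ 2 - C (((W.apOfModel ℓ : ℤ) : 𝒪)) * X + C ((ℓ : 𝒪))) →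
      ¬ (GaloisRepAdic.ofResidualGaloisRep ρ.residual).IsFlatAt p

/-- Wiring (W-c): `lift_of` of `Wiring.lean` with LL in front of modularity lifting.
[As `lift_of`; before applying modularity lifting replace `(M₀, f₀, 𝔪)` by the output
`(N, f, 𝔪')` of `LL.Stmt_LLec`, and translate its two conclusions with `Stmt_BRIDGERES` and
`Stmt_TRES`.] -/
def Stmt_LIFTWIRE : Prop :=
  Stmt_Tate → Fermat.Agent.S59.LL.Stmt_LLec → Stmt_CARDKER → Stmt_BRIDGERES → Stmt_TRES →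
    Stmt_MLTred → Stmt_Stab → Stmt_Lift

end Fermat.Agent.S59.Asm
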