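/-
S59, leaf EXACT-b (helper80): a residual representation which is modular of a level prime to `p`
is flat at `p`.

`stmt_EXACTb : Fermat.Agent.S59.Asm.Stmt_EXACTb`.
[`S23.result` (integral structure), `Datum.stmt_DATUM` (the datum over `heckeLocal`),
`S32.result` (flat at `p`), `Datum.H78.stmt_FlatDesc` (descent to `ρbar`).]
-/
import Fermat.Agent.S59.Asm.Red
import Fermat.Agent.S59.Datum.Final
import Fermat.Agent.S59.Datum.H78_FlatDesc
import Fermat.Agent.S23
import Fermat.Agent.S32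

set_option autoImplicit false
set_option linter.style.haveILetI false

open IsLocalRing

namespace Fermat.Agent.S59.Asm.H80

/-- **EXACT-b**. -/
theorem stmt_EXACTb : Fermat.Agent.S59.Asm.Stmt_EXACTb := by
  intro 𝒪 _ _ _ _ _ _ p _ hp2 hp𝒪 ρbar habs N _ S hpS hNS hpN θ hθ
  have hp : p.Prime := Fact.out
  haveI : Fact (CuspForm.HasIntegralStructure N 2) := ⟨Fermat.Agent.S23.result N⟩
  obtain ⟨H, -, -, hres⟩ :=
    Fermat.Agent.S59.Datum.stmt_DATUM 𝒪 p hp2 hp𝒪 N S hpS hNS ρbar habs θ hθ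
  have hflat : H.ρ.IsFlatAt p := Fermat.Agent.S32.result hp hp2 hp𝒪 hpN hpS hNS H
  haveI : Finite (ResidueField (CuspForm.heckeLocal N (↑S : Set ℕ) 𝒪 θ)) :=
    Fermat.Agent.S53.H50.finite_residueField_of_surjective 𝒪 _ H.residue_surjective
  exact Fermat.Agent.S59.Datum.H78.stmt_FlatDesc p hp (ResidueField 𝒪) ρbar
    (CuspForm.heckeLocal N (↑S : Set ℕ) 𝒪 θ)
    (ResidueField.map (algebraMap 𝒪 (CuspForm.heckeLocal N (↑S : Set ℕ) 𝒪 θ))) H.ρ hres hflat

end Fermat.Agent.S59.Asm.H80
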