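import Fermat.Agent.S59.Asm.H92_ThetaMinCore
import Fermat.Agent.R.H33_TatePiece

/-!
# S59, leaf THETA-MIN (helper92)

`stmt_THETAMIN : Stmt_THETAMIN` = `stmt_THETAMIN_of` (core) applied to S29 (`R.H33.stmt_S29`).
-/

set_option autoImplicit false

namespace Fermat.Agent.S59.Asm.H92

/-- **THETA-MIN**. -/
theorem stmt_THETAMIN : Stmt_THETAMIN :=
  stmt_THETAMIN_of Fermat.Agent.R.H33.stmt_S29

end Fermat.Agent.S59.Asm.H92
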