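/-
S59 package COND (helper7): `stmt_COND_of : R.Stmt_FlatPoint → Stmt_OrdNewStrict → Stmt_COND`
(the target fixed in S59/Asm/Cond.lean): the core `H7.stmt_COND_core` with the frozen statements
S31, S34 (`Fermat.Agent.S31.result`, `Fermat.Agent.S34.result`), `S32.of_flatPoint`, S30
(`R.H33.stmt_S30`) and the leaves `Datum.H57.stmt_ResIrr`, `Datum.H78.stmt_FlatDesc` plugged in.
-/
import Fermat.Agent.S59.Asm.H7_Cond
import Fermat.Agent.S59.Datum.H57_ResIrr
import Fermat.Agent.S59.Datum.H78_FlatDesc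
import Fermat.Agent.R.H33_TatePiece
import Fermat.Agent.S31
import Fermat.Agent.S34
import Fermat.Agent.S32.Final

set_option autoImplicit false

open Polynomial IsLocalRing CuspForm

namespace Fermat.Agent.S59.Asm.H7

open Fermat.Agent.R Fermat.Agent.S59 Fermat.Agent.S59.Datum

/-- Frozen S31 for the full local Hecke ring. -/
theorem stmt_UnrDatum : Stmt_UnrDatum :=
  fun _ _ _ _ _ _ _ _ hp hp𝒪 _ _ _ _ hpS hNS _ H q hq hqS =>
    Fermat.Agent.S31.result hp hp𝒪 hpS hNS H q hq hqS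

/-- Frozen S34 for the full local Hecke ring. -/
theorem stmt_UnipDatum : Stmt_UnipDatum :=
  fun _ _ _ _ _ _ _ _ hp hp𝒪 _ _ _ _ hpS hNS _ H q hq hqp hqN hq2 =>
    Fermat.Agent.S34.result hp hp𝒪 hpS hNS H q hq hqp hqN hq2

/-- S32 for the full local Hecke ring, from its version at the points. -/
theorem stmt_FlatDatum_of (hFP : Stmt_FlatPoint) : Stmt_FlatDatum :=
  fun _ _ _ _ _ _ _ _ hp hp2 hp𝒪 _ _ _ _ hpN hpS hNS _ H =>
    Fermat.Agent.S32.of_flatPoint hFP hp hp2 hp𝒪 hpN hpS hNS H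

end Fermat.Agent.S59.Asm.H7

namespace Fermat.Agent.S59.Asm

/-- **COND**. -/
theorem stmt_COND_of (hFP : Fermat.Agent.R.Stmt_FlatPoint) (hONS : Stmt_OrdNewStrict) :
    Stmt_COND :=
  H7.stmt_COND_core H7.stmt_UnrDatum H7.stmt_UnipDatum (H7.stmt_FlatDatum_of hFP)
    Fermat.Agent.R.H33.stmt_S30 hFP hONS Fermat.Agent.S59.Datum.H57.stmt_ResIrr
    Fermat.Agent.S59.Datum.H78.stmt_FlatDesc

end Fermat.Agent.S59.Asm
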