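/-
S59 package COND (helper7): `H7.stmt_COND : Asm.Stmt_COND`, UNCONDITIONAL.

`Asm.stmt_COND_of` with `NonMin.H7.stmt_FlatPoint` (S32 at the points, from the frozen S19) and
helper36's `S33.New.H36.stmt_OrdNewStrict`.
-/
import Fermat.Agent.S59.Asm.H7_CondFinal
import Fermat.Agent.S59.NonMin.H7_CondOrdFinal
import Fermat.Agent.S33.New.H36_StrictFinal

set_option autoImplicit false

namespace Fermat.Agent.S59.Asm.H7

/-- **COND**, unconditional. -/
theorem stmt_COND : Fermat.Agent.S59.Asm.Stmt_COND :=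
  Fermat.Agent.S59.Asm.stmt_COND_of Fermat.Agent.S59.NonMin.H7.stmt_FlatPoint
    Fermat.Agent.S33.New.H36.stmt_OrdNewStrict

end Fermat.Agent.S59.Asm.H7
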