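import Fermat.Agent.S59.Asm.Red
import Fermat.Agent.S58.H99_Tors
import Fermat.Agent.Lib.EllFinite.Main

/-!
# S59 (helper49): `Stmt_CARDKER`

The two standing hypotheses of `residualGaloisRepOf` for an integral Weierstrass curve with
`Δ ≠ 0`: `#E[p](Q̄) = p²` (item 62, `Lib/EllFinite`) and the mod `p` representation factors
through a finite level (`S58.H99.torsW_finiteLevel`).
-/

set_option autoImplicit false

open WeierstrassCurve WeierstrassCurve.Affine

namespace Fermat.Agent.S59.Asm.H49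

/-- **CARD-KER**. -/
theorem stmt_CARDKER : Fermat.Agent.S59.Asm.Stmt_CARDKER := by
  intro p _ W hΔ
  have hp : p.Prime := Fact.out
  have hΔ' : ((W.map (Int.castRingHom ℚ)).map
      (algebraMap ℚ (AlgebraicClosure ℚ))).Δ ≠ 0 := by
    rw [WeierstrassCurve.map_Δ, WeierstrassCurve.map_Δ]
    simpa using hΔ
  have hpK : ((p : ℕ) : AlgebraicClosure ℚ) ≠ 0 := by exact_mod_cast hp.ne_zero
  refine ⟨?_, Fermat.Agent.S58.H99.torsW_finiteLevel W hΔ p⟩
  exact Fermat.Agent.Lib.EllFinite.H46.natCard_torsionBy (K := AlgebraicClosure ℚ)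
    (W.map (Int.castRingHom ℚ)).toAffine hΔ' hpK

end Fermat.Agent.S59.Asm.H49
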