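/-
S59, wiring leaf REDSPLIT (helper8): `Stmt_MLTredS → Stmt_MLTred`.
Enlarge the coefficient ring (`H99.exists_split_ext`) so that the residual characteristic
polynomials split; the two NEGATIVE hypotheses (`ρbar` ramified at `q`, `ρbar` not flat at `p`)
descend along the residue field extension, via a Galois-equivariant additive embedding of
`ρ.residual.V` into the residual representation of the base change.
-/
import Fermat.Agent.S59.Asm.Red
import Fermat.Agent.S59.H99_Split
import Fermat.Agent.R.Flat.H54_ClosureQuot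

set_option autoImplicit false

open Polynomial IsLocalRing
open scoped TensorProduct

namespace Fermat.Agent.S59.Asm.H8

open Fermat.Agent.S59 Fermat.Agent.R

section Embed

variable {A B : Type} [CommRing A] [IsLocalRing A] [CommRing B] [IsLocalRing B]

/-- The residual representation of `ρ` embeds, additively and Galois-equivariantly, into the
residual representation of a base change of `ρ` along a local homomorphism (when the residue
field map is injective, e.g. always for fields). -/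
theorem exists_residual_embedding (ψ : A →+* B) (hψ : IsLocalHom ψ) (ρ : GaloisRepAdic A) :
    ∃ j : ρ.residual.V →+ (ρ.baseChangeAlong ψ hψ).residual.V, Function.Injective j ∧
      ∀ σ x, j (ρ.residual.ρ σ x) = (ρ.baseChangeAlong ψ hψ).residual.ρ σ (j x) := by
  classical
  have := hψ
  let _ : Algebra A B := ψ.toAlgebra
  let b : Module.Basis (Fin 2) A ρ.V := Module.finBasisOfFinrankEq A ρ.V ρ.finrank_eq
  let b₁ : Module.Basis (Fin 2) (ResidueField A) ρ.residual.V :=
    Algebra.TensorProduct.basis (ResidueField A) b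
  let b' : Module.Basis (Fin 2) B (ρ.baseChangeAlong ψ hψ).V :=
    Algebra.TensorProduct.basis B b
  let b₂ : Module.Basis (Fin 2) (ResidueField B) (ρ.baseChangeAlong ψ hψ).residual.V :=
    Algebra.TensorProduct.basis (ResidueField B) b'
  let ψbar : ResidueField A →+* ResidueField B := ResidueField.map ψ
  have hM₁ : ∀ σ, LinearMap.toMatrix b₁ b₁ (ρ.residual.ρ σ)
      = (LinearMap.toMatrix b b (ρ.ρ σ)).map (algebraMap A (ResidueField A)) := fun σ =>
    LinearMap.toMatrix_baseChange (ResidueField A) (ρ.ρ σ) b b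
  have hM' : ∀ σ, LinearMap.toMatrix b' b' ((ρ.baseChangeAlong ψ hψ).ρ σ)
      = (LinearMap.toMatrix b b (ρ.ρ σ)).map ψ := fun σ =>
    LinearMap.toMatrix_baseChange B (ρ.ρ σ) b b
  have hM₂ : ∀ σ, LinearMap.toMatrix b₂ b₂ ((ρ.baseChangeAlong ψ hψ).residual.ρ σ)
      = (LinearMap.toMatrix b' b' ((ρ.baseChangeAlong ψ hψ).ρ σ)).map
          (algebraMap B (ResidueField B)) := fun σ =>
    LinearMap.toMatrix_baseChange (ResidueField B) ((ρ.baseChangeAlong ψ hψ).ρ σ) b' b'
  have hM : ∀ σ, LinearMap.toMatrix b₂ b₂ ((ρ.baseChangeAlong ψ hψ).residual.ρ σ)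
      = (LinearMap.toMatrix b₁ b₁ (ρ.residual.ρ σ)).map ψbar := by
    intro σ
    rw [hM₂, hM', hM₁, Matrix.map_map, Matrix.map_map]
    rfl
  let j : ρ.residual.V →+ (ρ.baseChangeAlong ψ hψ).residual.V :=
    (b₂.equivFun.symm.toLinearMap.toAddMonoidHom).comp
      ((ψbar.toAddMonoidHom.compLeft (Fin 2)).comp b₁.equivFun.toLinearMap.toAddMonoidHom)
  have hj : ∀ x, b₂.equivFun (j x) = fun i => ψbar (b₁.equivFun x i) := fun x =>
    b₂.equivFun.apply_symm_apply _
  refine ⟨j, ?_, ?_⟩
  · intro x y hxy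
    have h1 := congrArg b₂.equivFun hxy
    rw [hj, hj] at h1
    apply b₁.equivFun.injective
    funext i
    exact ψbar.injective (congrFun h1 i)
  · intro σ x
    apply b₂.equivFun.injective
    rw [hj]
    have e1 : b₁.equivFun (ρ.residual.ρ σ x)
        = (LinearMap.toMatrix b₁ b₁ (ρ.residual.ρ σ)).mulVec (b₁.equivFun x) :=
      (LinearMap.toMatrix_mulVec_repr b₁ b₁ (ρ.residual.ρ σ) x).symm
    have e2 : b₂.equivFun ((ρ.baseChangeAlong ψ hψ).residual.ρ σ (j x))
        = (LinearMap.toMatrix b₂ b₂ ((ρ.baseChangeAlong ψ hψ).residual.ρ σ)).mulVec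
            (b₂.equivFun (j x)) :=
      (LinearMap.toMatrix_mulVec_repr b₂ b₂ ((ρ.baseChangeAlong ψ hψ).residual.ρ σ) (j x)).symm
    rw [e2, hj, hM, e1]
    funext i
    exact RingHom.map_mulVec ψbar (LinearMap.toMatrix b₁ b₁ (ρ.residual.ρ σ))
      (b₁.equivFun x) i

end Embed

section Flat

variable {k : Type} [Field k]

/-- Flatness of the Galois module `ρbar.V` from flatness of the representation over the field. -/
theorem isFlatGaloisModule_of_isFlatAt (ρbar : ResidualGaloisRep k) (p : ℕ) (hp : p.Prime)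
    [Finite k] (h : (GaloisRepAdic.ofResidualGaloisRep ρbar).IsFlatAt p) :
    IsFlatGaloisModule p ρbar.V (fun σ => ρbar.ρ σ) := by
  rw [isFlatAt_iff] at h
  have hfin : Finite (k ⧸ (⊥ : Ideal k)) :=
    Finite.of_surjective (Ideal.Quotient.mk (⊥ : Ideal k)) Ideal.Quotient.mk_surjective
  have h0 := h.2 ⊥ hfin
  refine H54.stmt_FlatSub p hp _ ρbar.V _ (fun σ => ρbar.ρ σ)
    (Submodule.mkQ ((⊥ : Ideal k) • (⊤ : Submodule k ρbar.V))).toAddMonoidHom ?_ ?_ h0
  · intro x y hxy
    have h1 : Submodule.Quotient.mk (p := (⊥ : Ideal k) • (⊤ : Submodule k ρbar.V)) x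
        = Submodule.Quotient.mk y := hxy
    rw [Submodule.Quotient.eq, Submodule.bot_smul, Submodule.mem_bot, sub_eq_zero] at h1
    exact h1
  · intro σ x
    rfl

/-- Flatness of the representation over the field from flatness of the Galois module. -/
theorem isFlatAt_of_isFlatGaloisModule (ρbar : ResidualGaloisRep k) (p : ℕ) (hp : p.Prime)
    [Finite k] (h : IsFlatGaloisModule p ρbar.V (fun σ => ρbar.ρ σ)) :
    (GaloisRepAdic.ofResidualGaloisRep ρbar).IsFlatAt p := by
  rw [isFlatAt_iff]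
  have hfink : Finite (ResidueField k) :=
    Finite.of_surjective (residue k) residue_surjective
  refine ⟨hfink, fun I _ => ?_⟩
  refine H54.stmt_FlatQuot p hp ρbar.V _ (fun σ => ρbar.ρ σ) _
    (Submodule.mkQ (I • (⊤ : Submodule k ρbar.V))).toAddMonoidHom ?_ ?_ h
  · exact Submodule.mkQ_surjective _
  · intro σ x
    rfl

end Flat

/-- **REDSPLIT**. -/
theorem stmt_REDSPLIT : Stmt_REDSPLIT := by
  intro hS p hpF hp2 𝒪 _ _ _ _ _ _ ρ a Sig hSig hdet hunr hunip hloc hfrob habs hTW _ M₀ hM₀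
    hsqf hram hnflat f₀ 𝔪 hf₀ h𝔪 hp𝔪 hcong
  obtain ⟨𝒪', i1, i2, i3, i4, i5, i6, i7, i8, hfree, i9, hquad⟩ := H99.exists_split_ext 𝒪
  have halg : (algebraMap 𝒪 𝒪').toAlgebra = i7 := Algebra.algebra_ext _ _ (fun r => rfl)
  obtain ⟨j, hj, hjeq⟩ := exists_residual_embedding (algebraMap 𝒪 𝒪') i9 ρ
  refine hS p hp2 𝒪' (ρ.baseChangeAlong (algebraMap 𝒪 𝒪') i9) a Sig hSig
    (Fermat.Agent.S56.H92.detIsCyclotomic_baseChangeAlong _ i9 ρ p hdet)
    (fun q hq hqp hqS =>
      Fermat.Agent.S56.H92.isUnramifiedAt_baseChangeAlong _ i9 ρ q (hunr q hq hqp hqS))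
    (fun q hq => Fermat.Agent.S56.H92.isUnipotentOnInertiaAt_baseChangeAlong _ i9 ρ q
      (hunip q hq))
    (hloc.imp
      (fun h => H99.isFlatAt_baseChangeAlong_of_finite_free (algebraMap 𝒪 𝒪') i9
        (halg ▸ hfree) (halg ▸ i8) i5 ρ p hpF.out h)
      (fun h => Fermat.Agent.S56.H92.isStrictOrdinaryAt_baseChangeAlong _ i9 ρ p h))
    ?_ (Fermat.Agent.R.H86.residual_absIrr_baseChangeAlong _ i9 ρ habs)
    (H99.twCond_baseChangeAlong _ i9 ρ hTW) ?_ M₀ hM₀ hsqf ?_ ?_ f₀ 𝔪 hf₀ h𝔪 hp𝔪 hcong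
  · -- Frobenius characteristic polynomials
    intro ℓ hℓ hℓp hℓS A hA σ hσ
    rw [Fermat.Agent.R.H86.baseChangeAlong_charpoly, hfrob ℓ hℓ hℓp hℓS A hA σ hσ]
    simp only [Polynomial.map_add, Polynomial.map_sub, Polynomial.map_mul, Polynomial.map_pow,
      Polynomial.map_X, map_intCast, map_natCast, Polynomial.map_intCast,
      Polynomial.map_natCast]
  · -- split
    intro _ σ
    have hm : (LinearMap.charpoly (ρ.residual.ρ σ)).Monic := LinearMap.charpoly_monic _
    have hd : (LinearMap.charpoly (ρ.residual.ρ σ)).natDegree = 2 := by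
      rw [LinearMap.charpoly_natDegree, ρ.residual.finrank_eq]
    obtain ⟨α, β, hαβ⟩ := hquad _ hm hd
    refine ⟨α, β, ?_⟩
    rw [← hαβ, H99.charpoly_residual, H99.charpoly_residual,
      Fermat.Agent.R.H86.baseChangeAlong_charpoly, Polynomial.map_map, Polynomial.map_map]
    congr 1
  · -- ramified descends
    intro q hq hqp hqM hunr'
    refine hram q hq hqp hqM ?_
    intro P hP σ hσ
    have h1 := hunr' P hP σ hσ
    refine LinearMap.ext fun x => hj ?_
    rw [hjeq, h1]
    rfl
  · -- not flat descends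
    intro hpM hflat'
    refine hnflat hpM ?_
    have hfin' : Finite (ResidueField 𝒪') := i5
    have h1 := isFlatGaloisModule_of_isFlatAt
      (ρ.baseChangeAlong (algebraMap 𝒪 𝒪') i9).residual p hpF.out hflat'
    have h2 : IsFlatGaloisModule p ρ.residual.V (fun σ => ρ.residual.ρ σ) :=
      H54.stmt_FlatSub p hpF.out _ _ _ _ j hj hjeq h1
    exact isFlatAt_of_isFlatGaloisModule ρ.residual p hpF.out h2

end Fermat.Agent.S59.Asm.H8
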