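import Fermat.Agent.S59.Asm.Leaves4

/-!
# S59, RT-NONMIN, leaf SELq-AD (helper2)

The matrix of `X ↦ F X adj(F) - q² X` on traceless `2 × 2` matrices (coordinates `tl`) and its
determinant `q³ (q - 1) (tr(F)² - (q + 1)²)` when `det F = q`.

* `adMat F q` : the explicit `3 × 3` matrix; `adMat_spec`, `det_adMat`;
* `stmt_SELqAD : Stmt_SELqAD`.

This file contains no `sorry`.
-/

set_option autoImplicit false
set_option linter.style.haveILetI false
set_option linter.unusedSectionVars false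
set_option linter.unusedVariables false
set_option maxHeartbeats 1000000

noncomputable section

namespace Fermat.Agent.S59.Asm.H2

open Fermat.Agent.S59.Asm Matrix

variable {R : Type} [CommRing R]

/-- The matrix of `X ↦ F X adj(F) - q² X` on traceless matrices, coordinates `(y, z, m)`. -/
def adMat (F : Matrix (Fin 2) (Fin 2) R) (q : R) : Matrix (Fin 3) (Fin 3) R :=
  !![F 0 0 ^ 2 - q ^ 2, -(F 0 1 ^ 2), -(2 * F 0 0 * F 0 1);
     -(F 1 0 ^ 2), F 1 1 ^ 2 - q ^ 2, 2 * F 1 0 * F 1 1;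
     -(F 0 0 * F 1 0), F 0 1 * F 1 1, F 0 0 * F 1 1 + F 0 1 * F 1 0 - q ^ 2]

theorem adMat_spec (F : Matrix (Fin 2) (Fin 2) R) (q : R) (v : Fin 3 → R) :
    F * tl v * F.adjugate - q ^ 2 • tl v = tl ((adMat F q).mulVec v) := by
  rw [Matrix.adjugate_fin_two]
  ext i j
  fin_cases i <;> fin_cases j <;>
    simp [tl, adMat, Matrix.mul_apply, Fin.sum_univ_two, Fin.sum_univ_three, Matrix.mulVec,
      dotProduct] <;> ring

theorem det_adMat (F : Matrix (Fin 2) (Fin 2) R) (q : R) (hq : F.det = q) :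
    (adMat F q).det = q ^ 3 * (q - 1) * (F.trace ^ 2 - (q + 1) ^ 2) := by
  subst hq
  rw [Matrix.det_fin_three, Matrix.det_fin_two, Matrix.trace_fin_two]
  simp [adMat]
  ring

/-- **SELq-AD**. -/
theorem stmt_SELqAD : Stmt_SELqAD := by
  intro R _ F q hq
  exact ⟨adMat F q, adMat_spec F q, det_adMat F q hq⟩

end Fermat.Agent.S59.Asm.H2
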