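import Fermat.Agent.S59.Asm.Leaves4
import Fermat.Agent.S59.NumCrit.H12_CardRows

/-!
# S59, RT-NONMIN, leaf SELq-ALG (helper2)

Entries of a vector `X` killed by a square matrix `A` with `det A ≠ 0` over a discrete valuation
ring with finite residue field span a finite module of cardinality at most `#(𝒪 / det A)`.

* `stmt_SELqALG : Stmt_SELqALG` (from helper12's `card_quotient_span_rows`).

This file contains no `sorry`.
-/

set_option autoImplicit false
set_option linter.style.haveILetI false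
set_option linter.unusedSectionVars false
set_option linter.unusedVariables false
set_option maxHeartbeats 1000000

noncomputable section

namespace Fermat.Agent.S59.Asm.H2

open Fermat.Agent.S59.Asm Fermat.Agent.S59.NumCrit

variable {𝒪 : Type*} [CommRing 𝒪] [IsDomain 𝒪] [IsDiscreteValuationRing 𝒪]
  [Finite (IsLocalRing.ResidueField 𝒪)]

theorem finite_quotient_span_singleton {a : 𝒪} (ha : a ≠ 0) :
    Finite (𝒪 ⧸ Ideal.span {a}) := by
  obtain ⟨k, -, hk⟩ := H8.exists_card_span_singleton ha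
  apply Nat.finite_of_card_ne_zero
  rw [hk]
  have h0 : Nat.card (𝒪 ⧸ IsLocalRing.maximalIdeal 𝒪) ≠ 0 := by
    haveI : Finite (𝒪 ⧸ IsLocalRing.maximalIdeal 𝒪) :=
      inferInstanceAs (Finite (IsLocalRing.ResidueField 𝒪))
    exact Nat.card_pos.ne'
  exact pow_ne_zero _ h0

/-- **SELq-ALG**, general universe. -/
theorem selq_alg (n : ℕ) (A : Matrix (Fin n) (Fin n) 𝒪) (hA : A.det ≠ 0)
    {Φ : Type*} [AddCommGroup Φ] [Module 𝒪 Φ] (X : Fin n → Φ)
    (hX : ∀ i, ∑ j, A i j • X j = 0) :
    Finite (Submodule.span 𝒪 (Set.range X)) ∧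
      Nat.card (Submodule.span 𝒪 (Set.range X)) ≤ Nat.card (𝒪 ⧸ Ideal.span {A.det}) := by
  classical
  set N : Submodule 𝒪 (Fin n → 𝒪) := Submodule.span 𝒪 (Set.range fun i => A i) with hN
  have hcard := H12.card_quotient_span_rows n A hA
  haveI hfinI : Finite (𝒪 ⧸ Ideal.span {A.det}) := finite_quotient_span_singleton hA
  haveI hfinQ : Finite ((Fin n → 𝒪) ⧸ N) := by
    apply Nat.finite_of_card_ne_zero
    rw [hcard]
    exact Nat.card_pos.ne'
  -- the map `c ↦ ∑ c j • X j`
  let L : (Fin n → 𝒪) →ₗ[𝒪] Φ := Fintype.linearCombination 𝒪 X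
  have hL : ∀ c : Fin n → 𝒪, L c = ∑ j, c j • X j := fun c =>
    Fintype.linearCombination_apply 𝒪 X c
  have hrange : LinearMap.range L = Submodule.span 𝒪 (Set.range X) :=
    Fintype.range_linearCombination 𝒪 X
  have hker : N ≤ LinearMap.ker L := by
    rw [hN, Submodule.span_le]
    rintro _ ⟨i, rfl⟩
    show L (A i) = 0
    rw [hL]
    exact hX i
  let Lq : ((Fin n → 𝒪) ⧸ N) →ₗ[𝒪] Φ := Submodule.liftQ N L hker
  have hrange' : LinearMap.range Lq = Submodule.span 𝒪 (Set.range X) := by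
    rw [← hrange]
    exact Submodule.range_liftQ N L hker
  -- the surjection onto the span
  let g : ((Fin n → 𝒪) ⧸ N) → Submodule.span 𝒪 (Set.range X) := fun x =>
    ⟨Lq x, by rw [← hrange']; exact LinearMap.mem_range_self _ x⟩
  have hg : Function.Surjective g := by
    rintro ⟨y, hy⟩
    rw [← hrange'] at hy
    obtain ⟨x, rfl⟩ := hy
    exact ⟨x, rfl⟩
  haveI : Finite (Submodule.span 𝒪 (Set.range X)) := Finite.of_surjective g hg
  refine ⟨inferInstance, ?_⟩
  rw [← hcard]
  exact Nat.card_le_card_of_surjective g hg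

/-- **SELq-ALG**. -/
theorem stmt_SELqALG : Stmt_SELqALG := by
  intro 𝒪 _ _ _ _ n A hA Φ _ _ X hX
  exact selq_alg n A hA X hX

end Fermat.Agent.S59.Asm.H2
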