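import Fermat.Agent.S59.Asm.H71_LiftWire
import Fermat.Agent.S59.LL.H40_LLec0

/-!
# S59: the wiring `LIFTWIRE0` (helper40) — `stmt_LIFTWIRE` of helper71 with `LLec0At`

`Asm.H71.stmt_LIFTWIRE` never uses the conclusion `N ∣ M₀` of `LL.Stmt_LLec`.  Here the same
wiring with `LL.H40.LLec0At p` (`p = 3, 5`), the level optimisation WITH auxiliary level raising:

`stmt_LIFTWIRE0 : Stmt_Tate → (∀ p, p = 3 ∨ p = 5 → LLec0At p) → Stmt_CARDKER → Stmt_BRIDGERES →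
    Stmt_TRES → Stmt_MLTred → Stmt_Stab → Stmt_Lift`.

The proof is the one of helper71 (`S59/Asm/H71_LiftWire.lean`).
-/

set_option autoImplicit false

open WeierstrassCurve Polynomial IsLocalRing

namespace Fermat.Agent.S59.Asm.H40

open Fermat.Agent.S59 Fermat.Agent.S59.Asm Fermat.Agent.S59.Asm.H71

/-- **LIFT-WIRE with `LLec0`.** -/
theorem stmt_LIFTWIRE0 (hT : Stmt_Tate)
    (hLL : ∀ p : ℕ, p = 3 ∨ p = 5 → Fermat.Agent.S59.LL.H40.LLec0At p)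
    (hCK : Stmt_CARDKER) (hB : Stmt_BRIDGERES) (hTR : Stmt_TRES) (hM : Stmt_MLTred)
    (hS : Stmt_Stab) : Stmt_Lift := by
  classical
  intro p hp W hΔ hW hirr M₀ hM₀ne hres hM₀ hM₀3
  have hpp : p.Prime := by
    rcases hp with rfl | rfl
    · exact Nat.prime_three
    · exact Nat.prime_five
  have : Fact p.Prime := ⟨hpp⟩
  have hp2 : p ≠ 2 := by
    rcases hp with rfl | rfl <;> norm_num
  -- level optimisation
  obtain ⟨hcard₁, hker⟩ := hCK p W hΔ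
  obtain ⟨N, hNsq, hresN, hram, hpN⟩ :=
    hLL p hp hp2 W hΔ hW hcard₁ hker hirr M₀ hM₀ne hM₀ hM₀3 hres
  have hNne : N ≠ 0 := fun h => by
    rw [h] at hNsq
    exact not_squarefree_zero hNsq
  -- the Tate module
  obtain ⟨𝒪, i1, i2, i3, i4, i5, i6, ρ, hdet, hunr, hunip, hflat, hord, hfrob, hres'⟩ :=
    hT p hp2 W hΔ hW
  obtain ⟨habs, hTW⟩ := hres' hirr
  -- the set of bad primes different from `p`
  set Sig : Finset ℕ := (W.Δ.natAbs.primeFactors).erase p with hSig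
  have hnat : W.Δ.natAbs ≠ 0 := Int.natAbs_ne_zero.mpr hΔ
  have hmemSig : ∀ q : ℕ, q ∈ Sig ↔ q.Prime ∧ q ≠ p ∧ (q : ℤ) ∣ W.Δ := by
    intro q
    rw [hSig, Finset.mem_erase, Nat.mem_primeFactors]
    constructor
    · rintro ⟨h1, h2, h3, -⟩
      exact ⟨h2, h1, Int.natCast_dvd.mpr h3⟩
    · rintro ⟨h1, h2, h3⟩
      exact ⟨h2, h1, Int.natCast_dvd.mp h3, hnat⟩
  have hgood : ∀ q : ℕ, q.Prime → q ≠ p → q ∉ Sig → W.IsGoodPrimeFor q := by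
    intro q hq hqp hqS hdvd
    exact hqS ((hmemSig q).2 ⟨hq, hqp, hdvd⟩)
  have hloc : ρ.IsFlatAt p ∨ ρ.IsStrictOrdinaryAt p := by
    by_cases hg : W.IsGoodPrimeFor p
    · exact Or.inl (hflat hg)
    · exact Or.inr (hord hg)
  obtain ⟨f₀, 𝔪, hf₀, h𝔪, hp𝔪, hcong⟩ := hresN
  obtain ⟨N₁, hN₁p, hN₁3, f₁, hf₁, hf₁a⟩ :=
    hM p hp2 𝒪 ρ (fun ℓ => W.apOfModel ℓ) Sig
      (fun q hq => ⟨((hmemSig q).1 hq).1, ((hmemSig q).1 hq).2.1⟩)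
      hdet
      (fun q hq hqp hqS => hunr q hq hqp (hgood q hq hqp hqS))
      (fun q hq => hunip q ((hmemSig q).1 hq).1 ((hmemSig q).1 hq).2.1)
      hloc
      (fun ℓ hℓ hℓp hℓS A hA σ hσ => hfrob ℓ hℓ hℓp (hgood ℓ hℓ hℓp hℓS) A hA σ hσ)
      habs hTW (fun h => h.elim) N hNne hNsq
      (fun q hq hqp hqN =>
        hB p hp2 W hΔ hcard₁ hker 𝒪 ρ hdet habs hfrob q hq (hram q hq hqp hqN))
      (fun hpdvd => hTR p hp2 W hΔ hW hirr (hpN hpdvd) 𝒪 ρ hdet habs hfrob)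
      f₀ 𝔪 hf₀ h𝔪 hp𝔪
      (fun ℓ hℓ hℓS hℓM hℓp => hcong ℓ hℓ (hgood ℓ hℓ hℓp hℓS) hℓM hℓp)
  refine lift_of_eigenform hS p hpp W hΔ N₁ hN₁p hN₁3 f₁ hf₁ ?_
  intro ℓ hℓ hℓp hℓg hℓN
  exact hf₁a ℓ hℓ hℓp (fun h => hℓg ((hmemSig ℓ).1 h).2.2) hℓN

end Fermat.Agent.S59.Asm.H40
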