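import Mathlib
import Fermat.Prelude.Def_CuspForm_HeckeAlgebra

/-!
# S59, package ASM, leaf REST (helper41): restriction of Hecke operators to a lower level

`CuspForm.heckeAlgebra N' k S'` is generated by `T_ℓ` (`ℓ ∤ N'`, `ℓ ∉ S'`) and `U_q` (`q ∣ N'`,
`q ∉ S'`).  If `N ∣ N'`, `S ⊆ S'` and every prime `q ∣ N'` with `q ∤ N` lies in `S'`, then all
generators preserve the image of the level inclusion `S_k(Γ₀(N)) ↪ S_k(Γ₀(N'))` and restrict to
the corresponding generators of level `N`; this gives the ring homomorphism `rest`.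

(Without the hypothesis on the new primes the statement is false: `N = 11`, `N' = 22`,
`S = S' = ∅`, where `U_2` of level `22` satisfies `X² + 2X + 2 = 0`.)

Complete proofs, standard axioms only.
-/

set_option autoImplicit false

open CuspForm

namespace Fermat.Agent.S59.Asm.H41

theorem Gamma0_le_of_dvd {N N' : ℕ} (h : N ∣ N') :
    CongruenceSubgroup.Gamma0 N' ≤ CongruenceSubgroup.Gamma0 N := by
  intro g hg
  rw [CongruenceSubgroup.Gamma0_mem] at hg ⊢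
  obtain ⟨c, rfl⟩ := h
  have := congrArg (ZMod.castHom (dvd_mul_right N c) (ZMod N)) hg
  simpa using this

theorem Gamma0GL_le_of_dvd {N N' : ℕ} (h : N ∣ N') :
    ((CongruenceSubgroup.Gamma0 N' : Subgroup (Matrix.SpecialLinearGroup (Fin 2) ℤ)) :
      Subgroup (GL (Fin 2) ℝ)) ≤
    ((CongruenceSubgroup.Gamma0 N : Subgroup (Matrix.SpecialLinearGroup (Fin 2) ℤ)) :
      Subgroup (GL (Fin 2) ℝ)) :=
  Subgroup.map_mono (Gamma0_le_of_dvd h)

/-- The level inclusion `S_k(Γ₀(N)) → S_k(Γ₀(N'))` for `N ∣ N'`. -/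
noncomputable def levelIncl {N N' : ℕ} (h : N ∣ N') (k : ℤ) :
    CuspForm (CongruenceSubgroup.Gamma0 N) k →ₗ[ℂ] CuspForm (CongruenceSubgroup.Gamma0 N') k where
  toFun f :=
    { toFun := ⇑f
      slash_action_eq' := fun γ hγ =>
        SlashInvariantFormClass.slash_action_eq f γ (Gamma0GL_le_of_dvd h hγ)
      holo' := CuspFormClass.holo f
      zero_at_cusps' := fun hc => CuspFormClass.zero_at_cusps f
        (IsCusp.mono (Gamma0GL_le_of_dvd h) hc) }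
  map_add' _ _ := DFunLike.coe_injective rfl
  map_smul' _ _ := DFunLike.coe_injective rfl

@[simp] theorem coe_levelIncl {N N' : ℕ} (h : N ∣ N') (k : ℤ)
    (f : CuspForm (CongruenceSubgroup.Gamma0 N) k) : ⇑(levelIncl h k f) = ⇑f := rfl

theorem levelIncl_injective {N N' : ℕ} (h : N ∣ N') (k : ℤ) :
    Function.Injective (levelIncl h k) := by
  intro f g hfg
  apply DFunLike.coe_injective
  have := congrArg (fun F : CuspForm (CongruenceSubgroup.Gamma0 N') k => (⇑F : UpperHalfPlane → ℂ)) hfg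
  simpa using this

theorem heckeTLin_levelIncl {N N' : ℕ} (h : N ∣ N') (k : ℤ) {ℓ : ℕ} (hℓ : ℓ.Prime)
    (hℓN' : ¬ ℓ ∣ N') (hℓN : ¬ ℓ ∣ N) (f : CuspForm (CongruenceSubgroup.Gamma0 N) k) :
    heckeTLin k hℓ hℓN' (levelIncl h k f) = levelIncl h k (heckeTLin k hℓ hℓN f) :=
  DFunLike.coe_injective rfl

theorem heckeULin_levelIncl {N N' : ℕ} [NeZero N] [NeZero N'] (h : N ∣ N') (k : ℤ) {q : ℕ}
    (hqN' : q ∣ N') (hqN : q ∣ N) (f : CuspForm (CongruenceSubgroup.Gamma0 N) k) :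
    heckeULin k hqN' (levelIncl h k f) = levelIncl h k (heckeULin k hqN f) :=
  DFunLike.coe_injective rfl


/-- The operator `T` of level `N'` restricts to the operator `T₀` of level `N`. -/
def RestrictsTo {N N' : ℕ} (h : N ∣ N') (k : ℤ)
    (T : Module.End ℂ (CuspForm (CongruenceSubgroup.Gamma0 N') k))
    (T₀ : Module.End ℂ (CuspForm (CongruenceSubgroup.Gamma0 N) k)) : Prop :=
  ∀ f, T (levelIncl h k f) = levelIncl h k (T₀ f)

theorem RestrictsTo.unique {N N' : ℕ} {h : N ∣ N'} {k : ℤ}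
    {T : Module.End ℂ (CuspForm (CongruenceSubgroup.Gamma0 N') k)}
    {T₀ T₁ : Module.End ℂ (CuspForm (CongruenceSubgroup.Gamma0 N) k)}
    (h₀ : RestrictsTo h k T T₀) (h₁ : RestrictsTo h k T T₁) : T₀ = T₁ := by
  apply LinearMap.ext
  intro f
  exact levelIncl_injective h k ((h₀ f).symm.trans (h₁ f))

theorem RestrictsTo.one {N N' : ℕ} (h : N ∣ N') (k : ℤ) : RestrictsTo h k 1 1 := fun _ => rfl

theorem RestrictsTo.zero {N N' : ℕ} (h : N ∣ N') (k : ℤ) : RestrictsTo h k 0 0 := fun f => by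
  simp

theorem RestrictsTo.mul {N N' : ℕ} {h : N ∣ N'} {k : ℤ}
    {T T' : Module.End ℂ (CuspForm (CongruenceSubgroup.Gamma0 N') k)}
    {T₀ T₀' : Module.End ℂ (CuspForm (CongruenceSubgroup.Gamma0 N) k)}
    (h₀ : RestrictsTo h k T T₀) (h₁ : RestrictsTo h k T' T₀') :
    RestrictsTo h k (T * T') (T₀ * T₀') := fun f => by
  rw [Module.End.mul_apply, Module.End.mul_apply, h₁ f, h₀]

theorem RestrictsTo.add {N N' : ℕ} {h : N ∣ N'} {k : ℤ}
    {T T' : Module.End ℂ (CuspForm (CongruenceSubgroup.Gamma0 N') k)}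
    {T₀ T₀' : Module.End ℂ (CuspForm (CongruenceSubgroup.Gamma0 N) k)}
    (h₀ : RestrictsTo h k T T₀) (h₁ : RestrictsTo h k T' T₀') :
    RestrictsTo h k (T + T') (T₀ + T₀') := fun f => by
  rw [LinearMap.add_apply, LinearMap.add_apply, h₀ f, h₁ f, map_add]

theorem RestrictsTo.algebraMap {N N' : ℕ} (h : N ∣ N') (k : ℤ) (n : ℤ) :
    RestrictsTo h k (algebraMap ℤ _ n) (algebraMap ℤ _ n) := fun f => by
  rw [Algebra.algebraMap_eq_smul_one, Algebra.algebraMap_eq_smul_one, LinearMap.smul_apply,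
    LinearMap.smul_apply, Module.End.one_apply, Module.End.one_apply, map_zsmul]

/-- Every element of the Hecke algebra of level `N'` restricts to an element of the Hecke algebra
of level `N`. -/
theorem exists_restrictsTo {N N' : ℕ} [NeZero N] [NeZero N'] (h : N ∣ N') (k : ℤ)
    {S S' : Set ℕ} (hS : S ⊆ S') (hnew : ∀ q : ℕ, q.Prime → q ∣ N' → ¬ q ∣ N → q ∈ S')
    (T : Module.End ℂ (CuspForm (CongruenceSubgroup.Gamma0 N') k))
    (hT : T ∈ heckeAlgebra N' k S') :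
    ∃ T₀ ∈ heckeAlgebra N k S, RestrictsTo h k T T₀ := by
  induction hT using Algebra.adjoin_induction with
  | mem T hT =>
    rcases hT with ⟨ℓ, hℓ, hℓN', hℓS', rfl⟩ | ⟨q, hqN', hq, hqS', rfl⟩
    · have hℓN : ¬ ℓ ∣ N := fun hd => hℓN' (hd.trans h)
      exact ⟨heckeTLin k hℓ hℓN, heckeTLin_mem_heckeAlgebra hℓ hℓN (fun hs => hℓS' (hS hs)),
        fun f => heckeTLin_levelIncl h k hℓ hℓN' hℓN f⟩
    · have hqN : q ∣ N := by
        by_contra hn
        exact hqS' (hnew q hq hqN' hn)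
      exact ⟨heckeULin k hqN, heckeULin_mem_heckeAlgebra hq hqN (fun hs => hqS' (hS hs)),
        fun f => heckeULin_levelIncl h k hqN' hqN f⟩
  | algebraMap n =>
    exact ⟨algebraMap ℤ _ n, Subalgebra.algebraMap_mem _ n, RestrictsTo.algebraMap h k n⟩
  | add T T' _ _ ih ih' =>
    obtain ⟨T₀, hT₀, h₀⟩ := ih
    obtain ⟨T₀', hT₀', h₀'⟩ := ih'
    exact ⟨T₀ + T₀', Subalgebra.add_mem _ hT₀ hT₀', h₀.add h₀'⟩
  | mul T T' _ _ ih ih' =>
    obtain ⟨T₀, hT₀, h₀⟩ := ih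
    obtain ⟨T₀', hT₀', h₀'⟩ := ih'
    exact ⟨T₀ * T₀', Subalgebra.mul_mem _ hT₀ hT₀', h₀.mul h₀'⟩

/-- The restriction map, as a function. -/
noncomputable def restFun {N N' : ℕ} [NeZero N] [NeZero N'] (h : N ∣ N') (k : ℤ)
    {S S' : Set ℕ} (hS : S ⊆ S') (hnew : ∀ q : ℕ, q.Prime → q ∣ N' → ¬ q ∣ N → q ∈ S')
    (T : heckeAlgebra N' k S') : heckeAlgebra N k S :=
  ⟨(exists_restrictsTo h k hS hnew T.1 T.2).choose,
    (exists_restrictsTo h k hS hnew T.1 T.2).choose_spec.1⟩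

theorem restFun_spec {N N' : ℕ} [NeZero N] [NeZero N'] (h : N ∣ N') (k : ℤ)
    {S S' : Set ℕ} (hS : S ⊆ S') (hnew : ∀ q : ℕ, q.Prime → q ∣ N' → ¬ q ∣ N → q ∈ S')
    (T : heckeAlgebra N' k S') :
    RestrictsTo h k T.1 (restFun h k hS hnew T).1 :=
  (exists_restrictsTo h k hS hnew T.1 T.2).choose_spec.2

theorem restFun_eq {N N' : ℕ} [NeZero N] [NeZero N'] (h : N ∣ N') (k : ℤ)
    {S S' : Set ℕ} (hS : S ⊆ S') (hnew : ∀ q : ℕ, q.Prime → q ∣ N' → ¬ q ∣ N → q ∈ S')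
    (T : heckeAlgebra N' k S') (T₀ : heckeAlgebra N k S) (hT : RestrictsTo h k T.1 T₀.1) :
    restFun h k hS hnew T = T₀ :=
  Subtype.ext ((restFun_spec h k hS hnew T).unique hT)

/-- The restriction of Hecke operators from level `N'` to level `N`, as a ring homomorphism. -/
noncomputable def rest {N N' : ℕ} [NeZero N] [NeZero N'] (h : N ∣ N') (k : ℤ)
    {S S' : Set ℕ} (hS : S ⊆ S') (hnew : ∀ q : ℕ, q.Prime → q ∣ N' → ¬ q ∣ N → q ∈ S') :
    heckeAlgebra N' k S' →+* heckeAlgebra N k S where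
  toFun := restFun h k hS hnew
  map_one' := restFun_eq h k hS hnew 1 1 (RestrictsTo.one h k)
  map_zero' := restFun_eq h k hS hnew 0 0 (RestrictsTo.zero h k)
  map_mul' T T' := restFun_eq h k hS hnew (T * T') _
    ((restFun_spec h k hS hnew T).mul (restFun_spec h k hS hnew T'))
  map_add' T T' := restFun_eq h k hS hnew (T + T') _
    ((restFun_spec h k hS hnew T).add (restFun_spec h k hS hnew T'))

theorem rest_spec {N N' : ℕ} [NeZero N] [NeZero N'] (h : N ∣ N') (k : ℤ)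
    {S S' : Set ℕ} (hS : S ⊆ S') (hnew : ∀ q : ℕ, q.Prime → q ∣ N' → ¬ q ∣ N → q ∈ S')
    (T : heckeAlgebra N' k S') (f : CuspForm (CongruenceSubgroup.Gamma0 N) k) :
    T.1 (levelIncl h k f) = levelIncl h k ((rest h k hS hnew T).1 f) :=
  restFun_spec h k hS hnew T f

theorem rest_T {N N' : ℕ} [NeZero N] [NeZero N'] (h : N ∣ N') (k : ℤ)
    {S S' : Set ℕ} (hS : S ⊆ S') (hnew : ∀ q : ℕ, q.Prime → q ∣ N' → ¬ q ∣ N → q ∈ S')
    {ℓ : ℕ} (hℓ : ℓ.Prime) (hℓN' : ¬ ℓ ∣ N') (hℓS' : ℓ ∉ S') (hℓN : ¬ ℓ ∣ N) (hℓS : ℓ ∉ S) :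
    rest h k hS hnew (heckeAlgebra.T hℓ hℓN' hℓS') = heckeAlgebra.T hℓ hℓN hℓS :=
  restFun_eq h k hS hnew _ _ fun f => heckeTLin_levelIncl h k hℓ hℓN' hℓN f

theorem rest_U {N N' : ℕ} [NeZero N] [NeZero N'] (h : N ∣ N') (k : ℤ)
    {S S' : Set ℕ} (hS : S ⊆ S') (hnew : ∀ q : ℕ, q.Prime → q ∣ N' → ¬ q ∣ N → q ∈ S')
    {q : ℕ} (hq : q.Prime) (hqN' : q ∣ N') (hqS' : q ∉ S') (hqN : q ∣ N) (hqS : q ∉ S) :
    rest h k hS hnew (heckeAlgebra.U hq hqN' hqS') = heckeAlgebra.U hq hqN hqS :=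
  restFun_eq h k hS hnew _ _ fun f => heckeULin_levelIncl h k hqN' hqN f

/-- **REST**, corrected form: restriction of the Hecke algebra of level `N'` to the forms of
level `N ∣ N'`, provided the new primes of the level lie in `S'`. -/
def Stmt_REST' : Prop :=
  ∀ (N N' : ℕ) [NeZero N] [NeZero N'] (S S' : Set ℕ), N ∣ N' → S ⊆ S' →
    (∀ q : ℕ, q.Prime → q ∣ N' → ¬ q ∣ N → q ∈ S') →
    ∃ rest : CuspForm.heckeAlgebra N' 2 S' →+* CuspForm.heckeAlgebra N 2 S,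
      ∀ (ℓ : ℕ) (hℓ : ℓ.Prime) (hℓN' : ¬ ℓ ∣ N') (hℓS' : ℓ ∉ S') (hℓN : ¬ ℓ ∣ N) (hℓS : ℓ ∉ S),
        rest (CuspForm.heckeAlgebra.T hℓ hℓN' hℓS') = CuspForm.heckeAlgebra.T hℓ hℓN hℓS

theorem stmt_REST' : Stmt_REST' := fun _ _ _ _ _ _ h hS hnew =>
  ⟨rest h 2 hS hnew, fun _ hℓ hℓN' hℓS' hℓN hℓS => rest_T h 2 hS hnew hℓ hℓN' hℓS' hℓN hℓS⟩

end Fermat.Agent.S59.Asm.H41
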