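import Fermat.Agent.S59.Asm.Red
import Fermat.Agent.S58.H99_Tors

/-!
# S59: the leaf `Stmt_CARDKER` (helper71)

`#E[p] = p²` and the Galois action on `E[p]` factors through a finite level: both are in
`S58/H99_Tors.lean` (helper99, from item 62).
-/

set_option autoImplicit false

namespace Fermat.Agent.S59.Asm.H71

open Fermat.Agent.S59.Asm

/-- **CARD-KER.** -/
theorem stmt_CARDKER : Stmt_CARDKER := by
  intro p _ W hΔ
  refine ⟨?_, Fermat.Agent.S58.H99.torsW_finiteLevel W hΔ p⟩
  have hfr := Fermat.Agent.S58.H99.finrank_torsW W hΔ p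
  have : Module.Finite (ZMod p) (Fermat.Agent.S58.H99.TorsW W p) :=
    Module.finite_of_finrank_eq_succ hfr
  have h := Module.natCard_eq_pow_finrank (K := ZMod p) (V := Fermat.Agent.S58.H99.TorsW W p)
  rw [hfr, Nat.card_zmod] at h
  exact h

end Fermat.Agent.S59.Asm.H71
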