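import Fermat.Agent.S59.Asm.Red

/-!
# S59: the wiring `Stmt_LIFTWIRE` (helper71)

`stmt_LIFTWIRE : Asm.Stmt_LIFTWIRE`, i.e.

`Stmt_Tate → LL.Stmt_LLec → Stmt_CARDKER → Stmt_BRIDGERES → Stmt_TRES → Stmt_MLTred → Stmt_Stab →
   Stmt_Lift`.

As `S59.lift_of`, with the level optimisation `LL.Stmt_LLec` in front of modularity lifting.
`lift_of_eigenform` is the second half of `S59.lift_of` (stabilisation at the missing primes).
-/

set_option autoImplicit false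

open WeierstrassCurve Polynomial IsLocalRing

namespace Fermat.Agent.S59.Asm.H71

open Fermat.Agent.S59 Fermat.Agent.S59.Asm

/-- The second half of `S59.lift_of`: an eigenform with the eigenvalues of `W` at the good
primes `ℓ ≠ p` not dividing its level `N₁` (cube-free, `p² ∤ N₁`) makes `W` modular of a
cube-free level divisible by `p` and by all bad primes, with `p²` not dividing it. -/
theorem lift_of_eigenform (hS : Stmt_Stab) (p : ℕ) (hpp : p.Prime) (W : WeierstrassCurve ℤ)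
    (hΔ : W.Δ ≠ 0) (N₁ : ℕ) (hN₁p : ¬ p ^ 2 ∣ N₁) (hN₁3 : ∀ q : ℕ, q.Prime → ¬ q ^ 3 ∣ N₁)
    (f₁ : CuspForm (CongruenceSubgroup.Gamma0 N₁) 2) (hf₁ : f₁.IsNormalizedEigenform)
    (hf₁a : ∀ ℓ : ℕ, ℓ.Prime → ℓ ≠ p → W.IsGoodPrimeFor ℓ → ¬ ℓ ∣ N₁ →
      ModularFormClass.qCoeff f₁ ℓ = (W.apOfModel ℓ : ℂ)) :
    ∃ N : ℕ, W.IsModularModelOfLevel N ∧ (∀ ℓ : ℕ, ℓ.Prime → (ℓ : ℤ) ∣ W.Δ → ℓ ∣ N) ∧
      ¬ p ^ 2 ∣ N ∧ ∀ q : ℕ, q.Prime → ¬ q ^ 3 ∣ N := by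
  classical
  set Sig : Finset ℕ := (W.Δ.natAbs.primeFactors).erase p with hSig
  have hnat : W.Δ.natAbs ≠ 0 := Int.natAbs_ne_zero.mpr hΔ
  have hmemSig : ∀ q : ℕ, q ∈ Sig ↔ q.Prime ∧ q ≠ p ∧ (q : ℤ) ∣ W.Δ := by
    intro q
    rw [hSig, Finset.mem_erase, Nat.mem_primeFactors]
    constructor
    · rintro ⟨h1, h2, h3, -⟩
      exact ⟨h2, h1, Int.natCast_dvd.mpr h3⟩
    · rintro ⟨h1, h2, h3⟩
      exact ⟨h2, h1, Int.natCast_dvd.mp h3, hnat⟩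
  -- add the missing primes of `Sig ∪ {p}` to the level
  set s : Finset ℕ := (insert p Sig).filter (fun q => ¬ q ∣ N₁) with hs
  have hsprime : ∀ q ∈ s, q.Prime ∧ ¬ q ∣ N₁ := by
    intro q hq
    rw [hs, Finset.mem_filter, Finset.mem_insert] at hq
    refine ⟨?_, hq.2⟩
    rcases hq.1 with rfl | h
    · exact hpp
    · exact ((hmemSig q).1 h).1
  obtain ⟨P, hP⟩ : ∃ P : ℕ, P = ∏ q ∈ s, q := ⟨_, rfl⟩
  obtain ⟨g, hg, hgf⟩ : ∃ g : CuspForm (CongruenceSubgroup.Gamma0 (N₁ * P)) 2,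
      g.IsNormalizedEigenform ∧ ∀ ℓ : ℕ, ℓ.Prime → ℓ ∉ s →
        ModularFormClass.qCoeff g ℓ = ModularFormClass.qCoeff f₁ ℓ := by
    rw [hP]
    exact stab_finset hS s N₁ f₁ hf₁ hsprime
  have hPsq : Squarefree P := by
    rw [hP]
    refine Finset.squarefree_prod_of_pairwise_isCoprime ?_ ?_
    · intro a ha b hb hab
      exact Nat.coprime_iff_isRelPrime.mp
        ((Nat.coprime_primes (hsprime a ha).1 (hsprime b hb).1).2 hab)
    · intro a ha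
      exact (hsprime a ha).1.squarefree
  have hPcop : Nat.Coprime N₁ P := by
    rw [hP]
    refine Nat.Coprime.prod_right fun q hq => ?_
    exact (Nat.Coprime.symm ((Nat.Prime.coprime_iff_not_dvd (hsprime q hq).1).2 (hsprime q hq).2))
  have hdvdN : ∀ q ∈ insert p Sig, q ∣ N₁ * P := by
    intro q hq
    by_cases hqN : q ∣ N₁
    · exact Dvd.dvd.mul_right hqN _
    · refine Dvd.dvd.mul_left ?_ _
      rw [hP]
      exact Finset.dvd_prod_of_mem _ (Finset.mem_filter.2 ⟨hq, hqN⟩)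
  have hpow : ∀ (q : ℕ) (k : ℕ), q.Prime → 2 ≤ k → q ^ k ∣ N₁ * P → q ^ k ∣ N₁ := by
    intro q k hq hk hdvd
    by_cases hqP : q ∣ P
    · exfalso
      have hqN : ¬ q ∣ N₁ := fun h =>
        (Nat.Prime.one_lt hq).ne' (Nat.eq_one_of_dvd_coprimes hPcop h hqP)
      have hcop : Nat.Coprime (q ^ k) N₁ :=
        Nat.Coprime.pow_left k ((Nat.Prime.coprime_iff_not_dvd hq).2 hqN)
      have h1 : q ^ k ∣ P := hcop.dvd_of_dvd_mul_left hdvd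
      have h2 : q * q ∣ P := Dvd.dvd.trans ⟨q ^ (k - 2), by
        rw [← pow_two, ← pow_add]; congr 1; omega⟩ h1
      exact hq.one_lt.ne' (Nat.isUnit_iff.mp (hPsq q h2))
    · have hcop : Nat.Coprime (q ^ k) P :=
        Nat.Coprime.pow_left k ((Nat.Prime.coprime_iff_not_dvd hq).2 hqP)
      exact hcop.dvd_of_dvd_mul_right hdvd
  refine ⟨N₁ * P, ⟨g, hg, ?_⟩, ?_, ?_, ?_⟩
  · intro ℓ hℓ hℓgood hℓN
    have hℓp : ℓ ≠ p := by
      rintro rfl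
      exact hℓN (hdvdN _ (Finset.mem_insert_self _ _))
    have hℓS : ℓ ∉ Sig := fun h => hℓgood ((hmemSig ℓ).1 h).2.2
    have hℓs : ℓ ∉ s := fun h => by
      rw [hs, Finset.mem_filter, Finset.mem_insert] at h
      rcases h.1 with h' | h'
      · exact hℓp h'
      · exact hℓS h'
    rw [hgf ℓ hℓ hℓs, hf₁a ℓ hℓ hℓp hℓgood (fun h => hℓN (Dvd.dvd.mul_right h _))]
  · intro ℓ hℓ hdvd
    by_cases hℓp : ℓ = p
    · subst hℓp
      exact hdvdN _ (Finset.mem_insert_self _ _)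
    · exact hdvdN _ (Finset.mem_insert_of_mem ((hmemSig ℓ).2 ⟨hℓ, hℓp, hdvd⟩))
  · intro h
    exact hN₁p (hpow p 2 hpp le_rfl h)
  · intro q hq h
    exact hN₁3 q hq (hpow q 3 hq (by norm_num) h)

/-- **LIFT-WIRE.** -/
theorem stmt_LIFTWIRE : Stmt_LIFTWIRE := by
  classical
  intro hT hLL hCK hB hTR hM hS p hp W hΔ hW hirr M₀ hM₀ne hres hM₀ hM₀3
  have hpp : p.Prime := by
    rcases hp with rfl | rfl
    · exact Nat.prime_three
    · exact Nat.prime_five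
  have : Fact p.Prime := ⟨hpp⟩
  have hp2 : p ≠ 2 := by
    rcases hp with rfl | rfl <;> norm_num
  -- level optimisation
  obtain ⟨hcard₁, hker⟩ := hCK p W hΔ
  obtain ⟨N, -, hNsq, hresN, hram, hpN⟩ :=
    hLL p hp2 W hΔ hW hcard₁ hker hirr M₀ hM₀ne hM₀ hM₀3 hres
  have hNne : N ≠ 0 := fun h => by
    rw [h] at hNsq
    exact not_squarefree_zero hNsq
  -- the Tate module
  obtain ⟨𝒪, i1, i2, i3, i4, i5, i6, ρ, hdet, hunr, hunip, hflat, hord, hfrob, hres'⟩ :=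
    hT p hp2 W hΔ hW
  obtain ⟨habs, hTW⟩ := hres' hirr
  -- the set of bad primes different from `p`
  set Sig : Finset ℕ := (W.Δ.natAbs.primeFactors).erase p with hSig
  have hnat : W.Δ.natAbs ≠ 0 := Int.natAbs_ne_zero.mpr hΔ
  have hmemSig : ∀ q : ℕ, q ∈ Sig ↔ q.Prime ∧ q ≠ p ∧ (q : ℤ) ∣ W.Δ := by
    intro q
    rw [hSig, Finset.mem_erase, Nat.mem_primeFactors]
    constructor
    · rintro ⟨h1, h2, h3, -⟩
      exact ⟨h2, h1, Int.natCast_dvd.mpr h3⟩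
    · rintro ⟨h1, h2, h3⟩
      exact ⟨h2, h1, Int.natCast_dvd.mp h3, hnat⟩
  have hgood : ∀ q : ℕ, q.Prime → q ≠ p → q ∉ Sig → W.IsGoodPrimeFor q := by
    intro q hq hqp hqS hdvd
    exact hqS ((hmemSig q).2 ⟨hq, hqp, hdvd⟩)
  have hloc : ρ.IsFlatAt p ∨ ρ.IsStrictOrdinaryAt p := by
    by_cases hg : W.IsGoodPrimeFor p
    · exact Or.inl (hflat hg)
    · exact Or.inr (hord hg)
  obtain ⟨f₀, 𝔪, hf₀, h𝔪, hp𝔪, hcong⟩ := hresN
  obtain ⟨N₁, hN₁p, hN₁3, f₁, hf₁, hf₁a⟩ :=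
    hM p hp2 𝒪 ρ (fun ℓ => W.apOfModel ℓ) Sig
      (fun q hq => ⟨((hmemSig q).1 hq).1, ((hmemSig q).1 hq).2.1⟩)
      hdet
      (fun q hq hqp hqS => hunr q hq hqp (hgood q hq hqp hqS))
      (fun q hq => hunip q ((hmemSig q).1 hq).1 ((hmemSig q).1 hq).2.1)
      hloc
      (fun ℓ hℓ hℓp hℓS A hA σ hσ => hfrob ℓ hℓ hℓp (hgood ℓ hℓ hℓp hℓS) A hA σ hσ)
      habs hTW (fun h => h.elim) N hNne hNsq
      (fun q hq hqp hqN =>
        hB p hp2 W hΔ hcard₁ hker 𝒪 ρ hdet habs hfrob q hq (hram q hq hqp hqN))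
      (fun hpdvd => hTR p hp2 W hΔ hW hirr (hpN hpdvd) 𝒪 ρ hdet habs hfrob)
      f₀ 𝔪 hf₀ h𝔪 hp𝔪
      (fun ℓ hℓ hℓS hℓM hℓp => hcong ℓ hℓ (hgood ℓ hℓ hℓp hℓS) hℓM hℓp)
  refine lift_of_eigenform hS p hpp W hΔ N₁ hN₁p hN₁3 f₁ hf₁ ?_
  intro ℓ hℓ hℓp hℓg hℓN
  exact hf₁a ℓ hℓ hℓp (fun h => hℓg ((hmemSig ℓ).1 h).2.2) hℓN

end Fermat.Agent.S59.Asm.H71
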