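import Mathlib
import Fermat.Prelude.Def_GaloisRep_Adic
import Fermat.Agent.L.H19_BLR
import Fermat.Agent.S53.Schur

/-!
# S59, package ASM, leaf BRIDGE (helper77), part B: the Boston–Lenstra–Ribet step

`T` a local ring with residue field of characteristic `≠ 2`, `ρ` a residually absolutely
irreducible representation over `T`, `W` a finite `T`-module with an action of the Galois group
satisfying the Cayley–Hamilton relations of `ρ`.  If `ρ φ` has an eigenvector `b 0` (part of a
basis) with eigenvalue `x` and `π φ - c` is nilpotent on `W / 𝔪 W` with `x - c` a unit, then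
`W = 0`.
-/

set_option autoImplicit false

open IsLocalRing
open scoped TensorProduct

namespace Fermat.Agent.S59.Asm.H77

/-- The absolute Galois group of `ℚ`. -/
local notation "GQ" => AlgebraicClosure ℚ ≃ₐ[ℚ] AlgebraicClosure ℚ

/-- Burnside form of absolute irreducibility. -/
theorem span_range_residual {k : Type} [Field k] (ρbar : ResidualGaloisRep k)
    (habs : ρbar.IsAbsolutelyIrreducible) :
    Submodule.span k (Set.range ρbar.ρ) = ⊤ := by
  classical
  let b : Module.Basis (Fin 2) k ρbar.V := Module.finBasisOfFinrankEq k ρbar.V ρbar.finrank_eq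
  obtain ⟨g, hg⟩ := Fermat.Agent.S53.Schur.exists_det_ne_zero ρbar habs b
  rw [eq_top_iff]
  rintro f -
  obtain ⟨c, hc⟩ := Fermat.Agent.S53.Schur.exists_eq_sum_of_isUnit_det
    (fun p => LinearMap.toMatrix b b (ρbar.ρ (g p))) (Ne.isUnit hg) (LinearMap.toMatrix b b f)
  have hf : f = ∑ p, c p • ρbar.ρ (g p) := by
    apply (LinearMap.toMatrix b b).injective
    rw [hc, map_sum]
    refine Finset.sum_congr rfl fun p _ => ?_
    rw [map_smul]
  rw [hf]
  refine Submodule.sum_mem _ fun p _ => Submodule.smul_mem _ _ (Submodule.subset_span ⟨g p, rfl⟩)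

variable {T : Type} [CommRing T] [IsLocalRing T]

/-- A linear map with values in `𝔪 W` vanishes after base change to the residue field. -/
theorem baseChange_eq_zero_of_mem {W : Type} [AddCommGroup W] [Module T W]
    (Lm : Module.End T W)
    (hL : ∀ w, Lm w ∈ (maximalIdeal T • ⊤ : Submodule T W)) :
    Lm.baseChange (ResidueField T) = 0 := by
  have hkill : ∀ x ∈ (maximalIdeal T • ⊤ : Submodule T W),
      ∀ c : ResidueField T, c ⊗ₜ[T] x = 0 := by
    intro x hx c
    refine Submodule.smul_induction_on
      (p := fun x => c ⊗ₜ[T] x = (0 : ResidueField T ⊗[T] W)) hx ?_ ?_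
    · intro a ha w _
      rw [TensorProduct.tmul_smul, TensorProduct.smul_tmul', Algebra.smul_def,
        IsLocalRing.ResidueField.algebraMap_eq, (IsLocalRing.residue_eq_zero_iff a).mpr ha,
        zero_mul, TensorProduct.zero_tmul]
    · intro x y hx hy
      rw [TensorProduct.tmul_add, hx, hy, add_zero]
  refine LinearMap.ext fun w => ?_
  induction w using TensorProduct.induction_on with
  | zero => rw [map_zero, map_zero]
  | tmul c v =>
    rw [LinearMap.baseChange_tmul, LinearMap.zero_apply]
    exact hkill _ (hL v) c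
  | add x y hx hy => rw [map_add, map_add, hx, hy]

theorem residual_trace (ρ : GaloisRepAdic T) (σ : GQ) :
    LinearMap.trace (ResidueField T) ρ.residual.V (ρ.residual.ρ σ) = residue T (ρ.trace σ) :=
  LinearMap.trace_baseChange (ρ.ρ σ) (ResidueField T)

theorem residual_det (ρ : GaloisRepAdic T) (σ : GQ) :
    LinearMap.det (ρ.residual.ρ σ) = residue T (LinearMap.det (ρ.ρ σ)) :=
  LinearMap.det_baseChange (A := ResidueField T) (ρ.ρ σ)

theorem residual_apply_tmul (ρ : GaloisRepAdic T) (σ : GQ) (c : ResidueField T) (v : ρ.V) :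
    ρ.residual.ρ σ (c ⊗ₜ[T] v : ResidueField T ⊗[T] ρ.V)
      = (c ⊗ₜ[T] ρ.ρ σ v : ResidueField T ⊗[T] ρ.V) :=
  LinearMap.baseChange_tmul (ρ.ρ σ) c v

theorem residual_smul_tmul (ρ : GaloisRepAdic T) (x : T) (v : ρ.V) :
    ((1 : ResidueField T) ⊗ₜ[T] (x • v) : ρ.residual.V)
      = residue T x • ((1 : ResidueField T) ⊗ₜ[T] v : ρ.residual.V) := by
  show ((1 : ResidueField T) ⊗ₜ[T] (x • v) : ResidueField T ⊗[T] ρ.V)
      = residue T x • ((1 : ResidueField T) ⊗ₜ[T] v : ResidueField T ⊗[T] ρ.V)
  rw [TensorProduct.tmul_smul, TensorProduct.smul_tmul', TensorProduct.smul_tmul',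
    Algebra.smul_def, smul_eq_mul]
  rfl

theorem residual_tmul_ne_zero (ρ : GaloisRepAdic T) (b : Module.Basis (Fin 2) T ρ.V) (i : Fin 2) :
    ((1 : ResidueField T) ⊗ₜ[T] b i : ρ.residual.V) ≠ 0 := by
  have h1 := (b.baseChange (ResidueField T)).ne_zero i
  rw [Module.Basis.baseChange_apply] at h1
  exact h1

/-- **The BLR step.** -/
theorem subsingleton_of_CH (h2 : (2 : ResidueField T) ≠ 0)
    (ρ : GaloisRepAdic T) (hirr : ρ.residual.IsAbsolutelyIrreducible)
    (W : Type) [AddCommGroup W] [Module T W] [Module.Finite T W]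
    (π : GQ →* Module.End T W)
    (hCH : ∀ g, π g * π g - ρ.trace g • π g
      + LinearMap.det (ρ.ρ g) • (1 : Module.End T W) = 0)
    (b : Module.Basis (Fin 2) T ρ.V) (φ : GQ) (x c : T) (hx : ρ.ρ φ (b 0) = x • b 0)
    (hxc : IsUnit (x - c)) (m : ℕ)
    (hnil : ∀ w : W, ((π φ - c • (1 : Module.End T W)) ^ m) w ∈
      (maximalIdeal T • ⊤ : Submodule T W)) :
    Subsingleton W := by
  by_contra hns
  rw [not_subsingleton_iff_nontrivial] at hns
  have hX : Nontrivial (ResidueField T ⊗[T] W) := by
    rw [← not_subsingleton_iff_nontrivial, IsLocalRing.subsingleton_tensorProduct,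
      not_subsingleton_iff_nontrivial]
    exact hns
  -- the representation on `X = k ⊗ W`
  let πX : GQ →* Module.End (ResidueField T) (ResidueField T ⊗[T] W) :=
    { toFun := fun σ => (π σ).baseChange (ResidueField T)
      map_one' := by rw [map_one, LinearMap.baseChange_one]
      map_mul' := fun σ τ => by rw [map_mul, LinearMap.baseChange_mul] }
  have hπX : ∀ σ, πX σ = (π σ).baseChange (ResidueField T) := fun σ => rfl
  have hCH' : ∀ g : GQ, Fermat.Agent.L.CHRel (ρ.residual.ρ) πX g := by
    intro g
    unfold Fermat.Agent.L.CHRel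
    have h := congrArg (fun F : Module.End T W => F.baseChange (ResidueField T)) (hCH g)
    simp only [LinearMap.baseChange_add, LinearMap.baseChange_sub, LinearMap.baseChange_mul,
      LinearMap.baseChange_smul, LinearMap.baseChange_one, LinearMap.baseChange_zero] at h
    rw [residual_trace, residual_det, hπX]
    rw [← algebraMap_smul (ResidueField T) (ρ.trace g) ((π g).baseChange (ResidueField T)),
      ← algebraMap_smul (ResidueField T) (LinearMap.det (ρ.ρ g))
        (1 : Module.End (ResidueField T) (ResidueField T ⊗[T] W))] at h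
    exact h
  obtain ⟨f, hfinj, hf⟩ := Fermat.Agent.L.H19.stmt_BLR (ResidueField T) h2 GQ ρ.residual.V
    ρ.residual.ρ ρ.residual.finrank_eq (span_range_residual ρ.residual hirr)
    (ResidueField T ⊗[T] W) πX hCH'
  -- the eigenvector
  set e₀ : ρ.residual.V := (1 : ResidueField T) ⊗ₜ[T] b 0 with he₀
  have he₀ne : e₀ ≠ 0 := residual_tmul_ne_zero ρ b 0
  have heig : ρ.residual.ρ φ e₀ = residue T x • e₀ := by
    rw [he₀]
    refine (residual_apply_tmul ρ φ 1 (b 0)).trans ?_
    rw [hx]
    exact residual_smul_tmul ρ x (b 0)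
  set y := f e₀ with hy
  have hyne : y ≠ 0 := fun h0 => he₀ne (hfinj (by rw [← hy, h0, map_zero]))
  have hyeig : πX φ y = residue T x • y := by
    rw [hy, ← hf, heig, map_smul]
  have hzero : ((π φ - c • (1 : Module.End T W)) ^ m).baseChange (ResidueField T) = 0 :=
    baseChange_eq_zero_of_mem _ hnil
  have hbc : ((π φ - c • (1 : Module.End T W)) ^ m).baseChange (ResidueField T)
      = (πX φ - residue T c • (1 : Module.End (ResidueField T) (ResidueField T ⊗[T] W))) ^ m := by
    rw [LinearMap.baseChange_pow, LinearMap.baseChange_sub, LinearMap.baseChange_smul,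
      LinearMap.baseChange_one, ← algebraMap_smul (ResidueField T) c
        (1 : Module.End (ResidueField T) (ResidueField T ⊗[T] W))]
    rfl
  have hpow : ∀ j : ℕ, ((πX φ - residue T c •
      (1 : Module.End (ResidueField T) (ResidueField T ⊗[T] W))) ^ j) y
      = (residue T x - residue T c) ^ j • y := by
    intro j
    induction j with
    | zero => simp
    | succ j ih =>
      rw [pow_succ', Module.End.mul_apply, ih, map_smul, LinearMap.sub_apply, hyeig,
        LinearMap.smul_apply, Module.End.one_apply]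
      have h5 : residue T x • y - residue T c • y = (residue T x - residue T c) • y :=
        (sub_smul _ _ _).symm
      rw [h5, smul_smul, pow_succ]
  have h3 := hpow m
  rw [← hbc, hzero, LinearMap.zero_apply] at h3
  have h4 : (residue T x - residue T c) ^ m ≠ 0 := by
    apply pow_ne_zero
    rw [← map_sub]
    intro h0
    exact (IsLocalRing.residue_eq_zero_iff _).1 h0 hxc
  exact hyne ((smul_eq_zero.1 h3.symm).resolve_left h4)

end Fermat.Agent.S59.Asm.H77
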