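import Fermat.Agent.S59.Asm.Red
import Fermat.Agent.S59.LL.H77_BridgeRes

/-!
# S59, leaf BRIDGERES (helper77)

`stmt_BRIDGERES : Stmt_BRIDGERES`, from `LL.H77.bridgeRes` (item 62 + Frobenius density + Carayol
over a field) and `LL.H77.unramified_iff_of_isEquiv`.
-/

set_option autoImplicit false

open Polynomial IsLocalRing WeierstrassCurve WeierstrassCurve.Affine

namespace Fermat.Agent.S59.Asm.H77

open Fermat.Agent.S59 Fermat.Agent.S59.Asm

/-- the residue field of a local ring with `p` in the maximal ideal has characteristic `p` -/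
theorem charP_residueField {A : Type} [CommRing A] [IsLocalRing A] {p : ℕ} (hp : p.Prime)
    (hpA : (p : A) ∈ maximalIdeal A) : CharP (ResidueField A) p := by
  refine (CharP.charP_iff_prime_eq_zero hp).2 ?_
  have h := (residue_eq_zero_iff (p : A)).2 hpA
  rwa [map_natCast] at h

/-- **BRIDGERES.** -/
theorem stmt_BRIDGERES : Stmt_BRIDGERES := by
  intro p _ hp2 W hΔ hcard₁ hker 𝒪 _ _ _ _ _ _ ρ hdet hirr hfrob q hq hram hunr
  have hp : p.Prime := Fact.out
  have hchar : CharP (ResidueField 𝒪) p := charP_residueField hp hdet.1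
  let j : ZMod p →+* ResidueField 𝒪 := ZMod.castHom (dvd_refl p) (ResidueField 𝒪)
  have he := Fermat.Agent.S59.LL.H77.bridgeRes W hΔ p hcard₁ hker j ρ ∅
    (fun ℓ hℓ hℓp _ hgood A hA σ hσ => hfrob ℓ hℓ hℓp hgood A hA σ hσ) hirr
  exact hram ((Fermat.Agent.S59.LL.H77.unramified_iff_of_isEquiv j _ _ he q).1 hunr)

end Fermat.Agent.S59.Asm.H77
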