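import Mathlib
import Fermat.Agent.S59.Asm.Leaves
import Fermat.Agent.S59.H99_Def
import Fermat.Agent.S56.H50_Gen
import Fermat.Prelude.Thm_IsLocalRing_isAdicComplete_of_module_finite

/-!
# S59, package ASM, leaf TAU (helper99): `R_Q ↠ R`

* `surjective_of_isEquiv` : GENERAL.  Let `D` be a universal deformation ring for a deformation
  condition `𝒟`.  If the universal deformation `D.ρ` is (equivalent to) the base change of a
  lift `ρQ` of `ρbar` over a complete local `𝒪`-algebra `RQ` along a local `𝒪`-algebra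
  homomorphism `τ : RQ → D.R`, then `τ` is surjective.
  [Modulo `𝔪²`: the entries of a matrix form of `D.ρ ⊗ R/𝔪²` lie in the image `B` of `RQ`;
  the restriction to `B` is of type `𝒟`, so the universal property of `D` over `B` and the
  uniqueness over `R/𝔪²` show `B = R/𝔪²`.  Then Nakayama and completeness.]
* `stmt_TAU : Stmt_TAU`.
-/

set_option autoImplicit false
set_option linter.unusedSectionVars false
set_option linter.style.haveILetI false

namespace Fermat.Agent.S59.Asm.H99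

open IsLocalRing Fermat.Agent.S53

section General

/-- A matrix form of `ρ` is a matrix form of every equivalent representation. -/
theorem isMatOf_of_isEquiv {A : Type} [CommRing A] [IsLocalRing A] {ρ ρ' : GaloisRepAdic A}
    {r : GQ → M2 A} (h : IsMatOf ρ r) (he : ρ.IsEquiv ρ') : IsMatOf ρ' r := by
  obtain ⟨r', hr'⟩ := exists_isMatOf ρ'
  obtain ⟨g, hg⟩ := (IsMatOf.isEquiv_iff h hr').mp he
  have h1 := hr'.conj g⁻¹
  have h2 : (fun σ => ((g⁻¹ : (M2 A)ˣ) : M2 A) * r' σ * (((g⁻¹)⁻¹ : (M2 A)ˣ) : M2 A)) = r := by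
    funext σ
    rw [inv_inv, mul_assoc, ← hg σ, ← mul_assoc, Units.inv_mul, one_mul]
  rw [h2] at h1
  exact h1

variable {𝒪 : Type} [CommRing 𝒪] [IsDomain 𝒪] [IsDiscreteValuationRing 𝒪]
  [IsAdicComplete (maximalIdeal 𝒪) 𝒪] [Finite (ResidueField 𝒪)]
variable {ρbar : ResidualGaloisRep (ResidueField 𝒪)}
variable {𝒟 : ∀ ⦃A : Type⦄ [CommRing A] [IsLocalRing A] [Algebra 𝒪 A], GaloisRepAdic A → Prop}

/-- A finite local `𝒪`-algebra is complete. -/
theorem isAdicComplete_of_finite (B : Type) [CommRing B] [IsLocalRing B] [Algebra 𝒪 B]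
    [IsLocalHom (algebraMap 𝒪 B)] [Finite B] : IsAdicComplete (maximalIdeal B) B := by
  haveI : Module.Finite 𝒪 B := Module.Finite.of_finite
  exact IsLocalRing.isAdicComplete_of_module_finite (𝒪 := 𝒪)

/-- The image of `RQ` generates `R` modulo `𝔪²`. -/
theorem surjective_mod_sq (h𝒟 : GaloisRep.IsDeformationCondition 𝒪 𝒟)
    (D : GaloisRep.DeformationRingData 𝒪 ρbar 𝒟)
    {RQ : Type} [CommRing RQ] [IsLocalRing RQ] [Algebra 𝒪 RQ] [IsLocalHom (algebraMap 𝒪 RQ)]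
    (ρQ : GaloisRepAdic RQ)
    (hresQ : ρQ.residual.IsEquiv (ρbar.baseChangeAlong (ResidueField.map (algebraMap 𝒪 RQ))))
    (τ : RQ →ₐ[𝒪] D.R) (hτ : IsLocalHom (τ : RQ →+* D.R))
    (heq : (ρQ.baseChangeAlong (τ : RQ →+* D.R) hτ).IsEquiv D.ρ) :
    Function.Surjective ((Ideal.Quotient.mkₐ 𝒪 (maximalIdeal D.R ^ (1 + 1))).comp τ) := by
  classical
  obtain ⟨rbar, hbar⟩ := exists_isMatOfRes ρbar
  obtain ⟨rQ, hrQ, hlQ⟩ := exists_isLift_of_residual_isEquiv hbar ρQ hresQ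
  set r1 : GQ →* M2 D.R := mapHom (τ : RQ →+* D.R) rQ with hr1
  have hr1m : IsMatOf D.ρ r1 :=
    isMatOf_of_isEquiv (hrQ.baseChangeAlong (τ : RQ →+* D.R) hτ) heq
  have hl1 : IsLift 𝒪 rbar r1 := Univ.IsLift.map τ hτ hlQ
  haveI hfinres : Finite (ResidueField D.R) :=
    H50.finite_residueField_of_surjective 𝒪 D.R D.residue_surjective
  haveI hAfin : Finite (D.R ⧸ maximalIdeal D.R ^ (1 + 1)) := H50.finite_quot D.R (1 + 1)
  haveI hAloc : IsLocalHom (algebraMap 𝒪 (D.R ⧸ maximalIdeal D.R ^ (1 + 1))) :=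
    H50.isLocalHom_algebraMap_quot 𝒪 D.R 1
  have hA' : GaloisRep.IsArtinianTestAlgebra 𝒪 (D.R ⧸ maximalIdeal D.R ^ (1 + 1)) :=
    H50.isArtinianTestAlgebra_quot 𝒪 D.R D.residue_surjective 1
  have hresA := hA'.residue_surjective
  set π : D.R →ₐ[𝒪] (D.R ⧸ maximalIdeal D.R ^ (1 + 1)) := Ideal.Quotient.mkₐ 𝒪 _ with hπdef
  have hπ : IsLocalHom (π : D.R →+* (D.R ⧸ maximalIdeal D.R ^ (1 + 1))) :=
    H50.isLocalHom_mk D.R 1
  have hπs : Function.Surjective π := Ideal.Quotient.mkₐ_surjective 𝒪 _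
  have hDA : 𝒟 (D.ρ.baseChangeAlong (π : D.R →+* (D.R ⧸ maximalIdeal D.R ^ (1 + 1))) hπ) :=
    (h𝒟.iff_forall_surjective D.instIsLocalHom D.residue_surjective D.ρ).mp D.isOfType hA'
      π hπ hπs
  set tA : GQ →* M2 (D.R ⧸ maximalIdeal D.R ^ (1 + 1)) :=
    mapHom (π : D.R →+* (D.R ⧸ maximalIdeal D.R ^ (1 + 1))) r1 with htA
  have htAm : IsMatOf (D.ρ.baseChangeAlong (π : D.R →+* (D.R ⧸ maximalIdeal D.R ^ (1 + 1))) hπ)
      tA := hr1m.baseChangeAlong (π : D.R →+* (D.R ⧸ maximalIdeal D.R ^ (1 + 1))) hπ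
  have htAD : DMat 𝒪 𝒟 tA := ⟨_, htAm, hDA⟩
  have htAl : IsLift 𝒪 rbar tA := Univ.IsLift.map π hπ hl1
  -- the image of `RQ`
  set f : RQ →ₐ[𝒪] (D.R ⧸ maximalIdeal D.R ^ (1 + 1)) := π.comp τ with hf
  set B : Subalgebra 𝒪 (D.R ⧸ maximalIdeal D.R ^ (1 + 1)) := f.range with hB
  have htB : ∀ σ i j, tA σ i j ∈ B := fun σ i j => ⟨rQ σ i j, rfl⟩
  haveI hvalloc : IsLocalHom (B.val : B →+* (D.R ⧸ maximalIdeal D.R ^ (1 + 1))) :=
    isLocalHom_subalgebra_val B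
  haveI : IsLocalRing B :=
    RingHom.domain_isLocalRing (B.val : B →+* (D.R ⧸ maximalIdeal D.R ^ (1 + 1)))
  haveI : IsLocalHom (algebraMap 𝒪 B) := isLocalHom_algebraMap_of_isLocalHom B.val
  have hresB : Function.Surjective (residue B ∘ algebraMap 𝒪 B) :=
    res_surj_of_isLocalHom B.val hvalloc hresA
  haveI : Finite B := inferInstance
  have hB' : GaloisRep.IsArtinianTestAlgebra 𝒪 B := isArtinianTestAlgebra_of_finite hresB
  set tB : GQ →* M2 B := restrictHom B tA htB with htBdef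
  have htBD : DMat 𝒪 𝒟 tB :=
    DMat.of_map_injective h𝒟 hB' hA' B.val hvalloc Subtype.val_injective tB htAD
  have htBl : IsLift 𝒪 rbar tB := Univ.IsLift.of_map B.val (r := tB) htAl
  obtain ⟨ρB, hρBm, hρBD⟩ := htBD
  have hρBres := residual_isEquiv_of_isLift hbar hρBm htBl
  haveI : IsNoetherianRing B := inferInstance
  haveI : IsAdicComplete (maximalIdeal B) B := isAdicComplete_of_finite (𝒪 := 𝒪) B
  obtain ⟨s, ⟨hs, hseq⟩, -⟩ := D.universal B hresB ρB hρBD hρBres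
  -- uniqueness over `A`
  haveI : IsNoetherianRing (D.R ⧸ maximalIdeal D.R ^ (1 + 1)) := inferInstance
  haveI : IsAdicComplete (maximalIdeal (D.R ⧸ maximalIdeal D.R ^ (1 + 1)))
      (D.R ⧸ maximalIdeal D.R ^ (1 + 1)) := isAdicComplete_of_finite (𝒪 := 𝒪) _
  obtain ⟨φ0, -, huniq⟩ := D.universal (D.R ⧸ maximalIdeal D.R ^ (1 + 1)) hresA
    (D.ρ.baseChangeAlong (π : D.R →+* (D.R ⧸ maximalIdeal D.R ^ (1 + 1))) hπ) hDA
    (residual_isEquiv_of_isLift hbar htAm htAl)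
  have h1 : π = φ0 := huniq π ⟨hπ, ⟨GaloisRepAdic.Equiv.refl _⟩⟩
  have hloc2 : IsLocalHom ((B.val.comp s : D.R →ₐ[𝒪] (D.R ⧸ maximalIdeal D.R ^ (1 + 1))) :
      D.R →+* (D.R ⧸ maximalIdeal D.R ^ (1 + 1))) :=
    Univ.isLocalHom_of_res_surj hresA _
  have h2 : B.val.comp s = φ0 := by
    refine huniq _ ⟨hloc2, ?_⟩
    obtain ⟨gB, hgB⟩ := (IsMatOf.isEquiv_iff
      (hr1m.baseChangeAlong (s : D.R →+* B) hs) hρBm).mp hseq
    refine (IsMatOf.isEquiv_iff (hr1m.baseChangeAlong _ hloc2) htAm).mpr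
      ⟨Units.map ((B.val : B →+* (D.R ⧸ maximalIdeal D.R ^ (1 + 1))).mapMatrix :
        M2 B →+* M2 (D.R ⧸ maximalIdeal D.R ^ (1 + 1))).toMonoidHom gB, fun σ => ?_⟩
    have key := congrArg (fun M : M2 B =>
      M.map (B.val : B →+* (D.R ⧸ maximalIdeal D.R ^ (1 + 1)))) (hgB σ)
    simp only [Matrix.map_mul] at key
    have e1 : ((r1 σ).map (s : D.R →+* B)).map
        (B.val : B →+* (D.R ⧸ maximalIdeal D.R ^ (1 + 1))) =
        (r1 σ).map ((B.val.comp s : D.R →ₐ[𝒪] (D.R ⧸ maximalIdeal D.R ^ (1 + 1))) :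
          D.R →+* (D.R ⧸ maximalIdeal D.R ^ (1 + 1))) := by
      ext i j; rfl
    have e2 : (tB σ).map (B.val : B →+* (D.R ⧸ maximalIdeal D.R ^ (1 + 1))) = tA σ := by
      ext i j; rfl
    rw [e1, e2] at key
    exact key
  intro a
  obtain ⟨x, rfl⟩ := hπs a
  have hx : π x ∈ B := by
    rw [h1, ← h2]
    exact (s x).2
  exact hx

/-- **General surjectivity**: if the universal deformation is a base change from `RQ`, then
`RQ → R` is surjective. -/
theorem surjective_of_isEquiv (h𝒟 : GaloisRep.IsDeformationCondition 𝒪 𝒟)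
    (D : GaloisRep.DeformationRingData 𝒪 ρbar 𝒟)
    {RQ : Type} [CommRing RQ] [IsLocalRing RQ] [IsAdicComplete (maximalIdeal RQ) RQ]
    [Algebra 𝒪 RQ] [IsLocalHom (algebraMap 𝒪 RQ)]
    (ρQ : GaloisRepAdic RQ)
    (hresQ : ρQ.residual.IsEquiv (ρbar.baseChangeAlong (ResidueField.map (algebraMap 𝒪 RQ))))
    (τ : RQ →ₐ[𝒪] D.R) (hτ : IsLocalHom (τ : RQ →+* D.R))
    (heq : (ρQ.baseChangeAlong (τ : RQ →+* D.R) hτ).IsEquiv D.ρ) :
    Function.Surjective τ := by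
  have hfs := surjective_mod_sq h𝒟 D ρQ hresQ τ hτ heq
  have hle : maximalIdeal D.R ≤
      (maximalIdeal RQ).map (τ : RQ →+* D.R) ⊔ maximalIdeal D.R ^ 2 := by
    intro x hx
    obtain ⟨y, hy⟩ := hfs (Ideal.Quotient.mkₐ 𝒪 (maximalIdeal D.R ^ (1 + 1)) x)
    have hy2 : Ideal.Quotient.mk (maximalIdeal D.R ^ (1 + 1)) (τ y) =
        Ideal.Quotient.mk (maximalIdeal D.R ^ (1 + 1)) x := hy
    have hk : x - τ y ∈ maximalIdeal D.R ^ 2 := by
      have := (Ideal.Quotient.eq.mp hy2)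
      have h3 := (maximalIdeal D.R ^ (1 + 1)).neg_mem this
      simpa using h3
    have hτy : τ y ∈ maximalIdeal D.R := by
      have h4 : maximalIdeal D.R ^ 2 ≤ maximalIdeal D.R := Ideal.pow_le_self two_ne_zero
      have := (maximalIdeal D.R).sub_mem hx (h4 hk)
      simpa using this
    have hy' : y ∈ maximalIdeal RQ := by
      rw [mem_maximalIdeal, mem_nonunits_iff]
      intro hu
      exact ((mem_maximalIdeal _).1 hτy) (hu.map τ)
    have hsplit : x = τ y + (x - τ y) := by ring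
    rw [hsplit]
    exact Ideal.add_mem _ (Ideal.mem_sup_left (Ideal.mem_map_of_mem _ hy'))
      (Ideal.mem_sup_right hk)
  have hle' : maximalIdeal D.R ≤ (maximalIdeal RQ).map (τ : RQ →+* D.R) :=
    Fermat.Agent.S56.H50.le_of_le_sup_sq _ hle
  have hmap : (maximalIdeal RQ).map (τ : RQ →+* D.R) = maximalIdeal D.R := by
    apply le_antisymm _ hle'
    rw [Ideal.map_le_iff_le_comap]
    intro y hy
    rw [Ideal.mem_comap, mem_maximalIdeal, mem_nonunits_iff]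
    rw [mem_maximalIdeal, mem_nonunits_iff] at hy
    exact fun h => hy (hτ.map_nonunit y h)
  haveI haus : IsHausdorff ((maximalIdeal RQ).map (τ : RQ →+* D.R)) D.R := by
    rw [hmap]; infer_instance
  have hsurj : Function.Surjective ((Ideal.Quotient.mk
      ((maximalIdeal RQ).map (τ : RQ →+* D.R))).comp (τ : RQ →+* D.R)) := by
    intro y
    obtain ⟨a, rfl⟩ := Ideal.Quotient.mk_surjective y
    obtain ⟨c, hc⟩ := exists_sub_mem_maximalIdeal D.residue_surjective a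
    refine ⟨algebraMap 𝒪 _ c, ?_⟩
    rw [RingHom.comp_apply, Ideal.Quotient.eq, hmap]
    have h1 : (τ : RQ →+* D.R) (algebraMap 𝒪 _ c) = algebraMap 𝒪 D.R c := τ.commutes c
    rw [h1]
    have := (maximalIdeal D.R).neg_mem hc
    simpa using this
  exact surjective_of_mk_map_comp_surjective (τ : RQ →+* D.R) hsurj

end General

/-- Enlarging the auxiliary set weakens the condition. -/
theorem cond_mono {𝒪 : Type} [CommRing 𝒪] (p : ℕ) (fl : Bool) (Smin Q : Finset ℕ)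
    {A : Type} [CommRing A] [IsLocalRing A] [Algebra 𝒪 A] (ρ : GaloisRepAdic A)
    (h0 : Fermat.Agent.S59.cond 𝒪 p fl Smin ∅ ρ) : Fermat.Agent.S59.cond 𝒪 p fl Smin Q ρ := by
  rw [Fermat.Agent.S59.H99.cond_eq_condB] at h0 ⊢
  refine ⟨⟨h0.1.1, fun q hq hqS => h0.1.2.1 q hq ?_, h0.1.2.2⟩, h0.2⟩
  intro hmem
  apply hqS
  rw [Finset.union_empty] at hmem
  exact Finset.mem_union_left _ hmem

/-- **TAU**. -/
theorem stmt_TAU : Fermat.Agent.S59.Asm.Stmt_TAU := by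
  intro 𝒪 _ _ _ _ _ p _ hp2 _hp𝒪 fl ρbar Smin Q _hpS _hprime D DQ
  have h𝒟 : GaloisRep.IsDeformationCondition 𝒪 (Fermat.Agent.S59.cond 𝒪 p fl Smin ∅) := by
    rw [Fermat.Agent.S59.H99.cond_eq_condB]
    exact Fermat.Agent.S59.H99.isDeformationCondition_condB 𝒪 p hp2 fl Smin ∅
  have hQ : Fermat.Agent.S59.cond 𝒪 p fl Smin Q D.ρ := cond_mono p fl Smin Q D.ρ D.isOfType
  obtain ⟨τ, ⟨hτ, hτeq⟩, -⟩ := DQ.universal D.R D.residue_surjective D.ρ hQ D.residual_isEquiv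
  exact ⟨τ, surjective_of_isEquiv h𝒟 D DQ.ρ DQ.residual_isEquiv τ hτ hτeq, hτ, hτeq⟩

end Fermat.Agent.S59.Asm.H99
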