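import Fermat.Agent.S59.Asm.Main
import Fermat.Agent.S59.Asm.H85_LocMod
import Fermat.Agent.S59.Asm.H85_ResLoc
import Fermat.Agent.S59.Asm.H99_Tau
import Fermat.Agent.S59.Asm.H41_RestTW
import Fermat.Agent.S59.Asm.H77_MainAux
import Fermat.Agent.S59.Asm.H77_MainDelta
import Fermat.Agent.S59.Asm.H77_MainCompat

/-!
# S59, package ASM (helper77): the Taylor–Wiles assembly

`stmt_ASM : Stmt_ASM`, following the six steps of `Asm/Main.lean`; the steps themselves are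
proved in abstract form in `H77_MainAux.lean` (steps 2, 3), `H77_MainDelta.lean` (step 4) and
`H77_MainCompat.lean` (step 5).
-/

set_option autoImplicit false
set_option linter.unusedSectionVars false
set_option linter.unusedVariables false

open Polynomial CuspForm IsLocalRing

namespace Fermat.Agent.S59.Asm.H77

open Fermat.Agent.S59 Fermat.Agent.S59.TWGal Fermat.Agent.S59.Asm

set_option maxHeartbeats 1000000 in
set_option synthInstance.maxHeartbeats 400000 in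
/-- **ASM**: the Taylor–Wiles assembly. -/
theorem stmt_ASM : Stmt_ASM := by
  intro 𝒪 _ _ _ _ _ p _ hp2 hp𝒪 fl ρbar Smin hyp N _ _ S θ D H hHπ hHcond hHres φ hφ hφe M ηM hηM
    r n qv hTW _ _ DQ γ hγ G HQ hHQπ φQ hφQ hφQe
  have hp : p.Prime := Fact.out
  -- Step 1
  obtain ⟨ηW, hηW⟩ := H85.stmt_LOCMOD 𝒪 (twLevel N qv) (↑(twSet S qv) : Set ℕ)
    (θ.comp G.rest) G.W
  obtain ⟨res, hres⟩ := H85.stmt_RESLOC 𝒪 N (twLevel N qv) (↑S : Set ℕ)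
    (↑(twSet S qv) : Set ℕ) θ G.rest
  have hprimes : ∀ q ∈ Smin ∪ Finset.univ.image qv, q.Prime := by
    intro q hq
    rcases Finset.mem_union.1 hq with h | h
    · exact hyp.hS q h
    · obtain ⟨j, -, rfl⟩ := Finset.mem_image.1 h
      exact (hTW.2.1 j).1
  obtain ⟨τ, hτs, hτl, hτe⟩ := H99.stmt_TAU 𝒪 p hp2 hp𝒪 fl ρbar Smin (Finset.univ.image qv)
    hyp.hpSmin hprimes D DQ
  -- Step 2
  have hgen : ∀ t, ηW (HQ.π t) = G.W.η t := fun t => by rw [hHQπ, hηW]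
  have hgη : ∀ (g : GalQ) (x : CuspForm.heckeLocal (twLevel N qv) (↑(twSet S qv) : Set ℕ) 𝒪
      (θ.comp G.rest)), Commute (G.gal g) (ηW x) := fun g =>
    commute_of_gen HQ.adjoin_range_π ηW (G.gal g) fun t => by
      rw [hgen]
      exact G.gal_η g t
  have hdη : ∀ (j : Fin r) (x : CuspForm.heckeLocal (twLevel N qv) (↑(twSet S qv) : Set ℕ) 𝒪
      (θ.comp G.rest)), Commute (G.d j) (ηW x) := fun j =>
    commute_of_gen HQ.adjoin_range_π ηW (G.d j) fun t => by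
      rw [hgen]
      exact G.d_η j t
  have hVαη : ∀ (j : Fin r) (x : CuspForm.heckeLocal (twLevel N qv) (↑(twSet S qv) : Set ℕ) 𝒪
      (θ.comp G.rest)), ∀ v ∈ G.Vα j, ηW x v ∈ G.Vα j := fun j =>
    mem_of_gen HQ.adjoin_range_π ηW (G.Vα j) fun t v hv => by
      rw [hgen]
      exact G.Vα_η j t v hv
  have hπη : ∀ (x : CuspForm.heckeLocal (twLevel N qv) (↑(twSet S qv) : Set ℕ) 𝒪
      (θ.comp G.rest)) (v : G.W.V), G.π (ηW x v) = ηM (res x) (G.π v) :=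
    intertwine_of_gen HQ.adjoin_range_π ηW ηM res G.π fun t v => by
      rw [hgen, G.π_η, hHQπ, hres, hηM]
  -- the bad set
  have hbad : ∀ ℓ : ℕ, ℓ.Prime → ℓ ∉ twSet S qv ∪ (twLevel N qv).primeFactors →
      (¬ ℓ ∣ twLevel N qv) ∧ ℓ ∉ (↑(twSet S qv) : Set ℕ) ∧ (¬ ℓ ∣ N) ∧ ℓ ∉ (↑S : Set ℕ) := by
    intro ℓ hℓ hℓS
    have h1 : ¬ ℓ ∣ twLevel N qv := fun h => hℓS (Finset.mem_union_right _
      (Nat.mem_primeFactors.2 ⟨hℓ, h, NeZero.ne _⟩))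
    have h2 : ℓ ∉ (↑(twSet S qv) : Set ℕ) := fun h => hℓS (Finset.mem_union_left _
      (Finset.mem_coe.1 h))
    exact ⟨h1, h2, fun h => h1 (h.trans (H41.dvd_twLevel N qv)),
      fun h => h2 (H41.subset_twSet S qv h)⟩
  -- Step 3
  have hCH : ∀ g : GalQ, G.gal g * G.gal g - ηW (HQ.ρ.trace g) * G.gal g
      + ηW (LinearMap.det (HQ.ρ.ρ g)) = 0 := by
    refine ch_of_es HQ.ρ ηW G.gal G.gal_cont hgη (twSet S qv ∪ (twLevel N qv).primeFactors) ?_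
    intro ℓ hℓ hℓS A hA σ hσ
    obtain ⟨h1, h2, -, -⟩ := hbad ℓ hℓ hℓS
    refine ⟨HQ.π (CuspForm.heckeAlgebra.T hℓ h1 h2), HQ.charpoly_frob ℓ hℓ h1 h2 A hA σ hσ, ?_⟩
    rw [hgen]
    exact G.es ℓ hℓ h1 h2 A hA σ hσ
  -- Step 5
  have hcompat : res.comp φQ = φ.comp τ := by
    refine compat_of_frob ρbar (cond 𝒪 p fl Smin ∅) (cond 𝒪 p fl Smin (Finset.univ.image qv))
      D DQ H.residue_surjective H.ρ (cond_mono (Finset.empty_subset _) hHcond) hHres HQ.ρ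
      τ hτl hτe φ hφ hφe φQ hφQ hφQe res (twSet S qv ∪ (twLevel N qv).primeFactors) ?_
    intro ℓ hℓ hℓS B hB σ hσ
    obtain ⟨h1, h2, h3, h4⟩ := hbad ℓ hℓ hℓS
    rw [H.charpoly_frob ℓ hℓ h3 h4 B hB σ hσ]
    refine map_charpoly_frob (res : CuspForm.heckeLocal (twLevel N qv) (↑(twSet S qv) : Set ℕ) 𝒪
      (θ.comp G.rest) →+* CuspForm.heckeLocal N (↑S : Set ℕ) 𝒪 θ) (HQ.π (CuspForm.heckeAlgebra.T hℓ h1 h2)) _ ℓ ?_ _
      (HQ.charpoly_frob ℓ hℓ h1 h2 B hB σ hσ)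
    rw [hHQπ, hHπ, ← G.rest_T ℓ hℓ h1 h2 h3 h4]
    exact hres _
  -- Step 4
  have hδ : ∀ j : Fin r, ∃ δ : DQ.R, δ - 1 ∈ maximalIdeal DQ.R ∧ τ δ = 1 ∧
      ηW (φQ δ) = G.d j := by
    intro j
    obtain ⟨hq, hqS, hqp⟩ := hTW.2.1 j
    have hqne : qv j ≠ p := fun h => hqS (h ▸ hyp.hpSmin)
    have hunr : ρbar.IsUnramifiedAt (qv j) := by
      by_contra h
      exact hqS ((hyp.hmin (qv j) hq hqne).2 h)
    have hunrD : D.ρ.IsUnramifiedAt (qv j) :=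
      cond_unram D.isOfType (qv j) hq (by rw [Finset.union_empty]; exact hqS)
    exact exists_delta hp hp2 hp𝒪 HQ.residue_surjective DQ.ρ D.ρ HQ.ρ HQ.residual_absIrr
      τ hτl hτe φQ hφQ hφQe (qv j) n hq hqp (G.P j) (G.P_over j)
      (hunrD (G.P j) (G.P_over j))
      (fun σ hσ => resid_eq_one_of_isEquiv ρbar DQ.ρ DQ.residual_isEquiv σ
        (hunr (G.P j) (G.P_over j) σ hσ))
      (G.frob j) (G.frob_spec j) (G.a j) (G.a' j) (G.a_ne j)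
      (resid_charpoly_of_isEquiv ρbar DQ.ρ DQ.residual_isEquiv (G.frob j) (G.a j) (G.a' j)
        (G.charpoly_frob j))
      (G.σ j) (G.σ_mem j) ηW G.gal hgη hCH (G.d j) (G.d_pow j) (hdη j) (G.d_gal j)
      (G.Vα j) (G.Vβ j) (G.isCompl j) (hVαη j) (fun v hv => G.Vα_d j j v hv)
      (G.Vα_frob j) (G.Vβ_frob j) (G.Vα_nil j) (G.Vβ_nil j) (G.lg j)
  choose δ hδm hτδ hδd using hδ
  -- Step 6
  refine twLevel_of_core (ηM.comp φ) γ hγ τ hτs (ηW.comp φQ) δ hδm hτδ G.d hδd G.d_pow G.rk G.b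
    G.b_basis G.π G.π_surjective G.ker_π ?_
  intro x v
  have h1 : res (φQ x) = φ (τ x) := congrArg (fun f : DQ.R →ₐ[𝒪] _ => f x) hcompat
  show G.π (ηW (φQ x) v) = ηM (φ (τ x)) (G.π v)
  rw [hπη, h1]

end Fermat.Agent.S59.Asm.H77
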