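import Fermat.Agent.S59.Asm.Red
import Fermat.Agent.S59.H99_DefCond
import Fermat.Agent.S59.H99_DefFl
import Fermat.Agent.S59.Asm.Plumb2
import Fermat.Agent.S59.Datum.H57_ResEq
import Fermat.Agent.S59.Datum.H57_ResIrr

/-!
# S59 (helper77): the wiring `Stmt_REDWIRE`

`stmt_REDWIRE : Stmt_THETAMIN → Stmt_EXACTb → Stmt_MLTgen → Stmt_MLTredS`.

`ρbar := ρ.residual`, `Smin := insert p (primes of M₀)`, `fl := (p ∤ M₀)`; by `Stmt_THETAMIN`
`ρbar` is unramified outside `M₀ p` and `θ` exists at level `M₀` away from `Smin`; by the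
hypothesis of ramification at the primes of `M₀` the set `Smin ∖ {p}` is exactly the set of the
primes `≠ p` where `ρbar` ramifies, and it is contained in `Sig`; `minLevel p fl Smin = M₀`
because `M₀` is squarefree; if `p ∤ M₀` then `ρbar` is flat by `Stmt_EXACTb`; if `p ∣ M₀` then
`ρbar` is not flat, hence `ρ` is not flat, so `ρ` and `ρbar` are strictly ordinary.
-/

set_option autoImplicit false
set_option linter.unusedSectionVars false
set_option linter.unusedVariables false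

open Polynomial CuspForm CongruenceSubgroup ModularFormClass IsLocalRing

namespace Fermat.Agent.S59.Asm.H77

open Fermat.Agent.S59 Fermat.Agent.S59.Asm Fermat.Agent.S59.H99 Fermat.Agent.S56.H92

/-- the reduction of `ρ`, as an adic representation over the residue field, is the base change
along the residue map -/
theorem isEquiv_bc_residue {A : Type} [CommRing A] [IsLocalRing A] (ρ : GaloisRepAdic A)
    (h : IsLocalHom (residue A)) :
    (ρ.baseChangeAlong (residue A) h).IsEquiv (GaloisRepAdic.ofResidualGaloisRep ρ.residual) :=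
  ⟨{ toLinearEquiv := LinearEquiv.refl _ _, map_apply := fun _ _ => rfl }⟩

theorem residueField_map_self (𝒪 : Type) [CommRing 𝒪] [IsLocalRing 𝒪] :
    ResidueField.map (algebraMap 𝒪 𝒪) = RingHom.id (ResidueField 𝒪) := by
  refine RingHom.ext fun x => ?_
  obtain ⟨a, rfl⟩ := residue_surjective x
  rw [ResidueField.map_residue]
  rfl

/-- `ρbar` is its own base change along the identity -/
theorem isEquiv_bcAlong_self {𝒪 : Type} [CommRing 𝒪] [IsLocalRing 𝒪]
    (ρbar : ResidualGaloisRep (ResidueField 𝒪)) (habs : ρbar.IsAbsolutelyIrreducible) :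
    ρbar.IsEquiv (ρbar.baseChangeAlong (ResidueField.map (algebraMap 𝒪 𝒪))) := by
  refine Fermat.Agent.S59.Datum.H57.isEquiv_of_charpoly_eq _ _
    (Fermat.Agent.S59.Datum.H57.absIrr_baseChangeAlong _ ρbar habs) fun σ => ?_
  rw [charpoly_bcAlong_resid, residueField_map_self, Polynomial.map_id]

/-- `cond` from its parts -/
theorem cond_of_parts {𝒪 : Type} [CommRing 𝒪] {p : ℕ} {fl : Bool} {Smin T : Finset ℕ}
    {A : Type} [CommRing A] [IsLocalRing A] [Algebra 𝒪 A] {ρ : GaloisRepAdic A}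
    (hdet : ρ.DetIsCyclotomic p) (hfl : fl = true → ρ.IsFlatAt p)
    (hso : fl = false → ρ.IsStrictOrdinaryAt p)
    (hunr : ∀ q : ℕ, q.Prime → q ∉ Smin ∪ T → ρ.IsUnramifiedAt q)
    (hunip : ∀ q ∈ Smin, q.Prime → q ≠ p → ρ.IsUnipotentOnInertiaAt q) :
    cond 𝒪 p fl Smin T ρ := by
  cases fl
  · exact ⟨⟨hdet, hso rfl, hunr⟩, hunip⟩
  · exact ⟨⟨hdet, hfl rfl, hunr⟩, hunip⟩

/-- the reduction of an unramified representation is unramified -/
theorem residual_isUnramifiedAt {A : Type} [CommRing A] [IsLocalRing A] (ρ : GaloisRepAdic A)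
    (q : ℕ) (h : ρ.IsUnramifiedAt q) : ρ.residual.IsUnramifiedAt q := by
  intro P hP σ hσ
  have h1 : ρ.residual.ρ σ = (ρ.ρ σ).baseChange (ResidueField A) := rfl
  rw [h1, h P hP σ hσ]
  exact LinearMap.baseChange_one (R := A) (A := ResidueField A) (M := ρ.V)

/-- the residual Frobenius characteristic polynomials -/
theorem residual_charpoly_frob {A : Type} [CommRing A] [IsLocalRing A] (ρ : GaloisRepAdic A)
    (σ : GalQ) (t : ℤ) (ℓ : ℕ)
    (h : LinearMap.charpoly (ρ.ρ σ) = X ^ 2 - C ((t : ℤ) : A) * X + C ((ℓ : A))) :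
    LinearMap.charpoly (ρ.residual.ρ σ) =
      X ^ 2 - C ((t : ℤ) : ResidueField A) * X + C ((ℓ : ResidueField A)) := by
  rw [charpoly_resid, h, Polynomial.map_add, Polynomial.map_sub, Polynomial.map_mul,
    Polynomial.map_pow, Polynomial.map_X, Polynomial.map_C, Polynomial.map_C, map_intCast,
    map_natCast]

/-- the minimal level for `Smin = insert p (primes of M₀)` -/
theorem minLevel_insert_primeFactors {p M₀ : ℕ} (hsq : Squarefree M₀) (fl : Bool)
    (h1 : fl = true → ¬ p ∣ M₀) (h0 : fl = false → p.Prime ∧ p ∣ M₀) (hM₀ : M₀ ≠ 0) :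
    M₀ = minLevel p fl (insert p M₀.primeFactors) := by
  unfold minLevel
  rw [Finset.erase_insert_eq_erase]
  cases fl
  · obtain ⟨hp, hpM⟩ := h0 rfl
    have hmem : p ∈ M₀.primeFactors := Nat.mem_primeFactors.2 ⟨hp, hpM, hM₀⟩
    simp only [Bool.false_eq_true, if_false]
    rw [Finset.prod_erase_mul _ _ hmem]
    exact (Nat.prod_primeFactors_of_squarefree hsq).symm
  · have hmem : p ∉ M₀.primeFactors := fun h => h1 rfl (Nat.dvd_of_mem_primeFactors h)
    simp only [if_true, mul_one]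
    rw [Finset.erase_eq_of_notMem hmem]
    exact (Nat.prod_primeFactors_of_squarefree hsq).symm

/-- **REDWIRE.** -/
theorem stmt_REDWIRE : Stmt_REDWIRE := by
  intro hTH hEX hGen p _ hp2 𝒪 _ _ _ _ _ _ ρ a Sig hSig hdet hunr hunip hloc hfrob habs hTW hsplit
    M₀ hM₀ hsq hram hnfl f₀ 𝔪 hf₀ h𝔪 hp𝔪 hcong
  have hp : p.Prime := Fact.out
  have hp𝒪 : (p : 𝒪) ∈ maximalIdeal 𝒪 := hdet.1
  have hNZ : NeZero M₀ := ⟨hM₀⟩
  have hchar : CharP (ResidueField 𝒪) p := by
    refine (CharP.charP_iff_prime_eq_zero hp).2 ?_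
    have h := (residue_eq_zero_iff (p : 𝒪)).2 hp𝒪
    rwa [map_natCast] at h
  -- the residual Frobenius characteristic polynomials
  have hfrobbar : ∀ ℓ : ℕ, ℓ.Prime → ℓ ∉ Sig → ℓ ≠ p →
      ∀ A : ValuationSubring (AlgebraicClosure ℚ), A.LiesOverPrime ℓ →
        ∀ σ : AlgebraicClosure ℚ ≃ₐ[ℚ] AlgebraicClosure ℚ, A.IsFrobeniusAt σ ℓ →
          LinearMap.charpoly (ρ.residual.ρ σ) =
            X ^ 2 - C (((a ℓ : ℤ) : ResidueField 𝒪)) * X + C ((ℓ : ResidueField 𝒪)) :=
    fun ℓ hℓ hℓS hℓp A hA σ hσ =>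
      residual_charpoly_frob ρ σ (a ℓ) ℓ (hfrob ℓ hℓ hℓp hℓS A hA σ hσ)
  -- THETAMIN
  obtain ⟨hunrbar, hθ⟩ := hTH p hp2 (ResidueField 𝒪) ρ.residual habs M₀ f₀ 𝔪 hf₀ h𝔪 hp𝔪 a Sig
    hcong hfrobbar
  have hpS : p ∈ insert p M₀.primeFactors := Finset.mem_insert_self _ _
  have hMS : ∀ q : ℕ, q.Prime → q ∣ M₀ → q ∈ insert p M₀.primeFactors := fun q hq hqM =>
    Finset.mem_insert_of_mem (Nat.mem_primeFactors.2 ⟨hq, hqM, hM₀⟩)
  obtain ⟨θ, hθF⟩ := hθ (insert p M₀.primeFactors) hpS hMS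
  -- the primes of `M₀` different from `p` are in `Sig`
  have hMSig : ∀ q : ℕ, q.Prime → q ∣ M₀ → q ≠ p → q ∈ Sig := by
    intro q hq hqM hqp
    by_contra hqS
    exact hram q hq hqp hqM (residual_isUnramifiedAt ρ q (hunr q hq hqp hqS))
  have hSminSig : ∀ q ∈ insert p M₀.primeFactors, q ≠ p → q ∈ Sig := by
    intro q hq hqp
    rcases Finset.mem_insert.1 hq with h | h
    · exact absurd h hqp
    · exact hMSig q (Nat.prime_of_mem_primeFactors h) (Nat.dvd_of_mem_primeFactors h) hqp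
  -- the reduction as an adic representation
  have hresl : IsLocalHom (residue 𝒪) := inferInstance
  have he := isEquiv_bc_residue ρ hresl
  have hdetbar : (GaloisRepAdic.ofResidualGaloisRep ρ.residual).DetIsCyclotomic p :=
    detIsCyclotomic_of_isEquiv he p (detIsCyclotomic_baseChangeAlong (residue 𝒪) hresl ρ p hdet)
  -- the standing hypotheses
  have hRes : ResHyp p ρ.residual (insert p M₀.primeFactors) :=
    { habs := habs
      hdet := hdetbar
      hsplit := hsplit trivial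
      hTW := hTW
      hpSmin := hpS
      hS := fun q hq => by
        rcases Finset.mem_insert.1 hq with h | h
        · exact h ▸ hp
        · exact Nat.prime_of_mem_primeFactors h
      hmin := fun q hq hqp => by
        constructor
        · intro hqS
          rcases Finset.mem_insert.1 hqS with h | h
          · exact absurd h hqp
          · exact hram q hq hqp (Nat.dvd_of_mem_primeFactors h)
        · intro hnu
          by_contra hqS
          exact hnu (hunrbar q hq (fun hqM => hqS (hMS q hq hqM)) hqp) }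
  -- the type at `p`
  obtain ⟨fl, hfl1, hfl0⟩ : ∃ fl : Bool,
      (fl = true → ¬ p ∣ M₀ ∧ (GaloisRepAdic.ofResidualGaloisRep ρ.residual).IsFlatAt p) ∧
      (fl = false → p ∣ M₀ ∧ ¬ (GaloisRepAdic.ofResidualGaloisRep ρ.residual).IsFlatAt p ∧
        (GaloisRepAdic.ofResidualGaloisRep ρ.residual).IsStrictOrdinaryAt p) := by
    by_cases hpM : p ∣ M₀
    · refine ⟨false, fun h => absurd h (by decide), fun _ => ⟨hpM, hnfl hpM, ?_⟩⟩
      rcases hloc with hflat | hso
      · exact absurd (isFlatAt_of_isEquiv he p hp (isFlatAt_baseChangeAlong (residue 𝒪) hresl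
          (finite_residueField_of_finite (ResidueField 𝒪)) ρ p hp hflat)) (hnfl hpM)
      · exact isStrictOrdinaryAt_of_isEquiv he p
          (isStrictOrdinaryAt_baseChangeAlong (residue 𝒪) hresl ρ p hso)
    · exact ⟨true, fun _ => ⟨hpM, hEX 𝒪 p hp2 hp𝒪 ρ.residual habs M₀
        (insert p M₀.primeFactors) hpS hMS hpM θ hθF⟩, fun h => absurd h (by decide)⟩
  have hcond : cond 𝒪 p fl (insert p M₀.primeFactors) ∅
      (GaloisRepAdic.ofResidualGaloisRep ρ.residual) := by
    refine cond_of_parts hdetbar (fun h => (hfl1 h).2) (fun h => (hfl0 h).2.2) ?_ ?_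
    · intro q hq hqS
      rw [Finset.union_empty] at hqS
      exact hunrbar q hq (fun hqM => hqS (hMS q hq hqM)) (fun h => hqS (h ▸ hpS))
    · intro q hqS hq hqp
      exact isUnipotentOnInertiaAt_of_isEquiv he q
        (isUnipotentOnInertiaAt_baseChangeAlong (residue 𝒪) hresl ρ q
          (hunip q (hSminSig q hqS hqp)))
  have hlevel : M₀ = minLevel p fl (insert p M₀.primeFactors) :=
    minLevel_insert_primeFactors hsq fl (fun h => (hfl1 h).1) (fun h => ⟨hp, (hfl0 h).1⟩) hM₀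
  -- RT-NONMIN
  obtain ⟨N', hN1, hN2, g, hg, hcoef⟩ := hGen 𝒪 p hp2 hp𝒪 fl ρ.residual
    (insert p M₀.primeFactors) hRes hcond (fun h => (hfl0 h).2.1) M₀ hlevel θ hθF
    (Sig \ insert p M₀.primeFactors)
    (fun q hq => ⟨(hSig q (Finset.mem_sdiff.1 hq).1).1, (Finset.mem_sdiff.1 hq).2⟩)
    ρ hdet
    (fun q hq hqS hqSig => hunr q hq (fun h => hqS (h ▸ hpS))
      (fun h => hqSig (Finset.mem_sdiff.2 ⟨h, hqS⟩)))
    (fun q hqS hqp => hunip q (hSminSig q hqS hqp))
    (fun q hq => hunip q (Finset.mem_sdiff.1 hq).1)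
    hloc (isEquiv_bcAlong_self ρ.residual habs) a
    (fun ℓ hℓ hℓS hℓSig A hA σ hσ => hfrob ℓ hℓ (fun h => hℓS (h ▸ hpS))
      (fun h => hℓSig (Finset.mem_sdiff.2 ⟨h, hℓS⟩)) A hA σ hσ)
  refine ⟨N', hN1, hN2, g, hg, fun ℓ hℓ hℓp hℓSig hℓN => ?_⟩
  exact hcoef ℓ hℓ (fun h => hℓSig (hSminSig ℓ h hℓp))
    (fun h => hℓSig (Finset.mem_sdiff.1 h).1) hℓN

end Fermat.Agent.S59.Asm.H77
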