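import Fermat.Agent.S59.Asm.Red2
import Fermat.Agent.S59.Asm.H77_RedWire

/-!
# S59 (helper77): the wiring `Stmt_REDWIRE2`

`stmt_REDWIRE2 : Stmt_THETAMIN → Stmt_EXACTb → CaseC.Stmt_MLTgenPt → Stmt_MLTredS2`
(as `stmt_REDWIRE`, with `θ := residue ∘ x₀`).
-/

set_option autoImplicit false
set_option linter.unusedSectionVars false
set_option linter.unusedVariables false

open Polynomial CuspForm CongruenceSubgroup ModularFormClass IsLocalRing

namespace Fermat.Agent.S59.Asm.H77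

open Fermat.Agent.S59 Fermat.Agent.S59.Asm Fermat.Agent.S59.H99 Fermat.Agent.S56.H92

/-- **REDWIRE2.** -/
theorem stmt_REDWIRE2 : Stmt_REDWIRE2 := by
  intro hTH hEX hGen p _ hp2 𝒪 _ _ _ _ _ _ ρ a Sig hSig hdet hunr hunip hloc hfrob habs hTW hsplit
    M₀ hNZ hsq hram hnfl f₀ 𝔪 hf₀ h𝔪 hp𝔪 hcong x₀ hx₀
  have hp : p.Prime := Fact.out
  have hp𝒪 : (p : 𝒪) ∈ maximalIdeal 𝒪 := hdet.1
  have hM₀ : M₀ ≠ 0 := NeZero.ne M₀
  have hchar : CharP (ResidueField 𝒪) p := by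
    refine (CharP.charP_iff_prime_eq_zero hp).2 ?_
    have h := (residue_eq_zero_iff (p : 𝒪)).2 hp𝒪
    rwa [map_natCast] at h
  -- the residual Frobenius characteristic polynomials
  have hfrobbar : ∀ ℓ : ℕ, ℓ.Prime → ℓ ∉ Sig → ℓ ≠ p →
      ∀ A : ValuationSubring (AlgebraicClosure ℚ), A.LiesOverPrime ℓ →
        ∀ σ : AlgebraicClosure ℚ ≃ₐ[ℚ] AlgebraicClosure ℚ, A.IsFrobeniusAt σ ℓ →
          LinearMap.charpoly (ρ.residual.ρ σ) =
            X ^ 2 - C (((a ℓ : ℤ) : ResidueField 𝒪)) * X + C ((ℓ : ResidueField 𝒪)) :=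
    fun ℓ hℓ hℓS hℓp A hA σ hσ =>
      residual_charpoly_frob ρ σ (a ℓ) ℓ (hfrob ℓ hℓ hℓp hℓS A hA σ hσ)
  -- THETAMIN, first part
  obtain ⟨hunrbar, -⟩ := hTH p hp2 (ResidueField 𝒪) ρ.residual habs M₀ f₀ 𝔪 hf₀ h𝔪 hp𝔪 a Sig
    hcong hfrobbar
  have hpS : p ∈ insert p M₀.primeFactors := Finset.mem_insert_self _ _
  have hMS : ∀ q : ℕ, q.Prime → q ∣ M₀ → q ∈ insert p M₀.primeFactors := fun q hq hqM =>
    Finset.mem_insert_of_mem (Nat.mem_primeFactors.2 ⟨hq, hqM, hM₀⟩)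
  -- `θ := residue ∘ x₀`
  obtain ⟨θ, hθx⟩ : ∃ θ : CuspForm.heckeAlgebra M₀ 2 (↑(insert p M₀.primeFactors) : Set ℕ) →+*
      ResidueField 𝒪, ∀ t, residue 𝒪 (x₀ t) = θ t := ⟨(residue 𝒪).comp x₀, fun _ => rfl⟩
  have hθF : Fermat.Agent.S59.Datum.FrobHyp ρ.residual M₀ (insert p M₀.primeFactors) θ := by
    intro ℓ hℓ hℓN hℓS A hA σ hσ
    rw [← hθx]
    exact hx₀ ℓ hℓ hℓN hℓS A hA σ hσ
  -- the primes of `M₀` different from `p` are in `Sig`
  have hMSig : ∀ q : ℕ, q.Prime → q ∣ M₀ → q ≠ p → q ∈ Sig := by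
    intro q hq hqM hqp
    by_contra hqS
    exact hram q hq hqp hqM (residual_isUnramifiedAt ρ q (hunr q hq hqp hqS))
  have hSminSig : ∀ q ∈ insert p M₀.primeFactors, q ≠ p → q ∈ Sig := by
    intro q hq hqp
    rcases Finset.mem_insert.1 hq with h | h
    · exact absurd h hqp
    · exact hMSig q (Nat.prime_of_mem_primeFactors h) (Nat.dvd_of_mem_primeFactors h) hqp
  -- the reduction as an adic representation
  have hresl : IsLocalHom (residue 𝒪) := inferInstance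
  have he := isEquiv_bc_residue ρ hresl
  have hdetbar : (GaloisRepAdic.ofResidualGaloisRep ρ.residual).DetIsCyclotomic p :=
    detIsCyclotomic_of_isEquiv he p (detIsCyclotomic_baseChangeAlong (residue 𝒪) hresl ρ p hdet)
  -- the standing hypotheses
  have hRes : ResHyp p ρ.residual (insert p M₀.primeFactors) :=
    { habs := habs
      hdet := hdetbar
      hsplit := hsplit
      hTW := hTW
      hpSmin := hpS
      hS := fun q hq => by
        rcases Finset.mem_insert.1 hq with h | h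
        · exact h ▸ hp
        · exact Nat.prime_of_mem_primeFactors h
      hmin := fun q hq hqp => by
        constructor
        · intro hqS
          rcases Finset.mem_insert.1 hqS with h | h
          · exact absurd h hqp
          · exact hram q hq hqp (Nat.dvd_of_mem_primeFactors h)
        · intro hnu
          by_contra hqS
          exact hnu (hunrbar q hq (fun hqM => hqS (hMS q hq hqM)) hqp) }
  -- the type at `p`
  obtain ⟨fl, hfl1, hfl0⟩ : ∃ fl : Bool,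
      (fl = true → ¬ p ∣ M₀ ∧ (GaloisRepAdic.ofResidualGaloisRep ρ.residual).IsFlatAt p) ∧
      (fl = false → p ∣ M₀ ∧ ¬ (GaloisRepAdic.ofResidualGaloisRep ρ.residual).IsFlatAt p ∧
        (GaloisRepAdic.ofResidualGaloisRep ρ.residual).IsStrictOrdinaryAt p) := by
    by_cases hpM : p ∣ M₀
    · refine ⟨false, fun h => absurd h (by decide), fun _ => ⟨hpM, hnfl hpM, ?_⟩⟩
      rcases hloc with hflat | hso
      · exact absurd (isFlatAt_of_isEquiv he p hp (isFlatAt_baseChangeAlong (residue 𝒪) hresl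
          (finite_residueField_of_finite (ResidueField 𝒪)) ρ p hp hflat)) (hnfl hpM)
      · exact isStrictOrdinaryAt_of_isEquiv he p
          (isStrictOrdinaryAt_baseChangeAlong (residue 𝒪) hresl ρ p hso)
    · exact ⟨true, fun _ => ⟨hpM, hEX 𝒪 p hp2 hp𝒪 ρ.residual habs M₀
        (insert p M₀.primeFactors) hpS hMS hpM θ hθF⟩, fun h => absurd h (by decide)⟩
  have hcond : cond 𝒪 p fl (insert p M₀.primeFactors) ∅
      (GaloisRepAdic.ofResidualGaloisRep ρ.residual) := by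
    refine cond_of_parts hdetbar (fun h => (hfl1 h).2) (fun h => (hfl0 h).2.2) ?_ ?_
    · intro q hq hqS
      rw [Finset.union_empty] at hqS
      exact hunrbar q hq (fun hqM => hqS (hMS q hq hqM)) (fun h => hqS (h ▸ hpS))
    · intro q hqS hq hqp
      exact isUnipotentOnInertiaAt_of_isEquiv he q
        (isUnipotentOnInertiaAt_baseChangeAlong (residue 𝒪) hresl ρ q
          (hunip q (hSminSig q hqS hqp)))
  have hlevel : M₀ = minLevel p fl (insert p M₀.primeFactors) :=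
    minLevel_insert_primeFactors hsq fl (fun h => (hfl1 h).1) (fun h => ⟨hp, (hfl0 h).1⟩) hM₀
  -- RT-NONMIN
  obtain ⟨N', hN1, hN2, g, hg, hcoef⟩ := hGen 𝒪 p hp2 hp𝒪 fl ρ.residual
    (insert p M₀.primeFactors) hRes hcond (fun h => (hfl0 h).2.1) M₀ hlevel θ hθF x₀ hθx
    (Sig \ insert p M₀.primeFactors)
    (fun q hq => ⟨(hSig q (Finset.mem_sdiff.1 hq).1).1, (Finset.mem_sdiff.1 hq).2⟩)
    ρ hdet
    (fun q hq hqS hqSig => hunr q hq (fun h => hqS (h ▸ hpS))
      (fun h => hqSig (Finset.mem_sdiff.2 ⟨h, hqS⟩)))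
    (fun q hqS hqp => hunip q (hSminSig q hqS hqp))
    (fun q hq => hunip q (Finset.mem_sdiff.1 hq).1)
    hloc (isEquiv_bcAlong_self ρ.residual habs) a
    (fun ℓ hℓ hℓS hℓSig A hA σ hσ => hfrob ℓ hℓ (fun h => hℓS (h ▸ hpS))
      (fun h => hℓSig (Finset.mem_sdiff.2 ⟨h, hℓS⟩)) A hA σ hσ)
  refine ⟨N', hN1, hN2, g, hg, fun ℓ hℓ hℓp hℓSig hℓN => ?_⟩
  exact hcoef ℓ hℓ (fun h => hℓSig (hSminSig ℓ h hℓp))
    (fun h => hℓSig (Finset.mem_sdiff.1 h).1) hℓN

end Fermat.Agent.S59.Asm.H77
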