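/-
S59, RT-NONMIN, leaf SELMER-q (helper80), part 1: the matrix computation modulo `𝔭'²`.

`R'` an `𝒪`-algebra with an augmentation `x' : R' → 𝒪`, `𝔭' = ker x'`; `T, F ∈ M₂(R')` with
`T ≡ 1 mod 𝔭'`, `det T = 1`, `det F = q`, `F T = T^q F` (`q` a unit of `𝒪`).  Then the classes of
the entries of `T - 1` in `𝔭'/𝔭'²` span an `𝒪`-module of cardinality at most `#(𝒪/c)`,
`c = (q - 1)(x'(tr F)² - (q + 1)²)`.
-/
import Fermat.Agent.S59.Asm.H2_SelqAD
import Fermat.Agent.S59.Asm.H2_SelqAlg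

set_option autoImplicit false
set_option linter.unusedSectionVars false

open IsLocalRing Matrix

noncomputable section

namespace Fermat.Agent.S59.Asm.H80

section sq

variable {B : Type} [CommRing B]

/-- `(1 + X)^n = 1 + n X` if `X² = 0`. -/
theorem one_add_pow_of_sq_zero (X : Matrix (Fin 2) (Fin 2) B) (h : X * X = 0) (n : ℕ) :
    (1 + X) ^ n = 1 + (n : B) • X := by
  induction n with
  | zero => rw [pow_zero, Nat.cast_zero, zero_smul, add_zero]
  | succ m ih =>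
    rw [pow_succ, ih]
    simp only [add_mul, mul_add, one_mul, mul_one, smul_mul_assoc, h, smul_zero, add_zero]
    rw [Nat.cast_succ, add_smul, one_smul]
    abel

/-- The relations in a ring `B` in which the products of the entries of `X` vanish. -/
theorem mulVec_eq_zero_of_rel (q : B) (F X : Matrix (Fin 2) (Fin 2) B)
    (hXX : ∀ i j k l, X i j * X k l = 0) (hdetF : F.det = q)
    (hT : (1 + X).det = 1) (n : ℕ) (hn : (n : B) = q) (hFT : F * (1 + X) = (1 + X) ^ n * F)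
    (A : Matrix (Fin 3) (Fin 3) B)
    (hA : ∀ v : Fin 3 → B, F * tl v * F.adjugate - q ^ 2 • tl v = tl (A.mulVec v)) :
    X 1 1 = - X 0 0 ∧ A.mulVec ![X 0 1, X 1 0, X 0 0] = 0 := by
  have hsq : X * X = 0 := by
    ext i j
    rw [Matrix.mul_apply, Fin.sum_univ_two, hXX, hXX, add_zero]
    rfl
  have htr : X 1 1 = - X 0 0 := by
    rw [Matrix.det_fin_two] at hT
    simp only [Matrix.add_apply, Matrix.one_apply_eq, Matrix.one_apply_ne, ne_eq,
      zero_ne_one, one_ne_zero, not_false_eq_true, zero_add] at hT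
    have h1 := hXX 0 0 1 1
    have h2 := hXX 0 1 1 0
    linear_combination hT - h1 + h2
  refine ⟨htr, ?_⟩
  have hX : X = tl ![X 0 1, X 1 0, X 0 0] := by
    ext i j
    fin_cases i <;> fin_cases j <;> simp [tl, htr]
  have hrel : F * X = q • (X * F) := by
    rw [one_add_pow_of_sq_zero X hsq, hn, mul_add, mul_one, add_mul, one_mul, smul_mul_assoc]
      at hFT
    exact add_left_cancel hFT
  have h3 : F * X * F.adjugate = q ^ 2 • X := by
    rw [hrel, smul_mul_assoc, Matrix.mul_assoc, Matrix.mul_adjugate, hdetF, Matrix.mul_smul,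
      Matrix.mul_one, smul_smul, pow_two]
  have h4 := hA ![X 0 1, X 1 0, X 0 0]
  rw [← hX, h3, sub_self] at h4
  have h5 : ∀ w : Fin 3 → B, tl w = 0 → w = 0 := by
    intro w hw
    funext k
    fin_cases k
    · exact congrFun (congrFun hw 0) 1
    · exact congrFun (congrFun hw 1) 0
    · exact congrFun (congrFun hw 0) 0
  exact h5 _ h4.symm

end sq

section cot

variable (𝒪 : Type) [CommRing 𝒪] [IsDomain 𝒪] [IsDiscreteValuationRing 𝒪]
  [Finite (ResidueField 𝒪)] {R' : Type} [CommRing R'] [Algebra 𝒪 R'] (x' : R' →ₐ[𝒪] 𝒪)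

omit [IsDomain 𝒪] [IsDiscreteValuationRing 𝒪] [Finite (ResidueField 𝒪)] in
theorem sub_algebraMap_mem_ker (r : R') :
    r - algebraMap 𝒪 R' (x' r) ∈ RingHom.ker (x' : R' →+* 𝒪) := by
  rw [RingHom.mem_ker]
  change x' (r - algebraMap 𝒪 R' (x' r)) = 0
  rw [map_sub, x'.commutes, Algebra.algebraMap_self_apply, sub_self]

omit [IsDomain 𝒪] [IsDiscreteValuationRing 𝒪] [Finite (ResidueField 𝒪)] in
/-- On the cotangent space of `ker x'`, `R'` acts through `x'`. -/
theorem smul_cotangent_eq (r : R') (m : (RingHom.ker (x' : R' →+* 𝒪)).Cotangent) :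
    r • m = (x' r) • m := by
  have h1 : r = algebraMap 𝒪 R' (x' r) + (r - algebraMap 𝒪 R' (x' r)) := by ring
  conv_lhs => rw [h1]
  rw [add_smul, Ideal.Cotangent.smul_eq_zero_of_mem (sub_algebraMap_mem_ker 𝒪 x' r) m, add_zero,
    algebraMap_smul]

/-- **The matrix computation modulo `𝔭'²`.** -/
theorem entries_span_card_le (q : ℕ) (hq : IsUnit (q : 𝒪)) (T F : Matrix (Fin 2) (Fin 2) R')
    (hT : ∀ i j, (T - 1) i j ∈ RingHom.ker (x' : R' →+* 𝒪)) (hdetT : T.det = 1)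
    (hdetF : F.det = (q : R')) (hFT : F * T = T ^ q * F)
    (hc : ((q : 𝒪) - 1) * (x' F.trace ^ 2 - ((q : 𝒪) + 1) ^ 2) ≠ 0) :
    ∃ E : Submodule 𝒪 (RingHom.ker (x' : R' →+* 𝒪)).Cotangent,
      (∀ i j, (RingHom.ker (x' : R' →+* 𝒪)).toCotangent ⟨(T - 1) i j, hT i j⟩ ∈ E) ∧
      Finite E ∧ Nat.card E ≤ Nat.card
        (𝒪 ⧸ Ideal.span {((q : 𝒪) - 1) * (x' F.trace ^ 2 - ((q : 𝒪) + 1) ^ 2)}) := by
  classical
  set I : Ideal R' := RingHom.ker (x' : R' →+* 𝒪) with hI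
  have hle : I ^ 2 ≤ RingHom.ker (x' : R' →+* 𝒪) := Ideal.pow_le_self two_ne_zero
  set mk : R' →+* R' ⧸ I ^ 2 := Ideal.Quotient.mk (I ^ 2) with hmk
  set xb : R' ⧸ I ^ 2 →+* 𝒪 :=
    Ideal.Quotient.lift (I ^ 2) (x' : R' →+* 𝒪) (fun a ha => hle ha) with hxbdef
  have hxb : ∀ r, xb (mk r) = x' r := fun r => Ideal.Quotient.lift_mk _ _ _
  set X : Matrix (Fin 2) (Fin 2) R' := T - 1 with hX
  set XB : Matrix (Fin 2) (Fin 2) (R' ⧸ I ^ 2) := X.map mk with hXB
  set FB : Matrix (Fin 2) (Fin 2) (R' ⧸ I ^ 2) := F.map mk with hFB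
  have hmul0 : ∀ a b : R', a ∈ I → b ∈ I → mk a * mk b = 0 := by
    intro a b ha hb
    rw [← map_mul, hmk, Ideal.Quotient.eq_zero_iff_mem, pow_two]
    exact Ideal.mul_mem_mul ha hb
  have hXX : ∀ i j k l, XB i j * XB k l = 0 := fun i j k l => hmul0 _ _ (hT i j) (hT k l)
  have hTB : T.map mk = 1 + XB := by
    have h1 : T = 1 + X := by rw [hX, add_sub_cancel]
    conv_lhs => rw [h1]
    rw [Matrix.map_add _ (fun a b => map_add mk a b), Matrix.map_one _ (map_zero mk) (map_one mk)]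
  have hdetFB : FB.det = ((q : ℕ) : R' ⧸ I ^ 2) := by
    rw [hFB, ← RingHom.mapMatrix_apply, ← RingHom.map_det, hdetF, map_natCast]
  have hdetTB : (1 + XB).det = 1 := by
    rw [← hTB, ← RingHom.mapMatrix_apply, ← RingHom.map_det, hdetT, map_one]
  have hFTB : FB * (1 + XB) = (1 + XB) ^ q * FB := by
    rw [← hTB]
    have h1 := congrArg (RingHom.mapMatrix mk) hFT
    rw [map_mul, map_mul, map_pow] at h1
    exact h1
  obtain ⟨AB, hAB, hdetAB⟩ := H2.stmt_SELqAD (R' ⧸ I ^ 2) FB ((q : ℕ) : R' ⧸ I ^ 2) hdetFB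
  obtain ⟨htr, hmv⟩ := mulVec_eq_zero_of_rel ((q : ℕ) : R' ⧸ I ^ 2) FB XB hXX hdetFB hdetTB q rfl
    hFTB AB hAB
  -- the matrix over `𝒪`
  set A : Matrix (Fin 3) (Fin 3) 𝒪 := AB.map xb with hA
  have htrF : xb FB.trace = x' F.trace := by
    rw [Matrix.trace_fin_two, Matrix.trace_fin_two, map_add]
    change xb (mk (F 0 0)) + xb (mk (F 1 1)) = _
    rw [hxb, hxb, map_add]
  have hdetA : A.det = (q : 𝒪) ^ 3 *
      (((q : 𝒪) - 1) * (x' F.trace ^ 2 - ((q : 𝒪) + 1) ^ 2)) := by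
    rw [hA, ← RingHom.mapMatrix_apply, ← RingHom.map_det, hdetAB]
    simp only [map_mul, map_pow, map_sub, map_add, map_natCast, map_one, htrF]
    ring
  have hq0 : (q : 𝒪) ^ 3 ≠ 0 := pow_ne_zero 3 hq.ne_zero
  have hdetA0 : A.det ≠ 0 := by
    rw [hdetA]
    exact mul_ne_zero hq0 hc
  -- the vector in the cotangent space
  set v' : Fin 3 → I.Cotangent :=
    ![I.toCotangent ⟨X 0 1, hT 0 1⟩, I.toCotangent ⟨X 1 0, hT 1 0⟩,
      I.toCotangent ⟨X 0 0, hT 0 0⟩] with hv'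
  have hι : ∀ j, I.cotangentToQuotientSquare (v' j) = ![XB 0 1, XB 1 0, XB 0 0] j := by
    intro j
    fin_cases j <;> rfl
  have hvI : ∀ j, ∃ a ∈ I, ![XB 0 1, XB 1 0, XB 0 0] j = mk a := by
    intro j
    fin_cases j
    · exact ⟨X 0 1, hT 0 1, rfl⟩
    · exact ⟨X 1 0, hT 1 0, rfl⟩
    · exact ⟨X 0 0, hT 0 0, rfl⟩
  have hrel : ∀ i, ∑ j, A i j • v' j = 0 := by
    intro i
    apply I.cotangentToQuotientSquare_injective
    rw [map_zero, map_sum]
    have h1 : ∀ j, I.cotangentToQuotientSquare (A i j • v' j) =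
        AB i j * ![XB 0 1, XB 1 0, XB 0 0] j := by
      intro j
      rw [← algebraMap_smul R' (A i j) (v' j), map_smul, hι]
      obtain ⟨a, ha, hva⟩ := hvI j
      obtain ⟨r, hr⟩ := Ideal.Quotient.mk_surjective (AB i j)
      rw [hva]
      have h2 : A i j = x' r := by
        change xb (AB i j) = _
        rw [← hr]
        exact hxb r
      rw [h2, ← hr]
      change mk (algebraMap 𝒪 R' (x' r)) * mk a = mk r * mk a
      rw [← sub_eq_zero, ← sub_mul, ← map_sub]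
      apply hmul0 _ _ _ ha
      have h3 := sub_algebraMap_mem_ker 𝒪 x' r
      have h4 : algebraMap 𝒪 R' (x' r) - r = -(r - algebraMap 𝒪 R' (x' r)) := by ring
      rw [h4]
      exact I.neg_mem h3
    rw [Finset.sum_congr rfl (fun j _ => h1 j)]
    exact congrFun hmv i
  obtain ⟨hfin, hcard⟩ := H2.stmt_SELqALG 𝒪 3 A hdetA0 I.Cotangent v' hrel
  refine ⟨Submodule.span 𝒪 (Set.range v'), ?_, hfin, ?_⟩
  · have hmem : ∀ j, v' j ∈ Submodule.span 𝒪 (Set.range v') :=
      fun j => Submodule.subset_span ⟨j, rfl⟩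
    have h11 : I.toCotangent ⟨X 1 1, hT 1 1⟩ = - I.toCotangent ⟨X 0 0, hT 0 0⟩ := by
      rw [← map_neg, Ideal.toCotangent_eq]
      have h5 : mk (X 1 1 + X 0 0) = 0 := by
        rw [map_add]
        change XB 1 1 + XB 0 0 = 0
        rw [htr, neg_add_cancel]
      rw [hmk, Ideal.Quotient.eq_zero_iff_mem] at h5
      have h6 : ((⟨X 1 1, hT 1 1⟩ : I) : R') - ((-(⟨X 0 0, hT 0 0⟩ : I) : I) : R') =
          X 1 1 + X 0 0 := by
        simp
      rw [h6]
      exact h5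
    intro i j
    fin_cases i <;> fin_cases j
    · exact hmem 2
    · exact hmem 0
    · exact hmem 1
    · change I.toCotangent ⟨X 1 1, hT 1 1⟩ ∈ _
      rw [h11]
      exact Submodule.neg_mem _ (hmem 2)
  · rw [hdetA, Ideal.span_singleton_mul_left_unit (hq.pow 3)] at hcard
    exact hcard

end cot

end Fermat.Agent.S59.Asm.H80
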