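/-
S59, RT-NONMIN, leaf SELMER-q (helper80), part 2: cotangent bookkeeping.

`τ : R' ↠ R`, `x : R → 𝒪`, `𝔭 = ker x`, `𝔭' = ker (x ∘ τ)`.  If `ker τ ≤ J ⊔ 𝔭'²` for an ideal
`J = (S) ≤ 𝔭'` and the classes of the elements of `S` lie in a finite `𝒪`-submodule `E` of
`𝔭'/𝔭'²`, then `#(𝔭'/𝔭'²) ≤ #(𝔭/𝔭²) · #E`.
-/
import Fermat.Agent.S59.Asm.H80_SelmerMat

set_option autoImplicit false
set_option linter.unusedSectionVars false

noncomputable section

namespace Fermat.Agent.S59.Asm.H80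

section cotB

variable {𝒪 : Type} [CommRing 𝒪] {R' R : Type} [CommRing R'] [CommRing R] [Algebra 𝒪 R']
  [Algebra 𝒪 R] (τ : R' →ₐ[𝒪] R) (x : R →ₐ[𝒪] 𝒪)

theorem ker_comp_le_comap :
    RingHom.ker ((x.comp τ : R' →ₐ[𝒪] 𝒪) : R' →+* 𝒪) ≤
      (RingHom.ker (x : R →+* 𝒪)).comap τ := by
  intro a ha
  rw [Ideal.mem_comap, RingHom.mem_ker]
  exact ha

/-- The classes of the elements of `Ideal.span S` lie in `E` if those of `S` do. -/
theorem toCotangent_mem_of_span (x' : R' →ₐ[𝒪] 𝒪) (S : Set R')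
    (hS : ∀ s ∈ S, s ∈ RingHom.ker (x' : R' →+* 𝒪))
    (E : Submodule 𝒪 (RingHom.ker (x' : R' →+* 𝒪)).Cotangent)
    (hE : ∀ s (hs : s ∈ S), (RingHom.ker (x' : R' →+* 𝒪)).toCotangent ⟨s, hS s hs⟩ ∈ E)
    (y : R') (hy : y ∈ Ideal.span S) (hy' : y ∈ RingHom.ker (x' : R' →+* 𝒪)) :
    (RingHom.ker (x' : R' →+* 𝒪)).toCotangent ⟨y, hy'⟩ ∈ E := by
  have hle : Ideal.span S ≤ RingHom.ker (x' : R' →+* 𝒪) := Ideal.span_le.2 hS
  have key : ∀ y (hy : y ∈ Ideal.span S),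
      (RingHom.ker (x' : R' →+* 𝒪)).toCotangent ⟨y, hle hy⟩ ∈ E := by
    intro y hy
    induction hy using Submodule.span_induction with
    | mem s hs => exact hE s hs
    | zero =>
      have h0 : (⟨0, hle (Ideal.span S).zero_mem⟩ : RingHom.ker (x' : R' →+* 𝒪)) = 0 := rfl
      rw [h0, map_zero]
      exact E.zero_mem
    | add a b ha hb iha ihb =>
      have h1 : (⟨a + b, hle ((Ideal.span S).add_mem ha hb)⟩ : RingHom.ker (x' : R' →+* 𝒪)) =
          ⟨a, hle ha⟩ + ⟨b, hle hb⟩ := rfl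
      rw [h1, map_add]
      exact E.add_mem iha ihb
    | smul r a ha iha =>
      have h1 : (⟨r • a, hle ((Ideal.span S).smul_mem r ha)⟩ : RingHom.ker (x' : R' →+* 𝒪)) =
          r • ⟨a, hle ha⟩ := rfl
      rw [h1, map_smul, smul_cotangent_eq]
      exact E.smul_mem _ iha
  exact key y hy

/-- **Cotangent bookkeeping.** -/
theorem card_cotangent_le (hτ : Function.Surjective τ) (x' : R' →ₐ[𝒪] 𝒪) (hx' : x' = x.comp τ)
    (S : Set R') (hS : ∀ s ∈ S, s ∈ RingHom.ker (x' : R' →+* 𝒪))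
    (hker : RingHom.ker (τ : R' →+* R) ≤ Ideal.span S ⊔ RingHom.ker (x' : R' →+* 𝒪) ^ 2)
    (E : Submodule 𝒪 (RingHom.ker (x' : R' →+* 𝒪)).Cotangent)
    (hE : ∀ s (hs : s ∈ S), (RingHom.ker (x' : R' →+* 𝒪)).toCotangent ⟨s, hS s hs⟩ ∈ E)
    (hEfin : Finite E) (hfin : Finite (RingHom.ker (x : R →+* 𝒪)).Cotangent) :
    Finite (RingHom.ker (x' : R' →+* 𝒪)).Cotangent ∧
      Nat.card (RingHom.ker (x' : R' →+* 𝒪)).Cotangent ≤
        Nat.card (RingHom.ker (x : R →+* 𝒪)).Cotangent * Nat.card E := by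
  classical
  have hcomap : RingHom.ker (x' : R' →+* 𝒪) ≤ (RingHom.ker (x : R →+* 𝒪)).comap τ := by
    rw [hx']
    exact ker_comp_le_comap τ x
  have hf : ∃ f : (RingHom.ker (x' : R' →+* 𝒪)).Cotangent →ₗ[𝒪]
      (RingHom.ker (x : R →+* 𝒪)).Cotangent,
      f = Ideal.mapCotangent (RingHom.ker (x' : R' →+* 𝒪)) (RingHom.ker (x : R →+* 𝒪)) τ
        hcomap := ⟨_, rfl⟩
  obtain ⟨f, hf⟩ := hf
  -- the kernel of `f` lies in `E`
  have hkerf : ∀ u : (RingHom.ker (x' : R' →+* 𝒪)).Cotangent, f u = 0 → u ∈ E := by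
    intro u hu
    obtain ⟨⟨y, hy⟩, rfl⟩ := (RingHom.ker (x' : R' →+* 𝒪)).toCotangent_surjective u
    rw [hf, Ideal.mapCotangent_toCotangent, Ideal.toCotangent_eq_zero] at hu
    -- `τ y ∈ I ^ 2 = τ (I' ^ 2)`
    have hmap : (RingHom.ker (x' : R' →+* 𝒪)).map (τ : R' →+* R) =
        RingHom.ker (x : R →+* 𝒪) := by
      have h1 : RingHom.ker (x' : R' →+* 𝒪) =
          (RingHom.ker (x : R →+* 𝒪)).comap (τ : R' →+* R) := by
        ext a
        rw [Ideal.mem_comap, hx']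
        exact Iff.rfl
      rw [h1]
      exact Ideal.map_comap_of_surjective (τ : R' →+* R) hτ _
    have h2 : τ y ∈ (RingHom.ker (x' : R' →+* 𝒪) ^ 2).map (τ : R' →+* R) := by
      rw [Ideal.map_pow, hmap]
      exact hu
    obtain ⟨y', hy', hyy'⟩ := (Ideal.mem_map_iff_of_surjective (τ : R' →+* R) hτ).1 h2
    have h3 : y - y' ∈ RingHom.ker (τ : R' →+* R) := by
      rw [RingHom.mem_ker, map_sub, sub_eq_zero]
      exact hyy'.symm
    have h4 : y ∈ Ideal.span S ⊔ RingHom.ker (x' : R' →+* 𝒪) ^ 2 := by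
      have h5 : y = (y - y') + y' := by ring
      rw [h5]
      exact Ideal.add_mem _ (hker h3) (Ideal.mem_sup_right hy')
    obtain ⟨j, hj, w, hw, hjw⟩ := Submodule.mem_sup.1 h4
    have hjI : j ∈ RingHom.ker (x' : R' →+* 𝒪) := (Ideal.span_le.2 hS) hj
    have h6 : (RingHom.ker (x' : R' →+* 𝒪)).toCotangent ⟨y, hy⟩ =
        (RingHom.ker (x' : R' →+* 𝒪)).toCotangent ⟨j, hjI⟩ := by
      rw [Ideal.toCotangent_eq]
      have h7 : ((⟨y, hy⟩ : RingHom.ker (x' : R' →+* 𝒪)) : R') -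
          ((⟨j, hjI⟩ : RingHom.ker (x' : R' →+* 𝒪)) : R') = w := by
        change y - j = w
        rw [← hjw]
        ring
      rw [h7]
      exact hw
    rw [h6]
    exact toCotangent_mem_of_span x' S hS E hE j hj hjI
  -- a section of `f` on its range
  have hsec : ∀ z : (RingHom.ker (x : R →+* 𝒪)).Cotangent,
      ∃ u : (RingHom.ker (x' : R' →+* 𝒪)).Cotangent, (∃ u', f u' = z) → f u = z := by
    intro z
    by_cases h : ∃ u', f u' = z
    · obtain ⟨u', hu'⟩ := h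
      exact ⟨u', fun _ => hu'⟩
    · exact ⟨0, fun h' => absurd h' h⟩
  choose s hs using hsec
  let g : (RingHom.ker (x' : R' →+* 𝒪)).Cotangent →
      (RingHom.ker (x : R →+* 𝒪)).Cotangent × E := fun u =>
    (f u, ⟨u - s (f u), hkerf _ (by rw [map_sub, hs (f u) ⟨u, rfl⟩, sub_self])⟩)
  have hg : Function.Injective g := by
    intro u u' huu'
    have h1 : f u = f u' := congrArg Prod.fst huu'
    have h2 : u - s (f u) = u' - s (f u') :=
      congrArg (fun t => ((t.2 : E) : (RingHom.ker (x' : R' →+* 𝒪)).Cotangent)) huu'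
    rw [h1] at h2
    exact sub_left_injective h2
  have : Finite ((RingHom.ker (x : R →+* 𝒪)).Cotangent × E) := inferInstance
  refine ⟨Finite.of_injective g hg, ?_⟩
  have h3 := Nat.card_le_card_of_injective g hg
  rw [Nat.card_prod] at h3
  exact h3

end cotB

end Fermat.Agent.S59.Asm.H80
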