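/-
S59, RT-NONMIN, leaf SELMER-q (helper80), part C1: the Galois / universal-property part.

* `isUnramifiedAt_of_inertia_one` : a representation which is trivial on ONE inertia group over
  `q` is unramified at `q` (inertia groups over `q` are conjugate).
* `ker_le_ker_of_isOfType` : `D`, `D'` universal for `𝒟`, `𝒟'`, `τ : D'.R → D.R` with
  `τ_* D'.ρ ≃ D.ρ`; if `π : D'.R → C` is such that `π_* D'.ρ` is of type `𝒟` (and `𝒟'`), then
  `ker τ ≤ ker π`.
-/
import Mathlib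
import Fermat.Agent.S59.Asm.H99_Tau
import Fermat.Agent.Lib.InertiaConj

set_option autoImplicit false
set_option linter.unusedSectionVars false
set_option linter.style.haveILetI false

open IsLocalRing

namespace Fermat.Agent.S59.Asm.H80

open Fermat.Agent.S53

/-- A representation which is trivial on one inertia group over `q` is unramified at `q`. -/
theorem isUnramifiedAt_of_inertia_one {C : Type} [CommRing C] [IsLocalRing C]
    (ρ : GaloisRepAdic C) (q : ℕ) (hq : q.Prime)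
    (P : ValuationSubring (AlgebraicClosure ℚ)) (hP : P.LiesOverPrime q)
    (h : ∀ σ ∈ P.inertiaSubgroupIn ℚ, ρ.ρ σ = 1) : ρ.IsUnramifiedAt q := by
  intro P' hP' σ hσ
  obtain ⟨g, hg⟩ := Fermat.Agent.Lib.InertiaConj.exists_conj_mem_inertia q hq P P' hP hP'
  have h1 := h _ ((hg σ).1 hσ)
  have h2 : σ = g * (g⁻¹ * σ * g) * g⁻¹ := by group
  rw [h2, map_mul, map_mul, h1, mul_one, ← map_mul, mul_inv_cancel, map_one]

section univ

variable {𝒪 : Type} [CommRing 𝒪] [IsDomain 𝒪] [IsDiscreteValuationRing 𝒪]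
  [IsAdicComplete (maximalIdeal 𝒪) 𝒪]
variable {ρbar : ResidualGaloisRep (ResidueField 𝒪)}
variable {𝒟 𝒟' : ∀ ⦃A : Type⦄ [CommRing A] [IsLocalRing A] [Algebra 𝒪 A], GaloisRepAdic A → Prop}

/-- If `π_* D'.ρ` is of type `𝒟`, then `π` factors through `τ : D'.R → D.R`. -/
theorem ker_le_ker_of_isOfType
    (D : GaloisRep.DeformationRingData 𝒪 ρbar 𝒟) (D' : GaloisRep.DeformationRingData 𝒪 ρbar 𝒟')
    (τ : D'.R →ₐ[𝒪] D.R) (hτ : IsLocalHom (τ : D'.R →+* D.R))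
    (heq : (D'.ρ.baseChangeAlong (τ : D'.R →+* D.R) hτ).IsEquiv D.ρ)
    (C : Type) [CommRing C] [IsLocalRing C] [IsNoetherianRing C]
    [IsAdicComplete (maximalIdeal C) C] [Algebra 𝒪 C] [IsLocalHom (algebraMap 𝒪 C)]
    (hres : Function.Surjective (residue C ∘ algebraMap 𝒪 C))
    (π : D'.R →ₐ[𝒪] C) (hπ : IsLocalHom (π : D'.R →+* C))
    (h𝒟C : 𝒟 (D'.ρ.baseChangeAlong (π : D'.R →+* C) hπ))
    (h𝒟'C : 𝒟' (D'.ρ.baseChangeAlong (π : D'.R →+* C) hπ)) :
    RingHom.ker (τ : D'.R →+* D.R) ≤ RingHom.ker (π : D'.R →+* C) := by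
  classical
  obtain ⟨rbar, hbar⟩ := exists_isMatOfRes ρbar
  obtain ⟨r', hr', hl'⟩ := exists_isLift_of_residual_isEquiv hbar D'.ρ D'.residual_isEquiv
  have hr1m : IsMatOf D.ρ (fun σ => (r' σ).map (τ : D'.R →+* D.R)) :=
    H99.isMatOf_of_isEquiv (hr'.baseChangeAlong (τ : D'.R →+* D.R) hτ) heq
  have htC : IsMatOf (D'.ρ.baseChangeAlong (π : D'.R →+* C) hπ)
      (fun σ => (r' σ).map (π : D'.R →+* C)) := hr'.baseChangeAlong (π : D'.R →+* C) hπ
  have hlC : IsLift 𝒪 rbar (fun σ => (r' σ).map (π : D'.R →+* C)) := Univ.IsLift.map π hπ hl'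
  have hresC := residual_isEquiv_of_isLift hbar htC hlC
  obtain ⟨s, ⟨hs, hseq⟩, -⟩ := D.universal C hres _ h𝒟C hresC
  obtain ⟨φ0, -, huniq⟩ := D'.universal C hres _ h𝒟'C hresC
  have h1 : π = φ0 := huniq π ⟨hπ, ⟨GaloisRepAdic.Equiv.refl _⟩⟩
  have hloc2 : IsLocalHom ((s.comp τ : D'.R →ₐ[𝒪] C) : D'.R →+* C) :=
    Univ.isLocalHom_of_res_surj hres _
  have h2 : s.comp τ = φ0 := by
    refine huniq _ ⟨hloc2, ?_⟩
    obtain ⟨g, hg⟩ := (IsMatOf.isEquiv_iff (hr1m.baseChangeAlong (s : D.R →+* C) hs) htC).mp hseq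
    refine (IsMatOf.isEquiv_iff (hr'.baseChangeAlong _ hloc2) htC).mpr ⟨g, fun σ => ?_⟩
    have e1 : (r' σ).map ((s.comp τ : D'.R →ₐ[𝒪] C) : D'.R →+* C) =
        ((r' σ).map (τ : D'.R →+* D.R)).map (s : D.R →+* C) := by
      ext i j; rfl
    rw [e1]
    exact hg σ
  intro y hy
  rw [RingHom.mem_ker] at hy ⊢
  have h3 : (π : D'.R →+* C) y = (s.comp τ) y := by
    rw [h2, ← h1]; rfl
  rw [h3]
  change s (τ y) = 0
  have hy' : τ y = 0 := hy
  rw [hy', map_zero]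

end univ

end Fermat.Agent.S59.Asm.H80
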