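import Mathlib
import Fermat.Agent.S59.Min

/-!
# S59, RT-NONMIN (helper53 for helper85's package): SELMER-q, deformation-theoretic form

`Stmt_SELMERq`: allowing ramification at one more prime `q` (where `ρbar` is unramified) lets the
cotangent space at a point `x` of the smaller deformation ring grow at most by
`#(𝒪 / c_q)`, `c_q = (q - 1) (a_q² - (q + 1)²)`, `a_q = x (tr ρ(Frob_q))`.

Proof (pure algebra + tame inertia; NO Galois cohomology):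
1. `ker τ = J :=` ideal generated by the matrix entries of `D'.ρ(σ) - 1`, `σ` in an inertia group
   at `q` (universal properties, as in `Asm.H99.stmt_TAU`); so
   `ker (Φ' → Φ) =` image of `J` in `Φ' = 𝔭'/𝔭'²`, `𝔭' = ker (x ∘ τ)`, `𝔭 = ker x`.
2. Modulo `𝔭'²` the ring is `𝒪 ⊕ Φ'` (`Φ'² = 0`) and `D'.ρ` lifts `ρ_x := x_* D.ρ`, which is
   unramified at `q`: `σ ↦ X(σ) := D'.ρ(σ) - 1` (entries in `Φ'`) is additive on inertia, factors
   through the pro-`p` tame quotient (`L/Pivot` PV-TAME of helper59: uniform tame generator `t`,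
   `φ t φ⁻¹ = t^q` modulo wild inertia), so `F X = q X F` for `X = X(t)`, `F = ρ_x(φ)`, and
   `tr X = 0` (determinant fixed).  The image of `J` is the `𝒪`-span of the entries of `X`.
3. `Asm.Stmt_SELqAD` + `Asm.Stmt_SELqALG` (`Asm/Leaves4.lean`): `#span ≤ #(𝒪 / q³ c_q)`, `q` a unit.
-/

set_option autoImplicit false

open Polynomial IsLocalRing

namespace Fermat.Agent.S59.Asm

open Fermat.Agent.S59

/-- **SELMER-q**. -/
def Stmt_SELMERq : Prop :=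
  ∀ (𝒪 : Type) [CommRing 𝒪] [IsDomain 𝒪] [IsDiscreteValuationRing 𝒪]
    [IsAdicComplete (maximalIdeal 𝒪) 𝒪] [Finite (ResidueField 𝒪)]
    (p : ℕ) [Fact p.Prime], p ≠ 2 → (p : 𝒪) ∈ maximalIdeal 𝒪 →
    ∀ (fl : Bool) (ρbar : ResidualGaloisRep (ResidueField 𝒪)) (Smin Sig : Finset ℕ) (q : ℕ),
    q.Prime → q ≠ p → q ∉ Smin → q ∉ Sig → p ∈ Smin → (∀ q' ∈ Smin ∪ Sig, q'.Prime) →
    ∀ (D : GaloisRep.DeformationRingData 𝒪 ρbar (cond 𝒪 p fl Smin Sig))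
      (D' : GaloisRep.DeformationRingData 𝒪 ρbar (cond 𝒪 p fl Smin (insert q Sig)))
      (τ : D'.R →ₐ[𝒪] D.R) (hτ : IsLocalHom (τ : D'.R →+* D.R)),
    (D'.ρ.baseChangeAlong (τ : D'.R →+* D.R) hτ).IsEquiv D.ρ →
    ∀ (x : D.R →ₐ[𝒪] 𝒪) (P : ValuationSubring (AlgebraicClosure ℚ)), P.LiesOverPrime q →
    ∀ φ : AlgebraicClosure ℚ ≃ₐ[ℚ] AlgebraicClosure ℚ, P.IsFrobeniusAt φ q →
    ((q : 𝒪) - 1) * (x (D.ρ.trace φ) ^ 2 - ((q : 𝒪) + 1) ^ 2) ≠ 0 →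
    Finite (RingHom.ker (x : D.R →+* 𝒪)).Cotangent →
    Finite (RingHom.ker ((x.comp τ : D'.R →ₐ[𝒪] 𝒪) : D'.R →+* 𝒪)).Cotangent ∧
      Nat.card (RingHom.ker ((x.comp τ : D'.R →ₐ[𝒪] 𝒪) : D'.R →+* 𝒪)).Cotangent ≤
        Nat.card (RingHom.ker (x : D.R →+* 𝒪)).Cotangent *
          Nat.card (𝒪 ⧸ Ideal.span
            {((q : 𝒪) - 1) * (x (D.ρ.trace φ) ^ 2 - ((q : 𝒪) + 1) ^ 2)})

end Fermat.Agent.S59.Asm
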