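/-
S59, RT-NONMIN, leaf SELMER-q (helper80), part C2: `ker (R' → R)` is generated by inertia at `q`.

* `ker_le_ker_of_inertia_one` : if `π_* D'.ρ` is trivial on an inertia group at `q`, then
  `ker τ ≤ ker π`.
* `ker_le_of_inertia_mem` : if `D'.ρ (I_q) ≡ 1 mod J` then `ker τ ≤ J`.
-/
import Mathlib
import Fermat.Agent.S59.Asm.H80_SelmerGal
import Fermat.Agent.S59.Asm.Leaves5
import Fermat.Agent.L.Pivot.H59_TameGlobal
import Fermat.Agent.L.Pivot.H52_TPTower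

set_option autoImplicit false
set_option linter.unusedSectionVars false
set_option linter.style.haveILetI false

open IsLocalRing

namespace Fermat.Agent.S59.Asm.H80

open Fermat.Agent.S53 Fermat.Agent.S59

section kerC

variable {𝒪 : Type} [CommRing 𝒪] [IsDomain 𝒪] [IsDiscreteValuationRing 𝒪]
  [IsAdicComplete (maximalIdeal 𝒪) 𝒪] [Finite (ResidueField 𝒪)]
variable {ρbar : ResidualGaloisRep (ResidueField 𝒪)}

omit [IsDomain 𝒪] [IsDiscreteValuationRing 𝒪] [IsAdicComplete (maximalIdeal 𝒪) 𝒪]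
  [Finite (ResidueField 𝒪)] in
theorem cond_iff_condB (p : ℕ) (fl : Bool) (Smin T : Finset ℕ) {A : Type} [CommRing A]
    [IsLocalRing A] [Algebra 𝒪 A] (ρ : GaloisRepAdic A) :
    cond 𝒪 p fl Smin T ρ ↔ H99.condB 𝒪 p fl Smin T ρ := by
  rw [H99.cond_eq_condB]

/-- If `π_* D'.ρ` is trivial on an inertia group over `q`, then `π` factors through `τ`. -/
theorem ker_le_ker_of_inertia_one (p : ℕ) [Fact p.Prime] (fl : Bool) (Smin Sig : Finset ℕ)
    (q : ℕ) (hq : q.Prime)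
    (D : GaloisRep.DeformationRingData 𝒪 ρbar (cond 𝒪 p fl Smin Sig))
    (D' : GaloisRep.DeformationRingData 𝒪 ρbar (cond 𝒪 p fl Smin (insert q Sig)))
    (τ : D'.R →ₐ[𝒪] D.R) (hτ : IsLocalHom (τ : D'.R →+* D.R))
    (heq : (D'.ρ.baseChangeAlong (τ : D'.R →+* D.R) hτ).IsEquiv D.ρ)
    (P : ValuationSubring (AlgebraicClosure ℚ)) (hP : P.LiesOverPrime q)
    (C : Type) [CommRing C] [IsLocalRing C] [IsNoetherianRing C]
    [IsAdicComplete (maximalIdeal C) C] [Algebra 𝒪 C] [IsLocalHom (algebraMap 𝒪 C)]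
    (hres : Function.Surjective (residue C ∘ algebraMap 𝒪 C))
    (π : D'.R →ₐ[𝒪] C) (hπ : IsLocalHom (π : D'.R →+* C))
    (hone : ∀ σ ∈ P.inertiaSubgroupIn ℚ,
      (D'.ρ.baseChangeAlong (π : D'.R →+* C) hπ).ρ σ = 1) :
    RingHom.ker (τ : D'.R →+* D.R) ≤ RingHom.ker (π : D'.R →+* C) := by
  have hp : p.Prime := Fact.out
  have hD' : H99.condB 𝒪 p fl Smin (insert q Sig) D'.ρ :=
    (cond_iff_condB p fl Smin (insert q Sig) D'.ρ).1 D'.isOfType
  have hresC : Finite (ResidueField C) :=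
    Fermat.Agent.S53.H50.finite_residueField_of_surjective 𝒪 C hres
  have hJ' : H99.condJ p Smin (insert q Sig) (D'.ρ.baseChangeAlong (π : D'.R →+* C) hπ) :=
    H99.condJ_baseChangeAlong (π : D'.R →+* C) hπ D'.ρ p Smin (insert q Sig) hD'.1
  have hL' : H99.locP fl p (D'.ρ.baseChangeAlong (π : D'.R →+* C) hπ) :=
    H99.locP_baseChangeAlong (π : D'.R →+* C) hπ hresC D'.ρ fl p hp hD'.2
  have hunr : (D'.ρ.baseChangeAlong (π : D'.R →+* C) hπ).IsUnramifiedAt q :=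
    isUnramifiedAt_of_inertia_one _ q hq P hP hone
  have hC' : cond 𝒪 p fl Smin (insert q Sig) (D'.ρ.baseChangeAlong (π : D'.R →+* C) hπ) :=
    (cond_iff_condB p fl Smin (insert q Sig) _).2 ⟨hJ', hL'⟩
  have hC : cond 𝒪 p fl Smin Sig (D'.ρ.baseChangeAlong (π : D'.R →+* C) hπ) := by
    refine (cond_iff_condB p fl Smin Sig _).2 ⟨⟨hJ'.1, fun q' hq' hq'S => ?_, hJ'.2.2⟩, hL'⟩
    by_cases hqq : q' = q
    · rw [hqq]; exact hunr
    · refine hJ'.2.1 q' hq' fun hmem => hq'S ?_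
      rcases Finset.mem_union.1 hmem with h | h
      · exact Finset.mem_union_left _ h
      · rcases Finset.mem_insert.1 h with h | h
        · exact absurd h hqq
        · exact Finset.mem_union_right _ h
  exact ker_le_ker_of_isOfType D D' τ hτ heq C hres π hπ hC hC'

/-- If `D'.ρ(σ) ≡ 1 mod J` for `σ` in an inertia group over `q`, then `ker τ ≤ J`. -/
theorem ker_le_of_inertia_mem (p : ℕ) [Fact p.Prime] (fl : Bool) (Smin Sig : Finset ℕ)
    (q : ℕ) (hq : q.Prime)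
    (D : GaloisRep.DeformationRingData 𝒪 ρbar (cond 𝒪 p fl Smin Sig))
    (D' : GaloisRep.DeformationRingData 𝒪 ρbar (cond 𝒪 p fl Smin (insert q Sig)))
    (τ : D'.R →ₐ[𝒪] D.R) (hτ : IsLocalHom (τ : D'.R →+* D.R))
    (heq : (D'.ρ.baseChangeAlong (τ : D'.R →+* D.R) hτ).IsEquiv D.ρ)
    (P : ValuationSubring (AlgebraicClosure ℚ)) (hP : P.LiesOverPrime q)
    (J : Ideal D'.R) (hJ : J ≠ ⊤)
    (hJI : ∀ σ ∈ P.inertiaSubgroupIn ℚ, ∀ v : D'.ρ.V,
      D'.ρ.ρ σ v - v ∈ J • (⊤ : Submodule D'.R D'.ρ.V)) :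
    RingHom.ker (τ : D'.R →+* D.R) ≤ J := by
  classical
  letI : IsLocalRing (D'.R ⧸ J) := Fermat.Agent.L.Pivot.H52.isLocalRing_quotient J hJ
  haveI : IsAdicComplete (maximalIdeal (D'.R ⧸ J)) (D'.R ⧸ J) :=
    Fermat.Agent.L.Pivot.H52.isAdicComplete_quotient J hJ
  haveI hmk : IsLocalHom (Ideal.Quotient.mk J) :=
    Fermat.Agent.L.Pivot.H52.isLocalHom_quotient_mk J hJ
  haveI : IsLocalHom (algebraMap 𝒪 (D'.R ⧸ J)) := by
    refine ⟨fun a ha => ?_⟩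
    have h1 : IsUnit (algebraMap 𝒪 D'.R a) := isUnit_of_map_unit (Ideal.Quotient.mk J) _ ha
    exact isUnit_of_map_unit (algebraMap 𝒪 D'.R) a h1
  have hres : Function.Surjective (residue (D'.R ⧸ J) ∘ algebraMap 𝒪 (D'.R ⧸ J)) := by
    intro y
    obtain ⟨c, rfl⟩ := residue_surjective y
    obtain ⟨a, rfl⟩ := Ideal.Quotient.mk_surjective c
    obtain ⟨c0, hc0⟩ := exists_sub_mem_maximalIdeal D'.residue_surjective a
    refine ⟨c0, ?_⟩
    simp only [Function.comp_apply]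
    rw [← sub_eq_zero, ← map_sub, residue_eq_zero_iff]
    have h2 := Fermat.Agent.L.Pivot.H52.mk_mem_maximalIdeal J hJ
      ((maximalIdeal D'.R).neg_mem hc0)
    have e : Ideal.Quotient.mk J (-(a - algebraMap 𝒪 D'.R c0)) =
        algebraMap 𝒪 (D'.R ⧸ J) c0 - Ideal.Quotient.mk J a := by
      rw [neg_sub, map_sub]; rfl
    rw [e] at h2
    exact h2
  have hπ : IsLocalHom ((Ideal.Quotient.mkₐ 𝒪 J : D'.R →ₐ[𝒪] D'.R ⧸ J) : D'.R →+* D'.R ⧸ J) :=
    hmk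
  have hone : ∀ σ ∈ P.inertiaSubgroupIn ℚ,
      (D'.ρ.baseChangeAlong ((Ideal.Quotient.mkₐ 𝒪 J : D'.R →ₐ[𝒪] D'.R ⧸ J) :
        D'.R →+* D'.R ⧸ J) hπ).ρ σ = 1 := by
    intro σ hσ
    obtain ⟨r, b, hb⟩ := exists_isMatOf D'.ρ
    obtain ⟨bC, hbC⟩ := IsMatOf.baseChangeAlong
      ((Ideal.Quotient.mkₐ 𝒪 J : D'.R →ₐ[𝒪] D'.R ⧸ J) : D'.R →+* D'.R ⧸ J) hπ
      (⟨b, hb⟩ : IsMatOf D'.ρ r)
    apply (LinearMap.toMatrix bC bC).injective
    rw [hbC σ, LinearMap.toMatrix_one]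
    ext i j
    have h1 : (Fermat.Agent.S59.TWGal.mat b (D'.ρ.ρ σ) - 1) i j ∈ J :=
      Fermat.Agent.S59.TWGal.mat_sub_one_mem b J (D'.ρ.ρ σ) (hJI σ hσ) i j
    have h2 : Fermat.Agent.S59.TWGal.mat b (D'.ρ.ρ σ) = r σ := hb σ
    rw [h2] at h1
    have h3 : Ideal.Quotient.mk J ((r σ - 1) i j) = 0 := Ideal.Quotient.eq_zero_iff_mem.2 h1
    rw [Matrix.sub_apply, map_sub, sub_eq_zero] at h3
    change Ideal.Quotient.mk J (r σ i j) = _
    rw [h3]
    by_cases hij : i = j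
    · rw [hij, Matrix.one_apply_eq, Matrix.one_apply_eq, map_one]
    · rw [Matrix.one_apply_ne hij, Matrix.one_apply_ne hij, map_zero]
  have key := ker_le_ker_of_inertia_one p fl Smin Sig q hq D D' τ hτ heq P hP (D'.R ⧸ J) hres
    (Ideal.Quotient.mkₐ 𝒪 J) hπ hone
  intro y hy
  have h1 := key hy
  rw [RingHom.mem_ker] at h1
  exact Ideal.Quotient.eq_zero_iff_mem.1 h1

end kerC

end Fermat.Agent.S59.Asm.H80
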