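/-
S59, RT-NONMIN, leaf SELMER-q (helper80): final assembly.

`stmt_SELMERq : Fermat.Agent.S59.Asm.Stmt_SELMERq`.

* `H80_SelmerMat.lean` : the matrix computation modulo `𝔭'²` (`entries_span_card_le`);
* `H80_SelmerCot.lean` : cotangent bookkeeping (`card_cotangent_le`);
* `H80_SelmerGal.lean`, `H80_SelmerKer.lean` : `ker (R' → R)` is generated by the entries of
  `ρ'(t) - 1`, `t` a uniform tame generator of inertia at `q` (`ker_le_of_inertia_mem`).
-/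
import Mathlib
import Fermat.Agent.S59.Asm.H80_SelmerKer
import Fermat.Agent.S59.Asm.H80_SelmerCot

set_option autoImplicit false
set_option linter.unusedSectionVars false
set_option linter.style.haveILetI false

open IsLocalRing

namespace Fermat.Agent.S59.Asm.H80

open Fermat.Agent.S53 Fermat.Agent.S59 Fermat.Agent.L.Pivot

/-- A prime `q ≠ p` is a unit in a local ring of residue characteristic `p`. -/
theorem isUnit_natCast_of_ne_prime {A : Type} [CommRing A] [IsLocalRing A] (p q : ℕ)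
    (hp : p.Prime) (hq : q.Prime) (hqp : q ≠ p) (hpA : (p : A) ∈ maximalIdeal A) :
    IsUnit (q : A) := by
  by_contra hu
  have hqA : (q : A) ∈ maximalIdeal A := (mem_maximalIdeal _).2 hu
  have hcop : IsCoprime (p : ℤ) (q : ℤ) :=
    Nat.isCoprime_iff_coprime.2 ((Nat.coprime_primes hp hq).2 (Ne.symm hqp))
  obtain ⟨a, b, hab⟩ := hcop
  have h1 : ((a : A) * (p : A) + (b : A) * (q : A)) = 1 := by
    have := congrArg (Int.cast : ℤ → A) hab
    push_cast at this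
    exact this
  have h2 : (1 : A) ∈ maximalIdeal A := by
    rw [← h1]
    exact Ideal.add_mem _ (Ideal.mul_mem_left _ _ hpA) (Ideal.mul_mem_left _ _ hqA)
  exact (Ideal.ne_top_iff_one _).1 (maximalIdeal.isMaximal A).ne_top h2

/-- **SELMER-q**. -/
theorem stmt_SELMERq : Fermat.Agent.S59.Asm.Stmt_SELMERq := by
  intro 𝒪 _ _ _ _ _ p _ hp2 hp𝒪 fl ρbar Smin Sig q hq hqp hqSmin hqSig hpSmin hprime D D' τ hτ heq
    x P hP φ hφ hc hfin
  classical
  have hp : p.Prime := Fact.out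
  have h𝒟 : GaloisRep.IsDeformationCondition 𝒪 (cond 𝒪 p fl Smin Sig) := by
    rw [H99.cond_eq_condB]
    exact H99.isDeformationCondition_condB 𝒪 p hp2 fl Smin Sig
  have hτs : Function.Surjective τ :=
    Asm.H99.surjective_of_isEquiv h𝒟 D D'.ρ D'.residual_isEquiv τ hτ heq
  have hD : H99.condB 𝒪 p fl Smin Sig D.ρ := (cond_iff_condB p fl Smin Sig D.ρ).1 D.isOfType
  have hD' : H99.condB 𝒪 p fl Smin (insert q Sig) D'.ρ :=
    (cond_iff_condB p fl Smin (insert q Sig) D'.ρ).1 D'.isOfType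
  have hqS : q ∉ Smin ∪ Sig := fun h =>
    (Finset.mem_union.1 h).elim hqSmin hqSig
  have hDunr : D.ρ.IsUnramifiedAt q := hD.1.2.1 q hq hqS
  -- matrix forms
  obtain ⟨r', b', hb'⟩ := exists_isMatOf D'.ρ
  have hr' : IsMatOf D'.ρ r' := ⟨b', hb'⟩
  have hmat' : ∀ σ, Fermat.Agent.S59.TWGal.mat b' (D'.ρ.ρ σ) = r' σ := hb'
  obtain ⟨b1, hb1⟩ : IsMatOf D.ρ (fun σ => (r' σ).map (τ : D'.R →+* D.R)) :=
    Asm.H99.isMatOf_of_isEquiv (hr'.baseChangeAlong (τ : D'.R →+* D.R) hτ) heq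
  have hb1' : ∀ σ, LinearMap.toMatrix b1 b1 (D.ρ.ρ σ) = (r' σ).map (τ : D'.R →+* D.R) := hb1
  -- inertia at `q` is trivial modulo `ker τ`
  have hker1 : ∀ σ ∈ P.inertiaSubgroupIn ℚ, ∀ i j,
      (r' σ - 1) i j ∈ RingHom.ker (τ : D'.R →+* D.R) := by
    intro σ hσ i j
    have h1 : D.ρ.ρ σ = 1 := hDunr P hP σ hσ
    have h2 := hb1' σ
    rw [h1, LinearMap.toMatrix_one] at h2
    have h3 : (τ : D'.R →+* D.R) (r' σ i j) = (1 : M2 D.R) i j := (congrFun (congrFun h2 i) j).symm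
    rw [RingHom.mem_ker, Matrix.sub_apply, map_sub, h3]
    by_cases hij : i = j
    · rw [hij, Matrix.one_apply_eq, Matrix.one_apply_eq, map_one, sub_self]
    · rw [Matrix.one_apply_ne hij, Matrix.one_apply_ne hij, map_zero, sub_self]
  have hkerle : RingHom.ker (τ : D'.R →+* D.R) ≤ maximalIdeal D'.R := by
    intro y hy
    rw [mem_maximalIdeal, mem_nonunits_iff]
    intro hu
    have h1 := hu.map (τ : D'.R →+* D.R)
    rw [RingHom.mem_ker.1 hy] at h1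
    exact not_isUnit_zero h1
  have hI : ∀ σ ∈ P.inertiaSubgroupIn ℚ, ∀ v : D'.ρ.V,
      D'.ρ.ρ σ v - v ∈ maximalIdeal D'.R • (⊤ : Submodule D'.R D'.ρ.V) := by
    intro σ hσ v
    refine H59.sub_mem_smul_top_of_mat b' _ _ (fun i j => ?_) v
    rw [hmat' σ]
    exact hkerle (hker1 σ hσ i j)
  -- the tame generator
  obtain ⟨τ₀, hτ₀, htame⟩ := H59.exists_uniform_tame_generator q hq P hP φ hφ
  have hadic := H59.tame_adic D'.R p hp hD'.1.1.1 D'.ρ q hq hqp P hI φ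
    hφ.mem_decompositionSubgroup τ₀ hτ₀ htame
  have hdetT : (r' τ₀).det = 1 := by
    rw [← hb' τ₀, LinearMap.det_toMatrix]
    exact H59.det_eq_one_of_mem_inertia p hp D'.ρ hD'.1.1 q hq hqp P hP τ₀ hτ₀
  have hdetF : (r' φ).det = (q : D'.R) := by
    rw [← hb' φ, LinearMap.det_toMatrix]
    exact H59.det_frob_eq p hp D'.ρ hD'.1.1 q hq hqp P hP φ hφ
  have hFT : r' φ * r' τ₀ = r' τ₀ ^ q * r' φ := by
    have h1 := congrArg (fun f : Module.End D'.R D'.ρ.V => Fermat.Agent.S59.TWGal.mat b' f)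
      hadic.1
    simp only [map_mul, map_pow] at h1
    have e1 : LinearMap.toMatrixAlgEquiv b' (D'.ρ.ρ φ) = r' φ := hb' φ
    have e2 : LinearMap.toMatrixAlgEquiv b' (D'.ρ.ρ τ₀) = r' τ₀ := hb' τ₀
    rw [e1, e2] at h1
    exact h1
  -- the ideal generated by the entries of `T - 1`
  have hJle : Ideal.span {y | ∃ i j, (r' τ₀ - 1) i j = y} ≤ RingHom.ker (τ : D'.R →+* D.R) := by
    refine Ideal.span_le.2 ?_
    rintro y ⟨i, j, rfl⟩
    exact hker1 τ₀ hτ₀ i j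
  have hJne : Ideal.span {y | ∃ i j, (r' τ₀ - 1) i j = y} ≠ ⊤ := by
    intro h
    have h1 : (1 : D'.R) ∈ RingHom.ker (τ : D'.R →+* D.R) := hJle (h ▸ Submodule.mem_top)
    rw [RingHom.mem_ker, map_one] at h1
    exact one_ne_zero h1
  have hJτ₀ : ∀ v : D'.ρ.V, D'.ρ.ρ τ₀ v - v ∈
      Ideal.span {y | ∃ i j, (r' τ₀ - 1) i j = y} • (⊤ : Submodule D'.R D'.ρ.V) := by
    intro v
    refine H59.sub_mem_smul_top_of_mat b' _ _ (fun i j => ?_) v
    rw [hmat' τ₀]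
    exact Ideal.subset_span ⟨i, j, rfl⟩
  have hJI := hadic.2 _ hJτ₀
  have hker : RingHom.ker (τ : D'.R →+* D.R) ≤ Ideal.span {y | ∃ i j, (r' τ₀ - 1) i j = y} :=
    ker_le_of_inertia_mem p fl Smin Sig q hq D D' τ hτ heq P hP _ hJne hJI
  -- the computation
  have hqu : IsUnit (q : 𝒪) := isUnit_natCast_of_ne_prime p q hp hq hqp hp𝒪
  have hT : ∀ i j, (r' τ₀ - 1) i j ∈
      RingHom.ker ((x.comp τ : D'.R →ₐ[𝒪] 𝒪) : D'.R →+* 𝒪) := by
    intro i j
    have h1 : τ ((r' τ₀ - 1) i j) = 0 := hker1 τ₀ hτ₀ i j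
    rw [RingHom.mem_ker]
    change x (τ ((r' τ₀ - 1) i j)) = 0
    rw [h1, map_zero]
  have htr : (x.comp τ) (r' φ).trace = x (D.ρ.trace φ) := by
    change x (τ (r' φ).trace) = _
    congr 1
    unfold GaloisRepAdic.trace
    rw [LinearMap.trace_eq_matrix_trace D.R b1 (D.ρ.ρ φ), hb1' φ]
    simp only [Matrix.trace, Matrix.diag_apply, Matrix.map_apply, map_sum]
    rfl
  have hc' : ((q : 𝒪) - 1) * ((x.comp τ) (r' φ).trace ^ 2 - ((q : 𝒪) + 1) ^ 2) ≠ 0 := by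
    rw [htr]; exact hc
  obtain ⟨E, hE, hEfin, hEcard⟩ := entries_span_card_le 𝒪 (x.comp τ) q hqu (r' τ₀) (r' φ) hT
    hdetT hdetF hFT hc'
  have hS : ∀ s ∈ {y | ∃ i j, (r' τ₀ - 1) i j = y},
      s ∈ RingHom.ker ((x.comp τ : D'.R →ₐ[𝒪] 𝒪) : D'.R →+* 𝒪) := by
    rintro s ⟨i, j, rfl⟩
    exact hT i j
  obtain ⟨hfin', hcard'⟩ := card_cotangent_le τ x hτs (x.comp τ) rfl
    {y | ∃ i j, (r' τ₀ - 1) i j = y} hS (hker.trans le_sup_left) E
    (by rintro s ⟨i, j, rfl⟩; exact hE i j) hEfin hfin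
  refine ⟨hfin', hcard'.trans ?_⟩
  rw [htr] at hEcard
  exact Nat.mul_le_mul_left _ hEcard

end Fermat.Agent.S59.Asm.H80
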