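import Fermat.Agent.S59.Datum.H85_Ring

set_option autoImplicit false
set_option linter.unusedSectionVars false
set_option linter.style.haveILetI false

/-!
# S59, package ASM (helper85): lifting ring homomorphisms to the local Hecke ring

`T = heckeLocal N S 𝒪 θ` is a quotient of `𝒪 ⊗ 𝕋` (`Datum.H85.toLocal_surjective`), the kernel
being killed by elements outside the maximal ideal `ker (residualCharacter)`.  Hence a ring
homomorphism `g : 𝒪 ⊗ 𝕋 → C` (`C` any ring) which sends the elements outside the maximal ideal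
to units factors through `T` (`exists_lift`).
-/

noncomputable section

open scoped TensorProduct
open IsLocalRing CuspForm

namespace Fermat.Agent.S59.Asm.H85

open Fermat.Agent.S59.Datum.H85

set_option synthInstance.maxHeartbeats 400000
set_option maxHeartbeats 1000000

variable (𝒪 : Type) [CommRing 𝒪] [IsDomain 𝒪] [IsDiscreteValuationRing 𝒪]
  [IsAdicComplete (maximalIdeal 𝒪) 𝒪]
  (N : ℕ) [NeZero N] [Fact (CuspForm.HasIntegralStructure N 2)] (S : Set ℕ)
  (θ : CuspForm.heckeAlgebra N 2 S →+* ResidueField 𝒪)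

/-- The kernel of `𝒪 ⊗ 𝕋 → T` is killed by elements outside the maximal ideal. -/
theorem exists_mul_eq_zero_of_toLocal_eq_zero {x : 𝒪 ⊗[ℤ] ↥(heckeAlgebra N 2 S)}
    (hx : toLocal 𝒪 N S θ x = 0) :
    ∃ s : 𝒪 ⊗[ℤ] ↥(heckeAlgebra N 2 S), residualCharacter N S 𝒪 θ s ≠ 0 ∧ s * x = 0 := by
  unfold toLocal at hx
  rw [RingHom.comp_apply,
    IsLocalization.map_eq_zero_iff (heckeLocalSubmonoid N S 𝒪 θ) (heckeLocal N S 𝒪 θ)] at hx
  obtain ⟨⟨m, s, hs, rfl⟩, hm⟩ := hx
  refine ⟨s, fun h => (Ideal.mem_primeCompl_iff.mp hs)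
    ((mem_heckeCharKernel_iff N S 𝒪 θ s).mpr h), ?_⟩
  apply latticeBaseChange_injective N S 𝒪 Fact.out
  rw [map_mul, map_zero]
  exact hm

/-- **Lifting to the local Hecke ring.** -/
theorem exists_lift {C : Type*} [Ring C] (g : (𝒪 ⊗[ℤ] ↥(heckeAlgebra N 2 S)) →+* C)
    (hg : ∀ s, residualCharacter N S 𝒪 θ s ≠ 0 → IsUnit (g s)) :
    ∃ ghat : heckeLocal N S 𝒪 θ →+* C, ∀ x, ghat (toLocal 𝒪 N S θ x) = g x := by
  have hker : RingHom.ker (toLocal 𝒪 N S θ) ≤ RingHom.ker g := by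
    intro x hx
    rw [RingHom.mem_ker] at hx ⊢
    obtain ⟨s, hs, hsx⟩ := exists_mul_eq_zero_of_toLocal_eq_zero 𝒪 N S θ hx
    have h1 : g s * g x = 0 := by rw [← map_mul, hsx, map_zero]
    exact (hg s hs).mul_right_eq_zero.mp h1
  refine ⟨RingHom.liftOfSurjective (toLocal 𝒪 N S θ) (toLocal_surjective 𝒪 N S θ) ⟨g, hker⟩,
    fun x => ?_⟩
  exact RingHom.liftOfRightInverse_comp_apply _ _ _ ⟨g, hker⟩ x

/-- Elements outside the maximal ideal become units in `T`. -/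
theorem isUnit_toLocal {s : 𝒪 ⊗[ℤ] ↥(heckeAlgebra N 2 S)}
    (hs : residualCharacter N S 𝒪 θ s ≠ 0) : IsUnit (toLocal 𝒪 N S θ s) := by
  unfold toLocal
  rw [RingHom.comp_apply]
  exact IsLocalization.map_units (heckeLocal N S 𝒪 θ)
    (⟨latticeBaseChange N S 𝒪 s, s, Ideal.mem_primeCompl_iff.mpr fun h =>
      hs ((mem_heckeCharKernel_iff N S 𝒪 θ s).mp h), rfl⟩ : heckeLocalSubmonoid N S 𝒪 θ)

end Fermat.Agent.S59.Asm.H85

end
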