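import Mathlib
import Fermat.Agent.S59.CaseC.Defs

/-!
# S59 (helper53): final interfaces, version 2 — with the base point `x₀` (AUG)

helper85's request (03:05Z): the numerical criterion needs a characteristic zero point `x₀` of the
Hecke algebra at the minimal level.  It exists after a finite extension of `𝒪`
(`R.H2.nonempty_algTPoint`); the extension is made ONCE, together with the split extension, at the
top level, where the hypotheses to be transported are the simplest.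

Chain (replaces `Stmt_REDWIRE`, `Stmt_REDSPLIT` of `Asm/Red.lean`; `Stmt_MLTred` is unchanged):
```
NonMin.Stmt_MLTnm + CaseC.Stmt_MLTc              ──► CaseC.Stmt_MLTgenPt   (`CaseC.Stmt_GENPTWIRE`)
Stmt_THETAMIN + Stmt_EXACTb + CaseC.Stmt_MLTgenPt ──► Stmt_MLTredS2        (`Stmt_REDWIRE2`)
Stmt_THETAMIN + Stmt_MLTredS2                     ──► Stmt_MLTred          (`Stmt_REDSPLIT2`)
```
-/

set_option autoImplicit false

open Polynomial CuspForm CongruenceSubgroup ModularFormClass IsLocalRing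

namespace Fermat.Agent.S59.Asm

open Fermat.Agent.S59

/-- **Modularity lifting, reduced form, split residual characteristic polynomials, with a base
point**: `Stmt_MLTredS` with `[NeZero M₀]` and a ring homomorphism
`x₀ : heckeAlgebra M₀ 2 (insert p M₀.primeFactors) → 𝒪` whose reduction gives the Frobenius
traces of `ρ.residual` at ALL primes `ℓ ∤ M₀ p`. -/
def Stmt_MLTredS2 : Prop :=
  ∀ (p : ℕ) [Fact p.Prime], p ≠ 2 →
  ∀ (𝒪 : Type) [CommRing 𝒪] [IsDomain 𝒪] [IsDiscreteValuationRing 𝒪]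
    [IsAdicComplete (IsLocalRing.maximalIdeal 𝒪) 𝒪] [Finite (IsLocalRing.ResidueField 𝒪)]
    [CharZero 𝒪] (ρ : GaloisRepAdic 𝒪) (a : ℕ → ℤ) (Sig : Finset ℕ),
    (∀ q ∈ Sig, q.Prime ∧ q ≠ p) →
    ρ.DetIsCyclotomic p →
    (∀ q : ℕ, q.Prime → q ≠ p → q ∉ Sig → ρ.IsUnramifiedAt q) →
    (∀ q ∈ Sig, ρ.IsUnipotentOnInertiaAt q) →
    (ρ.IsFlatAt p ∨ ρ.IsStrictOrdinaryAt p) →
    (∀ ℓ : ℕ, ℓ.Prime → ℓ ≠ p → ℓ ∉ Sig →
      ∀ A : ValuationSubring (AlgebraicClosure ℚ), A.LiesOverPrime ℓ →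
        ∀ σ : AlgebraicClosure ℚ ≃ₐ[ℚ] AlgebraicClosure ℚ, A.IsFrobeniusAt σ ℓ →
          LinearMap.charpoly (ρ.ρ σ) = X ^ 2 - C (((a ℓ : ℤ) : 𝒪)) * X + C ((ℓ : 𝒪))) →
    ρ.residual.IsAbsolutelyIrreducible → TWCond ρ.residual →
    (∀ σ : AlgebraicClosure ℚ ≃ₐ[ℚ] AlgebraicClosure ℚ,
      ∃ α β : IsLocalRing.ResidueField 𝒪,
        LinearMap.charpoly (ρ.residual.ρ σ) = (X - C α) * (X - C β)) →
    ∀ (M₀ : ℕ) [NeZero M₀], Squarefree M₀ →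
    (∀ q : ℕ, q.Prime → q ≠ p → q ∣ M₀ → ¬ ρ.residual.IsUnramifiedAt q) →
    (p ∣ M₀ → ¬ (GaloisRepAdic.ofResidualGaloisRep ρ.residual).IsFlatAt p) →
    ∀ (f₀ : CuspForm (CongruenceSubgroup.Gamma0 M₀) 2) (𝔪 : Ideal (integralClosure ℤ ℂ)),
      f₀.IsNormalizedEigenform → 𝔪.IsMaximal → (p : integralClosure ℤ ℂ) ∈ 𝔪 →
      (∀ ℓ : ℕ, ℓ.Prime → ℓ ∉ Sig → ¬ ℓ ∣ M₀ → ℓ ≠ p →
        ∃ b : integralClosure ℤ ℂ, (b : ℂ) = ModularFormClass.qCoeff f₀ ℓ ∧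
          b - ((a ℓ : ℤ) : integralClosure ℤ ℂ) ∈ 𝔪) →
    ∀ (x₀ : CuspForm.heckeAlgebra M₀ 2 (↑(insert p M₀.primeFactors) : Set ℕ) →+* 𝒪),
      (∀ (ℓ : ℕ) (hℓ : ℓ.Prime) (hℓN : ¬ ℓ ∣ M₀)
          (hℓS : ℓ ∉ (↑(insert p M₀.primeFactors) : Set ℕ)),
        ∀ A : ValuationSubring (AlgebraicClosure ℚ), A.LiesOverPrime ℓ →
          ∀ σ : AlgebraicClosure ℚ ≃ₐ[ℚ] AlgebraicClosure ℚ, A.IsFrobeniusAt σ ℓ →
            LinearMap.charpoly (ρ.residual.ρ σ) =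
              X ^ 2 - C (residue 𝒪 (x₀ (CuspForm.heckeAlgebra.T hℓ hℓN hℓS))) * X +
                C ((ℓ : ResidueField 𝒪))) →
    ∃ N : ℕ, ¬ p ^ 2 ∣ N ∧ (∀ q : ℕ, q.Prime → ¬ q ^ 3 ∣ N) ∧
      ∃ f : CuspForm (CongruenceSubgroup.Gamma0 N) 2, f.IsNormalizedEigenform ∧
        ∀ ℓ : ℕ, ℓ.Prime → ℓ ≠ p → ℓ ∉ Sig → ¬ ℓ ∣ N →
          ModularFormClass.qCoeff f ℓ = (a ℓ : ℂ)

/-- Wiring (W-b), version 2.
[`ρbar := ρ.residual`, `Smin := insert p M₀.primeFactors`, `θ := residue ∘ x₀` (then `FrobHyp` is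
the hypothesis on `x₀`), `fl := (ρbar is flat at p)`, `N := M₀ = minLevel p fl Smin`
(`Stmt_EXACTb`; `Nat.prod_primeFactors_of_squarefree`); `hmin` of `ResHyp`: `⟸` is
`Stmt_THETAMIN` (first part), `⟹` is the hypothesis on `M₀`; `Sig' := Sig ∖ Smin`;
`CaseC.Stmt_MLTgenPt`.] -/
def Stmt_REDWIRE2 : Prop :=
  Stmt_THETAMIN → Stmt_EXACTb → Fermat.Agent.S59.CaseC.Stmt_MLTgenPt → Stmt_MLTredS2

/-- Wiring (W-a), version 2: two finite extensions of the coefficient ring.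
[(1) `H99.exists_split_ext`: `𝒪₁`, all hypotheses transported as in `Asm.H8.stmt_REDSPLIT`;
(2) `Stmt_THETAMIN` over `k₁` with `S := insert p M₀.primeFactors`: `θ₁` with `FrobHyp`;
`T₁ := heckeLocal M₀ S 𝒪₁ θ₁` (`S23.result`), `R.H2.nonempty_algTPoint` at a minimal prime:
`𝒪₂ ⊇ 𝒪₁` finite free local and `ψ : T₁ → 𝒪₂`; `x₀ := ψ ∘ heckeLocal.π`; residues as in
`Datum.H7.exists_ptRep`; transport everything along `𝒪 → 𝒪₂`.] -/
def Stmt_REDSPLIT2 : Prop :=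
  Stmt_THETAMIN → Stmt_MLTredS2 → Stmt_MLTred

end Fermat.Agent.S59.Asm
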