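/-
S59, wiring leaf REDSPLIT2 (helper8): `Stmt_THETAMIN → Stmt_MLTredS2 → Stmt_MLTred`.

Two finite extensions of the coefficient ring:
(1) `H99.exists_split_ext`: the residual characteristic polynomials split over `𝒪₁`;
(2) `Stmt_THETAMIN` over `k₁` gives `θ₁` at level `M₀` away from `S = insert p (primes of M₀)`;
    a point `ψ : heckeLocal M₀ S 𝒪₁ θ₁ → 𝒪₂` at a minimal prime (`R.H2.nonempty_algTPoint`),
    `𝒪₂` finite free over `𝒪₁`; `x₀ := ψ ∘ heckeLocal.π`.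
All the hypotheses are transported along `𝒪 → 𝒪₁ → 𝒪₂` (`RedHyps.baseChange`).
-/
import Fermat.Agent.S59.Asm.Red2
import Fermat.Agent.S59.Asm.H8_RedSplit
import Fermat.Agent.S59.Datum.H85_Ring
import Fermat.Agent.R.H2_SepTc
import Fermat.Agent.S23

set_option autoImplicit false

open Polynomial IsLocalRing CuspForm
open scoped TensorProduct

namespace Fermat.Agent.S59.Asm.H8

open Fermat.Agent.S59 Fermat.Agent.R

/-- The hypotheses of `Stmt_MLTred` which depend on the coefficient ring. -/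
structure RedHyps (p : ℕ) {A : Type} [CommRing A] [IsLocalRing A] (ρ : GaloisRepAdic A)
    (a : ℕ → ℤ) (Sig : Finset ℕ) (M₀ : ℕ) : Prop where
  hdet : ρ.DetIsCyclotomic p
  hunr : ∀ q : ℕ, q.Prime → q ≠ p → q ∉ Sig → ρ.IsUnramifiedAt q
  hunip : ∀ q ∈ Sig, ρ.IsUnipotentOnInertiaAt q
  hloc : ρ.IsFlatAt p ∨ ρ.IsStrictOrdinaryAt p
  hfrob : ∀ ℓ : ℕ, ℓ.Prime → ℓ ≠ p → ℓ ∉ Sig →
      ∀ B : ValuationSubring (AlgebraicClosure ℚ), B.LiesOverPrime ℓ →
        ∀ σ : AlgebraicClosure ℚ ≃ₐ[ℚ] AlgebraicClosure ℚ, B.IsFrobeniusAt σ ℓ →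
          LinearMap.charpoly (ρ.ρ σ) = X ^ 2 - C (((a ℓ : ℤ) : A)) * X + C ((ℓ : A))
  habs : ρ.residual.IsAbsolutelyIrreducible
  hTW : TWCond ρ.residual
  hram : ∀ q : ℕ, q.Prime → q ≠ p → q ∣ M₀ → ¬ ρ.residual.IsUnramifiedAt q
  hnflat : p ∣ M₀ → ¬ (GaloisRepAdic.ofResidualGaloisRep ρ.residual).IsFlatAt p

/-- The residual characteristic polynomials of a base change. -/
theorem charpoly_residual_baseChangeAlong {A B : Type} [CommRing A] [IsLocalRing A]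
    [CommRing B] [IsLocalRing B] (ψ : A →+* B) (hψ : IsLocalHom ψ) (ρ : GaloisRepAdic A)
    (σ : AlgebraicClosure ℚ ≃ₐ[ℚ] AlgebraicClosure ℚ) :
    LinearMap.charpoly ((ρ.baseChangeAlong ψ hψ).residual.ρ σ) =
      (LinearMap.charpoly (ρ.residual.ρ σ)).map (ResidueField.map ψ) := by
  rw [H99.charpoly_residual, H99.charpoly_residual,
    Fermat.Agent.R.H86.baseChangeAlong_charpoly, Polynomial.map_map, Polynomial.map_map]
  congr 1

/-- The hypotheses pass to a finite free local extension of the coefficient ring. -/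
theorem RedHyps.baseChange {p : ℕ} (hp : p.Prime) {A B : Type} [CommRing A] [IsLocalRing A]
    [CommRing B] [IsLocalRing B] [Finite (ResidueField A)] (hres : Finite (ResidueField B))
    (ψ : A →+* B) (hψ : IsLocalHom ψ)
    (hfree : letI := ψ.toAlgebra; Module.Free A B)
    (hfin : letI := ψ.toAlgebra; Module.Finite A B)
    {ρ : GaloisRepAdic A} {a : ℕ → ℤ} {Sig : Finset ℕ} {M₀ : ℕ}
    (h : RedHyps p ρ a Sig M₀) : RedHyps p (ρ.baseChangeAlong ψ hψ) a Sig M₀ := by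
  obtain ⟨j, hj, hjeq⟩ := exists_residual_embedding ψ hψ ρ
  refine
    { hdet := Fermat.Agent.S56.H92.detIsCyclotomic_baseChangeAlong _ hψ ρ p h.hdet
      hunr := fun q hq hqp hqS =>
        Fermat.Agent.S56.H92.isUnramifiedAt_baseChangeAlong _ hψ ρ q (h.hunr q hq hqp hqS)
      hunip := fun q hq =>
        Fermat.Agent.S56.H92.isUnipotentOnInertiaAt_baseChangeAlong _ hψ ρ q (h.hunip q hq)
      hloc := h.hloc.imp
        (fun h' => H99.isFlatAt_baseChangeAlong_of_finite_free ψ hψ hfree hfin hres ρ p hp h')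
        (fun h' => Fermat.Agent.S56.H92.isStrictOrdinaryAt_baseChangeAlong _ hψ ρ p h')
      hfrob := ?_
      habs := Fermat.Agent.R.H86.residual_absIrr_baseChangeAlong _ hψ ρ h.habs
      hTW := H99.twCond_baseChangeAlong _ hψ ρ h.hTW
      hram := ?_
      hnflat := ?_ }
  · intro ℓ hℓ hℓp hℓS B' hB' σ hσ
    rw [Fermat.Agent.R.H86.baseChangeAlong_charpoly, h.hfrob ℓ hℓ hℓp hℓS B' hB' σ hσ]
    simp only [Polynomial.map_add, Polynomial.map_sub, Polynomial.map_mul, Polynomial.map_pow,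
      Polynomial.map_X, map_intCast, map_natCast, Polynomial.map_intCast,
      Polynomial.map_natCast]
  · intro q hq hqp hqM hunr'
    refine h.hram q hq hqp hqM ?_
    intro P hP σ hσ
    have h1 := hunr' P hP σ hσ
    refine LinearMap.ext fun x => hj ?_
    rw [hjeq, h1]
    rfl
  · intro hpM hflat'
    refine h.hnflat hpM ?_
    have h1 := isFlatGaloisModule_of_isFlatAt (ρ.baseChangeAlong ψ hψ).residual p hp hflat'
    have h2 : IsFlatGaloisModule p ρ.residual.V (fun σ => ρ.residual.ρ σ) :=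
      H54.stmt_FlatSub p hp _ _ _ _ j hj hjeq h1
    exact isFlatAt_of_isFlatGaloisModule ρ.residual p hp h2

/-- A ring homomorphism from a discrete valuation ring of residue characteristic `p` to a
domain of characteristic `0` is injective. -/
theorem injective_of_charZero {A R : Type} [CommRing A] [IsDomain A]
    [IsDiscreteValuationRing A] [CommRing R] [IsDomain R] [CharZero R] (ι : A →+* R)
    (p : ℕ) (hp0 : p ≠ 0) (hp : (p : A) ∈ maximalIdeal A) : Function.Injective ι := by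
  rw [injective_iff_map_eq_zero]
  intro a ha
  by_contra ha0
  obtain ⟨ϖ, hϖ⟩ := IsDiscreteValuationRing.exists_irreducible A
  obtain ⟨n, hn⟩ := IsDiscreteValuationRing.associated_pow_irreducible ha0 hϖ
  obtain ⟨u, hu⟩ := hn
  have h1 : ι (ϖ ^ n) = 0 := by
    have h2 : ι (a * (u : A)) = 0 := by rw [map_mul, ha, zero_mul]
    rwa [hu] at h2
  have h3 : ι ϖ = 0 := by
    rw [map_pow] at h1
    exact eq_zero_of_pow_eq_zero h1
  rw [hϖ.maximalIdeal_eq, Ideal.mem_span_singleton'] at hp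
  obtain ⟨c, hc⟩ := hp
  have h4 : ι (p : A) = 0 := by rw [← hc, map_mul, h3, mul_zero]
  rw [map_natCast] at h4
  exact hp0 (Nat.cast_eq_zero.1 h4)

/-- A point of a finite free local algebra `T` over a complete discrete valuation ring `𝒪₁`, with
values in a complete discrete valuation ring which is finite free over `𝒪₁`. -/
theorem exists_point_ext (𝒪₁ : Type) [CommRing 𝒪₁] [IsDomain 𝒪₁] [IsDiscreteValuationRing 𝒪₁]
    [IsAdicComplete (maximalIdeal 𝒪₁) 𝒪₁] [Finite (ResidueField 𝒪₁)] [CharZero 𝒪₁]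
    (p : ℕ) (hp0 : p ≠ 0) (hp : (p : 𝒪₁) ∈ maximalIdeal 𝒪₁)
    (T : Type) [CommRing T] [IsLocalRing T] [Algebra 𝒪₁ T] [Module.Finite 𝒪₁ T]
    [Module.Free 𝒪₁ T] [IsLocalHom (algebraMap 𝒪₁ T)] :
    ∃ (𝒪₂ : Type) (_ : CommRing 𝒪₂) (_ : IsDomain 𝒪₂) (_ : IsDiscreteValuationRing 𝒪₂)
      (_ : IsAdicComplete (maximalIdeal 𝒪₂) 𝒪₂) (_ : Finite (ResidueField 𝒪₂))
      (_ : CharZero 𝒪₂) (ι : 𝒪₁ →+* 𝒪₂) (_ : IsLocalHom ι) (ψ : T →+* 𝒪₂)
      (_ : IsLocalHom ψ),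
      (letI := ι.toAlgebra; Module.Free 𝒪₁ 𝒪₂) ∧ (letI := ι.toAlgebra; Module.Finite 𝒪₁ 𝒪₂) ∧
        ∀ a : 𝒪₁, ψ (algebraMap 𝒪₁ T a) = ι a := by
  obtain ⟨𝔮, h𝔮, -⟩ := Ideal.exists_minimalPrimes_le (I := (⊥ : Ideal T))
    (J := maximalIdeal T) bot_le
  obtain ⟨D⟩ := H2.nonempty_algTPoint 𝒪₁ T 𝔮 h𝔮
  have halg : (algebraMap 𝒪₁ D.R).toAlgebra = D.instAlgebra :=
    Algebra.algebra_ext _ _ (fun r => rfl)
  have hloc : IsLocalHom (algebraMap 𝒪₁ D.R) := by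
    constructor
    intro a ha
    rw [← D.hψO a] at ha
    have h1 := D.isLocalHom.map_nonunit _ ha
    exact isUnit_of_map_unit (algebraMap 𝒪₁ T) a h1
  have hinj : Function.Injective (algebraMap 𝒪₁ D.R) :=
    injective_of_charZero (algebraMap 𝒪₁ D.R) p hp0 hp
  have htf : Module.IsTorsionFree 𝒪₁ D.R :=
    Module.isTorsionFree_iff_algebraMap_injective.mpr hinj
  have hfree : Module.Free 𝒪₁ D.R := Module.free_of_finite_type_torsion_free'
  refine ⟨D.R, D.instCommRing, D.instIsDomain, D.instDVR, D.instComplete, D.instFiniteResidue,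
    D.instCharZero, algebraMap 𝒪₁ D.R, hloc, D.ψ, D.isLocalHom, ?_, ?_, D.hψO⟩
  · exact halg ▸ hfree
  · exact halg ▸ D.instFinite

/-- **REDSPLIT2**. -/
theorem stmt_REDSPLIT2 : Stmt_REDSPLIT2 := by
  intro hTH hS2 p hpF hp2 𝒪 _ _ _ _ _ _ ρ a Sig hSig hdet hunr hunip hloc hfrob habs hTW _ M₀ hM₀
    hsqf hram hnflat f₀ 𝔪 hf₀ h𝔪 hp𝔪 hcong
  have hp : p.Prime := hpF.out
  have hNZ : NeZero M₀ := ⟨hM₀⟩
  have H0 : RedHyps p ρ a Sig M₀ := ⟨hdet, hunr, hunip, hloc, hfrob, habs, hTW, hram, hnflat⟩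
  -- the first extension: the residual characteristic polynomials split
  obtain ⟨𝒪₁, i1, i2, i3, i4, i5, i6, i7, i8, hfree, i9, hquad⟩ := H99.exists_split_ext 𝒪
  have halg : (algebraMap 𝒪 𝒪₁).toAlgebra = i7 := Algebra.algebra_ext _ _ (fun r => rfl)
  have H1 : RedHyps p (ρ.baseChangeAlong (algebraMap 𝒪 𝒪₁) i9) a Sig M₀ :=
    H0.baseChange hp i5 (algebraMap 𝒪 𝒪₁) i9 (halg ▸ hfree) (halg ▸ i8)
  have hsplit₁ : ∀ σ : AlgebraicClosure ℚ ≃ₐ[ℚ] AlgebraicClosure ℚ,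
      ∃ α β : ResidueField 𝒪₁,
        LinearMap.charpoly ((ρ.baseChangeAlong (algebraMap 𝒪 𝒪₁) i9).residual.ρ σ) =
          (X - C α) * (X - C β) := by
    intro σ
    have hm : (LinearMap.charpoly (ρ.residual.ρ σ)).Monic := LinearMap.charpoly_monic _
    have hd : (LinearMap.charpoly (ρ.residual.ρ σ)).natDegree = 2 := by
      rw [LinearMap.charpoly_natDegree, ρ.residual.finrank_eq]
    obtain ⟨α, β, hαβ⟩ := hquad _ hm hd
    exact ⟨α, β, by rw [charpoly_residual_baseChangeAlong, hαβ]⟩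
  have hp𝒪₁ : (p : 𝒪₁) ∈ maximalIdeal 𝒪₁ := H1.hdet.1
  have hchar : CharP (ResidueField 𝒪₁) p := by
    refine (CharP.charP_iff_prime_eq_zero hp).2 ?_
    have h := (residue_eq_zero_iff (p : 𝒪₁)).2 hp𝒪₁
    rwa [map_natCast] at h
  -- THETAMIN over the residue field of `𝒪₁`
  have hfrobbar : ∀ ℓ : ℕ, ℓ.Prime → ℓ ∉ Sig → ℓ ≠ p →
      ∀ A : ValuationSubring (AlgebraicClosure ℚ), A.LiesOverPrime ℓ →
        ∀ σ : AlgebraicClosure ℚ ≃ₐ[ℚ] AlgebraicClosure ℚ, A.IsFrobeniusAt σ ℓ →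
          LinearMap.charpoly ((ρ.baseChangeAlong (algebraMap 𝒪 𝒪₁) i9).residual.ρ σ) =
            X ^ 2 - C (((a ℓ : ℤ) : ResidueField 𝒪₁)) * X + C ((ℓ : ResidueField 𝒪₁)) := by
    intro ℓ hℓ hℓS hℓp A hA σ hσ
    rw [H99.charpoly_residual, H1.hfrob ℓ hℓ hℓp hℓS A hA σ hσ, Polynomial.map_add,
      Polynomial.map_sub, Polynomial.map_mul, Polynomial.map_pow, Polynomial.map_X,
      Polynomial.map_C, Polynomial.map_C, map_intCast, map_natCast]
  obtain ⟨-, hθ⟩ := hTH p hp2 (ResidueField 𝒪₁)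
    (ρ.baseChangeAlong (algebraMap 𝒪 𝒪₁) i9).residual H1.habs M₀ f₀ 𝔪 hf₀ h𝔪 hp𝔪 a Sig hcong
    hfrobbar
  have hpS : p ∈ insert p M₀.primeFactors := Finset.mem_insert_self _ _
  have hMS : ∀ q : ℕ, q.Prime → q ∣ M₀ → q ∈ insert p M₀.primeFactors := fun q hq hqM =>
    Finset.mem_insert_of_mem (Nat.mem_primeFactors.2 ⟨hq, hqM, hM₀⟩)
  obtain ⟨θ₁, hθF⟩ := hθ (insert p M₀.primeFactors) hpS hMS
  -- the second extension: a point of the local Hecke ring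
  have : Fact (CuspForm.HasIntegralStructure M₀ 2) := ⟨Fermat.Agent.S23.result M₀⟩
  obtain ⟨𝒪₂, j1, j2, j3, j4, j5, j6, ι, hι, ψ, hψ, hfree₂, hfin₂, hψι⟩ :=
    exists_point_ext 𝒪₁ p hp.ne_zero hp𝒪₁
      (CuspForm.heckeLocal M₀ (↑(insert p M₀.primeFactors) : Set ℕ) 𝒪₁ θ₁)
  have H2 : RedHyps p ((ρ.baseChangeAlong (algebraMap 𝒪 𝒪₁) i9).baseChangeAlong ι hι) a Sig M₀ :=
    H1.baseChange hp j5 ι hι hfree₂ hfin₂
  have key : ∀ t : CuspForm.heckeAlgebra M₀ 2 (↑(insert p M₀.primeFactors) : Set ℕ),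
      residue 𝒪₂ (ψ (CuspForm.heckeLocal.π M₀ (↑(insert p M₀.primeFactors) : Set ℕ) 𝒪₁ θ₁ t)) =
        ResidueField.map ι (θ₁ t) := by
    intro t
    have h1 := (Fermat.Agent.S59.Datum.H85.stmt_Ring 𝒪₁ M₀
      (↑(insert p M₀.primeFactors) : Set ℕ) θ₁).1 t
    obtain ⟨y, hy⟩ := residue_surjective (θ₁ t)
    rw [← hy, ResidueField.map_residue] at h1
    rw [← ResidueField.map_residue ψ, h1, ResidueField.map_residue, hψι, ← hy,
      ResidueField.map_residue]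
  refine hS2 p hp2 𝒪₂ ((ρ.baseChangeAlong (algebraMap 𝒪 𝒪₁) i9).baseChangeAlong ι hι) a Sig hSig
    H2.hdet H2.hunr H2.hunip H2.hloc H2.hfrob H2.habs H2.hTW ?_ M₀ hsqf H2.hram H2.hnflat f₀ 𝔪
    hf₀ h𝔪 hp𝔪 hcong
    (ψ.comp (CuspForm.heckeLocal.π M₀ (↑(insert p M₀.primeFactors) : Set ℕ) 𝒪₁ θ₁)) ?_
  · intro σ
    obtain ⟨α, β, hαβ⟩ := hsplit₁ σ
    refine ⟨ResidueField.map ι α, ResidueField.map ι β, ?_⟩
    rw [charpoly_residual_baseChangeAlong, hαβ, Polynomial.map_mul, Polynomial.map_sub,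
      Polynomial.map_sub, Polynomial.map_X, Polynomial.map_C, Polynomial.map_C]
  · intro ℓ hℓ hℓN hℓS A hA σ hσ
    rw [charpoly_residual_baseChangeAlong, hθF ℓ hℓ hℓN hℓS A hA σ hσ, RingHom.comp_apply, key,
      Polynomial.map_add, Polynomial.map_sub, Polynomial.map_mul, Polynomial.map_pow,
      Polynomial.map_X, Polynomial.map_C, Polynomial.map_C, map_natCast]

end Fermat.Agent.S59.Asm.H8
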