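import Fermat.Agent.S59.Asm.Red
import Fermat.Agent.S29.H33_Core
import Fermat.Agent.S59.Datum.H57_ResEq
import Fermat.Agent.S58.H99_Gram
import Fermat.Agent.Lib.FrobExists
import Fermat.Agent.R.H99_EigenChar
import Fermat.Agent.S59.H99_Theta

/-!
# S59, leaf THETA-MIN (helper92): core (from the statement of S29)

`stmt_THETAMIN_of : S29.H33.Stmt_S29 → Stmt_THETAMIN`: let `ρbar` be an absolutely irreducible residual representation
over a finite field `k` of characteristic `p` whose Frobenius characteristic polynomials outside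
`Sig ∪ {p}` are `X² - a_ℓ X + ℓ`, and `f₀` a normalised eigenform of level `M₀` with
`a_ℓ(f₀) ≡ a_ℓ mod 𝔪` outside `Sig ∪ primes(M₀ p)`.  Then `ρbar` is unramified outside `M₀ p` and,
for every finite `S ⊇ primes(M₀) ∪ {p}`, the residual eigencharacter of `f₀` away from `S` has
values in `k` and gives the Frobenius characteristic polynomials of `ρbar` outside `S`.

Proof.  `Ω := AlgebraicClosure k`, `r : ℤ̄ → Ω` killing `𝔪` (`exists_res_map`); S29 gives `ρ_f`
over `Ω` attached to `f₀` along `r`, unramified outside `M₀ p`.  `ρ_f` and `ρbar ⊗ Ω` have the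
same Frobenius characteristic polynomials outside `Sig ∪ primes(M₀ p)`, hence everywhere
(`Datum.H57.charpoly_eq_of_frob`), and they are equivalent (`Datum.H57.isEquiv_of_charpoly_eq`;
`ρbar ⊗ Ω` is absolutely irreducible by the Gram criterion).  Unramifiedness descends from
`Ω ⊗ V` to `V`; `r ∘ eigenChar` maps the generators `T_ℓ` to `tr ρbar(Frob_ℓ) ∈ k`.
-/

set_option autoImplicit false
set_option linter.unusedSectionVars false
set_option linter.style.haveILetI false
set_option linter.unusedVariables false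

open Polynomial CuspForm CongruenceSubgroup ModularFormClass IsLocalRing
open scoped TensorProduct

namespace Fermat.Agent.S59.Asm.H92

open Fermat.Agent.S59 Fermat.Agent.S59.Datum

section BaseChange

variable {k : Type} [Field k] (Ω : Type) [Field Ω] [Algebra k Ω]

/-- The characteristic polynomials of a base change. -/
theorem charpoly_baseChange_ρ (ρbar : ResidualGaloisRep k) (σ : GalQ) :
    LinearMap.charpoly ((ρbar.baseChange Ω).ρ σ) =
      (LinearMap.charpoly (ρbar.ρ σ)).map (algebraMap k Ω) :=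
  LinearMap.charpoly_baseChange (ρbar.ρ σ) Ω

/-- A base change of an absolutely irreducible residual representation is absolutely
irreducible (Gram criterion). -/
theorem isAbsolutelyIrreducible_baseChange (ρbar : ResidualGaloisRep k)
    (habs : ρbar.IsAbsolutelyIrreducible) : (ρbar.baseChange Ω).IsAbsolutelyIrreducible := by
  classical
  let b : Module.Basis (Fin 2) k ρbar.V := Module.finBasisOfFinrankEq k ρbar.V ρbar.finrank_eq
  obtain ⟨g, hg⟩ := Fermat.Agent.S53.Schur.exists_det_ne_zero ρbar habs b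
  have hgram : (Matrix.of fun p q => LinearMap.trace k ρbar.V (ρbar.ρ (g p * g q))).det ≠ 0 := by
    rw [Fermat.Agent.S58.H99.gram_trace_eq ρbar.ρ b g]
    exact Fermat.Agent.S58.H99.det_gramMat_ne_zero _ hg
  apply Fermat.Agent.S58.H99.isAbsolutelyIrreducible_of_gram (ρbar.baseChange Ω) g
  have hmap : (Matrix.of fun p q => LinearMap.trace Ω (ρbar.baseChange Ω).V
        ((ρbar.baseChange Ω).ρ (g p * g q))) =
      (Matrix.of fun p q => LinearMap.trace k ρbar.V (ρbar.ρ (g p * g q))).map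
        (algebraMap k Ω) := by
    ext p q
    simp only [Matrix.of_apply, Matrix.map_apply]
    exact LinearMap.trace_baseChange (ρbar.ρ (g p * g q)) Ω
  rw [hmap, ← RingHom.mapMatrix_apply, ← RingHom.map_det]
  exact fun h => hgram ((map_eq_zero (algebraMap k Ω)).mp h)

/-- Unramifiedness descends along a base change. -/
theorem isUnramifiedAt_of_baseChange (ρbar : ResidualGaloisRep k) (q : ℕ)
    (h : (ρbar.baseChange Ω).IsUnramifiedAt q) : ρbar.IsUnramifiedAt q := by
  intro A hA σ hσ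
  have h1 : (ρbar.ρ σ).baseChange Ω = (1 : Module.End k ρbar.V).baseChange Ω := by
    rw [LinearMap.baseChange_one]
    exact h A hA σ hσ
  exact LinearMap.baseChangeHom_injective (R := k) (S := Ω) (M := ρbar.V) (N := ρbar.V) h1

/-- Unramifiedness is invariant under equivalence. -/
theorem isUnramifiedAt_of_equiv {ρ₁ ρ₂ : ResidualGaloisRep Ω} (e : ResidualGaloisRep.Equiv ρ₁ ρ₂)
    (q : ℕ) (h : ρ₁.IsUnramifiedAt q) : ρ₂.IsUnramifiedAt q := by
  intro A hA σ hσ
  apply LinearMap.ext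
  intro y
  have h1 := e.map_apply σ (e.toLinearEquiv.symm y)
  rw [h A hA σ hσ, Module.End.one_apply, LinearEquiv.apply_symm_apply] at h1
  rw [Module.End.one_apply]
  exact h1.symm

end BaseChange

/-- A ring homomorphism `ℤ̄ → Ω` killing `𝔪` (`Ω` algebraically closed of characteristic `p`). -/
theorem exists_res_map (p : ℕ) [hpF : Fact p.Prime] (Ω : Type) [Field Ω] [IsAlgClosed Ω]
    [CharP Ω p] (𝔪 : Ideal (integralClosure ℤ ℂ)) (h𝔪 : 𝔪.IsMaximal)
    (hp : (p : integralClosure ℤ ℂ) ∈ 𝔪) :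
    ∃ r : integralClosure ℤ ℂ →+* Ω, ∀ x ∈ 𝔪, r x = 0 := by
  haveI := h𝔪
  letI : Field (integralClosure ℤ ℂ ⧸ 𝔪) := Ideal.Quotient.field 𝔪
  haveI hchar : CharP (integralClosure ℤ ℂ ⧸ 𝔪) p :=
    Fermat.Agent.S59.H99.charP_quotient p 𝔪 h𝔪.ne_top hp
  letI : Algebra (ZMod p) (integralClosure ℤ ℂ ⧸ 𝔪) := ZMod.algebra _ p
  letI : Algebra (ZMod p) Ω := ZMod.algebra _ p
  haveI : Algebra.IsAlgebraic (ZMod p) (integralClosure ℤ ℂ ⧸ 𝔪) := by
    haveI : Algebra.IsIntegral ℤ (integralClosure ℤ ℂ ⧸ 𝔪) := by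
      constructor
      intro x
      obtain ⟨y, rfl⟩ := Ideal.Quotient.mk_surjective x
      exact (Algebra.IsIntegral.isIntegral (R := ℤ) y).map (Ideal.Quotient.mkₐ ℤ 𝔪)
    constructor
    intro x
    exact ((Algebra.IsIntegral.isIntegral (R := ℤ) x).tower_top (A := ZMod p)).isAlgebraic
  haveI ht1 : Module.IsTorsionFree (ZMod p) (integralClosure ℤ ℂ ⧸ 𝔪) :=
    DivisionSemiring.to_moduleIsTorsionFree
  haveI ht2 : Module.IsTorsionFree (ZMod p) Ω := DivisionSemiring.to_moduleIsTorsionFree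
  let j : (integralClosure ℤ ℂ ⧸ 𝔪) →ₐ[ZMod p] Ω := IsAlgClosed.lift
  refine ⟨j.toRingHom.comp (Ideal.Quotient.mk 𝔪), fun x hx => ?_⟩
  rw [RingHom.comp_apply, Ideal.Quotient.eq_zero_iff_mem.mpr hx, map_zero]

section Poly

variable {k : Type} [Field k] {Ω : Type} [Field Ω] [Algebra k Ω]

/-- The shape of the image of a Frobenius polynomial. -/
theorem map_frobPoly (t : k) (ℓ : ℕ) :
    (X ^ 2 - C t * X + C ((ℓ : k)) : k[X]).map (algebraMap k Ω) =
      X ^ 2 - C (algebraMap k Ω t) * X + C ((ℓ : Ω)) := by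
  rw [Polynomial.map_add, Polynomial.map_sub, Polynomial.map_mul, Polynomial.map_pow,
    Polynomial.map_X, Polynomial.map_C, Polynomial.map_C, map_natCast]

/-- The linear coefficient of a Frobenius polynomial. -/
theorem coeff_one_frobPoly {R : Type} [CommRing R] (t d : R) :
    (X ^ 2 - C t * X + C d : R[X]).coeff 1 = - t := by
  simp [Polynomial.coeff_X_pow, Polynomial.coeff_C]

end Poly

/-- **THETA-MIN**, from the statement of S29. -/
theorem stmt_THETAMIN_of (hS29 : Fermat.Agent.S29.H33.Stmt_S29) : Stmt_THETAMIN := by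
  intro p hpF hp2 k _ _ _ ρbar habs M₀ _ f₀ 𝔪 hf₀ h𝔪 hp𝔪 a Sig hcong hfrob
  classical
  have hp : p.Prime := hpF.out
  haveI hcharΩ : CharP (AlgebraicClosure k) p :=
    charP_of_injective_algebraMap (algebraMap k (AlgebraicClosure k)).injective p
  obtain ⟨r, hr⟩ := exists_res_map p (AlgebraicClosure k) 𝔪 h𝔪 hp𝔪
  obtain ⟨ρf, hatt, hunr⟩ := hS29 hf₀ hp r
  have hℓΩ : ∀ ℓ : ℕ, ℓ.Prime → ℓ ≠ p → ((ℓ : ℕ) : AlgebraicClosure k) ≠ 0 := by
    intro ℓ hℓ hℓp h0
    have hdvd : p ∣ ℓ := (CharP.cast_eq_zero_iff (AlgebraicClosure k) p ℓ).mp h0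
    exact hℓp ((Nat.prime_dvd_prime_iff_eq hp hℓ).mp hdvd).symm
  have hM₀ : M₀ ≠ 0 := NeZero.ne M₀
  -- the Frobenius characteristic polynomials outside `Sig ∪ primes(M₀ p)`
  have hcp₀ : ∀ ℓ : ℕ, ℓ.Prime → ℓ ∉ Sig ∪ M₀.primeFactors ∪ {p} →
      ∀ B : ValuationSubring (AlgebraicClosure ℚ), B.LiesOverPrime ℓ →
      ∀ σ : GalQ, B.IsFrobeniusAt σ ℓ →
        LinearMap.charpoly (ρf.ρ σ) =
          LinearMap.charpoly ((ρbar.baseChange (AlgebraicClosure k)).ρ σ) := by
    intro ℓ hℓ hℓS B hB σ hσ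
    rw [Finset.mem_union, Finset.mem_union, Finset.mem_singleton, not_or, not_or] at hℓS
    obtain ⟨⟨hℓSig, hℓM'⟩, hℓp⟩ := hℓS
    have hℓM : ¬ ℓ ∣ M₀ := fun hdvd => hℓM' (Nat.mem_primeFactors.mpr ⟨hℓ, hdvd, hM₀⟩)
    obtain ⟨a', ha', hcp⟩ := hatt ℓ hℓ hℓM (hℓΩ ℓ hℓ hℓp) B hB σ hσ
    obtain ⟨b, hb, hba⟩ := hcong ℓ hℓ hℓSig hℓM hℓp
    have hab : a' = b := Subtype.ext (ha'.trans hb.symm)
    have hrb : r a' = algebraMap k (AlgebraicClosure k) ((a ℓ : ℤ) : k) := by
      rw [hab, map_intCast]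
      have h1 := hr _ hba
      rw [map_sub, sub_eq_zero, map_intCast] at h1
      exact h1
    rw [hcp, charpoly_baseChange_ρ, hfrob ℓ hℓ hℓSig hℓp B hB σ hσ, map_frobPoly, hrb]
  have hcp : ∀ g : GalQ, LinearMap.charpoly (ρf.ρ g) =
      LinearMap.charpoly ((ρbar.baseChange (AlgebraicClosure k)).ρ g) :=
    Fermat.Agent.S59.Datum.H57.charpoly_eq_of_frob ρf (ρbar.baseChange (AlgebraicClosure k))
      (Sig ∪ M₀.primeFactors ∪ {p}) hcp₀
  have hirrΩ := isAbsolutelyIrreducible_baseChange (AlgebraicClosure k) ρbar habs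
  obtain ⟨e⟩ := Fermat.Agent.S59.Datum.H57.isEquiv_of_charpoly_eq ρf
    (ρbar.baseChange (AlgebraicClosure k)) hirrΩ hcp
  refine ⟨?_, ?_⟩
  · -- `ρbar` is unramified outside `M₀ p`
    intro q hq hqM hqp
    apply isUnramifiedAt_of_baseChange (AlgebraicClosure k) ρbar q
    apply isUnramifiedAt_of_equiv (AlgebraicClosure k) e q
    apply hunr q hq
    intro hdvd
    rcases (Nat.Prime.dvd_mul hq).mp hdvd with h | h
    · exact hqM h
    · exact hqp ((Nat.prime_dvd_prime_iff_eq hq hp).mp h)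
  · -- the eigencharacter
    intro S hpS hS
    let ι : k →+* AlgebraicClosure k := algebraMap k (AlgebraicClosure k)
    have hιinj : Function.Injective ι := ι.injective
    let ψ : heckeAlgebra M₀ 2 (↑S : Set ℕ) →+* AlgebraicClosure k :=
      r.comp (Fermat.Agent.R.H99.eigenChar (↑S : Set ℕ) hf₀)
    -- the value of `ψ` at `T_ℓ` in terms of any Frobenius at `ℓ`
    have hψT : ∀ (ℓ : ℕ) (hℓ : ℓ.Prime) (hℓN : ¬ ℓ ∣ M₀) (hℓS : ℓ ∉ (↑S : Set ℕ)),
        ∀ B : ValuationSubring (AlgebraicClosure ℚ), B.LiesOverPrime ℓ →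
        ∀ σ : GalQ, B.IsFrobeniusAt σ ℓ →
          (LinearMap.charpoly (ρbar.ρ σ)).map ι =
            X ^ 2 - C (ψ (heckeAlgebra.T hℓ hℓN hℓS)) * X + C ((ℓ : AlgebraicClosure k)) := by
      intro ℓ hℓ hℓN hℓS B hB σ hσ
      have hℓp : ℓ ≠ p := fun h => hℓS (h ▸ Finset.mem_coe.mpr hpS)
      obtain ⟨a', ha', hcp'⟩ := hatt ℓ hℓ hℓN (hℓΩ ℓ hℓ hℓp) B hB σ hσ
      have hT : Fermat.Agent.R.H99.eigenChar (↑S : Set ℕ) hf₀ (heckeAlgebra.T hℓ hℓN hℓS) = a' := by
        apply Subtype.ext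
        rw [Fermat.Agent.R.H99.coe_eigenChar, Fermat.Agent.R.H99.eigenCharC_T, ha']
      have h1 : ψ (heckeAlgebra.T hℓ hℓN hℓS) = r a' := by
        show r (Fermat.Agent.R.H99.eigenChar (↑S : Set ℕ) hf₀ (heckeAlgebra.T hℓ hℓN hℓS)) = r a'
        rw [hT]
      rw [h1, ← hcp', hcp σ, charpoly_baseChange_ρ]
    -- the values of `ψ` lie in `k`
    have hrange : ∀ T : heckeAlgebra M₀ 2 (↑S : Set ℕ), ψ T ∈ ι.range := by
      rintro ⟨T, hT⟩
      induction hT using Algebra.adjoin_induction with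
      | mem x hx =>
        rcases hx with ⟨ℓ, hℓ, hℓN, hℓS, rfl⟩ | ⟨q, hqN, hq, hqS, rfl⟩
        · obtain ⟨B, σ, hB, hσ⟩ := Fermat.Agent.Lib.FrobExists.exists_place_and_frobenius ℓ hℓ
          have h1 := hψT ℓ hℓ hℓN hℓS B hB σ hσ
          have h2 := congrArg (fun P => P.coeff 1) h1
          simp only [Polynomial.coeff_map] at h2
          rw [coeff_one_frobPoly] at h2
          refine ⟨- (LinearMap.charpoly (ρbar.ρ σ)).coeff 1, ?_⟩
          rw [map_neg, h2, neg_neg]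
          rfl
        · exact absurd (Finset.mem_coe.mpr (hS q hq hqN)) hqS
      | algebraMap c =>
        refine ⟨(c : k), ?_⟩
        rw [map_intCast]
        have : (⟨algebraMap ℤ _ c, Subalgebra.algebraMap_mem _ c⟩ :
            heckeAlgebra M₀ 2 (↑S : Set ℕ)) = ((c : ℤ) : heckeAlgebra M₀ 2 (↑S : Set ℕ)) := by
          apply Subtype.ext
          simp
        rw [this, map_intCast]
      | add x y hx hy ihx ihy =>
        have : (⟨x + y, Subalgebra.add_mem _ hx hy⟩ : heckeAlgebra M₀ 2 (↑S : Set ℕ)) =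
            (⟨x, hx⟩ : heckeAlgebra M₀ 2 (↑S : Set ℕ)) + ⟨y, hy⟩ := rfl
        rw [this, map_add]
        exact ι.range.add_mem ihx ihy
      | mul x y hx hy ihx ihy =>
        have : (⟨x * y, Subalgebra.mul_mem _ hx hy⟩ : heckeAlgebra M₀ 2 (↑S : Set ℕ)) =
            (⟨x, hx⟩ : heckeAlgebra M₀ 2 (↑S : Set ℕ)) * ⟨y, hy⟩ := rfl
        rw [this, map_mul]
        exact ι.range.mul_mem ihx ihy
    let e' : k ≃+* ι.range := RingEquiv.ofBijective ι.rangeRestrict
      ⟨fun x y hxy => hιinj (congrArg Subtype.val hxy), ι.rangeRestrict_surjective⟩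
    let θ : heckeAlgebra M₀ 2 (↑S : Set ℕ) →+* k :=
      (e'.symm : ι.range →+* k).comp (ψ.codRestrict ι.range hrange)
    have hθ : ∀ T, ι (θ T) = ψ T := by
      intro T
      have h1 : e' (θ T) = ψ.codRestrict ι.range hrange T := by
        simp only [θ, RingHom.comp_apply, RingHom.coe_coe, RingEquiv.apply_symm_apply]
      exact congrArg Subtype.val h1
    refine ⟨θ, ?_⟩
    intro ℓ hℓ hℓN hℓS B hB σ hσ
    apply Polynomial.map_injective ι hιinj
    rw [hψT ℓ hℓ hℓN hℓS B hB σ hσ, ← hθ]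
    exact (map_frobPoly (Ω := AlgebraicClosure k) _ ℓ).symm

end Fermat.Agent.S59.Asm.H92
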