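import Mathlib
import Fermat.Agent.NEB.Defs

/-!
# S59, package ASM (helper53): leaves, third round — `UnrCond` at Taylor–Wiles families

`Stmt_UNRCOND`: for Taylor–Wiles primes `q_j ≡ 1 mod p^(n+1)` and a subgroup `H` of
`(ℤ/c)ˣ`, `c = ∏ q_j`, containing all `p^n`-th powers, the covering `X_H(M) → X₀(M)` is
unramified (`NEB.UnrCond`), for EVERY odd prime `p` — also for `p = 3`, without an auxiliary
prime: an element of order `3` of the cyclic group `(ℤ/q)ˣ`, `3^(n+1) ∣ q - 1`, is a `3^n`-th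
power.
-/

set_option autoImplicit false

namespace Fermat.Agent.S59.Asm

/-- **UNRCOND**.
[`γ ∈ Γ₀(M)` of finite order: `γ ^ 12 = 1` (trace `t ∈ {0, ±1}`: `γ² - tγ + 1 = 0`; trace `±2`:
`γ = ±1`), so `a := a_γ mod c` satisfies `a ^ 12 = 1`.  `p ≥ 5`: `a = (a ^ e) ^ (p ^ n)` with
`e p^n ≡ 1 mod 12`.  `p = 3`: `a = a₂ a₃`, `a₂ ^ 4 = 1`, `a₃ ^ 3 = 1`; `a₂` is a `3^n`-th power as
before and `a₃` is one in every factor `(ℤ/q_j)ˣ` (cyclic of order divisible by `3^(n+1)`), hence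
in `(ℤ/c)ˣ` (Chinese remainder theorem).  `γ` parabolic (`(a + d)² = 4`): `a d ≡ 1`, so
`(a - d)² ≡ 0 mod c`, `c` squarefree and odd, hence `a ≡ d ≡ ±1 mod c`.] -/
def Stmt_UNRCOND : Prop :=
  ∀ (p n : ℕ), p.Prime → p ≠ 2 →
  ∀ (r : ℕ) (qv : Fin r → ℕ), Function.Injective qv →
    (∀ j, (qv j).Prime ∧ p ^ (n + 1) ∣ qv j - 1) →
  ∀ (M : ℕ), (∏ j, qv j) ∣ M →
  ∀ H : Subgroup (ZMod (∏ j, qv j))ˣ, (∀ x : (ZMod (∏ j, qv j))ˣ, x ^ (p ^ n) ∈ H) →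
    Fermat.Agent.NEB.UnrCond M (∏ j, qv j) H

end Fermat.Agent.S59.Asm
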