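import Mathlib

/-!
# S59, RT-NONMIN (helper53 for helper85's package): the algebraic core of SELMER-q

`c_q = (q - 1) (a_q² - (q + 1)²)` bounds the growth of the cotangent space when ramification at
`q` is allowed:  the universal lift modulo `𝔭'²` restricted to the tame inertia generator `t` is
`1 + X`, `X` traceless with entries in `Φ' = 𝔭'/𝔭'²`, and `F X = q X F` (`F = ρ_x(Frob_q)`,
`φ t φ⁻¹ = t^q`).

* `Stmt_SELqALG` : entries of a vector killed by a square matrix `A` over a discrete valuation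
                   ring span a module of cardinality at most `#(𝒪/det A)`.
* `Stmt_SELqAD`  : the determinant of `X ↦ F X adj(F) - q² X` on traceless `2 × 2` matrices is
                   `q³ (q - 1) (tr(F)² - (q + 1)²)` when `det F = q`.
-/

set_option autoImplicit false

namespace Fermat.Agent.S59.Asm

/-- **SELq-ALG**.  [The map `𝒪ⁿ → Φ`, `e_j ↦ X j`, kills the rows of `A`; so its range is a
quotient of `𝒪ⁿ / rows(A)`, of cardinality `#(𝒪/det A)` (`NumCrit` CARD':
`card_quotient_span_rows`).] -/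
def Stmt_SELqALG : Prop :=
  ∀ (𝒪 : Type) [CommRing 𝒪] [IsDomain 𝒪] [IsDiscreteValuationRing 𝒪]
    [Finite (IsLocalRing.ResidueField 𝒪)] (n : ℕ) (A : Matrix (Fin n) (Fin n) 𝒪), A.det ≠ 0 →
  ∀ (Φ : Type) [AddCommGroup Φ] [Module 𝒪 Φ] (X : Fin n → Φ),
    (∀ i, ∑ j, A i j • X j = 0) →
    Finite (Submodule.span 𝒪 (Set.range X)) ∧
      Nat.card (Submodule.span 𝒪 (Set.range X)) ≤ Nat.card (𝒪 ⧸ Ideal.span {A.det})

/-- The traceless matrix with coordinates `(y, z, m)`: `!![m, y; z, -m]`. -/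
def tl {R : Type} [CommRing R] (v : Fin 3 → R) : Matrix (Fin 2) (Fin 2) R :=
  !![v 2, v 0; v 1, -v 2]

/-- **SELq-AD**: there is a `3 × 3` matrix `A` (the matrix of `X ↦ F X adj(F) - q² X` on traceless
matrices in the coordinates `tl`) with `F · tl v · adj F - q² • tl v = tl (A v)` and
`det A = q³ (q - 1) (tr(F)² - (q + 1)²)`, for every `F` with `det F = q`. -/
def Stmt_SELqAD : Prop :=
  ∀ (R : Type) [CommRing R] (F : Matrix (Fin 2) (Fin 2) R) (q : R), F.det = q →
    ∃ A : Matrix (Fin 3) (Fin 3) R,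
      (∀ v : Fin 3 → R, F * tl v * F.adjugate - q ^ 2 • tl v = tl (A.mulVec v)) ∧
      A.det = q ^ 3 * (q - 1) * (F.trace ^ 2 - (q + 1) ^ 2)

end Fermat.Agent.S59.Asm
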